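import Mathlib
import Fermat.Prelude.Def_ModularCurve_LaurentCoeff

/-!
# S20, piece L.indep: linear independence survives coefficientwise base change

If `K → L` is a homomorphism of fields and `v i : J → K` (resp. Laurent / power series over `K`)
is a `K`-linearly independent family, then the family obtained by applying `K → L`
coefficientwise is `L`-linearly independent.
-/

set_option autoImplicit false

namespace Fermat.Agent.S20.LinIndepBaseChange

open Module

variable {K L : Type*} [Field K] [Field L] [Algebra K L]

/-- Key step: a `L`-linear relation among coefficientwise images gives, for every `K`-linear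
functional `π : L → K` and every scalar `μ : L`, a `K`-linear relation among the originals. -/
theorem coords {ι J : Type*} (v : ι → J → K) (hv : LinearIndependent K v) :
    LinearIndependent L (fun i => fun j => algebraMap K L (v i j)) := by
  classical
  rw [linearIndependent_iff']
  intro s c hc i hi
  by_contra hci
  -- a `K`-linear functional on `L` which is `1` at `1`
  obtain ⟨π, hπ⟩ : ∃ π : L →ₗ[K] K, π 1 = 1 := by
    obtain ⟨g, hg⟩ := LinearMap.exists_leftInverse_of_injective (Algebra.linearMap K L)
      (LinearMap.ker_eq_bot.mpr (algebraMap K L).injective)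
    refine ⟨g, ?_⟩
    have := congrArg (fun f : K →ₗ[K] K => f 1) hg
    simpa using this
  rw [linearIndependent_iff'] at hv
  -- scale the relation by `(c i)⁻¹` and apply `π`
  have hrel : ∑ k ∈ s, (π ((c i)⁻¹ * c k)) • v k = 0 := by
    funext j
    have hj := congrFun hc j
    simp only [Finset.sum_apply, Pi.smul_apply, smul_eq_mul, Pi.zero_apply] at hj ⊢
    have h2 : ∑ k ∈ s, ((c i)⁻¹ * c k) * algebraMap K L (v k j) = 0 := by
      have := congrArg (fun t => (c i)⁻¹ * t) hj
      simp only [Finset.mul_sum, mul_zero] at this
      rw [← this]
      refine Finset.sum_congr rfl fun k _ => ?_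
      ring
    have h3 := congrArg π h2
    rw [map_sum, map_zero] at h3
    rw [← h3]
    refine Finset.sum_congr rfl fun k _ => ?_
    rw [mul_comm ((c i)⁻¹ * c k) (algebraMap K L (v k j)), ← Algebra.smul_def, map_smul,
      smul_eq_mul, mul_comm]
  have := hv s (fun k => π ((c i)⁻¹ * c k)) hrel i hi
  rw [inv_mul_cancel₀ hci, hπ] at this
  exact one_ne_zero this

/-- Coefficient functions of Laurent series, as a linear map. -/
noncomputable def laurentCoeffs (R : Type*) [Field R] : LaurentSeries R →ₗ[R] (ℤ → R) where
  toFun x := fun n => x.coeff n
  map_add' x y := by funext n; simp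
  map_smul' c x := by funext n; simp

theorem laurentCoeffs_injective (R : Type*) [Field R] : Function.Injective (laurentCoeffs R) := by
  intro x y h
  ext n
  exact congrFun h n

/-- Coefficient functions of power series, as a linear map. -/
noncomputable def powerCoeffs (R : Type*) [Field R] : PowerSeries R →ₗ[R] (ℕ → R) where
  toFun x := fun n => PowerSeries.coeff n x
  map_add' x y := by funext n; simp
  map_smul' c x := by funext n; simp

theorem powerCoeffs_injective (R : Type*) [Field R] : Function.Injective (powerCoeffs R) := by
  intro x y h
  ext n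
  exact congrFun h n

end Fermat.Agent.S20.LinIndepBaseChange

namespace Fermat.Agent.S20.LinIndepBaseChange

variable {K L : Type*} [Field K] [Field L]

/-- **Laurent series.** A `K`-linearly independent family of Laurent series stays linearly
independent over `L` after applying a field homomorphism `φ : K →+* L` coefficientwise. -/
theorem laurent (φ : K →+* L) {ι : Type*} (v : ι → LaurentSeries K)
    (hv : LinearIndependent K v) :
    LinearIndependent L (fun i => ModularCurve.coeffMap φ (v i)) := by
  let _ : Algebra K L := φ.toAlgebra
  have h1 : LinearIndependent K (fun i => laurentCoeffs K (v i)) :=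
    hv.map' (laurentCoeffs K) (LinearMap.ker_eq_bot.mpr (laurentCoeffs_injective K))
  have h2 := coords (L := L) (fun i => laurentCoeffs K (v i)) h1
  have h3 : (fun i => fun n => algebraMap K L (laurentCoeffs K (v i) n)) =
      (laurentCoeffs L) ∘ (fun i => ModularCurve.coeffMap φ (v i)) := by
    funext i n
    simp [laurentCoeffs, ModularCurve.coeffMap]
    rfl
  rw [h3] at h2
  exact LinearIndependent.of_comp (laurentCoeffs L) h2

/-- **Power series.** Same statement for `PowerSeries.map`. -/
theorem powerSeries (φ : K →+* L) {ι : Type*} (v : ι → PowerSeries K)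
    (hv : LinearIndependent K v) :
    LinearIndependent L (fun i => PowerSeries.map φ (v i)) := by
  let _ : Algebra K L := φ.toAlgebra
  have h1 : LinearIndependent K (fun i => powerCoeffs K (v i)) :=
    hv.map' (powerCoeffs K) (LinearMap.ker_eq_bot.mpr (powerCoeffs_injective K))
  have h2 := coords (L := L) (fun i => powerCoeffs K (v i)) h1
  have h3 : (fun i => fun n => algebraMap K L (powerCoeffs K (v i) n)) =
      (powerCoeffs L) ∘ (fun i => PowerSeries.map φ (v i)) := by
    funext i n
    simp [powerCoeffs]
    rfl
  rw [h3] at h2
  exact LinearIndependent.of_comp (powerCoeffs L) h2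

/-- **Dimension transfer (Laurent form).**  `V` a `K`-space with an injective `K`-linear
"expansion" `s : V → K((q))`; `W` an `L`-space with an `L`-linear expansion `Q : W → L((q))`;
`Θ : V → W` any map compatible with the expansions through `φ`.  Then `Θ` maps independent
families to independent families, and `dim_K V ≤ dim_L W` when `W` is finite-dimensional. -/
theorem linearIndependent_of_expansion (φ : K →+* L) {V W : Type*} [AddCommGroup V] [Module K V]
    [AddCommGroup W] [Module L W] (s : V →ₗ[K] LaurentSeries K) (hs : Function.Injective s)
    (Q : W →ₗ[L] LaurentSeries L) (Θ : V → W)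
    (hΘ : ∀ x, Q (Θ x) = ModularCurve.coeffMap φ (s x))
    {ι : Type*} (b : ι → V) (hb : LinearIndependent K b) :
    LinearIndependent L (fun i => Θ (b i)) := by
  have h1 : LinearIndependent K (fun i => s (b i)) :=
    hb.map' s (LinearMap.ker_eq_bot.mpr hs)
  have h2 := laurent φ _ h1
  have h3 : (fun i => ModularCurve.coeffMap φ (s (b i))) = Q ∘ (fun i => Θ (b i)) := by
    funext i
    exact (hΘ (b i)).symm
  rw [h3] at h2
  exact LinearIndependent.of_comp Q h2

theorem finrank_le_of_expansion (φ : K →+* L) {V W : Type*} [AddCommGroup V] [Module K V]
    [AddCommGroup W] [Module L W] [Module.Finite L W]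
    (s : V →ₗ[K] LaurentSeries K) (hs : Function.Injective s)
    (Q : W →ₗ[L] LaurentSeries L) (Θ : V → W)
    (hΘ : ∀ x, Q (Θ x) = ModularCurve.coeffMap φ (s x)) :
    Module.finrank K V ≤ Module.finrank L W := by
  by_cases hfin : Module.Finite K V
  · let b := Module.finBasis K V
    have := linearIndependent_of_expansion φ s hs Q Θ hΘ b b.linearIndependent
    simpa using this.fintype_card_le_finrank
  · rw [Module.finrank_of_not_finite hfin]
    exact Nat.zero_le _

/-- **Dimension transfer (power series form).** -/
theorem linearIndependent_of_expansion' (φ : K →+* L) {V W : Type*} [AddCommGroup V] [Module K V]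
    [AddCommGroup W] [Module L W] (s : V →ₗ[K] PowerSeries K) (hs : Function.Injective s)
    (Q : W →ₗ[L] PowerSeries L) (Θ : V → W)
    (hΘ : ∀ x, Q (Θ x) = PowerSeries.map φ (s x))
    {ι : Type*} (b : ι → V) (hb : LinearIndependent K b) :
    LinearIndependent L (fun i => Θ (b i)) := by
  have h1 : LinearIndependent K (fun i => s (b i)) :=
    hb.map' s (LinearMap.ker_eq_bot.mpr hs)
  have h2 := powerSeries φ _ h1
  have h3 : (fun i => PowerSeries.map φ (s (b i))) = Q ∘ (fun i => Θ (b i)) := by
    funext i
    exact (hΘ (b i)).symm
  rw [h3] at h2
  exact LinearIndependent.of_comp Q h2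

theorem finrank_le_of_expansion' (φ : K →+* L) {V W : Type*} [AddCommGroup V] [Module K V]
    [AddCommGroup W] [Module L W] [Module.Finite L W]
    (s : V →ₗ[K] PowerSeries K) (hs : Function.Injective s)
    (Q : W →ₗ[L] PowerSeries L) (Θ : V → W)
    (hΘ : ∀ x, Q (Θ x) = PowerSeries.map φ (s x)) :
    Module.finrank K V ≤ Module.finrank L W := by
  by_cases hfin : Module.Finite K V
  · let b := Module.finBasis K V
    have := linearIndependent_of_expansion' φ s hs Q Θ hΘ b b.linearIndependent
    simpa using this.fintype_card_le_finrank
  · rw [Module.finrank_of_not_finite hfin]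
    exact Nat.zero_le _

end Fermat.Agent.S20.LinIndepBaseChange
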