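import Fermat.Agent.S24.DiffOrd
import Fermat.Agent.S24.LaurentAux
import Fermat.Agent.S24.KaehlerGen

/-!
# S20, block (L): the abstract local lemma of the dictionary

`w` is a place of the function field `F / K`, and `σ : F →ₐ[K] ℂ((u))` an embedding inducing `w`
with ramification `m`, i.e. `ord_u (σ f) = m * ord_w f`.  For a differential `ω = h • d x` the
series `σ h * d(σ x)/du` (the "`u`-expansion of `ω / du`") has order
`m * ord_w ω + (m - 1)`.  In particular, if `ω` is regular at `w`, this series has order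
`≥ m - 1 ≥ 0`.
-/

set_option autoImplicit false

noncomputable section

namespace Fermat.Agent.S20.DictLocal

open AlgebraicCurve KaehlerDifferential Fermat.Agent.S24

variable {K F : Type*} [Field K] [Field F] [Algebra K F] [Algebra K ℂ]

/-- The derivation `lderiv` of `LaurentAux` is Mathlib's `LaurentSeries.derivative`. -/
theorem lderiv_eq_derivative (f : LaurentSeries ℂ) :
    lderiv f = LaurentSeries.derivative ℂ f := by
  ext k
  rw [coeff_lderiv, DiffOrd.coeff_derivative]

omit [Algebra K ℂ] in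
/-- In a function field of one variable of characteristic zero, `Ω[F⁄K]` is generated by one
exact differential (this is the hypothesis `hspan` below). -/
theorem hspan_of_isFunctionField1 [CharZero K] (hF : IsFunctionField1 K F) :
    ∃ x₀ : F, Submodule.span F {D K F x₀} = ⊤ := by
  obtain ⟨x, hx, _⟩ := id hF
  exact ⟨x, KaehlerGen.FF.span_D_eq_top hF hx⟩

section main

variable (w : Place K F) (σ : F →ₐ[K] LaurentSeries ℂ) (m : ℤ) (hm : 0 < m)
  (hσ : ∀ f : F, f ≠ 0 → (σ f).order = m * w.ord f)

include hm hσ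

/-- Order of the `σ`-semilinear lift `L` (`L (d f) = d(σ f)/du`) at a nonzero differential. -/
theorem order_lift (hspan : ∃ x₀ : F, Submodule.span F {D K F x₀} = ⊤)
    (L : Ω[F⁄K] →+ LaurentSeries ℂ)
    (hLs : ∀ (c : F) (ω : Ω[F⁄K]), L (c • ω) = σ c * L ω)
    (hLD : ∀ f : F, L (D K F f) = LaurentSeries.derivative ℂ (σ f))
    {ω : Ω[F⁄K]} (hω : ω ≠ 0) :
    L ω ≠ 0 ∧ (L ω).order = m * w.ordDifferential ω + (m - 1) := by
  have := dCoordGenerates_of_emb w σ m hm hσ hspan
  have := nontrivial_kaehler_of_emb w σ m hm hσ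
  obtain ⟨π, hπ, hd⟩ := DiffOrd.exists_unif_dCoord w
  have hπ' : w.ord π ≠ 0 := by rw [hπ]; exact one_ne_zero
  obtain ⟨c, hc⟩ := w.exists_eq_smul_dCoord ω
  have hcoeff : w.differentialCoeff ω = c := w.differentialCoeff_unique hc
  have hc0 : c ≠ 0 := by
    rintro rfl
    rw [zero_smul] at hc
    exact hω hc
  have hσc : σ c ≠ 0 := (map_ne_zero σ).mpr hc0
  have hπ1 := DiffOrd.lderiv_emb_ne_zero w σ m hm hσ hπ'
  have hL : L ω = σ c * LaurentSeries.derivative ℂ (σ π) := by
    rw [hc, hd, hLs, hLD]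
  refine ⟨by rw [hL]; exact mul_ne_zero hσc hπ1, ?_⟩
  rw [hL, HahnSeries.order_mul hσc hπ1, DiffOrd.order_lderiv_emb w σ m hm hσ hπ', hσ c hc0, hπ,
    Place.ordDifferential, hcoeff]
  ring

/-- **Local lemma.** For `ω = h • d x ≠ 0`: the series `σ h * d(σ x)/du` is nonzero of order
`m * ord_w ω + (m - 1)`. -/
theorem order_mul_derivative (hspan : ∃ x₀ : F, Submodule.span F {D K F x₀} = ⊤)
    (h x : F) (hω : h • D K F x ≠ 0) :
    σ h * LaurentSeries.derivative ℂ (σ x) ≠ 0 ∧
      (σ h * LaurentSeries.derivative ℂ (σ x)).order =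
        m * w.ordDifferential (h • D K F x) + (m - 1) := by
  obtain ⟨L, hLs, hLD⟩ := DiffOrd.exists_lift (K := K) σ
  have h1 := order_lift w σ m hm hσ hspan L hLs hLD hω
  rwa [hLs, hLD] at h1

/-- The same with the derivation `lderiv` of `LaurentAux`. -/
theorem order_mul_lderiv (hspan : ∃ x₀ : F, Submodule.span F {D K F x₀} = ⊤)
    (h x : F) (hω : h • D K F x ≠ 0) :
    σ h * lderiv (σ x) ≠ 0 ∧
      (σ h * lderiv (σ x)).order = m * w.ordDifferential (h • D K F x) + (m - 1) := by
  rw [lderiv_eq_derivative]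
  exact order_mul_derivative w σ m hm hσ hspan h x hω

/-- **Regular differentials.**  If `ω = h • d x` is regular at `w` (this includes `ω = 0`), then
`σ h * d(σ x)/du` is zero or has order at least `m - 1`. -/
theorem le_order_mul_lderiv_of_regular (hspan : ∃ x₀ : F, Submodule.span F {D K F x₀} = ⊤)
    (h x : F) (hreg : 0 ≤ w.ordDifferential (h • D K F x)) :
    σ h * lderiv (σ x) = 0 ∨ m - 1 ≤ (σ h * lderiv (σ x)).order := by
  by_cases hω : h • D K F x = 0
  · left
    obtain ⟨L, hLs, hLD⟩ := DiffOrd.exists_lift (K := K) σ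
    rw [lderiv_eq_derivative, ← hLD, ← hLs, hω, map_zero]
  · right
    rw [(order_mul_lderiv w σ m hm hσ hspan h x hω).2]
    nlinarith

/-- Variant: the product with one more factor `u` (the shape at a cusp, where
`d/dτ = const * u * d/du`): if `ω = h • d x` is regular at `w`, then `u * σ h * d(σ x)/du` is zero
or has order at least `m ≥ 1`. -/
theorem le_order_single_mul_lderiv_of_regular
    (hspan : ∃ x₀ : F, Submodule.span F {D K F x₀} = ⊤)
    (h x : F) (hreg : 0 ≤ w.ordDifferential (h • D K F x)) :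
    HahnSeries.single (1 : ℤ) (1 : ℂ) * (σ h * lderiv (σ x)) = 0 ∨
      m ≤ (HahnSeries.single (1 : ℤ) (1 : ℂ) * (σ h * lderiv (σ x))).order := by
  rcases le_order_mul_lderiv_of_regular w σ m hm hσ hspan h x hreg with h0 | h1
  · left; rw [h0, mul_zero]
  · by_cases h0 : σ h * lderiv (σ x) = 0
    · left; rw [h0, mul_zero]
    · right
      have hs : (HahnSeries.single (1 : ℤ) (1 : ℂ)) ≠ 0 := by simp
      rw [HahnSeries.order_mul hs h0, HahnSeries.order_single one_ne_zero]
      linarith

end main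

end Fermat.Agent.S20.DictLocal
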