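import Mathlib
import Fermat.Agent.S24.HolRing

/-!
# S20, block (L), analytic lemma: a quotient of holomorphic functions with non-negative order
at every point is holomorphic

* `exists_analyticOnNhd_mul_eq`: on an open set `U ⊆ ℂ`, if `a`, `b` are analytic on `U`, `b` does
  not vanish identically near any point of `U`, and `ord_z b ≤ ord_z a` for every `z ∈ U`, then
  `a = c * b` on `U` for some `c` analytic on `U`.
* `exists_mdiff_mul_eq`: the same on the upper half plane for `MDiff` functions `ℍ → ℂ`, the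
  orders being `analyticOrderAt (f ∘ ofComplex) z` (the quantity computed by
  `S24.ExpandAt.order_expand` and `S24.DiscExpansion.order_discExp`).
* `exists_eq_algebraMap_of_order_le`: the version for `x : Mer = FractionRing holRing`.
-/

set_option autoImplicit false

open UpperHalfPlane Complex Filter
open scoped Manifold Topology

noncomputable section

namespace Fermat.Agent.S20.HolQuotient

open Fermat.Agent.S24.HolRing

/-- Arithmetic of orders: `0 ≤ ord a - ord b` in `WithTop ℤ` when `ord b ≤ ord a`, `ord b ≠ ⊤`. -/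
theorem order_sub_nonneg {m n : ℕ∞} (hn : n ≠ ⊤) (h : n ≤ m) :
    (0 : WithTop ℤ) ≤ m.map (Nat.cast : ℕ → ℤ) - n.map (Nat.cast : ℕ → ℤ) := by
  cases m with
  | top =>
    cases n with
    | top => exact absurd rfl hn
    | coe n => simp
  | coe m =>
    cases n with
    | top => exact absurd rfl hn
    | coe n =>
      have hnm : n ≤ m := by exact_mod_cast h
      simp only [ENat.map_natCast]
      have : (((m : ℤ) : WithTop ℤ)) - (((n : ℤ) : WithTop ℤ))
          = (((m : ℤ) - (n : ℤ) : ℤ) : WithTop ℤ) := rfl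
      rw [this]
      have h0 : (0 : ℤ) ≤ (m : ℤ) - (n : ℤ) := by omega
      exact_mod_cast h0

/-- If `a` and `b` are analytic on the set `U`, `b` has finite order at every point of `U`
and `ord_z b ≤ ord_z a` for all `z ∈ U`, then `a = c * b` on `U` with `c` analytic on `U`. -/
theorem exists_analyticOnNhd_mul_eq {U : Set ℂ} {a b : ℂ → ℂ}
    (ha : AnalyticOnNhd ℂ a U) (hb : AnalyticOnNhd ℂ b U)
    (hb0 : ∀ z ∈ U, analyticOrderAt b z ≠ ⊤)
    (h : ∀ z ∈ U, analyticOrderAt b z ≤ analyticOrderAt a z) :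
    ∃ c : ℂ → ℂ, AnalyticOnNhd ℂ c U ∧ ∀ z ∈ U, a z = c z * b z := by
  have hg : MeromorphicOn (a / b) U := fun z hz =>
    (ha z hz).meromorphicAt.div (hb z hz).meromorphicAt
  have hG : ∀ z ∈ U, AnalyticAt ℂ (toMeromorphicNFOn (a / b) U) z := by
    intro z hz
    have hnf : MeromorphicNFAt (toMeromorphicNFOn (a / b) U) z :=
      meromorphicNFOn_toMeromorphicNFOn (a / b) U hz
    rw [← hnf.meromorphicOrderAt_nonneg_iff_analyticAt, meromorphicOrderAt_toMeromorphicNFOn hg hz,
      meromorphicOrderAt_div (ha z hz).meromorphicAt (hb z hz).meromorphicAt,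
      (ha z hz).meromorphicOrderAt_eq, (hb z hz).meromorphicOrderAt_eq]
    exact order_sub_nonneg (hb0 z hz) (h z hz)
  refine ⟨toMeromorphicNFOn (a / b) U, hG, ?_⟩
  intro z hz
  -- `G * b = a` on a punctured neighbourhood of `z`, and both sides are continuous at `z`
  have hbne : ∀ᶠ w in 𝓝[≠] z, b w ≠ 0 := by
    rcases (hb z hz).eventually_eq_zero_or_eventually_ne_zero with h0 | h0
    · exact absurd (analyticOrderAt_eq_top.mpr h0) (hb0 z hz)
    · exact h0
  have hev : ∀ᶠ w in 𝓝[≠] z, toMeromorphicNFOn (a / b) U w * b w = a w := by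
    filter_upwards [hg.toMeromorphicNFOn_eq_self_on_nhdsNE hz, hbne] with w hw hbw
    rw [hw, Pi.div_apply, div_mul_cancel₀ _ hbw]
  have hcont1 : Tendsto (fun w => toMeromorphicNFOn (a / b) U w * b w) (𝓝[≠] z)
      (𝓝 (toMeromorphicNFOn (a / b) U z * b z)) :=
    (((hG z hz).continuousAt.mul (hb z hz).continuousAt).tendsto).mono_left nhdsWithin_le_nhds
  have hcont2 : Tendsto a (𝓝[≠] z) (𝓝 (a z)) :=
    ((ha z hz).continuousAt.tendsto).mono_left nhdsWithin_le_nhds
  have hcont1' : Tendsto a (𝓝[≠] z) (𝓝 (toMeromorphicNFOn (a / b) U z * b z)) :=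
    hcont1.congr' hev
  exact tendsto_nhds_unique hcont2 hcont1'

/-- A nonzero holomorphic function on `ℍ` has finite order at every point. -/
theorem analyticOrderAt_ne_top_of_ne_zero {b : ℍ → ℂ} (hb : MDiff b) (hb0 : b ≠ 0) (z : ℍ) :
    analyticOrderAt (b ∘ ofComplex) (z : ℂ) ≠ ⊤ := by
  intro htop
  apply hb0
  have hb' : AnalyticOnNhd ℂ (b ∘ ofComplex) upperHalfPlaneSet :=
    (UpperHalfPlane.mdifferentiable_iff.mp hb).analyticOnNhd isOpen_upperHalfPlaneSet
  have hU : IsPreconnected upperHalfPlaneSet := (convex_halfSpace_im_gt 0).isPreconnected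
  have h0 := hb'.eqOn_zero_of_preconnected_of_eventuallyEq_zero hU z.im_pos
    (analyticOrderAt_eq_top.mp htop)
  funext τ
  have := h0 τ.im_pos
  simpa [ofComplex_apply] using this

/-- **Holomorphic quotient on `ℍ`.** If `a`, `b` are holomorphic on `ℍ`, `b ≠ 0`, and the order of
`b` is at most the order of `a` at every point, then `a = c * b` with `c` holomorphic on `ℍ`. -/
theorem exists_mdiff_mul_eq {a b : ℍ → ℂ} (ha : MDiff a) (hb : MDiff b) (hb0 : b ≠ 0)
    (h : ∀ z : ℍ, analyticOrderAt (b ∘ ofComplex) (z : ℂ) ≤ analyticOrderAt (a ∘ ofComplex) (z : ℂ)) :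
    ∃ c : ℍ → ℂ, MDiff c ∧ a = c * b := by
  have ha' : AnalyticOnNhd ℂ (a ∘ ofComplex) upperHalfPlaneSet :=
    (UpperHalfPlane.mdifferentiable_iff.mp ha).analyticOnNhd isOpen_upperHalfPlaneSet
  have hb' : AnalyticOnNhd ℂ (b ∘ ofComplex) upperHalfPlaneSet :=
    (UpperHalfPlane.mdifferentiable_iff.mp hb).analyticOnNhd isOpen_upperHalfPlaneSet
  obtain ⟨c', hc', hmul⟩ := exists_analyticOnNhd_mul_eq ha' hb'
    (fun z hz => by
      have := analyticOrderAt_ne_top_of_ne_zero hb hb0 ⟨z, hz⟩
      simpa using this)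
    (fun z hz => by
      have := h ⟨z, hz⟩
      simpa using this)
  refine ⟨fun τ => c' (τ : ℂ), ?_, ?_⟩
  · rw [UpperHalfPlane.mdifferentiable_iff]
    refine hc'.differentiableOn.congr ?_
    intro z hz
    simp [Function.comp, ofComplex_apply_of_im_pos hz]
  · funext τ
    have := hmul (τ : ℂ) τ.im_pos
    simpa [ofComplex_apply] using this

/-- **Version for `Mer = FractionRing holRing`.** An element `x = a / b` of `Mer` such that the
order of `b` is at most the order of `a` at every point of `ℍ` is (the image of) a holomorphic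
function. -/
theorem exists_eq_algebraMap_of_order_le {x : Mer} {a b : holRing} (hb : b ≠ 0)
    (hx : x * algebraMap holRing Mer b = algebraMap holRing Mer a)
    (h : ∀ z : ℍ, analyticOrderAt ((b : ℍ → ℂ) ∘ ofComplex) (z : ℂ)
      ≤ analyticOrderAt ((a : ℍ → ℂ) ∘ ofComplex) (z : ℂ)) :
    ∃ c : holRing, x = algebraMap holRing Mer c := by
  have hb' : (b : ℍ → ℂ) ≠ 0 := fun h0 => hb (Subtype.ext h0)
  obtain ⟨c, hc, hmul⟩ := exists_mdiff_mul_eq a.2 b.2 hb' h
  refine ⟨⟨c, hc⟩, ?_⟩
  have hbM : algebraMap holRing Mer b ≠ 0 := by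
    intro h0
    exact hb ((IsFractionRing.injective holRing Mer) (by rw [h0, map_zero]))
  have hab : a = (⟨c, hc⟩ : holRing) * b := Subtype.ext hmul
  apply mul_right_cancel₀ hbM
  rw [hx, hab, map_mul]

end Fermat.Agent.S20.HolQuotient
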