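import Mathlib
import Fermat.Prelude.Def_AlgebraicCurve_DivisorClassGroup
import Fermat.Agent.S24.OrdBasic

/-!
# S20, block RR, piece R1: Riemann–Roch spaces `L(D)`

For a function field `F / K` in the Prelude's language of places and divisors we define
`L D = {f | f = 0 ∨ ∀ v, 0 ≤ ord_v f + D v}` and prove the elementary facts:

* monotonicity, the multiplication shift `L (D + div h) ≃ L D`;
* `L (D + v) ≤ L D ⊔ K f₀` for any `f₀ ∈ L (D + v) \ L D` (when the residue field at `v` is `K`),
  hence `ℓ(D + v) ≤ ℓ(D) + 1`;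
* `L D = ⊥` when `deg D < 0` (principal divisors have degree `0`);
* `L D` is finite dimensional with `ℓ(D) ≤ max (deg D + 1) 0` (all places of degree one).
-/

set_option autoImplicit false

open AlgebraicCurve Module

namespace Fermat.Agent.S20.RRSpace

open Fermat.Agent.S24

variable {K F : Type*} [Field K] [Field F] [Algebra K F]

/-- The residue field at `v` is `K`, in elementary form. -/
def ResidueIsBase (v : Place K F) : Prop :=
  ∀ f : F, f ≠ 0 → 0 ≤ v.ord f →
    ∃ c : K, f = algebraMap K F c ∨ 0 < v.ord (f - algebraMap K F c)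

theorem ord_smul (v : Place K F) {c : K} (hc : c ≠ 0) (f : F) : v.ord (c • f) = v.ord f := by
  rcases eq_or_ne f 0 with rfl | hf
  · simp
  · rw [Algebra.smul_def, v.ord_mul ((map_ne_zero _).mpr hc) hf, OrdBasic.ord_algebraMap v hc,
      zero_add]

/-- The Riemann–Roch space of a divisor. -/
def L (D : Divisor K F) : Submodule K F where
  carrier := {f | f = 0 ∨ ∀ v : Place K F, 0 ≤ v.ord f + D v}
  zero_mem' := Or.inl rfl
  add_mem' := by
    rintro f g hf hg
    rcases eq_or_ne f 0 with rfl | hf0
    · simpa using hg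
    rcases eq_or_ne g 0 with rfl | hg0
    · simpa using hf
    rcases eq_or_ne (f + g) 0 with h0 | h0
    · exact Or.inl h0
    refine Or.inr fun v => ?_
    have hf' := (hf.resolve_left hf0) v
    have hg' := (hg.resolve_left hg0) v
    have := OrdBasic.ord_add_ge v h0 hf0 hg0
    rcases min_le_iff.mp this with h | h <;> linarith
  smul_mem' := by
    rintro c f hf
    rcases eq_or_ne c 0 with rfl | hc
    · exact Or.inl (zero_smul _ _)
    rcases hf with rfl | hf
    · exact Or.inl (smul_zero _)
    · refine Or.inr fun v => ?_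
      rw [ord_smul v hc]
      exact hf v

theorem mem_L {D : Divisor K F} {f : F} :
    f ∈ L D ↔ f = 0 ∨ ∀ v : Place K F, 0 ≤ v.ord f + D v := Iff.rfl

theorem mem_L_of_ne_zero {D : Divisor K F} {f : F} (hf : f ≠ 0) :
    f ∈ L D ↔ ∀ v : Place K F, 0 ≤ v.ord f + D v := by
  rw [mem_L, or_iff_right hf]

theorem L_mono {D E : Divisor K F} (h : D ≤ E) : L D ≤ L E := by
  intro f hf
  rcases hf with rfl | hf
  · exact Or.inl rfl
  · refine Or.inr fun v => ?_
    have := hf v
    have := h v
    linarith

/-- Multiplication by `h` maps `L E` into `L D` when `E = D + div h`. -/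
theorem mul_mem_L {D E : Divisor K F} {h : F} (hh : h ≠ 0)
    (hE : ∀ v : Place K F, E v = D v + v.ord h) {f : F} (hf : f ∈ L E) : f * h ∈ L D := by
  rcases eq_or_ne f 0 with rfl | hf0
  · simp
  rw [mem_L_of_ne_zero (mul_ne_zero hf0 hh)]
  intro v
  have := (mem_L_of_ne_zero hf0).mp hf v
  rw [v.ord_mul hf0 hh]
  rw [hE v] at this
  linarith

/-- The shift isomorphism `L (D + div h) ≃ L D`, `f ↦ f h`. -/
noncomputable def shiftEquiv {D E : Divisor K F} {h : F} (hh : h ≠ 0)
    (hE : ∀ v : Place K F, E v = D v + v.ord h) : L E ≃ₗ[K] L D where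
  toFun f := ⟨f * h, mul_mem_L hh hE f.2⟩
  map_add' f g := by ext; simp [add_mul]
  map_smul' c f := by ext; simp [smul_mul_assoc]
  invFun f := ⟨f * h⁻¹, by
    refine mul_mem_L (D := E) (E := D) (inv_ne_zero hh) (fun v => ?_) f.2
    rw [v.ord_inv, hE v]; ring⟩
  left_inv f := by ext; simp [mul_assoc, hh]
  right_inv f := by ext; simp [mul_assoc, hh]

theorem finrank_L_eq_of_shift {D E : Divisor K F} {h : F} (hh : h ≠ 0)
    (hE : ∀ v : Place K F, E v = D v + v.ord h) : finrank K (L E) = finrank K (L D) :=
  (shiftEquiv hh hE).finrank_eq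

section AddPlace

variable (D : Divisor K F) (v : Place K F)

theorem le_add_single : D ≤ D + Finsupp.single v 1 := by
  classical
  intro w
  rw [Finsupp.add_apply, Finsupp.single_apply]
  split_ifs <;> simp

theorem add_single_apply_self : (D + Finsupp.single v 1 : Divisor K F) v = D v + 1 := by
  simp

theorem add_single_apply_of_ne {w : Place K F} (hw : w ≠ v) :
    (D + Finsupp.single v 1 : Divisor K F) w = D w := by
  classical
  rw [Finsupp.add_apply, Finsupp.single_apply, if_neg (Ne.symm hw), add_zero]

variable {D v}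

/-- An element of `L (D + v)` not in `L D` has order exactly `-(D v + 1)` at `v`. -/
theorem ord_eq_of_mem_of_not_mem {f : F} (hf : f ∈ L (D + Finsupp.single v 1))
    (hf' : f ∉ L D) : f ≠ 0 ∧ v.ord f = -(D v + 1) := by
  have hf0 : f ≠ 0 := fun h => hf' (h ▸ (L D).zero_mem)
  refine ⟨hf0, ?_⟩
  have h1 := (mem_L_of_ne_zero hf0).mp hf
  rw [mem_L_of_ne_zero hf0] at hf'
  push_neg at hf'
  obtain ⟨w, hw⟩ := hf'
  have hwv : w = v := by
    by_contra hne
    have := h1 w
    rw [add_single_apply_of_ne D v hne] at this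
    linarith
  subst hwv
  have := h1 w
  rw [add_single_apply_self] at this
  linarith

/-- **Key step**: `L (D + v)` is spanned by `L D` and any one element outside `L D`. -/
theorem L_add_single_le (hres : ResidueIsBase v) {f₀ : F}
    (hf₀ : f₀ ∈ L (D + Finsupp.single v 1)) (hf₀' : f₀ ∉ L D) :
    L (D + Finsupp.single v 1) ≤ L D ⊔ K ∙ f₀ := by
  obtain ⟨hf₀0, hord₀⟩ := ord_eq_of_mem_of_not_mem hf₀ hf₀'
  intro g hg
  rcases eq_or_ne g 0 with rfl | hg0
  · exact Submodule.zero_mem _
  have hgv := (mem_L_of_ne_zero hg0).mp hg v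
  rw [add_single_apply_self] at hgv
  -- the quotient `g / f₀` is integral at `v`
  have hq0 : g / f₀ ≠ 0 := div_ne_zero hg0 hf₀0
  have hqord : 0 ≤ v.ord (g / f₀) := by
    rw [div_eq_mul_inv, v.ord_mul hg0 (inv_ne_zero hf₀0), v.ord_inv, hord₀]
    linarith
  obtain ⟨c, hc⟩ := hres _ hq0 hqord
  -- `g - c f₀ ∈ L D`
  have key : g - c • f₀ ∈ L D := by
    rcases hc with hc | hc
    · have : g = c • f₀ := by
        rw [Algebra.smul_def, ← hc, div_mul_cancel₀ _ hf₀0]
      rw [this, sub_self]; exact Submodule.zero_mem _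
    · rcases eq_or_ne (g - c • f₀) 0 with h0 | h0
      · rw [h0]; exact Submodule.zero_mem _
      have hmem : g - c • f₀ ∈ L (D + Finsupp.single v 1) :=
        Submodule.sub_mem _ hg (Submodule.smul_mem _ _ hf₀)
      have h1 := (mem_L_of_ne_zero h0).mp hmem
      rw [mem_L_of_ne_zero h0]
      intro w
      by_cases hw : w = v
      · subst hw
        have hfac : g - c • f₀ = f₀ * (g / f₀ - algebraMap K F c) := by
          rw [Algebra.smul_def]; field_simp
        have hne : g / f₀ - algebraMap K F c ≠ 0 := by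
          intro h
          apply h0
          rw [hfac, h, mul_zero]
        rw [hfac, w.ord_mul hf₀0 hne, hord₀]
        linarith
      · have := h1 w
        rwa [add_single_apply_of_ne D v hw] at this
  have : g = (g - c • f₀) + c • f₀ := by ring
  rw [this]
  exact Submodule.add_mem _ (Submodule.mem_sup_left key)
    (Submodule.mem_sup_right (Submodule.smul_mem _ _ (Submodule.mem_span_singleton_self f₀)))

/-- `ℓ(D + v) ≤ ℓ(D) + 1`, together with finite dimensionality. -/
theorem finrank_L_add_single_le (hres : ResidueIsBase v) [FiniteDimensional K (L D)] :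
    FiniteDimensional K (L (D + Finsupp.single v 1)) ∧
      finrank K (L (D + Finsupp.single v 1)) ≤ finrank K (L D) + 1 := by
  by_cases h : ∃ f₀, f₀ ∈ L (D + Finsupp.single v 1) ∧ f₀ ∉ L D
  · obtain ⟨f₀, hf₀, hf₀'⟩ := h
    have hle := L_add_single_le hres hf₀ hf₀'
    have hf₀0 : f₀ ≠ 0 := (ord_eq_of_mem_of_not_mem hf₀ hf₀').1
    haveI : FiniteDimensional K (K ∙ f₀) := inferInstance
    haveI : FiniteDimensional K ↥(L D ⊔ K ∙ f₀) := inferInstance
    refine ⟨Submodule.finiteDimensional_of_le hle, ?_⟩
    calc finrank K (L (D + Finsupp.single v 1)) ≤ finrank K ↥(L D ⊔ K ∙ f₀) :=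
          Submodule.finrank_mono hle
      _ ≤ finrank K (L D) + finrank K (K ∙ f₀) := Submodule.finrank_add_le_finrank_add_finrank _ _
      _ ≤ finrank K (L D) + 1 := by
          rw [finrank_span_singleton hf₀0]
  · push_neg at h
    have heq : L (D + Finsupp.single v 1) = L D :=
      le_antisymm (fun f hf => h f hf) (L_mono (le_add_single D v))
    rw [heq]
    exact ⟨inferInstance, Nat.le_succ _⟩

end AddPlace

section Degree

/-- An effective divisor has nonnegative degree. -/
theorem degree_nonneg_of_nonneg {E : Divisor K F} (hE : ∀ v, 0 ≤ E v) : 0 ≤ Divisor.degree E := by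
  unfold Divisor.degree
  rw [Finsupp.liftAddHom_apply, Finsupp.sum]
  refine Finset.sum_nonneg fun v _ => ?_
  simp only [AddMonoidHom.coe_mulRight]
  exact mul_nonneg (hE v) (Int.natCast_nonneg _)

/-- `L D = ⊥` if `deg D < 0`, provided principal divisors have degree zero. -/
theorem L_eq_bot_of_degree_neg [HasPrincipalDivisors K F] {D : Divisor K F}
    (hD : Divisor.degree D < 0) : L D = ⊥ := by
  rw [eq_bot_iff]
  intro f hf
  rw [Submodule.mem_bot]
  by_contra hf0
  obtain ⟨P, hP, hP0⟩ := HasPrincipalDivisors.exists_divisor (K := K) f hf0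
  have h := (mem_L_of_ne_zero hf0).mp hf
  have hnn : 0 ≤ Divisor.degree (P + D) := degree_nonneg_of_nonneg fun v => by
    rw [Finsupp.add_apply, hP v]; exact h v
  rw [map_add, hP0, zero_add] at hnn
  linarith

theorem degree_add_single (D : Divisor K F) (v : Place K F) :
    Divisor.degree (D + Finsupp.single v 1) = Divisor.degree D + v.deg := by
  rw [map_add, Divisor.degree_single, one_mul]

/-- **Finite dimensionality of Riemann–Roch spaces** and the bound `ℓ(D) ≤ max (deg D + 1) 0`,
for a function field all of whose places have residue field `K`. -/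
theorem finrank_L_le [HasPrincipalDivisors K F] [Nonempty (Place K F)]
    (hdeg : ∀ v : Place K F, v.deg = 1) (hres : ∀ v : Place K F, ResidueIsBase v)
    (D : Divisor K F) :
    FiniteDimensional K (L D) ∧ (finrank K (L D) : ℤ) ≤ max (Divisor.degree D + 1) 0 := by
  -- induction on `n` with `deg D + 1 ≤ n`
  suffices H : ∀ n : ℕ, ∀ D : Divisor K F, Divisor.degree D + 1 ≤ n →
      FiniteDimensional K (L D) ∧ (finrank K (L D) : ℤ) ≤ max (Divisor.degree D + 1) 0 by
    exact H (Divisor.degree D + 1).toNat D (Int.self_le_toNat _)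
  intro n
  induction n with
  | zero =>
    intro D hD
    have hneg : Divisor.degree D < 0 := by push_cast at hD; linarith
    rw [L_eq_bot_of_degree_neg hneg]
    refine ⟨inferInstance, ?_⟩
    rw [finrank_bot]
    exact le_max_right _ _
  | succ n ih =>
    intro D hD
    by_cases hneg : Divisor.degree D < 0
    · rw [L_eq_bot_of_degree_neg hneg]
      refine ⟨inferInstance, ?_⟩
      rw [finrank_bot]
      exact le_max_right _ _
    push_neg at hneg
    obtain ⟨v⟩ := ‹Nonempty (Place K F)›
    -- write `D = D' + v`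
    set D' : Divisor K F := D - Finsupp.single v 1 with hD'
    have hDD' : D = D' + Finsupp.single v 1 := by rw [hD']; abel
    have hdegD' : Divisor.degree D = Divisor.degree D' + 1 := by
      rw [hDD', degree_add_single, hdeg v]
      simp
    obtain ⟨hfin, hle⟩ := ih D' (by push_cast at hD ⊢; linarith)
    haveI := hfin
    obtain ⟨hfin', hle'⟩ := finrank_L_add_single_le (D := D') (v := v) (hres v)
    rw [← hDD'] at hfin' hle'
    refine ⟨hfin', ?_⟩
    have h1 : (finrank K (L D) : ℤ) ≤ (finrank K (L D') : ℤ) + 1 := by exact_mod_cast hle'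
    have h2 : max (Divisor.degree D' + 1) 0 = Divisor.degree D' + 1 := by
      apply max_eq_left; linarith
    rw [h2] at hle
    refine le_trans ?_ (le_max_left _ _)
    linarith

end Degree

end Fermat.Agent.S20.RRSpace
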