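import Mathlib
import Fermat.Prelude.Def_AlgebraicCurve_Repartitions
import Fermat.Agent.S20.RRSpace
import Fermat.Agent.S24.PlaceDeg1
import Fermat.Agent.S24.PrincipalDegreeCore

/-!
# S20, block RR: bridge between `RRSpace.L` and the Prelude's `riemannRochSpace`

* `riemannRochSpace_eq_L : riemannRochSpace D = RRSpace.L D`;
* `residueIsBase hF v : RRSpace.ResidueIsBase v` for a function field of one variable over an
  algebraically closed field;
* the elementary bounds of `RRSpace` restated for the Prelude's `riemannRochSpace`, with the
  hypotheses in the S24 shapes `hF : IsFunctionField1 K F`, `hZ : ZerosTheorem K F`.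
-/

set_option autoImplicit false

open AlgebraicCurve Module

namespace Fermat.Agent.S20.RRBridge

open Fermat.Agent.S24 Fermat.Agent.S20.RRSpace

variable {K F : Type*} [Field K] [Field F] [Algebra K F]

theorem riemannRochSpace_eq_L (D : Divisor K F) : riemannRochSpace D = L D := by
  ext f
  rw [mem_riemannRochSpace_iff, mem_L]
  constructor
  · intro h
    by_cases hf : f = 0
    · exact Or.inl hf
    · refine Or.inr fun v => ?_
      have := (h v).resolve_left hf
      linarith
  · rintro (rfl | h) v
    · exact Or.inl rfl
    · refine Or.inr ?_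
      have := h v
      linarith

theorem mem_riemannRochSpace_of_ne_zero {D : Divisor K F} {f : F} (hf : f ≠ 0) :
    f ∈ riemannRochSpace D ↔ ∀ v : Place K F, 0 ≤ v.ord f + D v := by
  rw [riemannRochSpace_eq_L, mem_L_of_ne_zero hf]

theorem riemannRochSpace_mono {D E : Divisor K F} (h : D ≤ E) :
    riemannRochSpace D ≤ riemannRochSpace E := by
  rw [riemannRochSpace_eq_L, riemannRochSpace_eq_L]
  exact L_mono h

variable [IsAlgClosed K]

theorem residueIsBase (hF : IsFunctionField1 K F) (v : Place K F) : ResidueIsBase v :=
  fun f hf0 hf => exists_ord_sub_pos hF v f hf hf0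

/-- `ℓ(D + v) ≤ ℓ(D) + 1` for the Prelude's Riemann–Roch spaces. -/
theorem finrank_riemannRochSpace_add_single_le (hF : IsFunctionField1 K F) (D : Divisor K F)
    (v : Place K F) [FiniteDimensional K (riemannRochSpace D)] :
    FiniteDimensional K (riemannRochSpace (D + Finsupp.single v 1)) ∧
      finrank K (riemannRochSpace (D + Finsupp.single v 1)) ≤
        finrank K (riemannRochSpace D) + 1 := by
  have hfd : FiniteDimensional K (L D) := by rw [← riemannRochSpace_eq_L]; infer_instance
  have := finrank_L_add_single_le (D := D) (v := v) (residueIsBase hF v)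
  rw [riemannRochSpace_eq_L, riemannRochSpace_eq_L]
  exact this

theorem riemannRochSpace_eq_bot_of_degree_neg (hF : IsFunctionField1 K F)
    (hZ : PrincipalDegreeCore.ZerosTheorem K F) {D : Divisor K F} (hD : Divisor.degree D < 0) :
    riemannRochSpace D = ⊥ := by
  haveI := PrincipalDegreeCore.hasPrincipalDivisors hZ hF
  rw [riemannRochSpace_eq_L]
  exact L_eq_bot_of_degree_neg hD

/-- `L(D)` is finite dimensional and `ℓ(D) ≤ max (deg D + 1) 0`. -/
theorem finrank_riemannRochSpace_le (hF : IsFunctionField1 K F)
    (hZ : PrincipalDegreeCore.ZerosTheorem K F) [Nonempty (Place K F)] (D : Divisor K F) :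
    FiniteDimensional K (riemannRochSpace D) ∧
      (finrank K (riemannRochSpace D) : ℤ) ≤ max (Divisor.degree D + 1) 0 := by
  haveI := PrincipalDegreeCore.hasPrincipalDivisors hZ hF
  rw [riemannRochSpace_eq_L]
  exact finrank_L_le (fun v => place_deg_eq_one hF v) (fun v => residueIsBase hF v) D

end Fermat.Agent.S20.RRBridge
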