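import Mathlib
import Fermat.Prelude.Def_AlgebraicCurve_Repartitions
import Fermat.Prelude.Def_AlgebraicCurve_CanonicalDivisor
import Fermat.Agent.S24.Hurwitz
import Fermat.Agent.S20.RRBridge

/-!
# S20, block RR: canonical divisors and regular differentials (consumer-side glue)

* `differentialCoeff_add`, `differentialCoeff_eq_zero_iff`, `ordDifferential_add_nonneg` …:
  linear algebra of the Prelude's `differentialCoeff` / `ordDifferential`;
* `finite_setOf_ordDifferential_neg`: a differential has finitely many poles;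
* `hasCanonicalDivisor_of_card`: `HasCanonicalDivisor` when some non-constant `x` is unramified
  outside a finite set of values (the hypothesis shape of S24's `HurwitzFormula`);
* `regularDifferentials hF : Submodule K Ω[F⁄K]`, with carrier `{ω | ∀ v, 0 ≤ v.ordDifferential ω}`;
* `regularEquiv`: `riemannRochSpace W ≃ₗ[K] regularDifferentials hF` when `W = div ω₀`;
* `finrank_riemannRochSpace_zero`: `ℓ(0) = 1`;
* `genus_eq_of_degree`: the Prelude's `genus K F` is `g` as soon as `deg (div ω) = 2 g - 2`.
-/

set_option autoImplicit false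

open AlgebraicCurve KaehlerDifferential IntermediateField Module

namespace Fermat.Agent.S20.CanonicalDiv

open Fermat.Agent.S24 Fermat.Agent.S20.RRBridge
open Fermat.Agent.S24.PrincipalDegreeCore (ZerosTheorem)

variable {K F : Type*} [Field K] [Field F] [Algebra K F] [IsAlgClosed K] [CharZero K]

/-! ### `differentialCoeff` is an `F`-linear isomorphism `Ω[F⁄K] ≃ F` -/

section Coeff

variable (hF : IsFunctionField1 K F) (v : Place K F)
include hF

theorem differentialCoeff_add (ω ω' : Ω[F⁄K]) :
    v.differentialCoeff (ω + ω') = v.differentialCoeff ω + v.differentialCoeff ω' := by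
  have : v.DCoordGenerates := DiffOrder.dCoordGenerates hF v
  have : Nontrivial Ω[F⁄K] := KaehlerGen.FF.nontrivial hF
  apply v.differentialCoeff_unique
  rw [add_smul, v.differentialCoeff_smul_dCoord, v.differentialCoeff_smul_dCoord]

theorem differentialCoeff_smul (c : F) (ω : Ω[F⁄K]) :
    v.differentialCoeff (c • ω) = c * v.differentialCoeff ω := by
  have : v.DCoordGenerates := DiffOrder.dCoordGenerates hF v
  have : Nontrivial Ω[F⁄K] := KaehlerGen.FF.nontrivial hF
  exact v.differentialCoeff_smul c ω

theorem differentialCoeff_zero : v.differentialCoeff (0 : Ω[F⁄K]) = 0 := by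
  have : v.DCoordGenerates := DiffOrder.dCoordGenerates hF v
  have : Nontrivial Ω[F⁄K] := KaehlerGen.FF.nontrivial hF
  exact v.differentialCoeff_zero

theorem differentialCoeff_eq_zero_iff {ω : Ω[F⁄K]} : v.differentialCoeff ω = 0 ↔ ω = 0 := by
  have : v.DCoordGenerates := DiffOrder.dCoordGenerates hF v
  constructor
  · intro h
    rw [← v.differentialCoeff_smul_dCoord ω, h, zero_smul]
  · rintro rfl
    exact differentialCoeff_zero hF v

theorem ordDifferential_zero : v.ordDifferential (0 : Ω[F⁄K]) = 0 := by
  rw [Place.ordDifferential, differentialCoeff_zero hF v, Place.ord_zero]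

/-- The order of `f • ω` (for `f ≠ 0`, `ω ≠ 0`). -/
theorem ordDifferential_smul {f : F} (hf : f ≠ 0) {ω : Ω[F⁄K]} (hω : ω ≠ 0) :
    v.ordDifferential (f • ω) = v.ord f + v.ordDifferential ω :=
  DiffOrder.ordDifferential_smul' hF v f hf ω hω

theorem ordDifferential_add_ge {ω ω' : Ω[F⁄K]} (h : ω + ω' ≠ 0) (hω : ω ≠ 0) (hω' : ω' ≠ 0) :
    min (v.ordDifferential ω) (v.ordDifferential ω') ≤ v.ordDifferential (ω + ω') := by
  unfold Place.ordDifferential
  rw [differentialCoeff_add hF v]
  refine OrdBasic.ord_add_ge v ?_ ?_ ?_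
  · rw [← differentialCoeff_add hF v]
    exact fun h0 => h ((differentialCoeff_eq_zero_iff hF v).mp h0)
  · exact fun h0 => hω ((differentialCoeff_eq_zero_iff hF v).mp h0)
  · exact fun h0 => hω' ((differentialCoeff_eq_zero_iff hF v).mp h0)

/-- Lower bounds are preserved by sums (the bound is `≤ 0` so that `ω = 0` causes no trouble). -/
theorem ordDifferential_add_of_le {n : ℤ} (hn : n ≤ 0) {ω ω' : Ω[F⁄K]}
    (hω : n ≤ v.ordDifferential ω) (hω' : n ≤ v.ordDifferential ω') :
    n ≤ v.ordDifferential (ω + ω') := by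
  rcases eq_or_ne ω 0 with rfl | h1
  · rwa [zero_add]
  rcases eq_or_ne ω' 0 with rfl | h2
  · rwa [add_zero]
  rcases eq_or_ne (ω + ω') 0 with h3 | h3
  · rw [h3, ordDifferential_zero hF v]; exact hn
  · exact (le_min hω hω').trans (ordDifferential_add_ge hF v h3 h1 h2)

theorem ordDifferential_const_smul {c : K} (hc : c ≠ 0) (ω : Ω[F⁄K]) :
    v.ordDifferential (c • ω) = v.ordDifferential ω := by
  rcases eq_or_ne ω 0 with rfl | hω
  · rw [smul_zero]
  · rw [← algebraMap_smul F c ω, ordDifferential_smul hF v ((map_ne_zero _).mpr hc) hω,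
      OrdBasic.ord_algebraMap v hc, zero_add]

end Coeff

/-! ### A differential has finitely many poles -/

section Poles

variable (hF : IsFunctionField1 K F) (hZ : ZerosTheorem K F)
include hF hZ

/-- `dx` has no poles outside the poles of `x`. -/
theorem ordDifferential_D_nonneg {x : F} (hx : Transcendental K x) {v : Place K F}
    (hv : v ∉ polesOf K x) : 0 ≤ v.ordDifferential (D K F x) := by
  obtain ⟨a, ha⟩ := (Hurwitz.mem_polesOf_or_exists_mem_zerosOver hZ hF hx v).resolve_left hv
  rw [Hurwitz.ordDifferential_D_of_mem_zerosOver hZ hF ha]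
  have : 0 < v.ord (x - algebraMap K F a) := ha
  omega

theorem finite_setOf_ordDifferential_neg (ω : Ω[F⁄K]) :
    {v : Place K F | v.ordDifferential ω < 0}.Finite := by
  obtain ⟨x, hx, hfin⟩ := id hF
  rcases eq_or_ne ω 0 with rfl | hω
  · convert Set.finite_empty
    ext v
    simp [ordDifferential_zero hF v]
  have hdx : D K F x ≠ 0 := KaehlerGen.FF.D_ne_zero hF hx
  obtain ⟨f, hf⟩ : ∃ f : F, f • D K F x = ω := by
    have : ω ∈ Submodule.span F {D K F x} := by
      rw [KaehlerGen.FF.span_D_eq_top hF hx]; exact Submodule.mem_top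
    exact Submodule.mem_span_singleton.mp this
  have hf0 : f ≠ 0 := by
    rintro rfl
    exact hω (by rw [← hf, zero_smul])
  refine ((PrincipalDegreeCore.ord_support_finite hZ hF f hf0).union
    (Hurwitz.polesOf_finite hZ hF hx)).subset ?_
  intro v hv
  rw [Set.mem_ofPred_eq, ← hf, ordDifferential_smul hF v hf0 hdx] at hv
  by_contra hnot
  rw [Set.mem_union, not_or] at hnot
  have h1 : v.ord f = 0 := by
    by_contra h
    exact hnot.1 h
  have h2 := ordDifferential_D_nonneg hF hZ hx hnot.2
  omega

/-- If the non-constant function `x` is unramified outside a finite set `S` of values (and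
`∞`), then every nonzero differential has a divisor. -/
theorem hasCanonicalDivisor_of_card {x : F} (hx : Transcendental K x) (S : Finset K)
    (hS : ∀ a ∉ S, Nat.card (zerosOver x a)
      = Module.finrank (IntermediateField.adjoin K ({x} : Set F)) F) :
    HasCanonicalDivisor (K := K) (F := F) := by
  classical
  refine ⟨fun ω hω => ?_⟩
  have hdx : D K F x ≠ 0 := KaehlerGen.FF.D_ne_zero hF hx
  obtain ⟨f, hf⟩ : ∃ f : F, f • D K F x = ω := by
    have : ω ∈ Submodule.span F {D K F x} := by
      rw [KaehlerGen.FF.span_D_eq_top hF hx]; exact Submodule.mem_top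
    exact Submodule.mem_span_singleton.mp this
  have hf0 : f ≠ 0 := by
    rintro rfl
    exact hω (by rw [← hf, zero_smul])
  set U : Finset (Place K F) := (Hurwitz.polesOf_finite hZ hF hx).toFinset ∪
      S.biUnion fun a => (Hurwitz.zerosOver_finite hZ hF hx a).toFinset with hUdef
  have hU : (U : Set (Place K F)).Finite := Finset.finite_toSet U
  have hfin : (Function.support fun v : Place K F => v.ordDifferential ω).Finite := by
    refine ((PrincipalDegreeCore.ord_support_finite hZ hF f hf0).union hU).subset ?_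
    intro v hv
    rw [Function.mem_support, ← hf, ordDifferential_smul hF v hf0 hdx] at hv
    by_contra hnot
    rw [Set.mem_union, not_or] at hnot
    have h1 : v.ord f = 0 := by
      by_contra h
      exact hnot.1 h
    have hvU := hnot.2
    rw [Finset.mem_coe, hUdef, Finset.mem_union, not_or] at hvU
    have hvP : v ∉ polesOf K x :=
      fun h => hvU.1 ((Hurwitz.polesOf_finite hZ hF hx).mem_toFinset.mpr h)
    obtain ⟨a, ha⟩ := (Hurwitz.mem_polesOf_or_exists_mem_zerosOver hZ hF hx v).resolve_left hvP
    have haS : a ∉ S := fun haS => hvU.2 (Finset.mem_biUnion.mpr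
      ⟨a, haS, (Hurwitz.zerosOver_finite hZ hF hx a).mem_toFinset.mpr ha⟩)
    have h2 : v.ordDifferential (D K F x) = 0 := by
      rw [Hurwitz.ordDifferential_D_of_mem_zerosOver hZ hF ha,
        Hurwitz.ord_eq_one_of_card_eq hZ hF hx a (hS a haS) ha, sub_self]
    omega
  exact ⟨Finsupp.ofSupportFinite _ hfin, fun v => rfl⟩

end Poles

/-! ### Regular differentials -/

/-- The `K`-space of everywhere regular differentials. -/
def regularDifferentials (hF : IsFunctionField1 K F) : Submodule K Ω[F⁄K] where
  carrier := {ω | ∀ v : Place K F, 0 ≤ v.ordDifferential ω}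
  zero_mem' := fun v => (ordDifferential_zero hF v).ge
  add_mem' := fun {ω ω'} h h' v => ordDifferential_add_of_le hF v le_rfl (h v) (h' v)
  smul_mem' := fun c ω h v => by
    rcases eq_or_ne c 0 with rfl | hc
    · rw [zero_smul]; exact (ordDifferential_zero hF v).ge
    · rw [ordDifferential_const_smul hF v hc]; exact h v

theorem mem_regularDifferentials (hF : IsFunctionField1 K F) {ω : Ω[F⁄K]} :
    ω ∈ regularDifferentials hF ↔ ∀ v : Place K F, 0 ≤ v.ordDifferential ω := Iff.rfl

/-- Multiplication by `ω₀` identifies `L(div ω₀)` with the regular differentials. -/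
noncomputable def regularEquiv (hF : IsFunctionField1 K F) {ω₀ : Ω[F⁄K]} (hω₀ : ω₀ ≠ 0)
    (W : Divisor K F) (hW : ∀ v : Place K F, W v = v.ordDifferential ω₀) :
    riemannRochSpace W ≃ₗ[K] regularDifferentials hF := by
  have hmem : ∀ f : F, f ∈ riemannRochSpace W ↔ f • ω₀ ∈ regularDifferentials hF := by
    intro f
    rcases eq_or_ne f 0 with rfl | hf
    · simp
    · rw [mem_riemannRochSpace_of_ne_zero hf, mem_regularDifferentials]
      refine forall_congr' fun v => ?_
      rw [ordDifferential_smul hF v hf hω₀, hW v]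
  have hspan : ∀ ω : Ω[F⁄K], ∃ f : F, f • ω₀ = ω := by
    intro ω
    have hfr := KaehlerGen.FF.finrank_eq_one hF
    have : Submodule.span F {ω₀} = ⊤ := by
      have h1 : finrank F (Submodule.span F {ω₀}) = 1 := finrank_span_singleton hω₀
      have : FiniteDimensional F Ω[F⁄K] := FiniteDimensional.of_finrank_pos (by omega)
      exact Submodule.eq_top_of_finrank_eq (by rw [h1, hfr])
    have hω : ω ∈ Submodule.span F {ω₀} := this ▸ Submodule.mem_top
    exact Submodule.mem_span_singleton.mp hω
  let φ : riemannRochSpace W →ₗ[K] regularDifferentials hF :=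
    { toFun := fun f => ⟨(f : F) • ω₀, (hmem f).mp f.2⟩
      map_add' := fun f g => Subtype.ext (add_smul (f : F) (g : F) ω₀)
      map_smul' := fun c f => Subtype.ext (by
        show ((c • (f : F)) • ω₀ : Ω[F⁄K]) = c • ((f : F) • ω₀)
        rw [smul_assoc]) }
  refine LinearEquiv.ofBijective φ ⟨?_, ?_⟩
  · intro f g hfg
    have h : ((f : F) - (g : F)) • ω₀ = 0 := by
      rw [sub_smul, sub_eq_zero]
      exact congrArg Subtype.val hfg
    rcases smul_eq_zero.mp h with h | h
    · exact Subtype.ext (sub_eq_zero.mp h)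
    · exact absurd h hω₀
  · rintro ⟨ω, hω⟩
    obtain ⟨f, rfl⟩ := hspan ω
    exact ⟨⟨f, (hmem f).mpr hω⟩, rfl⟩

theorem finrank_regularDifferentials (hF : IsFunctionField1 K F) {ω₀ : Ω[F⁄K]} (hω₀ : ω₀ ≠ 0)
    (W : Divisor K F) (hW : ∀ v : Place K F, W v = v.ordDifferential ω₀) :
    finrank K (regularDifferentials hF) = finrank K (riemannRochSpace W) :=
  (regularEquiv hF hω₀ W hW).finrank_eq.symm

/-! ### `ℓ(0) = 1` -/

theorem finrank_riemannRochSpace_zero (hF : IsFunctionField1 K F) (hZ : ZerosTheorem K F)
    [Nonempty (Place K F)] :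
    finrank K (riemannRochSpace (0 : Divisor K F)) = 1 := by
  obtain ⟨hfd, hle⟩ := finrank_riemannRochSpace_le hF hZ (0 : Divisor K F)
  have h1 : (1 : F) ∈ riemannRochSpace (0 : Divisor K F) := by
    rw [mem_riemannRochSpace_of_ne_zero one_ne_zero]
    intro v
    simp
  have hpos : 0 < finrank K (riemannRochSpace (0 : Divisor K F)) := by
    rw [Module.finrank_pos_iff_exists_ne_zero]
    exact ⟨⟨1, h1⟩, fun h => one_ne_zero (congrArg Subtype.val h)⟩
  have : Divisor.degree (0 : Divisor K F) = 0 := map_zero _
  rw [this] at hle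
  have h2 : (finrank K (riemannRochSpace (0 : Divisor K F)) : ℤ) ≤ 1 := by simpa using hle
  omega

/-! ### The Prelude's `genus` -/

theorem genus_eq_of_degree [HasCanonicalDivisor (K := K) (F := F)] (hF : IsFunctionField1 K F)
    (g : ℕ)
    (hdeg : ∀ (ω : Ω[F⁄K]) (hω : ω ≠ 0),
      Divisor.degree (canonicalDivisorOf hω) = 2 * (g : ℤ) - 2) :
    AlgebraicCurve.genus K F = g := by
  classical
  have hex : ∃ ω : Ω[F⁄K], ω ≠ 0 := KaehlerGen.FF.exists_ne_zero hF
  unfold AlgebraicCurve.genus
  rw [dif_pos hex, hdeg _ hex.choose_spec]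
  have : (2 * (g : ℤ) - 2 + 2).toNat = 2 * g := by omega
  rw [this]
  omega

/-! ### The modular function field -/

/-- `HasCanonicalDivisor` for the function field of `X₀(N)` over `ℚ̄`, from S24's ramification
data (`j` is unramified outside `0`, `1728`, `∞`). -/
theorem hasCanonicalDivisor_FBar (N : ℕ) [NeZero N] (hB : ModularRamificationData N)
    (hZ : ZerosTheorem Kbar (FBar N)) :
    HasCanonicalDivisor (K := Kbar) (F := FBar N) := by
  classical
  have hF : IsFunctionField1 Kbar (FBar N) := ⟨jBar N, hB.transcendental, hB.finite⟩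
  refine hasCanonicalDivisor_of_card hF hZ hB.transcendental ({0, 1728} : Finset Kbar) ?_
  intro a ha
  have h0 : a ≠ 0 := fun h => ha (by simp [h])
  have h1 : a ≠ 1728 := fun h => ha (by simp [h])
  rw [hB.card_generic a h0 h1, hB.degree]

end Fermat.Agent.S20.CanonicalDiv
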