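import Mathlib
import Fermat.Agent.S20.CanonicalDiv

/-!
# S20, block RR: the final export, from the one-line Riemann–Roch consequence `(★)`

`(★)`: there are `ω₀ ≠ 0` and a divisor `W = div ω₀` with `2 ℓ(W) = deg W + 2`.

From `(★)`: `finrank K (regularDifferentials hF) = genus K F` (the Prelude's genus), and for the
modular function field, `= genusFormula N` given the statement of S24.
-/

set_option autoImplicit false

open AlgebraicCurve KaehlerDifferential IntermediateField Module

namespace Fermat.Agent.S20.RegularGenus

open Fermat.Agent.S24 Fermat.Agent.S20.RRBridge Fermat.Agent.S20.CanonicalDiv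
open Fermat.Agent.S24.PrincipalDegreeCore (ZerosTheorem)

variable {K F : Type*} [Field K] [Field F] [Algebra K F] [IsAlgClosed K] [CharZero K]

/-- The statement `(★)` produced by the Riemann–Roch block. -/
def Star (K F : Type*) [Field K] [Field F] [Algebra K F] : Prop :=
  ∃ ω₀ : Ω[F⁄K], ω₀ ≠ 0 ∧ ∃ W : Divisor K F, (∀ v : Place K F, W v = v.ordDifferential ω₀) ∧
    2 * (finrank K (riemannRochSpace W) : ℤ) = Divisor.degree W + 2

/-- All canonical divisors have the same degree. -/
theorem degree_canonicalDivisorOf_eq [HasCanonicalDivisor (K := K) (F := F)]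
    (hF : IsFunctionField1 K F) (hZ : ZerosTheorem K F) {ω₀ : Ω[F⁄K]} (hω₀ : ω₀ ≠ 0)
    (W : Divisor K F) (hW : ∀ v : Place K F, W v = v.ordDifferential ω₀)
    {ω : Ω[F⁄K]} (hω : ω ≠ 0) :
    Divisor.degree (canonicalDivisorOf hω) = Divisor.degree W := by
  obtain ⟨f, hf⟩ : ∃ f : F, f • ω₀ = ω := by
    have hfr := KaehlerGen.FF.finrank_eq_one hF
    have : Submodule.span F {ω₀} = ⊤ := by
      have h1 : finrank F (Submodule.span F {ω₀}) = 1 := finrank_span_singleton hω₀
      have : FiniteDimensional F Ω[F⁄K] := FiniteDimensional.of_finrank_pos (by omega)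
      exact Submodule.eq_top_of_finrank_eq (by rw [h1, hfr])
    have hω' : ω ∈ Submodule.span F {ω₀} := this ▸ Submodule.mem_top
    exact Submodule.mem_span_singleton.mp hω'
  have hf0 : f ≠ 0 := by
    rintro rfl
    exact hω (by rw [← hf, zero_smul])
  have hdiv : ∀ v : Place K F, (canonicalDivisorOf hω - W) v = v.ord f := by
    intro v
    rw [Finsupp.sub_apply, canonicalDivisorOf_apply hω v, hW v]
    have := ordDifferential_smul hF v hf0 hω₀
    rw [hf] at this
    omega
  have h0 := PrincipalDegreeCore.degree_eq_zero_of_forall_eq_ord hZ hF f hf0 _ hdiv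
  rw [map_sub, sub_eq_zero] at h0
  exact h0

/-- **Final export of the Riemann–Roch block** (given `(★)`): the space of regular
differentials has dimension the genus. -/
theorem finrank_regularDifferentials_eq_genus [HasCanonicalDivisor (K := K) (F := F)]
    (hF : IsFunctionField1 K F) (hZ : ZerosTheorem K F) (hstar : Star K F) :
    finrank K (regularDifferentials hF) = AlgebraicCurve.genus K F := by
  obtain ⟨ω₀, hω₀, W, hW, h2⟩ := hstar
  rw [finrank_regularDifferentials hF hω₀ W hW]
  symm
  apply genus_eq_of_degree hF
  intro ω hω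
  rw [degree_canonicalDivisorOf_eq hF hZ hω₀ W hW hω]
  omega

/-- The same for the modular function field, in the shape consumed by `S20.lean`:
`hS24` is the statement of S24 (`Fermat.Agent.S24.result N`). -/
theorem finrank_regularDifferentials_FBar (N : ℕ) [NeZero N]
    [HasCanonicalDivisor (K := Kbar) (F := FBar N)]
    (hF : IsFunctionField1 Kbar (FBar N)) (hZ : ZerosTheorem Kbar (FBar N))
    (hstar : Star Kbar (FBar N))
    (hS24 : (AlgebraicCurve.genus Kbar (FBar N) : ℚ) = ModularCurve.genusFormula N) :
    (finrank Kbar (regularDifferentials hF) : ℚ) = ModularCurve.genusFormula N := by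
  rw [finrank_regularDifferentials_eq_genus hF hZ hstar, hS24]

end Fermat.Agent.S20.RegularGenus
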