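import Mathlib
import Fermat.Agent.S20.RegularGenus
import Fermat.Agent.S24.ZerosBackupThm
import Fermat.Agent.S24.CombBlockC

/-!
# S20 / S21: the lower bound `(L)` from its three inputs

`genusFormula N ≤ dim S₂(Γ₀(N))` follows from

* `hB : ModularRamificationData N` (Block B of S24; Blocks A and C are unconditional),
* `hstar : RegularGenus.Star Kbar (FBar N)` (the Riemann–Roch block: a canonical divisor `W`
  with `2 ℓ(W) = deg W + 2`),
* `hdict : DictLower N` (the one-directional dictionary: `Kbar`-independent regular
  differentials give as many `ℂ`-independent cusp forms).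
-/

set_option autoImplicit false

open AlgebraicCurve KaehlerDifferential IntermediateField Module ModularCurve

namespace Fermat.Agent.S20.Lower

open Fermat.Agent.S24 Fermat.Agent.S20.CanonicalDiv Fermat.Agent.S20.RegularGenus

/-- The dictionary interface: any finite `Kbar`-linearly independent family of regular
differentials of the function field of `X₀(N)` is bounded in size by `dim S₂(Γ₀(N))`. -/
def DictLower (N : ℕ) [NeZero N] : Prop :=
  ∀ (n : ℕ) (η : Fin n → Ω[FBar N⁄Kbar]), LinearIndependent Kbar η →
    (∀ (i : Fin n) (v : Place Kbar (FBar N)), 0 ≤ v.ordDifferential (η i)) →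
    n ≤ Module.finrank ℂ (CuspForm (CongruenceSubgroup.Gamma0 N) 2)

/-- The lower bound `(L)` from Block B of S24, the Riemann–Roch statement `(★)` and the
dictionary. -/
theorem genusFormula_le_finrank_cuspForm (N : ℕ) [NeZero N]
    (hB : ModularRamificationData N) (hstar : Star Kbar (FBar N)) (hdict : DictLower N) :
    genusFormula N ≤ (Module.finrank ℂ (CuspForm (CongruenceSubgroup.Gamma0 N) 2) : ℚ) := by
  classical
  have hF : IsFunctionField1 Kbar (FBar N) := ⟨jBar N, hB.transcendental, hB.finite⟩
  have hZ : PrincipalDegreeCore.ZerosTheorem Kbar (FBar N) := ZerosBackup.zerosTheorem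
  haveI : HasCanonicalDivisor (K := Kbar) (F := FBar N) := hasCanonicalDivisor_FBar N hB hZ
  have hS24 : (AlgebraicCurve.genus Kbar (FBar N) : ℚ) = genusFormula N :=
    genus_eq_genusFormula_of_blocks N ZerosBackup.hurwitzFormula hB (Comb.genusFormulaIsNat N)
  have hreg := finrank_regularDifferentials_FBar N hF hZ hstar hS24
  rw [← hreg]
  set n := finrank Kbar (regularDifferentials hF) with hn
  have hle : n ≤ Module.finrank ℂ (CuspForm (CongruenceSubgroup.Gamma0 N) 2) := by
    rcases Nat.eq_zero_or_pos n with h0 | hpos
    · rw [h0]; exact Nat.zero_le _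
    · haveI : Module.Finite Kbar (regularDifferentials hF) := Module.finite_of_finrank_pos hpos
      let b := Module.finBasis Kbar (regularDifferentials hF)
      refine hdict n (fun i => ((b i : regularDifferentials hF) : Ω[FBar N⁄Kbar])) ?_ ?_
      · have := b.linearIndependent
        exact this.map' (regularDifferentials hF).subtype (Submodule.ker_subtype _)
      · intro i v
        exact (b i).2 v
  exact_mod_cast hle

end Fermat.Agent.S20.Lower
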