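import Mathlib
import Fermat.Prelude.Def_AlgebraicCurve_Repartitions
import Fermat.Prelude.Def_AlgebraicCurve_CanonicalDivisor
import Fermat.Agent.S24.DiffOrder
import Fermat.Agent.S24.PlaceDeg1

/-!
# S20 / R6: Kähler differentials versus Weil differentials, and the final export of the
Riemann–Roch block

`K` algebraically closed of characteristic zero, `F / K` a function field of one variable.
Given local residues `res v : Ω[F⁄K] →ₗ[K] K` (interface `ResidueData`: regular products have no
residue, `res (π⁻¹ dπ) = 1`, residue theorem), every Kähler differential `ω` defines a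
`K`-linear functional `theta ω` on the repartitions (adeles) of `F`,
`r ↦ ∑ᶠ v, res v (r v • ω)`, which kills the principal repartitions and kills `A(D)` exactly when
`D ≤ div ω`.  Feeding this into the theory of Weil differentials (interface
`WeilDivisorTheorem`) identifies the divisor of a Kähler differential as a canonical divisor in
the sense of Riemann–Roch:

* `Divisor.degree (canonicalDivisorOf hω) = 2 * genusFF K F - 2`, so `genus K F = genusFF K F`;
* the space of regular differentials has dimension `genusFF K F = genus K F`.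
-/

set_option autoImplicit false

open AlgebraicCurve KaehlerDifferential

namespace Fermat.Agent.S20.KaehlerWeil

open Fermat.Agent.S24

variable {K F : Type*} [Field K] [Field F] [Algebra K F]

/-! ## Interfaces -/

variable (K F) in
/-- Local residues with the three properties used below (Tate's residues, or residues defined by
Laurent expansions, satisfy them). -/
structure ResidueData where
  /-- the local residue at a place -/
  res : Place K F → Ω[F⁄K] →ₗ[K] K
  /-- a differential `f dg` with `f`, `g` regular at `v` has no residue at `v` -/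
  res_eq_zero_of_mem : ∀ (v : Place K F) (f g : F), f ∈ v.toValuationSubring →
    g ∈ v.toValuationSubring → res v (f • D K F g) = 0
  /-- `res (dπ / π) = 1` for a uniformizer `π` -/
  res_dlog : ∀ (v : Place K F) (π : F), v.ord π = 1 → res v (π⁻¹ • D K F π) = 1
  /-- the residue theorem -/
  finsum_res : ∀ ω : Ω[F⁄K], ∑ᶠ v, res v ω = 0

/-- `W` is "the divisor" of the functional `φ` on repartitions: `φ` kills `A(D)` iff `D ≤ W`. -/
def IsWeilDivisor (φ : ↥(repartitions K F) →ₗ[K] K) (W : Divisor K F) : Prop :=
  ∀ D : Divisor K F, (∀ r ∈ repartitionsOf D, φ r = 0) ↔ D ≤ W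

variable (K F) in
/-- The output of the theory of Weil differentials (Stichtenoth 1.5): the divisor `W` of a
nonzero Weil differential satisfies `l(W) = g` and `deg W = 2g - 2`, `g = genusFF K F`. -/
def WeilDivisorTheorem : Prop :=
  ∀ (φ : ↥(repartitions K F) →ₗ[K] K) (W : Divisor K F), φ ≠ 0 →
    (∀ r ∈ principalRepartitions K F, φ r = 0) → IsWeilDivisor φ W →
    (Module.finrank K ↥(riemannRochSpace W) : ℤ) = genusFF K F ∧
      Divisor.degree W = 2 * (genusFF K F : ℤ) - 2


/-! ## Repartitions have finitely many poles -/

/-- Every repartition has only finitely many poles (given that every function does). -/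
theorem finite_poles (hfin : ∀ f : F, f ≠ 0 → {v : Place K F | v.ord f ≠ 0}.Finite)
    (r : ↥(repartitions K F)) :
    {v : Place K F | v.ord ((r : Place K F → F) v) < 0}.Finite := by
  have key : ∀ α ∈ repartitions K F, {v : Place K F | ¬ v.adicValuation (α v) ≤ 1}.Finite := by
    intro α hα
    induction hα using Algebra.adjoin_induction with
    | mem x hx => exact hx
    | algebraMap f =>
      rcases eq_or_ne f 0 with rfl | hf
      · convert Set.finite_empty
        ext v
        simp
      · refine (hfin f hf).subset fun v hv => ?_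
        have hv' : v.ord f < 0 := by
          have := (v.not_adicValuation_le_one_iff (f := f)).mp
          exact this hv
        exact hv'.ne
    | add x y _ _ hx hy =>
      refine (hx.union hy).subset fun v hv => ?_
      by_contra hcon
      simp only [Set.mem_union, Set.mem_ofPred_eq, not_or, not_not] at hcon
      exact hv ((Valuation.map_add _ _ _).trans (max_le hcon.1 hcon.2))
    | mul x y _ _ hx hy =>
      refine (hx.union hy).subset fun v hv => ?_
      by_contra hcon
      simp only [Set.mem_union, Set.mem_ofPred_eq, not_or, not_not] at hcon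
      apply hv
      show v.adicValuation (x v * y v) ≤ 1
      rw [map_mul]
      exact mul_le_one' hcon.1 hcon.2
  refine (key _ r.2).subset fun v hv => ?_
  exact (v.not_adicValuation_le_one_iff).mpr hv

/-! ## Consequences of the residue interface -/

section Residues

variable [IsAlgClosed K] [CharZero K] (hF : IsFunctionField1 K F) (R : ResidueData K F)

omit [IsAlgClosed K] [CharZero K] in
theorem ord_ne_zero_imp_ne_zero (v : Place K F) {f : F} (h : v.ord f ≠ 0) : f ≠ 0 := by
  rintro rfl
  exact h v.ord_zero

omit [IsAlgClosed K] [CharZero K] in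
/-- `0 ≤ ord_v ω` iff the coefficient of `ω` with respect to `dπ_v` is regular at `v`. -/
theorem ordDifferential_nonneg_iff (v : Place K F) (ω : Ω[F⁄K]) :
    0 ≤ v.ordDifferential ω ↔ v.differentialCoeff ω ∈ v.toValuationSubring := by
  rcases eq_or_ne (v.differentialCoeff ω) 0 with h0 | h0
  · simp [Place.ordDifferential, h0]
  · exact (mem_valuationSubring_iff v _ h0).symm

include hF

/-- A differential which is regular at `v` has no residue at `v`. -/
theorem res_eq_zero_of_ordDifferential_nonneg (v : Place K F) (ω : Ω[F⁄K])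
    (h : 0 ≤ v.ordDifferential ω) : R.res v ω = 0 := by
  have := DiffOrder.dCoordGenerates hF v
  obtain ⟨π, hπ1, hπd⟩ := exists_uniformizer_dCoord v
  have hπ0 : π ≠ 0 := ord_ne_zero_imp_ne_zero v (by omega)
  have hω : v.differentialCoeff ω • v.dCoord = ω := v.differentialCoeff_smul_dCoord ω
  rw [← hω, hπd]
  refine R.res_eq_zero_of_mem v _ π ((ordDifferential_nonneg_iff v ω).mp h) ?_
  exact (mem_valuationSubring_iff v π hπ0).mpr (by omega)

/-- A differential with a simple pole at `v` has a nonzero residue at `v`. -/
theorem res_ne_zero_of_ordDifferential_eq_neg_one (v : Place K F) (ω : Ω[F⁄K])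
    (h : v.ordDifferential ω = -1) : R.res v ω ≠ 0 := by
  have := DiffOrder.dCoordGenerates hF v
  obtain ⟨π, hπ1, hπd⟩ := exists_uniformizer_dCoord v
  have hπ0 : π ≠ 0 := ord_ne_zero_imp_ne_zero v (by omega)
  set c := v.differentialCoeff ω with hc
  have hcord : v.ord c = -1 := h
  have hc0 : c ≠ 0 := ord_ne_zero_imp_ne_zero v (by omega)
  have hω : c • v.dCoord = ω := v.differentialCoeff_smul_dCoord ω
  set u := c * π with hu
  have hu0 : u ≠ 0 := mul_ne_zero hc0 hπ0
  have huord : v.ord u = 0 := by rw [hu, v.ord_mul hc0 hπ0, hcord, hπ1]; norm_num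
  obtain ⟨a, ha⟩ := exists_ord_sub_pos hF v u (by omega) hu0
  have ha0 : a ≠ 0 := by
    rintro rfl
    rcases ha with ha | ha
    · exact hu0 (by simpa using ha)
    · simp only [map_zero, sub_zero] at ha
      omega
  set m := (u - algebraMap K F a) * π⁻¹ with hm
  have hmmem : m ∈ v.toValuationSubring := by
    rcases eq_or_ne m 0 with h0 | h0
    · rw [h0]; exact v.toValuationSubring.zero_mem
    · rcases ha with ha | ha
      · exact absurd (by rw [hm, ha, sub_self, zero_mul]) h0
      · have hne : u - algebraMap K F a ≠ 0 := fun h' => h0 (by rw [hm, h', zero_mul])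
        refine (mem_valuationSubring_iff v m h0).mpr ?_
        rw [hm, v.ord_mul hne (inv_ne_zero hπ0), v.ord_inv, hπ1]
        omega
  have hdecomp : ω = a • (π⁻¹ • D K F π) + m • D K F π := by
    rw [← hω, hπd, ← smul_assoc, ← add_smul]
    congr 1
    rw [hm, hu, Algebra.smul_def]
    field_simp
    ring
  rw [hdecomp, map_add, map_smul, R.res_dlog v π hπ1, R.res_eq_zero_of_mem v m π hmmem
    ((mem_valuationSubring_iff v π hπ0).mpr (by omega)), add_zero, smul_eq_mul, mul_one]
  exact ha0

/-! ## The functional `theta ω` on repartitions -/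

variable [HasCanonicalDivisor (K := K) (F := F)]
  (hfin : ∀ f : F, f ≠ 0 → {v : Place K F | v.ord f ≠ 0}.Finite)

include hfin

/-- Only finitely many places contribute to `∑ᶠ v, res v (r v • ω)`. -/
theorem finite_support_res (ω : Ω[F⁄K]) (r : ↥(repartitions K F)) :
    (Function.support fun v : Place K F => R.res v ((r : Place K F → F) v • ω)).Finite := by
  rcases eq_or_ne ω 0 with rfl | hω
  · convert Set.finite_empty
    ext v
    simp
  · refine ((finite_poles hfin r).union
      (canonicalDivisorOf hω).support.finite_toSet).subset fun v hv => ?_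
    rw [Function.mem_support] at hv
    by_contra hcon
    simp only [Set.mem_union, Set.mem_ofPred_eq, Finset.mem_coe, Finsupp.mem_support_iff,
      canonicalDivisorOf_apply, not_or, not_lt, not_not] at hcon
    apply hv
    rcases eq_or_ne ((r : Place K F → F) v) 0 with h0 | h0
    · rw [h0, zero_smul, map_zero]
    · apply res_eq_zero_of_ordDifferential_nonneg hF R
      rw [DiffOrder.ordDifferential_smul' hF v _ h0 ω hω, hcon.2]
      omega

/-- The functional on repartitions attached to a Kähler differential:
`r ↦ ∑ᶠ v, res v (r v • ω)`. -/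
noncomputable def theta (ω : Ω[F⁄K]) : ↥(repartitions K F) →ₗ[K] K where
  toFun r := ∑ᶠ v : Place K F, R.res v ((r : Place K F → F) v • ω)
  map_add' r s := by
    rw [← finsum_add_distrib (finite_support_res hF R hfin ω r)
      (finite_support_res hF R hfin ω s)]
    refine finsum_congr fun v => ?_
    rw [← map_add, ← add_smul]
    rfl
  map_smul' c r := by
    rw [RingHom.id_apply, smul_finsum]
    refine finsum_congr fun v => ?_
    rw [← map_smul, ← smul_assoc]
    rfl

theorem theta_apply (ω : Ω[F⁄K]) (r : ↥(repartitions K F)) :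
    theta hF R hfin ω r = ∑ᶠ v : Place K F, R.res v ((r : Place K F → F) v • ω) := rfl

/-- `theta ω` kills the principal repartitions: this is the residue theorem. -/
theorem theta_principal (ω : Ω[F⁄K]) (r : ↥(repartitions K F))
    (hr : r ∈ principalRepartitions K F) : theta hF R hfin ω r = 0 := by
  obtain ⟨f, hf⟩ := mem_principalRepartitions_iff.mp hr
  rw [theta_apply, hf]
  exact R.finsum_res (f • ω)

/-- `theta ω` kills `A(D)` exactly when `D ≤ div ω`. -/
theorem theta_isWeilDivisor {ω : Ω[F⁄K]} (hω : ω ≠ 0) :
    IsWeilDivisor (theta hF R hfin ω) (canonicalDivisorOf hω) := by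
  intro E
  constructor
  · intro hkill
    rw [Finsupp.le_def]
    intro v₀
    by_contra hlt
    push Not at hlt
    classical
    obtain ⟨π, hπ1, -⟩ := exists_uniformizer_dCoord v₀
    have hπ0 : π ≠ 0 := ord_ne_zero_imp_ne_zero v₀ (by omega)
    set n : ℤ := -(canonicalDivisorOf hω v₀) - 1 with hn
    set h : F := π ^ n with hh
    have hh0 : h ≠ 0 := zpow_ne_zero n hπ0
    have hhord : v₀.ord h = n := by rw [hh, v₀.ord_zpow, hπ1, mul_one]
    set r₀ : Place K F → F := Pi.single v₀ h with hr₀
    have hr₀mem : r₀ ∈ repartitions K F := by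
      refine mem_repartitions_of_finite_ord ((Set.finite_singleton v₀).subset fun v hv => ?_)
      by_contra hne
      have hne' : v ≠ v₀ := hne
      simp only [Set.mem_ofPred_eq, hr₀, Pi.single_eq_of_ne hne', Place.ord_zero,
        lt_self_iff_false] at hv
    set r : ↥(repartitions K F) := ⟨r₀, hr₀mem⟩ with hr
    have hrE : r ∈ repartitionsOf E := by
      rw [mem_repartitionsOf_iff]
      intro v
      rcases eq_or_ne v v₀ with rfl | hne
      · right
        show -E v ≤ v.ord (r₀ v)
        rw [hr₀, Pi.single_eq_same, hhord, hn]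
        omega
      · left
        show r₀ v = 0
        rw [hr₀, Pi.single_eq_of_ne hne]
    have hval : theta hF R hfin ω r = R.res v₀ (h • ω) := by
      rw [theta_apply]
      rw [finsum_eq_single _ v₀]
      · show R.res v₀ (r₀ v₀ • ω) = _
        rw [hr₀, Pi.single_eq_same]
      · intro v hne
        show R.res v (r₀ v • ω) = 0
        rw [hr₀, Pi.single_eq_of_ne hne, zero_smul, map_zero]
    have hne : R.res v₀ (h • ω) ≠ 0 := by
      apply res_ne_zero_of_ordDifferential_eq_neg_one hF R
      rw [DiffOrder.ordDifferential_smul' hF v₀ h hh0 ω hω, hhord, hn,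
        ← canonicalDivisorOf_apply hω v₀]
      ring
    exact hne (hval ▸ hkill r hrE)
  · intro hle r hr
    rw [theta_apply]
    refine finsum_eq_zero_of_forall_eq_zero fun v => ?_
    rcases (mem_repartitionsOf_iff.mp hr) v with h0 | h0
    · rw [h0, zero_smul, map_zero]
    · rcases eq_or_ne ((r : Place K F → F) v) 0 with h1 | h1
      · rw [h1, zero_smul, map_zero]
      · apply res_eq_zero_of_ordDifferential_nonneg hF R
        rw [DiffOrder.ordDifferential_smul' hF v _ h1 ω hω, ← canonicalDivisorOf_apply hω v]
        have := Finsupp.le_def.mp hle v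
        omega

omit hF hfin [IsAlgClosed K] [CharZero K] [HasCanonicalDivisor (K := K) (F := F)] in
/-- A functional with a divisor is nonzero (if there is at least one place). -/
theorem ne_zero_of_isWeilDivisor [Nonempty (Place K F)] {φ : ↥(repartitions K F) →ₗ[K] K}
    {W : Divisor K F} (h : IsWeilDivisor φ W) : φ ≠ 0 := by
  rintro rfl
  obtain ⟨v₀⟩ := ‹Nonempty (Place K F)›
  have h1 := (h (W + Finsupp.single v₀ 1)).mp (fun r _ => rfl)
  have h2 := Finsupp.le_def.mp h1 v₀
  simp at h2

end Residues

/-! ## Regular differentials -/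

section Regular

variable [IsAlgClosed K] [CharZero K] (hF : IsFunctionField1 K F)

/-- The `K`-space of regular (holomorphic) differentials: `0 ≤ ord_v ω` at every place. -/
noncomputable def regularDifferentials : Submodule K Ω[F⁄K] where
  carrier := {ω | ∀ v : Place K F, 0 ≤ v.ordDifferential ω}
  zero_mem' := by
    intro v
    have := DiffOrder.dCoordGenerates hF v
    have := KaehlerGen.FF.nontrivial hF
    simp [Place.ordDifferential]
  add_mem' := by
    intro ω₁ ω₂ h₁ h₂ v
    have := DiffOrder.dCoordGenerates hF v
    have := KaehlerGen.FF.nontrivial hF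
    rw [ordDifferential_nonneg_iff] at *
    have hsum : v.differentialCoeff (ω₁ + ω₂) = v.differentialCoeff ω₁ + v.differentialCoeff ω₂ :=
      v.differentialCoeff_unique (by
        rw [add_smul, v.differentialCoeff_smul_dCoord, v.differentialCoeff_smul_dCoord])
    rw [hsum]
    exact v.toValuationSubring.add_mem _ _ ((ordDifferential_nonneg_iff v ω₁).mp (h₁ v))
      ((ordDifferential_nonneg_iff v ω₂).mp (h₂ v))
  smul_mem' := by
    intro c ω h v
    have := DiffOrder.dCoordGenerates hF v
    have := KaehlerGen.FF.nontrivial hF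
    rw [ordDifferential_nonneg_iff]
    have hsm : v.differentialCoeff (c • ω) = algebraMap K F c * v.differentialCoeff ω := by
      rw [← v.differentialCoeff_smul, algebraMap_smul]
    rw [hsm]
    exact v.toValuationSubring.mul_mem _ _ (v.algebraMap_mem' c)
      ((ordDifferential_nonneg_iff v ω).mp (h v))

theorem mem_regularDifferentials {ω : Ω[F⁄K]} :
    ω ∈ regularDifferentials hF ↔ ∀ v : Place K F, 0 ≤ v.ordDifferential ω := Iff.rfl

variable [HasCanonicalDivisor (K := K) (F := F)]

theorem smul_mem_regularDifferentials {ω₀ : Ω[F⁄K]} (hω₀ : ω₀ ≠ 0) {f : F}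
    (hf : f ∈ riemannRochSpace (canonicalDivisorOf hω₀)) :
    f • ω₀ ∈ regularDifferentials hF := by
  intro v
  rcases eq_or_ne f 0 with h0 | h0
  · rw [h0, zero_smul]
    exact (regularDifferentials hF).zero_mem v
  · rw [DiffOrder.ordDifferential_smul' hF v _ h0 ω₀ hω₀, ← canonicalDivisorOf_apply hω₀ v]
    rcases (mem_riemannRochSpace_iff.mp hf) v with h1 | h1
    · exact absurd h1 h0
    · omega

/-- Multiplication by a nonzero differential `ω₀`, as a linear map from `L(div ω₀)` to the
regular differentials. -/
noncomputable def rrSpaceMap {ω₀ : Ω[F⁄K]} (hω₀ : ω₀ ≠ 0) :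
    ↥(riemannRochSpace (canonicalDivisorOf hω₀)) →ₗ[K] ↥(regularDifferentials hF) where
  toFun f := ⟨(f : F) • ω₀, smul_mem_regularDifferentials hF hω₀ f.2⟩
  map_add' f g := by
    apply Subtype.ext
    show ((f + g : ↥(riemannRochSpace (canonicalDivisorOf hω₀))) : F) • ω₀ = _
    rw [Submodule.coe_add, add_smul]
    rfl
  map_smul' c f := by
    apply Subtype.ext
    show ((c • f : ↥(riemannRochSpace (canonicalDivisorOf hω₀))) : F) • ω₀ = _
    rw [Submodule.coe_smul, smul_assoc]
    rfl

theorem rrSpaceMap_bijective {ω₀ : Ω[F⁄K]} (hω₀ : ω₀ ≠ 0) :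
    Function.Bijective (rrSpaceMap hF hω₀) := by
  constructor
  · intro f g hfg
    have h1 : (f : F) • ω₀ = (g : F) • ω₀ := congrArg Subtype.val hfg
    have h2 : ((f : F) - (g : F)) • ω₀ = 0 := by rw [sub_smul, h1, sub_self]
    rcases smul_eq_zero.mp h2 with h | h
    · exact Subtype.ext (sub_eq_zero.mp h)
    · exact absurd h hω₀
  · rintro ⟨ω, hωreg⟩
    obtain ⟨f, hf⟩ :=
      (finrank_eq_one_iff_of_nonzero' ω₀ hω₀).mp (KaehlerGen.FF.finrank_eq_one hF) ω
    have hfmem : f ∈ riemannRochSpace (canonicalDivisorOf hω₀) := by
      rw [mem_riemannRochSpace_iff]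
      intro v
      rcases eq_or_ne f 0 with h0 | h0
      · exact Or.inl h0
      · right
        have := hωreg v
        rw [← hf, DiffOrder.ordDifferential_smul' hF v _ h0 ω₀ hω₀,
          ← canonicalDivisorOf_apply hω₀ v] at this
        omega
    exact ⟨⟨f, hfmem⟩, Subtype.ext hf⟩

/-- Multiplication by a nonzero differential `ω₀` identifies `L(div ω₀)` with the regular
differentials. -/
noncomputable def rrSpaceEquiv {ω₀ : Ω[F⁄K]} (hω₀ : ω₀ ≠ 0) :
    ↥(riemannRochSpace (canonicalDivisorOf hω₀)) ≃ₗ[K] ↥(regularDifferentials hF) :=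
  LinearEquiv.ofBijective (rrSpaceMap hF hω₀) (rrSpaceMap_bijective hF hω₀)

end Regular

/-! ## Final export -/

section Final

variable [IsAlgClosed K] [CharZero K] (hF : IsFunctionField1 K F) (R : ResidueData K F)
  [HasCanonicalDivisor (K := K) (F := F)] [Nonempty (Place K F)]
  (hfin : ∀ f : F, f ≠ 0 → {v : Place K F | v.ord f ≠ 0}.Finite)
  (hW : WeilDivisorTheorem K F)

include hF R hfin hW

/-- The divisor of a nonzero Kähler differential satisfies `l(W) = g` and `deg W = 2g - 2`,
`g = genusFF K F`. -/
theorem canonicalDivisorOf_spec {ω : Ω[F⁄K]} (hω : ω ≠ 0) :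
    (Module.finrank K ↥(riemannRochSpace (canonicalDivisorOf hω)) : ℤ) = genusFF K F ∧
      Divisor.degree (canonicalDivisorOf hω) = 2 * (genusFF K F : ℤ) - 2 :=
  hW (theta hF R hfin ω) (canonicalDivisorOf hω)
    (ne_zero_of_isWeilDivisor (theta_isWeilDivisor hF R hfin hω))
    (theta_principal hF R hfin ω) (theta_isWeilDivisor hF R hfin hω)

/-- `deg (div ω) = 2g - 2`. -/
theorem degree_canonicalDivisorOf {ω : Ω[F⁄K]} (hω : ω ≠ 0) :
    Divisor.degree (canonicalDivisorOf hω) = 2 * (genusFF K F : ℤ) - 2 :=
  (canonicalDivisorOf_spec hF R hfin hW hω).2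

/-- The genus defined through the degree of a canonical divisor agrees with the genus defined
through repartitions. -/
theorem genus_eq_genusFF : genus K F = genusFF K F := by
  have hex : ∃ ω : Ω[F⁄K], ω ≠ 0 := KaehlerGen.FF.exists_ne_zero hF
  rw [genus, dif_pos hex, degree_canonicalDivisorOf hF R hfin hW hex.choose_spec]
  have : (2 * (genusFF K F : ℤ) - 2 + 2).toNat = 2 * genusFF K F := by omega
  rw [this]
  omega

/-- **Riemann–Roch, final export**: the space of regular differentials has dimension `genusFF`. -/
theorem finrank_regularDifferentials_eq_genusFF :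
    Module.finrank K ↥(regularDifferentials hF) = genusFF K F := by
  obtain ⟨ω₀, hω₀⟩ := KaehlerGen.FF.exists_ne_zero hF
  have h1 := (canonicalDivisorOf_spec hF R hfin hW hω₀).1
  rw [← (rrSpaceEquiv hF hω₀).finrank_eq]
  exact_mod_cast h1

/-- **Riemann–Roch, final export**: the space of regular differentials has dimension
`genus K F` (the genus of the Prelude, defined by `deg (div ω) = 2g - 2`). -/
theorem finrank_regularDifferentials_eq_genus :
    Module.finrank K ↥(regularDifferentials hF) = genus K F := by
  rw [finrank_regularDifferentials_eq_genusFF hF R hfin hW, genus_eq_genusFF hF R hfin hW]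

end Final

end Fermat.Agent.S20.KaehlerWeil
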