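/-
S20, block RR, piece R3: the weak Riemann–Roch theorem via repartitions (Prelude
`repartitions`, `repartitionsOf`, `principalRepartitions`, `H1`, `riemannRochSpace`, `genusFF`):
  `ℓ(D) - dim H¹(D) = deg D + 1 - g`,  `g = genusFF K F = dim H¹(0)`,
together with finite-dimensionality of all `L(D)` and `H¹(D)`.
Pure algebra (Mathlib + Prelude only).  Owner: helper35.
-/
import Mathlib
import Fermat.Prelude.Def_AlgebraicCurve_Repartitions

set_option autoImplicit false
set_option linter.style.haveILetI false

namespace Fermat.Agent.S20.RRWeak

open AlgebraicCurve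

/-! ### Abstract linear algebra: one-dimensional steps -/

section Abstract

variable {K : Type*} [Field K]

/-- Adding one new vector to a finite-dimensional subspace raises the dimension by one. -/
theorem finrank_sup_span_singleton {V : Type*} [AddCommGroup V] [Module K V]
    (M : Submodule K V) {g : V} (hg : g ∉ M) [Module.Finite K M] :
    Module.Finite K ↥(M ⊔ K ∙ g) ∧
      Module.finrank K ↥(M ⊔ K ∙ g) = Module.finrank K M + 1 := by
  have hg0 : g ≠ 0 := fun h => hg (h ▸ M.zero_mem)
  have hdisj : M ⊓ K ∙ g = ⊥ := by
    rw [← disjoint_iff]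
    exact (Submodule.disjoint_span_singleton' hg0).2 hg
  have h1 := Submodule.finrank_sup_add_finrank_inf_eq M (K ∙ g)
  rw [hdisj, finrank_bot, add_zero, finrank_span_singleton hg0] at h1
  exact ⟨inferInstance, h1⟩

/-- Enlarging the denominator of a quotient by one new vector lowers the dimension by one. -/
theorem quot_sup_span_singleton {A : Type*} [AddCommGroup A] [Module K A]
    (S : Submodule K A) {e : A} (he : e ∉ S) :
    (Module.Finite K (A ⧸ S) ↔ Module.Finite K (A ⧸ (S ⊔ K ∙ e))) ∧
      (Module.Finite K (A ⧸ S) →
        Module.finrank K (A ⧸ S) = Module.finrank K (A ⧸ (S ⊔ K ∙ e)) + 1) := by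
  set T : Submodule K A := S ⊔ K ∙ e with hT
  set N : Submodule K (A ⧸ S) := T.map S.mkQ with hN
  have hNspan : N = K ∙ (S.mkQ e) := by
    rw [hN, hT, Submodule.map_sup, Submodule.mkQ_map_self, bot_sup_eq, Submodule.map_span,
      Set.image_singleton]
  have he0 : S.mkQ e ≠ 0 := by
    rw [Submodule.mkQ_apply, ne_eq, Submodule.Quotient.mk_eq_zero]
    exact he
  have hNfin : Module.Finite K N := by
    rw [hNspan]; infer_instance
  have hNrank : Module.finrank K N = 1 := by
    rw [hNspan]; exact finrank_span_singleton he0
  let eqv : ((A ⧸ S) ⧸ N) ≃ₗ[K] A ⧸ T :=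
    Submodule.quotientQuotientEquivQuotient S T le_sup_left
  refine ⟨⟨fun h => ?_, fun h => ?_⟩, fun h => ?_⟩
  · exact Module.Finite.equiv eqv
  · haveI : Module.Finite K ((A ⧸ S) ⧸ N) := Module.Finite.equiv eqv.symm
    exact Module.Finite.of_submodule_quotient N
  · have h2 := Submodule.finrank_quotient_add_finrank N
    rw [hNrank, eqv.finrank_eq] at h2
    exact h2.symm

end Abstract

/-! ### Constant and one-place repartitions -/

section Reps

variable {K F : Type*} [Field K] [Field F] [Algebra K F]

/-- The constant (principal) repartition attached to `g`. -/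
noncomputable def constRep (g : F) : ↥(repartitions K F) :=
  algebraMap F ↥(repartitions K F) g

@[simp]
theorem constRep_apply (g : F) (v : Place K F) :
    ((constRep g : ↥(repartitions K F)) : Place K F → F) v = g := rfl

theorem constRep_mem_repartitionsOf_iff {D : Divisor K F} {g : F} :
    (constRep g : ↥(repartitions K F)) ∈ repartitionsOf D ↔ g ∈ riemannRochSpace D :=
  Iff.rfl

theorem mem_principalRepartitions_iff_constRep {α : ↥(repartitions K F)} :
    α ∈ principalRepartitions K F ↔ ∃ g : F, α = constRep g := by
  rw [mem_principalRepartitions_iff]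
  constructor
  · rintro ⟨g, hg⟩
    exact ⟨g, Subtype.ext hg⟩
  · rintro ⟨g, rfl⟩
    exact ⟨g, rfl⟩

theorem constRep_mem_principalRepartitions (g : F) :
    (constRep g : ↥(repartitions K F)) ∈ principalRepartitions K F :=
  mem_principalRepartitions_iff_constRep.2 ⟨g, rfl⟩

theorem constRep_sub (g h : F) :
    (constRep (g - h) : ↥(repartitions K F)) = constRep g - constRep h :=
  map_sub _ _ _

theorem constRep_smul (c : K) (g : F) :
    (constRep (c • g) : ↥(repartitions K F)) = c • constRep g := by
  apply Subtype.ext
  funext v
  rfl

open Classical in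
/-- The repartition with the single (possibly) nonzero component `x` at `v`. -/
noncomputable def singleRep (v : Place K F) (x : F) : ↥(repartitions K F) :=
  ⟨fun w => if w = v then x else 0, mem_repartitions_of_finite (by
    refine (Set.finite_singleton v).subset fun w hw => ?_
    by_contra hne
    apply hw
    have : w ≠ v := hne
    simp [this])⟩

theorem singleRep_apply_same (v : Place K F) (x : F) :
    ((singleRep v x : ↥(repartitions K F)) : Place K F → F) v = x := by
  simp [singleRep]

theorem singleRep_apply_ne {v w : Place K F} (h : w ≠ v) (x : F) :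
    ((singleRep v x : ↥(repartitions K F)) : Place K F → F) w = 0 := by
  simp [singleRep, h]

theorem coe_sub_apply (α β : ↥(repartitions K F)) (v : Place K F) :
    ((α - β : ↥(repartitions K F)) : Place K F → F) v =
      (α : Place K F → F) v - (β : Place K F → F) v := rfl

theorem coe_smul_apply (c : K) (α : ↥(repartitions K F)) (v : Place K F) :
    ((c • α : ↥(repartitions K F)) : Place K F → F) v = c • (α : Place K F → F) v := rfl

end Reps

/-! ### The one-place step `D ↦ D + v` -/

section Step

variable {K F : Type*} [Field K] [Field F] [Algebra K F]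

/-- `O_v = K + 𝔪_v` in `ord` form (S24 `PlaceDeg.exists_const_ord_sub_pos`). -/
def ResidueIsBase (K F : Type*) [Field K] [Field F] [Algebra K F] : Prop :=
  ∀ (v : Place K F) (f : F), f ≠ 0 → 0 ≤ v.ord f →
    ∃ c : K, f = algebraMap K F c ∨ 0 < v.ord (f - algebraMap K F c)

theorem add_single_apply_same (D : Divisor K F) (v : Place K F) :
    (D + Finsupp.single v 1 : Divisor K F) v = D v + 1 := by
  rw [Finsupp.add_apply, Finsupp.single_eq_same]

theorem add_single_apply_ne (D : Divisor K F) {v w : Place K F} (h : w ≠ v) :
    (D + Finsupp.single v 1 : Divisor K F) w = D w := by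
  rw [Finsupp.add_apply, Finsupp.single_eq_of_ne h, add_zero]

theorem repartitionsOf_le_add_single (D : Divisor K F) (v : Place K F) :
    repartitionsOf D ≤ repartitionsOf (D + Finsupp.single v 1) :=
  repartitionsOf_mono (by
    intro w
    by_cases h : w = v
    · subst h; rw [add_single_apply_same]; omega
    · rw [add_single_apply_ne D h])

theorem riemannRochSpace_le_add_single (D : Divisor K F) (v : Place K F) :
    riemannRochSpace D ≤ riemannRochSpace (D + Finsupp.single v 1) := by
  intro g hg
  exact constRep_mem_repartitionsOf_iff.1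
    (repartitionsOf_le_add_single D v (constRep_mem_repartitionsOf_iff.2 hg))

/-- `A(D + v) / A(D)` is one-dimensional: a generator `e`. -/
theorem exists_step_generator (hres : ResidueIsBase K F) (D : Divisor K F) (v : Place K F) :
    ∃ e : ↥(repartitions K F), e ∈ repartitionsOf (D + Finsupp.single v 1) ∧
      e ∉ repartitionsOf D ∧
      ∀ α ∈ repartitionsOf (D + Finsupp.single v 1), ∃ c : K, α - c • e ∈ repartitionsOf D := by
  obtain ⟨π, hπ⟩ := IsDiscreteValuationRing.exists_irreducible v.toValuationSubring
  have hπF : (π : F) ≠ 0 := by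
    simpa [ne_eq, ZeroMemClass.coe_eq_zero] using hπ.ne_zero
  set n : ℤ := D v + 1 with hn
  set y : F := (π : F) ^ n with hy
  have hy0 : y ≠ 0 := zpow_ne_zero n hπF
  have hordy : v.ord y = n := by
    rw [hy, v.ord_zpow, v.ord_coe_irreducible hπ, mul_one]
  have hordyi : v.ord y⁻¹ = -n := by rw [v.ord_inv, hordy]
  refine ⟨singleRep v y⁻¹, ?_, ?_, ?_⟩
  · rw [mem_repartitionsOf_iff]
    intro w
    by_cases h : w = v
    · subst h
      right
      rw [singleRep_apply_same, hordyi, add_single_apply_same]
    · left
      exact singleRep_apply_ne h _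
  · rw [mem_repartitionsOf_iff]
    intro h
    rcases h v with h | h
    · rw [singleRep_apply_same] at h
      exact inv_ne_zero hy0 h
    · rw [singleRep_apply_same, hordyi] at h
      omega
  · intro α hα
    rw [mem_repartitionsOf_iff] at hα
    -- the component at `v`
    have key : ∃ c : K, (α : Place K F → F) v - c • y⁻¹ = 0 ∨
        -D v ≤ v.ord ((α : Place K F → F) v - c • y⁻¹) := by
      rcases hα v with h0 | hord
      · exact ⟨0, Or.inl (by rw [h0, zero_smul, sub_zero])⟩
      · by_cases h0 : (α : Place K F → F) v = 0
        · exact ⟨0, Or.inl (by rw [h0, zero_smul, sub_zero])⟩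
        rw [add_single_apply_same] at hord
        set u : F := (α : Place K F → F) v * y with hu
        have hu0 : u ≠ 0 := mul_ne_zero h0 hy0
        have hordu : 0 ≤ v.ord u := by
          rw [hu, v.ord_mul h0 hy0, hordy]; omega
        obtain ⟨c, hc | hc⟩ := hres v u hu0 hordu
        · refine ⟨c, Or.inl ?_⟩
          rw [Algebra.smul_def, ← hc, hu, mul_assoc, mul_inv_cancel₀ hy0, mul_one, sub_self]
        · refine ⟨c, Or.inr ?_⟩
          have hne : u - algebraMap K F c ≠ 0 := by
            intro h
            rw [h, v.ord_zero] at hc
            exact lt_irrefl _ hc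
          have heq : (α : Place K F → F) v - c • y⁻¹ = (u - algebraMap K F c) * y⁻¹ := by
            rw [Algebra.smul_def, hu, sub_mul, mul_assoc, mul_inv_cancel₀ hy0, mul_one]
          rw [heq, v.ord_mul hne (inv_ne_zero hy0), hordyi]
          omega
    obtain ⟨c, hc⟩ := key
    refine ⟨c, ?_⟩
    rw [mem_repartitionsOf_iff]
    intro w
    by_cases h : w = v
    · subst h
      rw [coe_sub_apply, coe_smul_apply, singleRep_apply_same]
      exact hc
    · rw [coe_sub_apply, coe_smul_apply, singleRep_apply_ne h, smul_zero, sub_zero]
      have := hα w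
      rwa [add_single_apply_ne D h] at this

end Step

/-! ### The dichotomy at a one-place step -/

section Dichotomy

variable {K F : Type*} [Field K] [Field F] [Algebra K F]

/-- `A(D) + F` inside the repartitions. -/
noncomputable abbrev SD (D : Divisor K F) : Submodule K ↥(repartitions K F) :=
  repartitionsOf D ⊔ principalRepartitions K F

theorem SD_le_add_single (D : Divisor K F) (v : Place K F) :
    SD D ≤ SD (D + Finsupp.single v 1) :=
  sup_le_sup_right (repartitionsOf_le_add_single D v) _

/-- At a step `D ↦ D + v` either `L` grows by one dimension and `A(D) + F` is unchanged, or `L` is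
unchanged and `A(D) + F` grows by one dimension. -/
theorem step_dichotomy (hres : ResidueIsBase K F) (D : Divisor K F) (v : Place K F) :
    ((∃ g : F, g ∉ riemannRochSpace D ∧
        riemannRochSpace (D + Finsupp.single v 1) = riemannRochSpace D ⊔ K ∙ g) ∧
      SD (D + Finsupp.single v 1) = SD D) ∨
    (riemannRochSpace (D + Finsupp.single v 1) = riemannRochSpace D ∧
      ∃ e : ↥(repartitions K F), e ∉ SD D ∧ SD (D + Finsupp.single v 1) = SD D ⊔ K ∙ e) := by
  obtain ⟨e, heD', heD, hgen⟩ := exists_step_generator hres D v
  have hmonoA := repartitionsOf_le_add_single D v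
  have hmonoL := riemannRochSpace_le_add_single D v
  by_cases hex : ∃ g : F, g ∈ riemannRochSpace (D + Finsupp.single v 1) ∧ g ∉ riemannRochSpace D
  · left
    obtain ⟨g, hgD', hgD⟩ := hex
    obtain ⟨c, hc⟩ := hgen (constRep g) (constRep_mem_repartitionsOf_iff.2 hgD')
    have hc0 : c ≠ 0 := by
      intro h0
      rw [h0, zero_smul, sub_zero] at hc
      exact hgD (constRep_mem_repartitionsOf_iff.1 hc)
    -- `e = c⁻¹ • constRep g - c⁻¹ • x`
    set x : ↥(repartitions K F) := constRep g - c • e with hx
    have he_eq : e = c⁻¹ • (constRep g : ↥(repartitions K F)) - c⁻¹ • x := by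
      rw [hx, smul_sub, smul_smul, inv_mul_cancel₀ hc0, one_smul]; abel
    have heS : e ∈ SD D := by
      rw [he_eq]
      refine Submodule.sub_mem _ ?_ ?_
      · exact Submodule.mem_sup_right
          (Submodule.smul_mem _ _ (constRep_mem_principalRepartitions g))
      · exact Submodule.mem_sup_left (Submodule.smul_mem _ _ hc)
    refine ⟨⟨g, hgD, ?_⟩, ?_⟩
    · apply le_antisymm
      · intro h hh
        obtain ⟨c', hc'⟩ := hgen (constRep h) (constRep_mem_repartitionsOf_iff.2 hh)
        -- `constRep (h - (c' * c⁻¹) • g) = (constRep h - c' • e) - (c' * c⁻¹) • x`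
        have hmem : h - (c' * c⁻¹) • g ∈ riemannRochSpace D := by
          rw [← constRep_mem_repartitionsOf_iff, constRep_sub, constRep_smul]
          have : (constRep h : ↥(repartitions K F)) - (c' * c⁻¹) • constRep g =
              (constRep h - c' • e) - (c' * c⁻¹) • x := by
            rw [he_eq]
            simp only [smul_sub, smul_smul]
            rw [hx]
            simp only [smul_sub, smul_smul]
            have h1 : c' * c⁻¹ * c = c' := by rw [mul_assoc, inv_mul_cancel₀ hc0, mul_one]
            rw [h1]
            abel
          rw [this]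
          exact Submodule.sub_mem _ hc' (Submodule.smul_mem _ _ hc)
        rw [Submodule.mem_sup]
        refine ⟨h - (c' * c⁻¹) • g, hmem, (c' * c⁻¹) • g,
          Submodule.smul_mem _ _ (Submodule.mem_span_singleton_self g), ?_⟩
        abel
      · refine sup_le hmonoL ?_
        rw [Submodule.span_singleton_le_iff_mem]
        exact hgD'
    · apply le_antisymm
      · refine sup_le ?_ le_sup_right
        intro α hα
        obtain ⟨c', hc'⟩ := hgen α hα
        have : α = (α - c' • e) + c' • e := by abel
        rw [this]
        exact Submodule.add_mem _ (Submodule.mem_sup_left hc') (Submodule.smul_mem _ _ heS)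
      · exact SD_le_add_single D v
  · right
    have hLeq : riemannRochSpace (D + Finsupp.single v 1) = riemannRochSpace D := by
      apply le_antisymm _ hmonoL
      intro g hg
      by_contra hgD
      exact hex ⟨g, hg, hgD⟩
    refine ⟨hLeq, e, ?_, ?_⟩
    · intro heS
      rw [Submodule.mem_sup] at heS
      obtain ⟨x, hx, p, hp, hxp⟩ := heS
      obtain ⟨g, rfl⟩ := mem_principalRepartitions_iff_constRep.1 hp
      have h1 : (constRep g : ↥(repartitions K F)) ∈
          repartitionsOf (D + Finsupp.single v 1) := by
        have : (constRep g : ↥(repartitions K F)) = e - x := by rw [← hxp]; abel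
        rw [this]
        exact Submodule.sub_mem _ heD' (hmonoA hx)
      have h2 : g ∈ riemannRochSpace D := by
        rw [← hLeq]; exact constRep_mem_repartitionsOf_iff.1 h1
      apply heD
      rw [← hxp]
      exact Submodule.add_mem _ hx (constRep_mem_repartitionsOf_iff.2 h2)
    · apply le_antisymm
      · refine sup_le ?_ (le_sup_of_le_left le_sup_right)
        intro α hα
        obtain ⟨c', hc'⟩ := hgen α hα
        have : α = (α - c' • e) + c' • e := by abel
        rw [this]
        exact Submodule.add_mem _
          (Submodule.mem_sup_left (Submodule.mem_sup_left hc'))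
          (Submodule.mem_sup_right (Submodule.smul_mem _ _ (Submodule.mem_span_singleton_self e)))
      · refine sup_le (SD_le_add_single D v) ?_
        rw [Submodule.span_singleton_le_iff_mem]
        exact Submodule.mem_sup_left heD'

end Dichotomy

/-! ### Dimensions at a one-place step -/

section StepDim

variable {K F : Type*} [Field K] [Field F] [Algebra K F]

/-- `ℓ(D)` as an integer. -/
noncomputable def ell (D : Divisor K F) : ℤ := (Module.finrank K ↥(riemannRochSpace D) : ℤ)

/-- `i(D) = dim H¹(D)` as an integer. -/
noncomputable def idx (D : Divisor K F) : ℤ := (Module.finrank K (H1 D) : ℤ)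

theorem step_dim (hres : ResidueIsBase K F) (D : Divisor K F) (v : Place K F) :
    (Module.Finite K ↥(riemannRochSpace D) ↔
        Module.Finite K ↥(riemannRochSpace (D + Finsupp.single v 1))) ∧
      (Module.Finite K (H1 D) ↔ Module.Finite K (H1 (D + Finsupp.single v 1))) ∧
      (Module.Finite K ↥(riemannRochSpace D) → Module.Finite K (H1 D) →
        ell (D + Finsupp.single v 1) - idx (D + Finsupp.single v 1) = ell D - idx D + 1) := by
  rcases step_dichotomy hres D v with ⟨⟨g, hg, hL⟩, hS⟩ | ⟨hL, e, he, hS⟩
  · -- `L` grows, `H¹` unchanged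
    let eL : ↥(riemannRochSpace (D + Finsupp.single v 1)) ≃ₗ[K]
        ↥(riemannRochSpace D ⊔ K ∙ g) := LinearEquiv.ofEq _ _ hL
    let eH : H1 D ≃ₗ[K] H1 (D + Finsupp.single v 1) :=
      Submodule.quotEquivOfEq _ _ hS.symm
    refine ⟨⟨fun h => ?_, fun h => ?_⟩, ⟨fun h => ?_, fun h => ?_⟩, fun hLf hHf => ?_⟩
    · haveI := (finrank_sup_span_singleton (riemannRochSpace D) hg).1
      exact Module.Finite.equiv eL.symm
    · exact Submodule.finiteDimensional_of_le (riemannRochSpace_le_add_single D v)
    · exact Module.Finite.equiv eH
    · exact Module.Finite.equiv eH.symm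
    · have h1 := (finrank_sup_span_singleton (riemannRochSpace D) hg).2
      have h2 : ell (D + Finsupp.single v 1) = ell D + 1 := by
        unfold ell
        rw [eL.finrank_eq, h1]
        push_cast
        ring
      have h3 : idx (D + Finsupp.single v 1) = idx D := by
        unfold idx
        rw [eH.finrank_eq]
      rw [h2, h3]
      ring
  · -- `L` unchanged, `H¹` drops by one
    let eL : ↥(riemannRochSpace (D + Finsupp.single v 1)) ≃ₗ[K] ↥(riemannRochSpace D) :=
      LinearEquiv.ofEq _ _ hL
    let eH : (↥(repartitions K F) ⧸ (SD D ⊔ K ∙ e)) ≃ₗ[K] H1 (D + Finsupp.single v 1) :=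
      Submodule.quotEquivOfEq _ _ hS.symm
    have hq := quot_sup_span_singleton (SD D) he
    refine ⟨⟨fun h => ?_, fun h => ?_⟩, ⟨fun h => ?_, fun h => ?_⟩, fun hLf hHf => ?_⟩
    · exact Module.Finite.equiv eL.symm
    · exact Module.Finite.equiv eL
    · haveI := hq.1.1 h
      exact Module.Finite.equiv eH
    · haveI : Module.Finite K (↥(repartitions K F) ⧸ (SD D ⊔ K ∙ e)) :=
        Module.Finite.equiv eH.symm
      exact hq.1.2 inferInstance
    · have h1 := hq.2 hHf
      have h2 : ell (D + Finsupp.single v 1) = ell D := by
        unfold ell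
        rw [eL.finrank_eq]
      have h3 : idx D = idx (D + Finsupp.single v 1) + 1 := by
        unfold idx
        rw [← eH.finrank_eq]
        have : Module.finrank K (H1 D) =
            Module.finrank K (↥(repartitions K F) ⧸ (SD D ⊔ K ∙ e)) + 1 := h1
        rw [this]
        push_cast
        ring
      rw [h2, h3]
      ring

end StepDim

/-! ### Induction over divisors and the weak Riemann–Roch theorem -/

section Main

variable {K F : Type*} [Field K] [Field F] [Algebra K F]

/-- A property of divisors which is invariant under `D ↦ D + v` holds for all divisors as soon as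
it holds for one. -/
theorem induction_single {P : Divisor K F → Prop}
    (hstep : ∀ (D : Divisor K F) (v : Place K F), P D ↔ P (D + Finsupp.single v 1))
    {D0 : Divisor K F} (h0 : P D0) (D : Divisor K F) : P D := by
  have hn : ∀ (D : Divisor K F) (v : Place K F) (n : ℤ), P D ↔ P (D + Finsupp.single v n) := by
    intro D v n
    induction n using Int.induction_on with
    | zero => simp
    | succ i ih =>
      have h : D + Finsupp.single v ((i : ℤ) + 1) =
          (D + Finsupp.single v (i : ℤ)) + Finsupp.single v 1 := by
        rw [Finsupp.single_add, add_assoc]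
      rw [h]
      exact ih.trans (hstep _ _)
    | pred i ih =>
      have h : D + Finsupp.single v (-(i : ℤ)) =
          (D + Finsupp.single v (-(i : ℤ) - 1)) + Finsupp.single v 1 := by
        rw [add_assoc, ← Finsupp.single_add]
        congr 2
        ring
      rw [h] at ih
      exact ih.trans (hstep _ _).symm
  have key : ∀ E : Divisor K F, P (D0 + E) := by
    intro E
    induction E using Finsupp.induction with
    | zero => simpa using h0
    | single_add a b f _ _ ih =>
      have h : D0 + (Finsupp.single a b + f) = (D0 + f) + Finsupp.single a b := by abel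
      rw [h]
      exact (hn _ _ _).1 ih
  have h := key (D - D0)
  rwa [add_sub_cancel] at h

/-- Every place has degree one (S24 `PlaceDeg.deg_eq_one`). -/
def DegOne (K F : Type*) [Field K] [Field F] [Algebra K F] : Prop :=
  ∀ v : Place K F, v.deg = 1

/-- A function without poles is constant. -/
def ConstantsAreBase (K F : Type*) [Field K] [Field F] [Algebra K F] : Prop :=
  ∀ f : F, (∀ v : Place K F, 0 ≤ v.ord f) → ∃ a : K, algebraMap K F a = f

theorem degree_add_single (hdeg : DegOne K F) (D : Divisor K F) (v : Place K F) :
    Divisor.degree (D + Finsupp.single v 1) = Divisor.degree D + 1 := by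
  rw [map_add, Divisor.degree_single, hdeg v]
  simp

/-- Finite-dimensionality of `L(D)` propagates to all divisors. -/
theorem finite_riemannRochSpace_of_finite (hres : ResidueIsBase K F) {D0 : Divisor K F}
    (h0 : Module.Finite K ↥(riemannRochSpace D0)) (D : Divisor K F) :
    Module.Finite K ↥(riemannRochSpace D) :=
  induction_single (P := fun D => Module.Finite K ↥(riemannRochSpace D))
    (fun D v => (step_dim hres D v).1) h0 D

/-- Finite-dimensionality of `H¹(D)` propagates to all divisors. -/
theorem finite_H1_of_finite (hres : ResidueIsBase K F) {D0 : Divisor K F}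
    (h0 : Module.Finite K (H1 D0)) (D : Divisor K F) : Module.Finite K (H1 D) :=
  induction_single (P := fun D => Module.Finite K (H1 D))
    (fun D v => (step_dim hres D v).2.1) h0 D

/-- `L(0) = K`. -/
theorem riemannRochSpace_zero (hconst : ConstantsAreBase K F) :
    riemannRochSpace (0 : Divisor K F) = K ∙ (1 : F) := by
  apply le_antisymm
  · intro f hf
    rw [mem_riemannRochSpace_iff] at hf
    have h : ∀ v : Place K F, 0 ≤ v.ord f := by
      intro v
      rcases hf v with h | h
      · rw [h, v.ord_zero]
      · simpa using h
    obtain ⟨a, rfl⟩ := hconst f h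
    rw [Submodule.mem_span_singleton]
    exact ⟨a, by rw [Algebra.smul_def, mul_one]⟩
  · rw [Submodule.span_singleton_le_iff_mem, mem_riemannRochSpace_iff]
    intro v
    right
    simp

theorem finite_riemannRochSpace (hres : ResidueIsBase K F) (hconst : ConstantsAreBase K F)
    (D : Divisor K F) : Module.Finite K ↥(riemannRochSpace D) := by
  have h0 : Module.Finite K ↥(riemannRochSpace (0 : Divisor K F)) := by
    rw [riemannRochSpace_zero hconst]
    infer_instance
  exact finite_riemannRochSpace_of_finite hres h0 D

theorem ell_zero (hconst : ConstantsAreBase K F) : ell (0 : Divisor K F) = 1 := by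
  unfold ell
  rw [riemannRochSpace_zero hconst, finrank_span_singleton one_ne_zero]
  rfl

/-- The Euler characteristic `ℓ(D) - i(D) - deg D` does not depend on `D` (as soon as
everything is finite-dimensional for one divisor). -/
theorem chi_eq (hres : ResidueIsBase K F) (hdeg : DegOne K F) {D0 : Divisor K F}
    (hL : Module.Finite K ↥(riemannRochSpace D0)) (hH : Module.Finite K (H1 D0))
    (D : Divisor K F) :
    ell D - idx D - Divisor.degree D = ell D0 - idx D0 - Divisor.degree D0 := by
  have key := induction_single
    (P := fun D => Module.Finite K ↥(riemannRochSpace D) ∧ Module.Finite K (H1 D) ∧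
      ell D - idx D - Divisor.degree D = ell D0 - idx D0 - Divisor.degree D0)
    (fun D v => by
      obtain ⟨hL', hH', hf⟩ := step_dim hres D v
      constructor
      · rintro ⟨h1, h2, h3⟩
        refine ⟨hL'.1 h1, hH'.1 h2, ?_⟩
        rw [degree_add_single hdeg, hf h1 h2]
        linarith
      · rintro ⟨h1, h2, h3⟩
        have h1' := hL'.2 h1
        have h2' := hH'.2 h2
        refine ⟨h1', h2', ?_⟩
        rw [degree_add_single hdeg, hf h1' h2'] at h3
        linarith)
    (D0 := D0) ⟨hL, hH, rfl⟩ D
  exact key.2.2

/-- **Weak Riemann–Roch.**  For a function field `F/K` all of whose places have residue field `K`,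
without non-constant pole-free functions and with `H¹(0)` finite-dimensional:
`ℓ(D) - dim H¹(D) = deg D + 1 - g` for every divisor `D`, where `g = genusFF K F = dim H¹(0)`. -/
theorem weak_riemannRoch (hres : ResidueIsBase K F) (hdeg : DegOne K F)
    (hconst : ConstantsAreBase K F) (hH1 : Module.Finite K (H1 (0 : Divisor K F)))
    (D : Divisor K F) :
    Module.Finite K ↥(riemannRochSpace D) ∧ Module.Finite K (H1 D) ∧
      (Module.finrank K ↥(riemannRochSpace D) : ℤ) - (Module.finrank K (H1 D) : ℤ) =
        Divisor.degree D + 1 - (genusFF K F : ℤ) := by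
  have hL0 : Module.Finite K ↥(riemannRochSpace (0 : Divisor K F)) := by
    rw [riemannRochSpace_zero hconst]
    infer_instance
  refine ⟨finite_riemannRochSpace hres hconst D, finite_H1_of_finite hres hH1 D, ?_⟩
  have h := chi_eq hres hdeg hL0 hH1 D
  rw [ell_zero hconst, map_zero] at h
  have hidx : idx (0 : Divisor K F) = (genusFF K F : ℤ) := rfl
  rw [hidx] at h
  unfold ell idx at h
  linarith

end Main

end Fermat.Agent.S20.RRWeak
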