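/-
S20, block RR, piece R3 (part 2): finiteness of `H¹(0)` (hence of the genus `genusFF`) from the
stabilisation of `ℓ(D) - deg D` for large `D` (Riemann's theorem, piece R2) and the finiteness of
poles.  Pure algebra (Mathlib + Prelude + `RRWeak.lean`).  Owner: helper35.
-/
import Fermat.Agent.S20.RRWeak

set_option autoImplicit false
set_option linter.style.haveILetI false

namespace Fermat.Agent.S20.RRWeak

open AlgebraicCurve

section Fin

variable {K F : Type*} [Field K] [Field F] [Algebra K F]

/-- Every nonzero function has finitely many poles (S24 `PrincipalDegreeCore.ord_support_finite`). -/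
def PolesFinite (K F : Type*) [Field K] [Field F] [Algebra K F] : Prop :=
  ∀ f : F, f ≠ 0 → {v : Place K F | v.ord f < 0}.Finite

/-- Every repartition has finitely many poles. -/
theorem repartition_poles_finite (hpoles : PolesFinite K F) (α : ↥(repartitions K F)) :
    {v : Place K F | ¬v.adicValuation ((α : Place K F → F) v) ≤ 1}.Finite := by
  obtain ⟨x, hx⟩ := α
  show {v : Place K F | ¬v.adicValuation (x v) ≤ 1}.Finite
  unfold repartitions at hx
  induction hx using Algebra.adjoin_induction with
  | mem y hy => exact hy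
  | algebraMap f =>
    by_cases hf : f = 0
    · refine Set.Finite.subset Set.finite_empty fun v hv => ?_
      apply hv
      simp [hf]
    · refine (hpoles f hf).subset fun v hv => ?_
      exact (v.not_adicValuation_le_one_iff).1 hv
  | add y z _ _ hy hz =>
    refine (hy.union hz).subset fun v hv => ?_
    by_contra hcon
    simp only [Set.mem_union, Set.mem_setOf_eq, not_or, not_not] at hcon
    apply hv
    exact (Valuation.map_add _ _ _).trans (max_le hcon.1 hcon.2)
  | mul y z _ _ hy hz =>
    refine (hy.union hz).subset fun v hv => ?_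
    by_contra hcon
    simp only [Set.mem_union, Set.mem_setOf_eq, not_or, not_not] at hcon
    apply hv
    show v.adicValuation (y v * z v) ≤ 1
    rw [map_mul]
    exact mul_le_one' hcon.1 hcon.2

/-- Every repartition lies in `A(D0 + E)` for some effective `E`. -/
theorem exists_mem_repartitionsOf_add (hpoles : PolesFinite K F) (D0 : Divisor K F)
    (α : ↥(repartitions K F)) :
    ∃ E : Divisor K F, 0 ≤ E ∧ α ∈ repartitionsOf (D0 + E) := by
  classical
  set f : Place K F → ℤ := fun v => max 0 (-(v.ord ((α : Place K F → F) v)) - D0 v) with hf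
  have hfin : (Function.support f).Finite := by
    refine ((repartition_poles_finite hpoles α).union D0.support.finite_toSet).subset ?_
    intro v hv
    by_contra hcon
    simp only [Set.mem_union, Set.mem_setOf_eq, not_or, not_not, Finset.mem_coe,
      Finsupp.mem_support_iff] at hcon
    apply hv
    have h1 : 0 ≤ v.ord ((α : Place K F → F) v) := by
      rcases (v.adicValuation_le_one_iff).1 hcon.1 with h | h
      · rw [h, v.ord_zero]
      · exact h
    show max 0 (-(v.ord ((α : Place K F → F) v)) - D0 v) = 0
    rw [hcon.2]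
    apply max_eq_left
    omega
  refine ⟨Finsupp.ofSupportFinite f hfin, ?_, ?_⟩
  · rw [Finsupp.le_def]
    intro v
    rw [Finsupp.ofSupportFinite_coe]
    exact le_max_left _ _
  · rw [mem_repartitionsOf_iff]
    intro v
    right
    rw [Finsupp.add_apply, Finsupp.ofSupportFinite_coe]
    have : -(v.ord ((α : Place K F → F) v)) - D0 v ≤ f v := le_max_right _ _
    omega

/-- If `ℓ(D) - deg D` is constant above `D0`, then `A(D) + F` does not grow at a step above
`D0`. -/
theorem SD_add_single_eq (hres : ResidueIsBase K F) (hdeg : DegOne K F) (D0 : Divisor K F)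
    (c : ℤ) (hstab : ∀ D : Divisor K F, D0 ≤ D → ell D = Divisor.degree D + c)
    (D : Divisor K F) (hD : D0 ≤ D) (v : Place K F) :
    SD (D + Finsupp.single v 1) = SD D := by
  rcases step_dichotomy hres D v with ⟨_, hS⟩ | ⟨hL, _⟩
  · exact hS
  · exfalso
    have hD' : D0 ≤ D + Finsupp.single v 1 := by
      refine hD.trans ?_
      rw [Finsupp.le_def]
      intro w
      by_cases h : w = v
      · subst h; rw [add_single_apply_same]; omega
      · rw [add_single_apply_ne D h]
    have h1 := hstab D hD
    have h2 := hstab _ hD'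
    rw [degree_add_single hdeg] at h2
    have h3 : ell (D + Finsupp.single v 1) = ell D := by
      unfold ell
      rw [hL]
    omega

theorem SD_add_single_nat_eq (hres : ResidueIsBase K F) (hdeg : DegOne K F) (D0 : Divisor K F)
    (c : ℤ) (hstab : ∀ D : Divisor K F, D0 ≤ D → ell D = Divisor.degree D + c)
    (D : Divisor K F) (hD : D0 ≤ D) (v : Place K F) (n : ℕ) :
    SD (D + Finsupp.single v (n : ℤ)) = SD D := by
  induction n with
  | zero => simp
  | succ n ih =>
    have h : D + Finsupp.single v ((n + 1 : ℕ) : ℤ) =
        (D + Finsupp.single v (n : ℤ)) + Finsupp.single v 1 := by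
      push_cast
      rw [Finsupp.single_add, add_assoc]
    have hD' : D0 ≤ D + Finsupp.single v (n : ℤ) := by
      refine hD.trans ?_
      rw [Finsupp.le_def]
      intro w
      rw [Finsupp.add_apply]
      have : (0 : ℤ) ≤ (Finsupp.single v (n : ℤ) : Place K F →₀ ℤ) w := by
        by_cases hw : w = v
        · subst hw; rw [Finsupp.single_eq_same]; exact Int.natCast_nonneg n
        · rw [Finsupp.single_eq_of_ne hw]
      omega
    rw [h, SD_add_single_eq hres hdeg D0 c hstab _ hD', ih]

theorem SD_add_eq (hres : ResidueIsBase K F) (hdeg : DegOne K F) (D0 : Divisor K F)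
    (c : ℤ) (hstab : ∀ D : Divisor K F, D0 ≤ D → ell D = Divisor.degree D + c)
    (E : Divisor K F) (hE : 0 ≤ E) : SD (D0 + E) = SD D0 := by
  classical
  induction E using Finsupp.induction with
  | zero => simp
  | single_add a b f ha hb ih =>
    have hfa : f a = 0 := by
      rwa [Finsupp.mem_support_iff, not_not] at ha
    have hb0 : 0 ≤ b := by
      have := Finsupp.le_def.1 hE a
      rw [Finsupp.add_apply, Finsupp.single_eq_same, hfa] at this
      simpa using this
    have hf0 : 0 ≤ f := by
      rw [Finsupp.le_def]
      intro w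
      by_cases h : w = a
      · subst h; rw [hfa]; rfl
      · have := Finsupp.le_def.1 hE w
        rw [Finsupp.add_apply, Finsupp.single_eq_of_ne h, zero_add] at this
        exact this
    have hD : D0 ≤ D0 + f := le_add_of_nonneg_right hf0
    obtain ⟨n, rfl⟩ := Int.eq_ofNat_of_zero_le hb0
    have h : D0 + (Finsupp.single a (n : ℤ) + f) = (D0 + f) + Finsupp.single a (n : ℤ) := by
      abel
    rw [h, SD_add_single_nat_eq hres hdeg D0 c hstab _ hD, ih hf0]

/-- Above the stabilisation point `A(D0) + F` is everything. -/
theorem SD_eq_top (hres : ResidueIsBase K F) (hdeg : DegOne K F) (hpoles : PolesFinite K F)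
    (D0 : Divisor K F) (c : ℤ)
    (hstab : ∀ D : Divisor K F, D0 ≤ D → ell D = Divisor.degree D + c) :
    SD D0 = ⊤ := by
  rw [eq_top_iff]
  intro α _
  obtain ⟨E, hE, hα⟩ := exists_mem_repartitionsOf_add hpoles D0 α
  rw [← SD_add_eq hres hdeg D0 c hstab E hE]
  exact Submodule.mem_sup_left hα

theorem subsingleton_H1 (hres : ResidueIsBase K F) (hdeg : DegOne K F)
    (hpoles : PolesFinite K F) (D0 : Divisor K F) (c : ℤ)
    (hstab : ∀ D : Divisor K F, D0 ≤ D → ell D = Divisor.degree D + c) :
    Subsingleton (H1 D0) := by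
  have htop := SD_eq_top hres hdeg hpoles D0 c hstab
  refine ⟨fun x y => ?_⟩
  obtain ⟨a, rfl⟩ := Submodule.Quotient.mk_surjective _ x
  obtain ⟨b, rfl⟩ := Submodule.Quotient.mk_surjective _ y
  rw [Submodule.Quotient.eq]
  show a - b ∈ SD D0
  rw [htop]
  exact Submodule.mem_top

/-- `H¹(D)` is finite-dimensional for every `D`, as soon as `ℓ(D) - deg D` stabilises. -/
theorem finite_H1 (hres : ResidueIsBase K F) (hdeg : DegOne K F) (hpoles : PolesFinite K F)
    (D0 : Divisor K F) (c : ℤ)
    (hstab : ∀ D : Divisor K F, D0 ≤ D → ell D = Divisor.degree D + c)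
    (D : Divisor K F) : Module.Finite K (H1 D) := by
  haveI := subsingleton_H1 hres hdeg hpoles D0 c hstab
  have h0 : Module.Finite K (H1 D0) := inferInstance
  exact finite_H1_of_finite hres h0 D

/-- `H¹(D0) = 0` at the stabilisation point. -/
theorem idx_eq_zero (hres : ResidueIsBase K F) (hdeg : DegOne K F) (hpoles : PolesFinite K F)
    (D0 : Divisor K F) (c : ℤ)
    (hstab : ∀ D : Divisor K F, D0 ≤ D → ell D = Divisor.degree D + c) :
    idx D0 = 0 := by
  haveI := subsingleton_H1 hres hdeg hpoles D0 c hstab
  unfold idx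
  rw [Module.finrank_zero_of_subsingleton]
  rfl

/-- **Weak Riemann–Roch, Riemann form.**  If `ℓ(D) = deg D + c` for all `D ≥ D0` then for every
divisor `D`: `ℓ(D) - dim H¹(D) = deg D + c`, everything is finite-dimensional and
`genusFF K F = 1 - c`. -/
theorem weak_riemannRoch_of_stable (hres : ResidueIsBase K F) (hdeg : DegOne K F)
    (hconst : ConstantsAreBase K F) (hpoles : PolesFinite K F) (D0 : Divisor K F) (c : ℤ)
    (hstab : ∀ D : Divisor K F, D0 ≤ D → ell D = Divisor.degree D + c) :
    (genusFF K F : ℤ) = 1 - c ∧ ∀ D : Divisor K F,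
      Module.Finite K ↥(riemannRochSpace D) ∧ Module.Finite K (H1 D) ∧
      (Module.finrank K ↥(riemannRochSpace D) : ℤ) - (Module.finrank K (H1 D) : ℤ) =
        Divisor.degree D + c := by
  have hLfin := finite_riemannRochSpace hres hconst
  have hHfin := finite_H1 hres hdeg hpoles D0 c hstab
  have hidx := idx_eq_zero hres hdeg hpoles D0 c hstab
  have hchi : ∀ D : Divisor K F, ell D - idx D - Divisor.degree D = c := by
    intro D
    rw [chi_eq hres hdeg (hLfin D0) (hHfin D0) D, hidx, hstab D0 le_rfl]
    ring
  have hg : (genusFF K F : ℤ) = 1 - c := by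
    have h0 := hchi 0
    rw [ell_zero hconst, map_zero] at h0
    have hidx0 : idx (0 : Divisor K F) = (genusFF K F : ℤ) := rfl
    rw [hidx0] at h0
    linarith
  refine ⟨hg, fun D => ⟨hLfin D, hHfin D, ?_⟩⟩
  have h := hchi D
  unfold ell idx at h
  linarith

end Fin

end Fermat.Agent.S20.RRWeak
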