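import Mathlib
import Fermat.Prelude.Def_AlgebraicCurve_Repartitions
import Fermat.Agent.S24.OrdBasic

/-!
# S20, block RR, piece R4 (part 1): repartitions, scalar action, Weil differentials (basics)

For a function field `F / K` in the Prelude's language (`Place K F`, `repartitions K F`,
`repartitionsOf D`, `principalRepartitions K F`, `H1 D`) we set up

* `Repart K F` : the repartition ring as a type, the `K`-linear multiplication maps `mulRep x`;
* `divOf x` : the principal divisor of `x ≠ 0` (from `HasPrincipalDivisors`);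
* `mulRep x` maps `𝔸(D)` onto `𝔸(D - (x))` and preserves the principal repartitions;
* every repartition has finitely many poles, and lies in `𝔸(D')` for some `D' ≥ D₀`;
* `𝔸(D₁ ⊔ D₂) ≤ 𝔸(D₁) ⊔ 𝔸(D₂)`;
* `OmegaOf D` : the `K`-space of Weil differentials vanishing on `𝔸(D) + F`
  (`= (𝔸(D) ⊔ F).dualAnnihilator`), with `finrank (OmegaOf D) = finrank (H1 D)`;
* the action `act ω x = x • ω` of `F` on functionals.
-/

set_option autoImplicit false

open AlgebraicCurve Module WithZero

namespace Fermat.Agent.S20.WeilDiffBasic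

variable {K F : Type*} [Field K] [Field F] [Algebra K F]

/-- The adele (repartition) ring as a type. -/
abbrev Repart (K F : Type*) [Field K] [Field F] [Algebra K F] : Type _ := ↥(repartitions K F)

/-- Component of a repartition at a place. -/
abbrev comp (α : Repart K F) (v : Place K F) : F := (α : Place K F → F) v

@[simp] theorem comp_add (α β : Repart K F) (v : Place K F) : comp (α + β) v = comp α v + comp β v := rfl
@[simp] theorem comp_zero (v : Place K F) : comp (0 : Repart K F) v = 0 := rfl
@[simp] theorem comp_smulF (x : F) (α : Repart K F) (v : Place K F) :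
    comp (x • α) v = x * comp α v := rfl
@[simp] theorem comp_smulK (c : K) (α : Repart K F) (v : Place K F) :
    comp (c • α) v = c • comp α v := rfl
@[simp] theorem comp_algebraMap (x : F) (v : Place K F) :
    comp (algebraMap F (Repart K F) x) v = x := rfl

theorem Repart.ext {α β : Repart K F} (h : ∀ v, comp α v = comp β v) : α = β :=
  Subtype.ext (funext h)

/-- Multiplication by `x : F` on repartitions, as a `K`-linear map. -/
def mulRep (x : F) : Repart K F →ₗ[K] Repart K F where
  toFun α := x • α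
  map_add' α β := smul_add x α β
  map_smul' c α := smul_comm x c α

@[simp] theorem mulRep_apply (x : F) (α : Repart K F) : mulRep (K := K) x α = x • α := rfl

theorem mulRep_mul (x y : F) (α : Repart K F) :
    mulRep (K := K) x (mulRep y α) = mulRep (x * y) α := by
  simp [mul_smul]

theorem mulRep_one (α : Repart K F) : mulRep (K := K) (1 : F) α = α := by simp

theorem mem_repartitionsOf {D : Divisor K F} {α : Repart K F} :
    α ∈ repartitionsOf D ↔ ∀ v : Place K F, v.adicValuation (comp α v) ≤ exp (D v) := Iff.rfl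

/-! ### Principal divisors -/

/-- `E` is the divisor of `x`. -/
def IsDivOf (E : Divisor K F) (x : F) : Prop := ∀ v : Place K F, E v = v.ord x

theorem exists_isDivOf [HasPrincipalDivisors K F] {x : F} (hx : x ≠ 0) :
    ∃ E : Divisor K F, IsDivOf E x ∧ Divisor.degree E = 0 :=
  HasPrincipalDivisors.exists_divisor x hx

theorem val_eq_exp_of_isDivOf {E : Divisor K F} {x : F} (hx : x ≠ 0) (hE : IsDivOf E x)
    (v : Place K F) : v.adicValuation x = exp (-(E v)) := by
  rw [hE v, v.adicValuation_eq_exp_neg_ord hx]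

/-- `x • 𝔸(D) ⊆ 𝔸(D - (x))`. -/
theorem mulRep_mem {D E : Divisor K F} {x : F} (hx : x ≠ 0) (hE : IsDivOf E x)
    {α : Repart K F} (hα : α ∈ repartitionsOf D) : mulRep x α ∈ repartitionsOf (D - E) := by
  intro v
  show v.adicValuation (x * comp α v) ≤ exp ((D - E) v)
  rw [map_mul, val_eq_exp_of_isDivOf hx hE v, Finsupp.sub_apply, sub_eq_add_neg, exp_add,
    mul_comm]
  exact mul_le_mul_left (hα v) _

theorem isDivOf_inv {E : Divisor K F} {x : F} (hE : IsDivOf E x) : IsDivOf (-E) x⁻¹ := by
  intro v
  rw [Finsupp.neg_apply, hE v, v.ord_inv]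

theorem isDivOf_mul {E E' : Divisor K F} {x y : F} (hx : x ≠ 0) (hy : y ≠ 0)
    (hE : IsDivOf E x) (hE' : IsDivOf E' y) : IsDivOf (E + E') (x * y) := by
  intro v
  rw [Finsupp.add_apply, hE v, hE' v, v.ord_mul hx hy]

/-- `x • α ∈ 𝔸(D - (x)) ↔ α ∈ 𝔸(D)`. -/
theorem mulRep_mem_iff {D E : Divisor K F} {x : F} (hx : x ≠ 0) (hE : IsDivOf E x)
    {α : Repart K F} : mulRep x α ∈ repartitionsOf (D - E) ↔ α ∈ repartitionsOf D := by
  refine ⟨fun h => ?_, mulRep_mem hx hE⟩
  have := mulRep_mem (inv_ne_zero hx) (isDivOf_inv hE) h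
  rwa [mulRep_mul, inv_mul_cancel₀ hx, mulRep_one, sub_neg_eq_add, sub_add_cancel] at this

theorem mulRep_mem_principal (x : F) {α : Repart K F} (hα : α ∈ principalRepartitions K F) :
    mulRep x α ∈ principalRepartitions K F := by
  rw [mem_principalRepartitions_iff] at hα ⊢
  obtain ⟨f, hf⟩ := hα
  exact ⟨x * f, by funext v; show x * comp α v = x * f; rw [show comp α v = f from congrFun hf v]⟩

/-! ### Finiteness of poles -/

/-- The set of poles of a function `Place K F → F`. -/
def poles (a : Place K F → F) : Set (Place K F) := {v | ¬ v.adicValuation (a v) ≤ 1}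

theorem poles_const_finite [HasPrincipalDivisors K F] (f : F) :
    (poles (K := K) (fun _ => f)).Finite := by
  rcases eq_or_ne f 0 with rfl | hf
  · convert Set.finite_empty
    ext v; simp [poles]
  · obtain ⟨E, hE, -⟩ := exists_isDivOf (K := K) hf
    refine E.support.finite_toSet.subset fun v hv => ?_
    rw [Finset.mem_coe, Finsupp.mem_support_iff]
    intro h0
    apply hv
    show v.adicValuation f ≤ 1
    rw [val_eq_exp_of_isDivOf hf hE v, h0]; simp

/-- Every repartition has finitely many poles. -/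
theorem poles_finite [HasPrincipalDivisors K F] (α : Repart K F) :
    (poles (α : Place K F → F)).Finite := by
  have key : ∀ a ∈ repartitions K F, (poles a).Finite := by
    intro a ha
    refine Algebra.adjoin_induction (p := fun a _ => (poles a).Finite) ?_ ?_ ?_ ?_ ha
    · intro a ha; exact ha
    · intro f; exact poles_const_finite f
    · intro a b _ _ ha hb
      refine (ha.union hb).subset fun v hv => ?_
      by_contra hcon
      rw [Set.mem_union, not_or] at hcon
      apply hv
      have h1 : v.adicValuation (a v) ≤ 1 := not_not.mp hcon.1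
      have h2 : v.adicValuation (b v) ≤ 1 := not_not.mp hcon.2
      exact (Valuation.map_add _ _ _).trans (max_le h1 h2)
    · intro a b _ _ ha hb
      refine (ha.union hb).subset fun v hv => ?_
      by_contra hcon
      rw [Set.mem_union, not_or] at hcon
      apply hv
      have h1 : v.adicValuation (a v) ≤ 1 := not_not.mp hcon.1
      have h2 : v.adicValuation (b v) ≤ 1 := not_not.mp hcon.2
      show v.adicValuation (a v * b v) ≤ 1
      rw [map_mul]
      exact mul_le_one' h1 h2
  exact key _ α.2

/-- Every repartition lies in `𝔸(D')` for some `D' ≥ D₀`. -/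
theorem exists_ge_mem_repartitionsOf [HasPrincipalDivisors K F] (D₀ : Divisor K F)
    (α : Repart K F) : ∃ D' : Divisor K F, D₀ ≤ D' ∧ α ∈ repartitionsOf D' := by
  classical
  set S : Finset (Place K F) := (poles_finite α).toFinset ∪ D₀.support with hS
  let g : Place K F → ℤ := fun v => if v ∈ S then max (D₀ v) (-(v.ord (comp α v))) else 0
  have hg : ∀ v, g v ≠ 0 → v ∈ S := by
    intro v hv
    by_contra hvS
    exact hv (if_neg hvS)
  refine ⟨Finsupp.onFinset S g hg, ?_, ?_⟩
  · intro v
    rw [Finsupp.onFinset_apply]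
    by_cases hvS : v ∈ S
    · simp only [g, if_pos hvS]; exact le_max_left _ _
    · simp only [g, if_neg hvS]
      have : v ∉ D₀.support := fun h => hvS (Finset.mem_union_right _ h)
      rw [Finsupp.notMem_support_iff] at this
      rw [this]
  · intro v
    show v.adicValuation (comp α v) ≤ exp (Finsupp.onFinset S g hg v)
    rw [Finsupp.onFinset_apply, v.adicValuation_le_exp_iff]
    by_cases hvS : v ∈ S
    · simp only [g, if_pos hvS]
      right
      have := le_max_right (D₀ v) (-(v.ord (comp α v)))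
      linarith
    · simp only [g, if_neg hvS]
      have hnp : v ∉ (poles_finite α).toFinset := fun h => hvS (Finset.mem_union_left _ h)
      rw [Set.Finite.mem_toFinset] at hnp
      have h1 : v.adicValuation (comp α v) ≤ 1 := not_not.mp hnp
      rw [v.adicValuation_le_one_iff] at h1
      simpa using h1

/-! ### Sup of divisors -/

/-- `𝔸(D₁ ⊔ D₂) ≤ 𝔸(D₁) ⊔ 𝔸(D₂)`: split a repartition place by place. -/
theorem repartitionsOf_sup_le (D₁ D₂ : Divisor K F) :
    repartitionsOf (D₁ ⊔ D₂) ≤ repartitionsOf D₁ ⊔ repartitionsOf D₂ := by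
  classical
  intro α hα
  let a₁ : Place K F → F := fun v => if D₂ v ≤ D₁ v then comp α v else 0
  let a₂ : Place K F → F := fun v => if D₂ v ≤ D₁ v then 0 else comp α v
  have h₁ : ∀ v : Place K F, v.adicValuation (a₁ v) ≤ exp (D₁ v) := by
    intro v
    by_cases h : D₂ v ≤ D₁ v
    · simp only [a₁, if_pos h]
      have := hα v
      rwa [Finsupp.sup_apply, sup_eq_left.mpr h] at this
    · simp [a₁, if_neg h]
  have h₂ : ∀ v : Place K F, v.adicValuation (a₂ v) ≤ exp (D₂ v) := by
    intro v
    by_cases h : D₂ v ≤ D₁ v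
    · simp [a₂, if_pos h]
    · simp only [a₂, if_neg h]
      have := hα v
      rwa [Finsupp.sup_apply, sup_eq_right.mpr (not_le.mp h).le] at this
  let α₁ : Repart K F := ⟨a₁, mem_repartitions_of_forall_le_exp D₁ a₁ h₁⟩
  let α₂ : Repart K F := ⟨a₂, mem_repartitions_of_forall_le_exp D₂ a₂ h₂⟩
  have hsum : α = α₁ + α₂ := by
    apply Repart.ext
    intro v
    show comp α v = a₁ v + a₂ v
    by_cases h : D₂ v ≤ D₁ v
    · simp [a₁, a₂, if_pos h]
    · simp [a₁, a₂, if_neg h]
  rw [hsum]
  exact Submodule.add_mem_sup (show α₁ ∈ repartitionsOf D₁ from h₁)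
    (show α₂ ∈ repartitionsOf D₂ from h₂)

/-! ### Weil differentials vanishing on `𝔸(D) + F` -/

/-- The subspace `𝔸(D) + F` of the repartition ring. -/
def adeleSub (D : Divisor K F) : Submodule K (Repart K F) :=
  repartitionsOf D ⊔ principalRepartitions K F

theorem adeleSub_mono {D D' : Divisor K F} (h : D ≤ D') : adeleSub D ≤ adeleSub D' :=
  sup_le_sup_right (repartitionsOf_mono h) _

/-- `Ω_W(D)`: the `K`-linear functionals on repartitions that vanish on `𝔸(D) + F`. -/
def OmegaOf (D : Divisor K F) : Submodule K (Module.Dual K (Repart K F)) :=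
  (adeleSub D).dualAnnihilator

theorem mem_OmegaOf {D : Divisor K F} {ω : Module.Dual K (Repart K F)} :
    ω ∈ OmegaOf D ↔ (∀ α ∈ repartitionsOf D, ω α = 0) ∧
      ∀ α ∈ principalRepartitions K F, ω α = 0 := by
  rw [OmegaOf, Submodule.mem_dualAnnihilator]
  constructor
  · intro h
    exact ⟨fun α hα => h α (Submodule.mem_sup_left hα),
      fun α hα => h α (Submodule.mem_sup_right hα)⟩
  · rintro ⟨h1, h2⟩ α hα
    obtain ⟨β, hβ, γ, hγ, rfl⟩ := Submodule.mem_sup.mp hα
    rw [map_add, h1 β hβ, h2 γ hγ, add_zero]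

theorem OmegaOf_anti {D D' : Divisor K F} (h : D ≤ D') : OmegaOf D' ≤ OmegaOf D :=
  Submodule.dualAnnihilator_anti (adeleSub_mono h)

/-- If `ω` vanishes on `𝔸(D₁) + F` and on `𝔸(D₂) + F` then on `𝔸(D₁ ⊔ D₂) + F`. -/
theorem mem_OmegaOf_sup {D₁ D₂ : Divisor K F} {ω : Module.Dual K (Repart K F)}
    (h₁ : ω ∈ OmegaOf D₁) (h₂ : ω ∈ OmegaOf D₂) : ω ∈ OmegaOf (D₁ ⊔ D₂) := by
  rw [mem_OmegaOf] at h₁ h₂ ⊢
  refine ⟨fun α hα => ?_, h₁.2⟩
  obtain ⟨β, hβ, γ, hγ, rfl⟩ := Submodule.mem_sup.mp (repartitionsOf_sup_le D₁ D₂ hα)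
  rw [map_add, h₁.1 β hβ, h₂.1 γ hγ, add_zero]

/-- `dim Ω_W(D) = dim H¹(D)`. -/
theorem finrank_OmegaOf (D : Divisor K F) [Module.Finite K (H1 D)] :
    finrank K (OmegaOf D) = finrank K (H1 D) := by
  have e := Submodule.dualQuotEquivDualAnnihilator (adeleSub (K := K) (F := F) D)
  rw [OmegaOf, ← e.finrank_eq]
  exact Subspace.dual_finrank_eq

instance finite_OmegaOf (D : Divisor K F) [Module.Finite K (H1 D)] :
    Module.Finite K (OmegaOf D) := by
  have e := Submodule.dualQuotEquivDualAnnihilator (adeleSub (K := K) (F := F) D)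
  have : Module.Finite K (Module.Dual K (Repart K F ⧸ adeleSub D)) :=
    inferInstanceAs (Module.Finite K (Module.Dual K (H1 D)))
  exact Module.Finite.equiv e

/-! ### The action of `F` on functionals -/

/-- `act ω x = x • ω`, i.e. `α ↦ ω (x • α)`; `K`-linear in `x`. -/
def act (ω : Module.Dual K (Repart K F)) : F →ₗ[K] Module.Dual K (Repart K F) where
  toFun x := ω ∘ₗ mulRep x
  map_add' x y := by
    ext α
    simp [add_smul]
  map_smul' c x := by
    ext α
    simp [smul_assoc]

@[simp] theorem act_apply (ω : Module.Dual K (Repart K F)) (x : F) (α : Repart K F) :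
    act ω x α = ω (x • α) := rfl

theorem act_one (ω : Module.Dual K (Repart K F)) : act ω 1 = ω := by
  ext α; simp

theorem act_act (ω : Module.Dual K (Repart K F)) (x y : F) : act (act ω x) y = act ω (x * y) := by
  ext α; simp [mul_smul]

theorem act_eq_zero_iff {ω : Module.Dual K (Repart K F)} {x : F} (hx : x ≠ 0) :
    act ω x = 0 ↔ ω = 0 := by
  constructor
  · intro h
    have := congrArg (fun η => act η x⁻¹) h
    simp only [act_act, mul_inv_cancel₀ hx, act_one] at this
    rw [this]
    ext α; simp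
  · rintro rfl
    ext α; simp

theorem act_injective {ω : Module.Dual K (Repart K F)} (hω : ω ≠ 0) :
    Function.Injective (act ω) := by
  rw [← LinearMap.ker_eq_bot, LinearMap.ker_eq_bot']
  intro x hx
  by_contra hx0
  exact hω ((act_eq_zero_iff hx0).mp hx)

/-- `x • ω ∈ Ω_W(D) ↔ ω ∈ Ω_W(D - (x))`. -/
theorem act_mem_OmegaOf_iff {D E : Divisor K F} {x : F} (hx : x ≠ 0) (hE : IsDivOf E x)
    {ω : Module.Dual K (Repart K F)} : act ω x ∈ OmegaOf D ↔ ω ∈ OmegaOf (D - E) := by
  rw [mem_OmegaOf, mem_OmegaOf]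
  constructor
  · rintro ⟨h1, h2⟩
    refine ⟨fun α hα => ?_, fun α hα => ?_⟩
    · have hmem : mulRep x⁻¹ α ∈ repartitionsOf D := by
        have := mulRep_mem (inv_ne_zero hx) (isDivOf_inv hE) hα
        rwa [sub_neg_eq_add, sub_add_cancel] at this
      have := h1 _ hmem
      rwa [act_apply, mulRep_apply, smul_smul, mul_inv_cancel₀ hx, one_smul] at this
    · have hmem : mulRep x⁻¹ α ∈ principalRepartitions K F := mulRep_mem_principal _ hα
      have := h2 _ hmem
      rwa [act_apply, mulRep_apply, smul_smul, mul_inv_cancel₀ hx, one_smul] at this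
  · rintro ⟨h1, h2⟩
    exact ⟨fun α hα => h1 _ (mulRep_mem hx hE hα), fun α hα => h2 _ (mulRep_mem_principal x hα)⟩

end Fermat.Agent.S20.WeilDiffBasic
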