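import Mathlib
import Fermat.Agent.S20.WeilDiffBasic

/-!
# S20, block RR, piece R4 (part 2): the index of speciality vanishes in large degree

Input: weak Riemann–Roch `ℓ(D) - i(D) = deg D + 1 - g` (pieces R2/R3) as a hypothesis `WeakRR`.
Output: `∃ c, ∀ D, c ≤ deg D → H¹(D) = 0`, shift invariance of `ℓ`, and
`ω ≠ 0, ω ∈ Ω_W(D) ⇒ deg D < c`.
-/

set_option autoImplicit false

open AlgebraicCurve Module WithZero

namespace Fermat.Agent.S20.WeilDiffIndex

open Fermat.Agent.S20.WeilDiffBasic

variable {K F : Type*} [Field K] [Field F] [Algebra K F]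

/-- Weak Riemann–Roch (the output of pieces R2 + R3), packaged as a hypothesis. -/
structure WeakRR (K F : Type*) [Field K] [Field F] [Algebra K F] (g : ℤ) : Prop where
  finite_H1 : ∀ D : Divisor K F, Module.Finite K (H1 D)
  finite_L : ∀ D : Divisor K F, Module.Finite K (riemannRochSpace D)
  rr : ∀ D : Divisor K F, (finrank K (riemannRochSpace D) : ℤ) - finrank K (H1 D)
    = Divisor.degree D + 1 - g
  L_eq_bot : ∀ D : Divisor K F, Divisor.degree D < 0 → riemannRochSpace D = ⊥

/-- `ℓ(D)`. -/
noncomputable abbrev ell (D : Divisor K F) : ℤ := (finrank K (riemannRochSpace D) : ℤ)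

/-- `i(D) = dim H¹(D)`. -/
noncomputable abbrev spec (D : Divisor K F) : ℤ := (finrank K (H1 D) : ℤ)

/-! ### Shift invariance of `L` -/

theorem mul_mem_riemannRochSpace {D E : Divisor K F} {z : F} (hz : z ≠ 0) (hE : IsDivOf E z)
    {f : F} (hf : f ∈ riemannRochSpace (D + E)) : f * z ∈ riemannRochSpace D := by
  intro v
  rw [map_mul, val_eq_exp_of_isDivOf hz hE v]
  have := hf v
  rw [Finsupp.add_apply, exp_add] at this
  calc v.adicValuation f * exp (-(E v)) ≤ (exp (D v) * exp (E v)) * exp (-(E v)) :=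
        mul_le_mul_left this _
    _ = exp (D v) := by rw [mul_assoc, ← exp_add]; simp

/-- `L(D + (z)) ≃ L(D)`, `f ↦ f z`. -/
noncomputable def shiftEquiv {D E : Divisor K F} {z : F} (hz : z ≠ 0) (hE : IsDivOf E z) :
    riemannRochSpace (D + E) ≃ₗ[K] riemannRochSpace D where
  toFun f := ⟨f * z, mul_mem_riemannRochSpace hz hE f.2⟩
  map_add' f g := by ext; simp [add_mul]
  map_smul' c f := by ext; simp
  invFun f := ⟨f * z⁻¹, by
    have h : (f : F) ∈ riemannRochSpace ((D + E) + (-E)) := by
      rw [add_neg_cancel_right]; exact f.2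
    exact mul_mem_riemannRochSpace (inv_ne_zero hz) (isDivOf_inv hE) h⟩
  left_inv f := by ext; simp [hz]
  right_inv f := by ext; simp [hz]

theorem ell_shift {D E : Divisor K F} {z : F} (hz : z ≠ 0) (hE : IsDivOf E z) :
    ell (D + E) = ell D := by
  unfold ell
  rw [(shiftEquiv (K := K) hz hE).finrank_eq]

/-! ### Monotonicity of `H¹` -/

/-- The natural surjection `H¹(D) → H¹(D')` for `D ≤ D'`. -/
noncomputable def H1map {D D' : Divisor K F} (h : D ≤ D') : H1 D →ₗ[K] H1 D' :=
  Submodule.mapQ (adeleSub D) (adeleSub D') LinearMap.id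
    (by rw [Submodule.comap_id]; exact adeleSub_mono h)

theorem H1map_mk {D D' : Divisor K F} (h : D ≤ D') (α : Repart K F) :
    H1map h (Submodule.Quotient.mk α : H1 D) = (Submodule.Quotient.mk α : H1 D') := rfl

theorem H1map_surjective {D D' : Divisor K F} (h : D ≤ D') :
    Function.Surjective (H1map (K := K) (F := F) h) := by
  intro y
  obtain ⟨α, rfl⟩ := Submodule.Quotient.mk_surjective _ y
  exact ⟨Submodule.Quotient.mk α, rfl⟩

theorem spec_anti {D D' : Divisor K F} (h : D ≤ D') [Module.Finite K (H1 D)] :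
    spec D' ≤ spec D := by
  unfold spec
  exact_mod_cast LinearMap.finrank_le_finrank_of_surjective (H1map_surjective (K := K) h)

theorem adeleSub_le_of_spec_eq {D D' : Divisor K F} (h : D ≤ D') [Module.Finite K (H1 D)]
    [Module.Finite K (H1 D')] (heq : spec D' = spec D) : adeleSub D' ≤ adeleSub D := by
  have hfr : finrank K (H1 D) = finrank K (H1 D') := by
    unfold spec at heq; exact_mod_cast heq.symm
  have hinj : Function.Injective (H1map (K := K) (F := F) h) :=
    (LinearMap.injective_iff_surjective_of_finrank_eq_finrank hfr).mpr (H1map_surjective h)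
  intro α hα
  have h0 : H1map h (Submodule.Quotient.mk α : H1 D) = 0 := by
    rw [H1map_mk]
    exact (Submodule.Quotient.mk_eq_zero _).mpr hα
  have := hinj (h0.trans (map_zero _).symm)
  exact (Submodule.Quotient.mk_eq_zero _).mp this

/-! ### Vanishing of `H¹` in large degree -/

section Vanishing

variable {g : ℤ}

theorem spec_nonneg (D : Divisor K F) : 0 ≤ spec D := Int.natCast_nonneg _

theorem ell_nonneg (D : Divisor K F) : 0 ≤ ell D := Int.natCast_nonneg _

theorem ell_ge (h : WeakRR K F g) (D : Divisor K F) : Divisor.degree D + 1 - g ≤ ell D := by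
  have := h.rr D
  have := spec_nonneg D
  unfold ell; unfold spec at this
  linarith

theorem ell_eq_zero_of_degree_neg (h : WeakRR K F g) {D : Divisor K F}
    (hD : Divisor.degree D < 0) : ell D = 0 := by
  unfold ell
  rw [h.L_eq_bot D hD]
  simp

/-- There is a divisor with `H¹ = 0`. -/
theorem exists_spec_eq_zero [HasPrincipalDivisors K F] (h : WeakRR K F g) :
    ∃ D₀ : Divisor K F, spec D₀ = 0 := by
  classical
  let S : Set ℕ := Set.range (fun D : Divisor K F => finrank K (H1 D))
  have hS : S.Nonempty := ⟨_, ⟨0, rfl⟩⟩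
  obtain ⟨D₀, hD₀⟩ := Nat.sInf_mem hS
  have hmin : ∀ D : Divisor K F, finrank K (H1 D₀) ≤ finrank K (H1 D) := by
    intro D
    show (fun D : Divisor K F => finrank K (H1 D)) D₀ ≤ _
    rw [hD₀]
    exact Nat.sInf_le ⟨D, rfl⟩
  refine ⟨D₀, ?_⟩
  have htop : adeleSub D₀ = ⊤ := by
    rw [eq_top_iff]
    intro α _
    obtain ⟨D', hD', hα⟩ := exists_ge_mem_repartitionsOf D₀ α
    have := h.finite_H1 D₀
    have := h.finite_H1 D'
    have h1 : spec D' ≤ spec D₀ := spec_anti hD'
    have h2 : spec D₀ ≤ spec D' := by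
      unfold spec; exact_mod_cast hmin D'
    have := adeleSub_le_of_spec_eq hD' (le_antisymm h1 h2)
    exact this (Submodule.mem_sup_left hα)
  have : Subsingleton (H1 D₀) := Submodule.Quotient.subsingleton_iff.mpr htop
  unfold spec
  rw [finrank_zero_of_subsingleton]
  rfl

/-- `H¹(D) = 0` for all divisors of large degree. -/
theorem exists_forall_spec_eq_zero [HasPrincipalDivisors K F] (h : WeakRR K F g) :
    ∃ c : ℤ, ∀ D : Divisor K F, c ≤ Divisor.degree D → spec D = 0 := by
  obtain ⟨D₀, hD₀⟩ := exists_spec_eq_zero h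
  refine ⟨Divisor.degree D₀ + g, fun D hD => ?_⟩
  have h1 : 1 ≤ ell (D - D₀) := by
    have := ell_ge h (D - D₀)
    rw [map_sub] at this
    linarith
  have := h.finite_L (D - D₀)
  have hpos : 0 < finrank K (riemannRochSpace (D - D₀)) := by
    unfold ell at h1; exact_mod_cast h1
  obtain ⟨⟨z, hzmem⟩, hz⟩ := (Module.finrank_pos_iff_exists_ne_zero).mp hpos
  have hz0 : z ≠ 0 := fun h0 => hz (Subtype.ext h0)
  obtain ⟨E, hE, hdeg⟩ := exists_isDivOf (K := K) hz0
  have hle : D₀ ≤ D + E := by
    intro v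
    have := hzmem v
    rw [val_eq_exp_of_isDivOf hz0 hE v, exp_le_exp, Finsupp.sub_apply] at this
    rw [Finsupp.add_apply]
    linarith
  have := h.finite_H1 D₀
  have h2 : spec (D + E) = 0 :=
    le_antisymm (hD₀ ▸ spec_anti hle) (spec_nonneg _)
  have h3 := h.rr (D + E)
  have h4 := h.rr D
  have h5 : ell (D + E) = ell D := ell_shift hz0 hE
  rw [map_add, hdeg] at h3
  unfold ell at h5; unfold spec at h2 ⊢
  linarith

/-- A nonzero Weil differential vanishing on `𝔸(D) + F` forces `deg D` to be bounded. -/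
theorem exists_degree_lt_of_mem_OmegaOf [HasPrincipalDivisors K F] (h : WeakRR K F g) :
    ∃ c : ℤ, ∀ (D : Divisor K F) (ω : Module.Dual K (Repart K F)), ω ≠ 0 → ω ∈ OmegaOf D →
      Divisor.degree D < c := by
  obtain ⟨c, hc⟩ := exists_forall_spec_eq_zero h
  refine ⟨c, fun D ω hω hmem => ?_⟩
  by_contra hcon
  push Not at hcon
  have h0 := hc D hcon
  have := h.finite_H1 D
  have h1 : finrank K (OmegaOf D) = 0 := by
    rw [finrank_OmegaOf]
    unfold spec at h0; exact_mod_cast h0
  have h2 : OmegaOf D = ⊥ := Submodule.finrank_eq_zero.mp h1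
  rw [h2, Submodule.mem_bot] at hmem
  exact hω hmem

end Vanishing

end Fermat.Agent.S20.WeilDiffIndex
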