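import Mathlib
import Fermat.Agent.S20.WeilDiffIndex

/-!
# S20, block RR, piece R4 (part 3): the space of Weil differentials is one-dimensional over `F`

`exists_act_eq`: for Weil differentials `ω₁ ≠ 0` and `ω₂` there is `x : F` with `ω₂ = x • ω₁`.
(Stichtenoth, Prop. 1.5.9.)
-/

set_option autoImplicit false

open AlgebraicCurve Module WithZero

namespace Fermat.Agent.S20.WeilDiffDim

open Fermat.Agent.S20.WeilDiffBasic Fermat.Agent.S20.WeilDiffIndex

variable {K F : Type*} [Field K] [Field F] [Algebra K F]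

/-- `ω` is a Weil differential: a `K`-linear functional on the repartitions that vanishes on
`𝔸(D) + F` for some divisor `D`. -/
def IsWeil (ω : Module.Dual K (Repart K F)) : Prop := ∃ D : Divisor K F, ω ∈ OmegaOf D

theorem isWeil_zero : IsWeil (0 : Module.Dual K (Repart K F)) := ⟨0, Submodule.zero_mem _⟩

theorem IsWeil.act [HasPrincipalDivisors K F] {ω : Module.Dual K (Repart K F)} (h : IsWeil ω)
    (x : F) : IsWeil (act ω x) := by
  rcases eq_or_ne x 0 with rfl | hx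
  · rw [map_zero]; exact isWeil_zero
  obtain ⟨D, hD⟩ := h
  obtain ⟨E, hE, -⟩ := exists_isDivOf (K := K) hx
  refine ⟨D + E, ?_⟩
  rw [act_mem_OmegaOf_iff hx hE, add_sub_cancel_right]
  exact hD

/-- For `x ∈ L(D + B)` and `ω ∈ Ω_W(D)` we have `x • ω ∈ Ω_W(-B)`. -/
theorem act_mem_OmegaOf_neg [HasPrincipalDivisors K F] {D B : Divisor K F}
    {ω : Module.Dual K (Repart K F)} (hω : ω ∈ OmegaOf D) {x : F}
    (hx : x ∈ riemannRochSpace (D + B)) : act ω x ∈ OmegaOf (-B) := by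
  rcases eq_or_ne x 0 with rfl | hx0
  · rw [map_zero]; exact Submodule.zero_mem _
  obtain ⟨E, hE, -⟩ := exists_isDivOf (K := K) hx0
  rw [act_mem_OmegaOf_iff hx0 hE]
  refine OmegaOf_anti ?_ hω
  intro v
  have := hx v
  rw [val_eq_exp_of_isDivOf hx0 hE v, exp_le_exp, Finsupp.add_apply] at this
  rw [Finsupp.sub_apply, Finsupp.neg_apply]
  linarith

theorem exists_divisor_degree_ge [Nonempty (Place K F)] (hdeg : ∀ v : Place K F, 0 < v.deg)
    (N : ℤ) : ∃ B : Divisor K F, N ≤ Divisor.degree B := by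
  obtain ⟨v₀⟩ := ‹Nonempty (Place K F)›
  refine ⟨Finsupp.single v₀ (N.toNat : ℤ), ?_⟩
  rw [Divisor.degree_single]
  have h1 : (1 : ℤ) ≤ v₀.deg := by exact_mod_cast hdeg v₀
  have h2 : N ≤ (N.toNat : ℤ) := Int.self_le_toNat N
  have h3 : (0 : ℤ) ≤ (N.toNat : ℤ) := Int.natCast_nonneg _
  nlinarith

/-- **The Weil differentials form a one-dimensional `F`-vector space.** -/
theorem exists_act_eq {g : ℤ} [HasPrincipalDivisors K F] [Nonempty (Place K F)]
    (h : WeakRR K F g) (hdeg : ∀ v : Place K F, 0 < v.deg)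
    {ω₁ ω₂ : Module.Dual K (Repart K F)} (h₁ : IsWeil ω₁) (h₂ : IsWeil ω₂) (hω₁ : ω₁ ≠ 0) :
    ∃ x : F, ω₂ = act ω₁ x := by
  rcases eq_or_ne ω₂ 0 with rfl | hω₂
  · exact ⟨0, by rw [map_zero]⟩
  obtain ⟨D₁, hD₁⟩ := h₁
  obtain ⟨D₂, hD₂⟩ := h₂
  obtain ⟨B, hB⟩ := exists_divisor_degree_ge (K := K) (F := F) hdeg
    (max 1 (3 * g - 2 - Divisor.degree D₁ - Divisor.degree D₂))
  have hB1 : 1 ≤ Divisor.degree B := le_trans (le_max_left _ _) hB
  have hB2 : 3 * g - 2 - Divisor.degree D₁ - Divisor.degree D₂ ≤ Divisor.degree B :=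
    le_trans (le_max_right _ _) hB
  -- dimension of the target
  have hnegB : Divisor.degree (-B) < 0 := by rw [map_neg]; linarith
  have hspec : spec (-B) = Divisor.degree B - 1 + g := by
    have h1 := h.rr (-B)
    have h2 := ell_eq_zero_of_degree_neg h hnegB
    rw [map_neg] at h1
    unfold ell at h2; unfold spec
    linarith
  -- dimensions of the sources
  have hl₁ := ell_ge h (D₁ + B)
  have hl₂ := ell_ge h (D₂ + B)
  rw [map_add] at hl₁ hl₂
  have := h.finite_L (D₁ + B)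
  have := h.finite_L (D₂ + B)
  have := h.finite_H1 (-B)
  set R₁ : Submodule K (Module.Dual K (Repart K F)) :=
    (riemannRochSpace (D₁ + B)).map (act ω₁) with hR₁
  set R₂ : Submodule K (Module.Dual K (Repart K F)) :=
    (riemannRochSpace (D₂ + B)).map (act ω₂) with hR₂
  have hR₁le : R₁ ≤ OmegaOf (-B) := by
    rintro _ ⟨x, hx, rfl⟩
    exact act_mem_OmegaOf_neg hD₁ hx
  have hR₂le : R₂ ≤ OmegaOf (-B) := by
    rintro _ ⟨x, hx, rfl⟩
    exact act_mem_OmegaOf_neg hD₂ hx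
  have hf₁ : (finrank K R₁ : ℤ) = ell (D₁ + B) := by
    unfold ell
    rw [← (Submodule.equivMapOfInjective (act ω₁) (act_injective hω₁) _).finrank_eq]
  have hf₂ : (finrank K R₂ : ℤ) = ell (D₂ + B) := by
    unfold ell
    rw [← (Submodule.equivMapOfInjective (act ω₂) (act_injective hω₂) _).finrank_eq]
  have hsum := Submodule.finrank_sup_add_finrank_inf_eq R₁ R₂
  have hsup : finrank K ↥(R₁ ⊔ R₂) ≤ finrank K (OmegaOf (-B)) :=
    Submodule.finrank_mono (sup_le hR₁le hR₂le)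
  rw [finrank_OmegaOf] at hsup
  have hpos : 0 < finrank K ↥(R₁ ⊓ R₂) := by
    have hsup' : (finrank K ↥(R₁ ⊔ R₂) : ℤ) ≤ spec (-B) := by unfold spec; exact_mod_cast hsup
    have hsum' : (finrank K ↥(R₁ ⊔ R₂) : ℤ) + finrank K ↥(R₁ ⊓ R₂)
        = finrank K R₁ + finrank K R₂ := by exact_mod_cast hsum
    have : (0 : ℤ) < finrank K ↥(R₁ ⊓ R₂) := by linarith
    exact_mod_cast this
  obtain ⟨⟨η, hη⟩, hη0⟩ :=
    (Module.finrank_pos_iff_exists_ne_zero (R := K) (M := ↥(R₁ ⊓ R₂))).mp hpos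
  have hη0' : η ≠ 0 := fun h0 => hη0 (Subtype.ext h0)
  obtain ⟨⟨x₁, -, hx₁⟩, ⟨x₂, -, hx₂⟩⟩ := hη
  have hx₂0 : x₂ ≠ 0 := by
    rintro rfl
    rw [map_zero] at hx₂
    exact hη0' hx₂.symm
  refine ⟨x₁ * x₂⁻¹, ?_⟩
  rw [← act_act, hx₁, ← hx₂, act_act, mul_inv_cancel₀ hx₂0, act_one]

end Fermat.Agent.S20.WeilDiffDim
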