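import Mathlib
import Fermat.Agent.S20.WeilDiffDim

/-!
# S20, block RR, piece R4 (part 4): divisor of a Weil differential, duality, Riemann–Roch

* `IsDivW W ω` : `W` is the divisor of the Weil differential `ω`, i.e. `ω ∈ Ω_W(D) ↔ D ≤ W`;
* `exists_isDivW` : every nonzero Weil differential has a divisor;
* `IsDivW.act` : `(x • ω) = (x) + (ω)`;
* `dualityEquiv` : `L(W - D) ≃ Ω_W(D)`, `x ↦ x • ω`;
* `spec_eq_ell` : `i(D) = ℓ(W - D)`;  `riemann_roch` : `ℓ(D) = deg D + 1 - g + ℓ(W - D)`;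
* `ell_canonical`, `degree_canonical` : `ℓ(W) = g`, `deg W = 2g - 2` (when `ℓ(0) = 1`).
-/

set_option autoImplicit false

open AlgebraicCurve Module WithZero

namespace Fermat.Agent.S20.WeilDiffDuality

open Fermat.Agent.S20.WeilDiffBasic Fermat.Agent.S20.WeilDiffIndex Fermat.Agent.S20.WeilDiffDim

variable {K F : Type*} [Field K] [Field F] [Algebra K F]

/-- `W` is the divisor of the Weil differential `ω`. -/
def IsDivW (W : Divisor K F) (ω : Module.Dual K (Repart K F)) : Prop :=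
  ∀ D : Divisor K F, ω ∈ OmegaOf D ↔ D ≤ W

theorem IsDivW.unique {W W' : Divisor K F} {ω : Module.Dual K (Repart K F)}
    (h : IsDivW W ω) (h' : IsDivW W' ω) : W = W' :=
  le_antisymm ((h' W).mp ((h W).mpr le_rfl)) ((h W').mp ((h' W').mpr le_rfl))

theorem IsDivW.mem {W : Divisor K F} {ω : Module.Dual K (Repart K F)} (h : IsDivW W ω) :
    ω ∈ OmegaOf W := (h W).mpr le_rfl

theorem IsDivW.isWeil {W : Divisor K F} {ω : Module.Dual K (Repart K F)} (h : IsDivW W ω) :
    IsWeil ω := ⟨W, h.mem⟩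

/-- A nonnegative divisor of nonpositive degree is zero (all places have positive degree). -/
theorem eq_zero_of_nonneg_of_degree_le (hdeg : ∀ v : Place K F, 0 < v.deg) {E : Divisor K F}
    (hE : 0 ≤ E) (hd : Divisor.degree E ≤ 0) : E = 0 := by
  classical
  by_contra hne
  obtain ⟨v₁, hv₁⟩ : ∃ v, E v ≠ 0 := by
    by_contra hcon
    push Not at hcon
    exact hne (Finsupp.ext hcon)
  have hpos : 0 < E v₁ := lt_of_le_of_ne (hE v₁) (Ne.symm hv₁)
  have hsum : Divisor.degree E = E.sum (fun v n => n * (v.deg : ℤ)) := by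
    simp [Divisor.degree, Finsupp.liftAddHom_apply]
  have hterm : ∀ v ∈ E.support, 0 ≤ E v * (v.deg : ℤ) := fun v _ =>
    mul_nonneg (hE v) (Int.natCast_nonneg _)
  have hmem : v₁ ∈ E.support := Finsupp.mem_support_iff.mpr hv₁
  have h1 : E v₁ * (v₁.deg : ℤ) ≤ E.sum (fun v n => n * (v.deg : ℤ)) :=
    Finset.single_le_sum (f := fun v => E v * (v.deg : ℤ)) hterm hmem
  have h2 : 0 < E v₁ * (v₁.deg : ℤ) := mul_pos hpos (by exact_mod_cast hdeg v₁)
  rw [hsum] at hd
  linarith

/-- Every nonzero Weil differential has a divisor. -/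
theorem exists_isDivW {g : ℤ} [HasPrincipalDivisors K F] (h : WeakRR K F g)
    (hdeg : ∀ v : Place K F, 0 < v.deg) {ω : Module.Dual K (Repart K F)} (hω : IsWeil ω)
    (h0 : ω ≠ 0) : ∃ W : Divisor K F, IsDivW W ω := by
  obtain ⟨c, hc⟩ := exists_degree_lt_of_mem_OmegaOf h
  obtain ⟨D₀, hD₀⟩ := hω
  obtain ⟨n, ⟨W, hW, rfl⟩, hmax⟩ := Int.exists_greatest_of_bdd
    (P := fun n => ∃ D : Divisor K F, ω ∈ OmegaOf D ∧ Divisor.degree D = n)
    ⟨c, by rintro z ⟨D, hD, rfl⟩; exact (hc D ω h0 hD).le⟩ ⟨_, D₀, hD₀, rfl⟩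
  refine ⟨W, fun D => ⟨fun hD => ?_, fun hD => OmegaOf_anti hD hW⟩⟩
  have hsup : ω ∈ OmegaOf (W ⊔ D) := mem_OmegaOf_sup hW hD
  have hle : Divisor.degree (W ⊔ D) ≤ Divisor.degree W := hmax _ ⟨_, hsup, rfl⟩
  have hE : (W ⊔ D) - W = 0 := by
    apply eq_zero_of_nonneg_of_degree_le hdeg
    · exact sub_nonneg.mpr le_sup_left
    · rw [map_sub]; linarith
  have : W ⊔ D = W := sub_eq_zero.mp hE
  exact sup_eq_left.mp this

/-- `(x • ω) = (x) + (ω)`. -/
theorem IsDivW.act {W E : Divisor K F} {ω : Module.Dual K (Repart K F)} (hW : IsDivW W ω)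
    {x : F} (hx : x ≠ 0) (hE : IsDivOf E x) : IsDivW (W + E) (act ω x) := by
  intro D
  rw [act_mem_OmegaOf_iff hx hE, hW (D - E), sub_le_iff_le_add]

/-- For `x ≠ 0`: `x • ω ∈ Ω_W(D) ↔ x ∈ L(W - D)`. -/
theorem act_mem_OmegaOf_iff_mem_L [HasPrincipalDivisors K F] {W D : Divisor K F}
    {ω : Module.Dual K (Repart K F)} (hW : IsDivW W ω) {x : F} (hx : x ≠ 0) :
    WeilDiffBasic.act ω x ∈ OmegaOf D ↔ x ∈ riemannRochSpace (W - D) := by
  obtain ⟨E, hE, -⟩ := exists_isDivOf (K := K) hx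
  rw [(hW.act hx hE) D]
  constructor
  · intro hle v
    rw [val_eq_exp_of_isDivOf hx hE v, exp_le_exp, Finsupp.sub_apply]
    have := hle v
    rw [Finsupp.add_apply] at this
    linarith
  · intro hmem v
    have := hmem v
    rw [val_eq_exp_of_isDivOf hx hE v, exp_le_exp, Finsupp.sub_apply] at this
    rw [Finsupp.add_apply]
    linarith

section Duality

variable {g : ℤ} [HasPrincipalDivisors K F] [Nonempty (Place K F)]

/-- The duality map `L(W - D) → Ω_W(D)`, `x ↦ x • ω`. -/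
noncomputable def dualityMap {W : Divisor K F} {ω : Module.Dual K (Repart K F)}
    (hW : IsDivW W ω) (D : Divisor K F) : riemannRochSpace (W - D) →ₗ[K] OmegaOf D :=
  LinearMap.codRestrict (OmegaOf D) ((WeilDiffBasic.act ω).domRestrict (riemannRochSpace (W - D)))
    (by
      rintro ⟨x, hx⟩
      rcases eq_or_ne x 0 with rfl | hx0
      · simp
      · exact (act_mem_OmegaOf_iff_mem_L hW hx0).mpr hx)

omit [Nonempty (Place K F)] in
@[simp] theorem dualityMap_coe {W : Divisor K F} {ω : Module.Dual K (Repart K F)}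
    (hW : IsDivW W ω) (D : Divisor K F) (x : riemannRochSpace (W - D)) :
    (dualityMap hW D x : Module.Dual K (Repart K F)) = WeilDiffBasic.act ω (x : F) := rfl

omit [Nonempty (Place K F)] in
theorem dualityMap_injective {W : Divisor K F} {ω : Module.Dual K (Repart K F)}
    (hW : IsDivW W ω) (h0 : ω ≠ 0) (D : Divisor K F) :
    Function.Injective (dualityMap hW D) := by
  intro x y hxy
  have := congrArg (Subtype.val) hxy
  rw [dualityMap_coe, dualityMap_coe] at this
  exact Subtype.ext (act_injective h0 this)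

theorem dualityMap_surjective (h : WeakRR K F g) (hdeg : ∀ v : Place K F, 0 < v.deg)
    {W : Divisor K F} {ω : Module.Dual K (Repart K F)}
    (hW : IsDivW W ω) (h0 : ω ≠ 0) (D : Divisor K F) :
    Function.Surjective (dualityMap hW D) := by
  rintro ⟨η, hη⟩
  obtain ⟨x, hx⟩ := exists_act_eq h hdeg hW.isWeil ⟨D, hη⟩ h0
  rcases eq_or_ne x 0 with rfl | hx0
  · refine ⟨0, Subtype.ext ?_⟩
    rw [dualityMap_coe]
    show WeilDiffBasic.act ω ((0 : riemannRochSpace (W - D)) : F) = η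
    rw [hx]; simp
  · have hmem : x ∈ riemannRochSpace (W - D) :=
      (act_mem_OmegaOf_iff_mem_L hW hx0).mp (hx ▸ hη)
    exact ⟨⟨x, hmem⟩, Subtype.ext (by rw [dualityMap_coe]; exact hx.symm)⟩

/-- **Duality**: `L(W - D) ≃ Ω_W(D)`. -/
noncomputable def dualityEquiv (h : WeakRR K F g) (hdeg : ∀ v : Place K F, 0 < v.deg)
    {W : Divisor K F} {ω : Module.Dual K (Repart K F)}
    (hW : IsDivW W ω) (h0 : ω ≠ 0) (D : Divisor K F) :
    riemannRochSpace (W - D) ≃ₗ[K] OmegaOf D :=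
  LinearEquiv.ofBijective (dualityMap hW D)
    ⟨dualityMap_injective hW h0 D, dualityMap_surjective h hdeg hW h0 D⟩

/-- `i(D) = ℓ(W - D)`. -/
theorem spec_eq_ell (h : WeakRR K F g) (hdeg : ∀ v : Place K F, 0 < v.deg)
    {W : Divisor K F} {ω : Module.Dual K (Repart K F)}
    (hW : IsDivW W ω) (h0 : ω ≠ 0) (D : Divisor K F) : spec D = ell (W - D) := by
  have := h.finite_H1 D
  unfold spec ell
  rw [← finrank_OmegaOf D, (dualityEquiv h hdeg hW h0 D).finrank_eq]

/-- **Riemann–Roch**: `ℓ(D) = deg D + 1 - g + ℓ(W - D)`. -/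
theorem riemann_roch (h : WeakRR K F g) (hdeg : ∀ v : Place K F, 0 < v.deg)
    {W : Divisor K F} {ω : Module.Dual K (Repart K F)}
    (hW : IsDivW W ω) (h0 : ω ≠ 0) (D : Divisor K F) :
    ell D = Divisor.degree D + 1 - g + ell (W - D) := by
  have h1 := h.rr D
  have h2 := spec_eq_ell h hdeg hW h0 D
  unfold ell spec at *
  linarith

/-- `ℓ(W) = g` for a canonical divisor, when `ℓ(0) = 1`. -/
theorem ell_canonical (h : WeakRR K F g) (hdeg : ∀ v : Place K F, 0 < v.deg)
    {W : Divisor K F} {ω : Module.Dual K (Repart K F)}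
    (hW : IsDivW W ω) (h0 : ω ≠ 0) (hone : ell (0 : Divisor K F) = 1) : ell W = g := by
  have h1 := riemann_roch h hdeg hW h0 0
  rw [map_zero, sub_zero] at h1
  linarith

/-- `deg W = 2g - 2` for a canonical divisor, when `ℓ(0) = 1`. -/
theorem degree_canonical (h : WeakRR K F g) (hdeg : ∀ v : Place K F, 0 < v.deg)
    {W : Divisor K F} {ω : Module.Dual K (Repart K F)}
    (hW : IsDivW W ω) (h0 : ω ≠ 0) (hone : ell (0 : Divisor K F) = 1) :
    Divisor.degree W = 2 * g - 2 := by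
  have h1 := riemann_roch h hdeg hW h0 W
  have h2 := ell_canonical h hdeg hW h0 hone
  rw [sub_self] at h1
  linarith

omit [HasPrincipalDivisors K F] [Nonempty (Place K F)] in
/-- `dim Ω_W(0) = g`: the space of regular Weil differentials has dimension `g`
(when `ℓ(0) = 1`). -/
theorem finrank_OmegaOf_zero (h : WeakRR K F g) (hone : ell (0 : Divisor K F) = 1) :
    (finrank K (OmegaOf (0 : Divisor K F)) : ℤ) = g := by
  have := h.finite_H1 (0 : Divisor K F)
  rw [finrank_OmegaOf]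
  have h1 := h.rr 0
  rw [map_zero] at h1
  unfold ell at hone
  linarith

end Duality

end Fermat.Agent.S20.WeilDiffDuality
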