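import Mathlib
import Fermat.Agent.S20.WeilDiffDuality
import Fermat.Agent.S20.RRWeakFin
import Fermat.Agent.S20.Riemann
import Fermat.Agent.S20.RRBridge
import Fermat.Agent.S20.KaehlerWeil

/-!
# S20, block RR, piece R4 (export): the theorem on divisors of Weil differentials

Assembles R2 (`Riemann.exists_genus`), R3 (`RRWeak.weak_riemannRoch_of_stable`) and R4
(`WeilDiffDuality`) into

* `weakRR hF hZ : WeakRR K F (genusFF K F)` — weak Riemann–Roch with all finiteness statements;
* `weilDivisorTheorem hF hZ : KaehlerWeil.WeilDivisorTheorem K F` — the interface consumed by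
  `KaehlerWeil.lean` (R6): the divisor `W` of a nonzero Weil differential satisfies
  `ℓ(W) = genusFF K F` and `deg W = 2 genusFF K F - 2`;
* `riemann_roch hF hZ` : full Riemann–Roch `ℓ(D) = deg D + 1 - g + ℓ(W - D)`.

`K` algebraically closed, `F / K` a function field of one variable, zeros theorem as hypothesis.
-/

set_option autoImplicit false

open AlgebraicCurve Module

namespace Fermat.Agent.S20.WeilDiffExport

open Fermat.Agent.S24 Fermat.Agent.S24.PrincipalDegreeCore
open Fermat.Agent.S20.WeilDiffBasic Fermat.Agent.S20.WeilDiffIndex Fermat.Agent.S20.WeilDiffDim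
  Fermat.Agent.S20.WeilDiffDuality

variable {K F : Type*} [Field K] [Field F] [Algebra K F] [IsAlgClosed K]

theorem residueIsBase (hF : IsFunctionField1 K F) : RRWeak.ResidueIsBase K F :=
  fun v => RRBridge.residueIsBase hF v

theorem degOne (hF : IsFunctionField1 K F) : RRWeak.DegOne K F :=
  fun v => place_deg_eq_one hF v

theorem polesFinite (hF : IsFunctionField1 K F) (hZ : ZerosTheorem K F) :
    RRWeak.PolesFinite K F := fun f hf =>
  (ord_support_finite hZ hF f hf).subset fun v (hv : v.ord f < 0) => ne_of_lt hv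

/-- A function without poles is constant. -/
theorem constantsAreBase (hF : IsFunctionField1 K F) (hZ : ZerosTheorem K F) :
    RRWeak.ConstantsAreBase K F := by
  intro f hf
  have h0 : (Module.finrank K (riemannRochSpace (0 : Divisor K F)) : ℤ) ≤ 1 := by
    have := Riemann.finrank_L_le hF hZ (0 : Divisor K F) (by rw [map_zero])
    rwa [map_zero, zero_add] at this
  have := Riemann.finiteDimensional_L hF hZ (0 : Divisor K F)
  have h1 : (1 : F) ∈ riemannRochSpace (0 : Divisor K F) := by
    rw [mem_riemannRochSpace_iff]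
    intro v; right; simp
  have hfm : f ∈ riemannRochSpace (0 : Divisor K F) := by
    rw [mem_riemannRochSpace_iff]
    intro v; right
    simpa using hf v
  have hone : (⟨1, h1⟩ : riemannRochSpace (0 : Divisor K F)) ≠ 0 :=
    fun h => one_ne_zero (congrArg Subtype.val h)
  have hpos : 0 < Module.finrank K (riemannRochSpace (0 : Divisor K F)) :=
    Module.finrank_pos_iff_exists_ne_zero.mpr ⟨_, hone⟩
  have hfr : Module.finrank K (riemannRochSpace (0 : Divisor K F)) = 1 := by
    have : Module.finrank K (riemannRochSpace (0 : Divisor K F)) ≤ 1 := by exact_mod_cast h0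
    omega
  obtain ⟨a, ha⟩ := (finrank_eq_one_iff_of_nonzero' _ hone).mp hfr ⟨f, hfm⟩
  refine ⟨a, ?_⟩
  have := congrArg Subtype.val ha
  simpa [Algebra.smul_def] using this

/-- **Weak Riemann–Roch**, packaged: for all `D`, `L(D)` and `H¹(D)` are finite-dimensional and
`ℓ(D) - dim H¹(D) = deg D + 1 - genusFF K F`. -/
theorem weakRR (hF : IsFunctionField1 K F) (hZ : ZerosTheorem K F) :
    WeakRR K F (genusFF K F : ℤ) := by
  obtain ⟨g, -, D0, hstab⟩ := Riemann.exists_genus hF hZ
  have hstab' : ∀ D : Divisor K F, D0 ≤ D → RRWeak.ell D = Divisor.degree D + (1 - (g : ℤ)) := by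
    intro D hD
    unfold RRWeak.ell
    rw [hstab D hD]; ring
  obtain ⟨hgen, hall⟩ := RRWeak.weak_riemannRoch_of_stable (residueIsBase hF) (degOne hF)
    (constantsAreBase hF hZ) (polesFinite hF hZ) D0 (1 - (g : ℤ)) hstab'
  refine ⟨fun D => (hall D).2.1, fun D => (hall D).1, fun D => ?_,
    fun D hD => Riemann.L_eq_bot_of_degree_neg hF hZ D hD⟩
  have := (hall D).2.2
  rw [hgen]
  linarith

theorem ell_zero (hF : IsFunctionField1 K F) (hZ : ZerosTheorem K F) :
    WeilDiffIndex.ell (0 : Divisor K F) = 1 := by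
  have := RRWeak.ell_zero (constantsAreBase hF hZ)
  unfold RRWeak.ell at this
  exact this

theorem deg_pos (hF : IsFunctionField1 K F) (v : Place K F) : 0 < v.deg := by
  rw [place_deg_eq_one hF v]; exact Nat.one_pos

omit [IsAlgClosed K] in
/-- The interface `IsWeilDivisor` of `KaehlerWeil.lean` gives `IsDivW`. -/
theorem isDivW_of_isWeilDivisor {φ : ↥(repartitions K F) →ₗ[K] K} {W : Divisor K F}
    (hprin : ∀ r ∈ principalRepartitions K F, φ r = 0)
    (hW : KaehlerWeil.IsWeilDivisor φ W) : IsDivW W φ := by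
  intro D
  rw [mem_OmegaOf, ← hW D]
  exact ⟨fun h => h.1, fun h => ⟨h, hprin⟩⟩

/-- **Theorem on Weil differentials** (Stichtenoth 1.5): the divisor `W` of a nonzero Weil
differential satisfies `ℓ(W) = g` and `deg W = 2g - 2` with `g = genusFF K F`. -/
theorem weilDivisorTheorem (hF : IsFunctionField1 K F) (hZ : ZerosTheorem K F) :
    KaehlerWeil.WeilDivisorTheorem K F := by
  intro φ W hφ hprin hW
  have := hasPrincipalDivisors hZ hF
  have := Riemann.exists_place hF hZ
  have hdiv := isDivW_of_isWeilDivisor hprin hW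
  have h := weakRR hF hZ
  exact ⟨ell_canonical h (deg_pos hF) hdiv hφ (ell_zero hF hZ),
    degree_canonical h (deg_pos hF) hdiv hφ (ell_zero hF hZ)⟩

/-- **Riemann–Roch**: for the divisor `W` of any nonzero Weil differential `φ`,
`ℓ(D) = deg D + 1 - g + ℓ(W - D)`. -/
theorem riemann_roch (hF : IsFunctionField1 K F) (hZ : ZerosTheorem K F)
    {φ : ↥(repartitions K F) →ₗ[K] K} {W : Divisor K F} (hφ : φ ≠ 0)
    (hprin : ∀ r ∈ principalRepartitions K F, φ r = 0)
    (hW : KaehlerWeil.IsWeilDivisor φ W) (D : Divisor K F) :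
    (Module.finrank K (riemannRochSpace D) : ℤ) =
      Divisor.degree D + 1 - (genusFF K F : ℤ) + Module.finrank K (riemannRochSpace (W - D)) := by
  have := hasPrincipalDivisors hZ hF
  have := Riemann.exists_place hF hZ
  exact WeilDiffDuality.riemann_roch (weakRR hF hZ) (deg_pos hF)
    (isDivW_of_isWeilDivisor hprin hW) hφ D

end Fermat.Agent.S20.WeilDiffExport
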