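import Mathlib
import Fermat.Agent.S20.Lower
import Fermat.Agent.S20.KaehlerWeil
import Fermat.Agent.S20.WeilDiffExport
import Fermat.Agent.S20.RR.HypOfS24
import Fermat.Agent.S24.BlockBFinal

/-!
# S20 / S21: the lower bound `(L)` from residue data and the dictionary

Block B of S24 is unconditional (`BlockBFinal.modularRamificationData`), and the theorem on Weil
differentials is unconditional (`WeilDiffExport.weilDivisorTheorem`), so the lower bound
`genusFormula N ≤ dim S₂(Γ₀(N))` follows from exactly two inputs:

* `R : KaehlerWeil.ResidueData Kbar (FBar N)` (local residues and the residue theorem),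
* `hdict : Lower.DictLower N` (the one-directional dictionary).
-/

set_option autoImplicit false

open AlgebraicCurve KaehlerDifferential IntermediateField Module ModularCurve

namespace Fermat.Agent.S20.LowerFinal

open Fermat.Agent.S24 Fermat.Agent.S20.Lower

/-- Block B gives that `FBar N` is a function field of one variable over `Kbar`. -/
theorem isFunctionField1_FBar (N : ℕ) [NeZero N] : IsFunctionField1 Kbar (FBar N) :=
  have hB := BlockBFinal.modularRamificationData N
  ⟨jBar N, hB.transcendental, hB.finite⟩

/-- The lower bound `(L)` from residue data and the dictionary. -/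
theorem genusFormula_le_finrank_cuspForm (N : ℕ) [NeZero N]
    (R : KaehlerWeil.ResidueData Kbar (FBar N)) (hdict : DictLower N) :
    genusFormula N ≤ (Module.finrank ℂ (CuspForm (CongruenceSubgroup.Gamma0 N) 2) : ℚ) := by
  classical
  have hB : ModularRamificationData N := BlockBFinal.modularRamificationData N
  have hF : IsFunctionField1 Kbar (FBar N) := isFunctionField1_FBar N
  have hZ : PrincipalDegreeCore.ZerosTheorem Kbar (FBar N) := ZerosBackup.zerosTheorem
  haveI : HasCanonicalDivisor (K := Kbar) (F := FBar N) :=
    CanonicalDiv.hasCanonicalDivisor_FBar N hB hZ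
  have hS24 : (AlgebraicCurve.genus Kbar (FBar N) : ℚ) = genusFormula N :=
    genus_eq_genusFormula_of_blocks N ZerosBackup.hurwitzFormula hB (Comb.genusFormulaIsNat N)
  haveI : Nonempty (Place Kbar (FBar N)) := Riemann.exists_place hF hZ
  have hfin := (RR.HypOfS24.hyp hF).fin
  have hW : KaehlerWeil.WeilDivisorTheorem Kbar (FBar N) :=
    WeilDiffExport.weilDivisorTheorem hF hZ
  have hreg := KaehlerWeil.finrank_regularDifferentials_eq_genus hF R hfin hW
  rw [← hS24, ← hreg]
  set n := finrank Kbar (KaehlerWeil.regularDifferentials hF) with hn
  have hle : n ≤ Module.finrank ℂ (CuspForm (CongruenceSubgroup.Gamma0 N) 2) := by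
    rcases Nat.eq_zero_or_pos n with h0 | hpos
    · rw [h0]; exact Nat.zero_le _
    · haveI : Module.Finite Kbar (KaehlerWeil.regularDifferentials hF) :=
        Module.finite_of_finrank_pos hpos
      let b := Module.finBasis Kbar (KaehlerWeil.regularDifferentials hF)
      refine hdict n
        (fun i => ((b i : KaehlerWeil.regularDifferentials hF) : Ω[FBar N⁄Kbar])) ?_ ?_
      · have := b.linearIndependent
        exact this.map' (KaehlerWeil.regularDifferentials hF).subtype (Submodule.ker_subtype _)
      · intro i v
        exact (b i).2 v
  exact_mod_cast hle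

end Fermat.Agent.S20.LowerFinal
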