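import Mathlib

set_option autoImplicit false

namespace Fermat.Agent.S20.TraceEmb

theorem trace_eq_sum_ringHom {k F L : Type*} [Field k] [Field F] [Field L] [Algebra k F]
    [FiniteDimensional k F] [Algebra.IsSeparable k F] (ι₀ : k →+* L) {ι : Type*} [Fintype ι]
    (τ : ι → F →+* L) (hτ : ∀ i c, τ i (algebraMap k F c) = ι₀ c)
    (hinj : Function.Injective τ) (hcard : Fintype.card ι = Module.finrank k F) (f : F) :
    ι₀ (Algebra.trace k F f) = ∑ i, τ i f := by
  classical
  let _ : Algebra k L := ι₀.toAlgebra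
  have hι₀ : ∀ c, algebraMap k L c = ι₀ c := fun c => rfl
  let Ω := AlgebraicClosure L
  -- the embeddings into `Ω`
  let T : ι → (F →ₐ[k] Ω) := fun i =>
    { ((algebraMap L Ω).comp (τ i)) with
      commutes' := fun c => by
        show algebraMap L Ω (τ i (algebraMap k F c)) = algebraMap k Ω c
        rw [hτ, ← hι₀, ← IsScalarTower.algebraMap_apply] }
  have hT : ∀ i x, T i x = algebraMap L Ω (τ i x) := fun i x => rfl
  have hTinj : Function.Injective T := by
    intro i j hij
    apply hinj
    ext x
    have := DFunLike.congr_fun hij x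
    rw [hT, hT] at this
    exact (algebraMap L Ω).injective this
  have hcard' : Fintype.card ι = Fintype.card (F →ₐ[k] Ω) := by
    rw [hcard, AlgHom.card k F Ω]
  have hTbij : Function.Bijective T :=
    (Fintype.bijective_iff_injective_and_card T).2 ⟨hTinj, hcard'⟩
  have h1 : algebraMap k Ω (Algebra.trace k F f) = ∑ σ : F →ₐ[k] Ω, σ f :=
    trace_eq_sum_embeddings Ω
  have h2 : ∑ σ : F →ₐ[k] Ω, σ f = ∑ i, T i f :=
    (Fintype.sum_bijective T hTbij (fun i => T i f) (fun σ => σ f) (fun i => rfl)).symm
  apply (algebraMap L Ω).injective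
  rw [map_sum, ← hι₀, ← IsScalarTower.algebraMap_apply, h1, h2]
  exact Finset.sum_congr rfl fun i _ => hT i f

end Fermat.Agent.S20.TraceEmb
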