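import Fermat.Agent.S20.RatFuncResidue

/-!
# S20 : the residue theorem on `K(x)` in the exact shapes of lemma rows 94 (R5.e) and 102 (RR-D3)

Thin wrappers over `Fermat.Agent.S20.RatFuncResidue`.
-/

set_option autoImplicit false

open IntermediateField

namespace Fermat.Agent.S20.RatFuncResidue

variable {K : Type*} [Field K]

theorem tt_inv_eq : (tt K)⁻¹ = HahnSeries.single (-1 : ℤ) (1 : K) := by
  rw [tt, HahnSeries.inv_single, inv_one]

/-! ### Row 94 shapes -/

theorem expandAt_X' (a : K) : expandAt a RatFunc.X = HahnSeries.C a + HahnSeries.single (1 : ℤ) (1 : K) :=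
  expandAt_X a

theorem expandInf_X' : expandInf (RatFunc.X : RatFunc K) = HahnSeries.single (-1 : ℤ) (1 : K) := by
  rw [expandInf_X, tt_inv_eq]

theorem finite_res_support [IsAlgClosed K] (g : RatFunc K) :
    {a : K | (expandAt a g).coeff (-1) ≠ 0}.Finite :=
  finite_support_resAt g

theorem ratFunc_residue_theorem [IsAlgClosed K] (g : RatFunc K) :
    ∑ᶠ a : K, (expandAt a g).coeff (-1) = (expandInf g).coeff 1 := by
  have h := finsum_resAt_add_resInf g
  simp only [resAt, resInf] at h
  linear_combination h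

/-! ### Row 102 shapes -/

section Adjoin

variable {F : Type*} [Field F] [Algebra K F] {x : F}

/-- expansion of `K⟮x⟯` at `x = a` -/
noncomputable def iotaAt (hx : Transcendental K x) (a : K) : K⟮x⟯ →ₐ[K] LaurentSeries K :=
  (expandAt a).comp (RatFunc.algEquivOfTranscendental x hx).symm.toAlgHom

/-- expansion of `K⟮x⟯` at `x = ∞` -/
noncomputable def iotaInf (hx : Transcendental K x) : K⟮x⟯ →ₐ[K] LaurentSeries K :=
  (expandInf).comp (RatFunc.algEquivOfTranscendental x hx).symm.toAlgHom

theorem iotaAt_gen (hx : Transcendental K x) (a : K) :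
    iotaAt hx a (AdjoinSimple.gen K x) = HahnSeries.C a + HahnSeries.single (1 : ℤ) (1 : K) := by
  simp [iotaAt, tt]

theorem iotaInf_gen (hx : Transcendental K x) :
    iotaInf hx (AdjoinSimple.gen K x) = HahnSeries.single (-1 : ℤ) (1 : K) := by
  simp [iotaInf, tt_inv_eq]

theorem finite_support_res [IsAlgClosed K] (hx : Transcendental K x) (r : K⟮x⟯) :
    {a : K | (iotaAt hx a r).coeff (-1) ≠ 0}.Finite :=
  finite_support_resAt ((RatFunc.algEquivOfTranscendental x hx).symm r)

theorem sum_res_eq [IsAlgClosed K] (hx : Transcendental K x) (r : K⟮x⟯) :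
    ∑ᶠ a : K, (iotaAt hx a r).coeff (-1) = (iotaInf hx r).coeff 1 :=
  ratFunc_residue_theorem ((RatFunc.algEquivOfTranscendental x hx).symm r)

/-- any expansion hom of `K⟮x⟯` with `x ↦ C a + X` is `iotaAt` -/
theorem eq_iotaAt (hx : Transcendental K x) (a : K) (τ : K⟮x⟯ →ₐ[K] LaurentSeries K)
    (h : τ (AdjoinSimple.gen K x) = HahnSeries.C a + HahnSeries.single (1 : ℤ) (1 : K)) : τ = iotaAt hx a := by
  have hX : (RatFunc.algEquivOfTranscendental x hx) RatFunc.X = AdjoinSimple.gen K x :=
    Subtype.ext (by simp)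
  have h1 : τ.comp (RatFunc.algEquivOfTranscendental x hx).toAlgHom = expandAt a := by
    apply expandAt_unique
    show τ ((RatFunc.algEquivOfTranscendental x hx) RatFunc.X) = _
    rw [hX, h]; rfl
  refine AlgHom.ext fun r => ?_
  have := DFunLike.congr_fun h1 ((RatFunc.algEquivOfTranscendental x hx).symm r)
  simpa [iotaAt] using this

/-- any expansion hom of `K⟮x⟯` with `x ↦ X⁻¹` is `iotaInf` -/
theorem eq_iotaInf (hx : Transcendental K x) (τ : K⟮x⟯ →ₐ[K] LaurentSeries K)
    (h : τ (AdjoinSimple.gen K x) = HahnSeries.single (-1 : ℤ) (1 : K)) : τ = iotaInf hx := by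
  have hX : (RatFunc.algEquivOfTranscendental x hx) RatFunc.X = AdjoinSimple.gen K x :=
    Subtype.ext (by simp)
  have h1 : τ.comp (RatFunc.algEquivOfTranscendental x hx).toAlgHom = expandInf := by
    apply expandInf_unique
    show τ ((RatFunc.algEquivOfTranscendental x hx) RatFunc.X) = _
    rw [hX, h, tt_inv_eq]
  refine AlgHom.ext fun r => ?_
  have := DFunLike.congr_fun h1 ((RatFunc.algEquivOfTranscendental x hx).symm r)
  simpa [iotaInf] using this

end Adjoin

end Fermat.Agent.S20.RatFuncResidue
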