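import Fermat.Agent.S20.ResidueLocal
import Fermat.Agent.S20.RR.Defs

/-!
# S20 / RR-D1 via R5.a: the residue `RR.res` of `RR/Defs.lean` equals `Residue.res`, and the
statements of lemma row 100 (RR-D1) in terms of `RR.res`.
-/

set_option autoImplicit false
set_option linter.unusedSectionVars false
set_option linter.style.haveILetI false

open KaehlerDifferential AlgebraicCurve HahnSeries

namespace Fermat.Agent.S20.ResidueBridge

open Fermat.Agent.S24 Fermat.Agent.S24.DiffOrder Fermat.Agent.S20.Residue Fermat.Agent.S20.RR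

variable {K F : Type*} [Field K] [Field F] [Algebra K F] [IsAlgClosed K] [CharZero K]

theorem isExpAt_of_isChart {v : Place K F} {σ : F →ₐ[K] LaurentSeries K} (hσ : IsChart v σ) :
    IsExpAt v σ := hσ

/-- The residue of `RR/Defs.lean` is the residue of `ResidueLocal.lean`. -/
theorem res_eq (h : Hyp K F) (v : Place K F) (η : Ω[F⁄K]) :
    RR.res h v η = Residue.res h.ff v η := by
  have hr := res_isResidueAt h.ff v
  have e := eq_coeff_smul_D h.ff v (dCoord_eq_D_unif v) η
  conv_rhs => rw [e]
  rw [hr.eq_coeff h.ff v (ord_unif v) (dCoord_eq_D_unif v) (isChart_expand h v) (expand_unif h v)]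
  rfl

/-- `RR.res` as a linear map. -/
noncomputable def resLin (h : Hyp K F) (v : Place K F) : Ω[F⁄K] →ₗ[K] K := Residue.res h.ff v

theorem resLin_apply (h : Hyp K F) (v : Place K F) (η : Ω[F⁄K]) :
    resLin h v η = RR.res h v η := (res_eq h v η).symm

/-- **Chart invariance** (row RR-D1). -/
theorem res_smul_D_eq_coeff (h : Hyp K F) (v : Place K F) (σ : F →ₐ[K] LaurentSeries K)
    (hσ : IsChart v σ) (f g : F) :
    RR.res h v (f • D K F g) = (σ f * lsD (σ g)).coeff (-1) := by
  rw [res_eq, res_eq_coeff h.ff v σ hσ, pull_smul, pull_D]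
  rfl

theorem res_eq_zero_of_ord_nonneg (h : Hyp K F) (v : Place K F) {η : Ω[F⁄K]}
    (hη : 0 ≤ v.ordDifferential η) : RR.res h v η = 0 := by
  rw [res_eq]; exact res_eq_zero_of_ordDifferential_nonneg h.ff v hη

theorem res_D (h : Hyp K F) (v : Place K F) (g : F) : RR.res h v (D K F g) = 0 := by
  rw [res_eq]; exact Residue.res_D h.ff v g

theorem res_dlog (h : Hyp K F) (v : Place K F) {g : F} (hg : g ≠ 0) :
    RR.res h v (g⁻¹ • D K F g) = ((v.ord g : ℤ) : K) := by
  rw [res_eq]; exact Residue.res_dlog h.ff v hg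

theorem ordDifferential_smul (h : Hyp K F) (v : Place K F) {f : F} (hf : f ≠ 0) {η : Ω[F⁄K]}
    (hη : η ≠ 0) : v.ordDifferential (f • η) = v.ord f + v.ordDifferential η :=
  ordDifferential_smul' h.ff v f hf η hη

/-- A differential of order exactly `-1` has nonzero residue. -/
theorem res_ne_zero_of_ord_add (h : Hyp K F) (v : Place K F) {η : Ω[F⁄K]} (hη : η ≠ 0) {f : F}
    (hf : f ≠ 0) (hord : v.ord f + v.ordDifferential η = -1) : RR.res h v (f • η) ≠ 0 := by
  have hne : f • η ≠ 0 := smul_ne_zero hf hη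
  rw [res_eq, res_eq_coeff h.ff v (expand h v) (isChart_expand h v)]
  obtain ⟨h1, h2⟩ := order_pull h.ff v (isChart_expand h v) hne
  rw [ordDifferential_smul h v hf hη, hord] at h2
  rw [← h2]
  exact fun h0 => h1 (coeff_order_eq_zero.mp h0)

theorem differentialCoeff_add (h : Hyp K F) (v : Place K F) (η η' : Ω[F⁄K]) :
    v.differentialCoeff (η + η') = v.differentialCoeff η + v.differentialCoeff η' := by
  haveI : v.DCoordGenerates := dCoordGenerates h.ff v
  haveI : Nontrivial Ω[F⁄K] := KaehlerGen.FF.nontrivial h.ff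
  apply v.differentialCoeff_unique
  rw [add_smul, v.differentialCoeff_smul_dCoord, v.differentialCoeff_smul_dCoord]

theorem differentialCoeff_D (h : Hyp K F) (v : Place K F) (g : F) :
    D K F g = v.differentialCoeff (D K F g) • D K F (unif v) :=
  eq_coeff_smul_D h.ff v (dCoord_eq_D_unif v) _

theorem expand_differentialCoeff_D (h : Hyp K F) (v : Place K F) (σ : F →ₐ[K] LaurentSeries K)
    (g : F) : lsD (σ g) = σ (v.differentialCoeff (D K F g)) * lsD (σ (unif v)) := by
  have e := congrArg (pull σ) (differentialCoeff_D h v g)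
  rw [pull_smul, pull_D, pull_D] at e
  exact e

end Fermat.Agent.S20.ResidueBridge
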