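import Fermat.Agent.S24.DiffOrder

/-!
# S20 / R5.a : local residues of differentials of a function field

`K` algebraically closed of characteristic zero, `F / K` a function field of one variable.
For a `K`-embedding `σ : F → K((X))` we define the pull-back `pull σ : Ω[F⁄K] → K((X))`,
`Σ f dg ↦ Σ σ f · (σ g)'`, and for a place `v` the residue `res hF v : Ω[F⁄K] →ₗ[K] K`, which is
computed by ANY order preserving expansion at `v`.
-/

set_option autoImplicit false
set_option linter.style.haveILetI false
set_option linter.unusedSectionVars false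

open KaehlerDifferential AlgebraicCurve HahnSeries

namespace Fermat.Agent.S20.Residue

open Fermat.Agent.S24 Fermat.Agent.S24.DiffOrder

section pull

variable {K F : Type*} [Field K] [Field F] [Algebra K F]

/-- `K((X))` as an `F`-module along `σ`. -/
@[reducible] noncomputable def modVia (σ : F →ₐ[K] LaurentSeries K) : Module F (LaurentSeries K) :=
  Module.compHom (LaurentSeries K) (σ : F →+* LaurentSeries K)

theorem sigma_algebraMap (σ : F →ₐ[K] LaurentSeries K) (k : K) :
    σ (algebraMap K F k) = HahnSeries.C k := by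
  rw [σ.commutes, algebraMap_laurent_eq_C]

theorem isScalarTower_via (σ : F →ₐ[K] LaurentSeries K) :
    letI := modVia σ
    IsScalarTower K F (LaurentSeries K) := by
  letI := modVia σ
  refine ⟨fun k f m => ?_⟩
  show σ (k • f) * m = k • (σ f * m)
  rw [Algebra.smul_def, map_mul, sigma_algebraMap, mul_assoc, C_mul_eq_smul]

/-- The derivation `f ↦ (σ f)'`. -/
noncomputable def pullDer (σ : F →ₐ[K] LaurentSeries K) :
    letI := modVia σ
    letI := isScalarTower_via σ
    Derivation K F (LaurentSeries K) :=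
  letI := modVia σ
  letI := isScalarTower_via σ
  { toFun := fun f => lsDeriv (σ f)
    map_add' := fun f g => by rw [map_add, map_add]
    map_smul' := fun k f => by
      simp only [RingHom.id_apply]
      rw [Algebra.smul_def, map_mul, sigma_algebraMap, lsDeriv_apply, lsD_C_mul, C_mul_eq_smul]
      rfl
    map_one_eq_zero' := by
      show lsDeriv (σ 1) = 0
      rw [map_one, Derivation.map_one_eq_zero]
    leibniz' := fun a b => by
      show lsDeriv (σ (a * b)) = σ a * lsDeriv (σ b) + σ b * lsDeriv (σ a)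
      rw [map_mul, Derivation.leibniz, smul_eq_mul, smul_eq_mul] }

/-- Pull-back of differentials along `σ`: `Σ f dg ↦ Σ σ f · (σ g)'`. -/
noncomputable def pull (σ : F →ₐ[K] LaurentSeries K) : Ω[F⁄K] →ₗ[K] LaurentSeries K :=
  letI := modVia σ
  letI := isScalarTower_via σ
  ((pullDer σ).liftKaehlerDifferential).restrictScalars K

theorem pull_D (σ : F →ₐ[K] LaurentSeries K) (g : F) :
    pull σ (D K F g) = LaurentSeries.derivative K (σ g) := by
  letI := modVia σ
  letI := isScalarTower_via σ
  show (pullDer σ).liftKaehlerDifferential (D K F g) = _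
  rw [Derivation.liftKaehlerDifferential_comp_D]
  rfl

theorem pull_smul (σ : F →ₐ[K] LaurentSeries K) (f : F) (ω : Ω[F⁄K]) :
    pull σ (f • ω) = σ f * pull σ ω := by
  letI := modVia σ
  letI := isScalarTower_via σ
  show (pullDer σ).liftKaehlerDifferential (f • ω) = _
  rw [map_smul]
  rfl

end pull


section laurent

variable {K : Type*} [Field K]

theorem coeff_neg_one_lsD (f : LaurentSeries K) : (lsD f).coeff (-1) = 0 := by
  rw [coeff_lsD]; simp

/-- power series (as Laurent series) have no polar part -/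
theorem coeff_neg_one_coe (P : PowerSeries K) : ((P : LaurentSeries K)).coeff (-1) = 0 := by
  rw [PowerSeries.coeff_coe, if_pos (by omega)]

/-- the residue of a logarithmic derivative is the order -/
theorem coeff_neg_one_dlog (f : LaurentSeries K) (hf : f ≠ 0) :
    (f⁻¹ * lsD f).coeff (-1) = ((f.order : ℤ) : K) := by
  set a := f.order with ha
  set P := f.powerSeriesPart with hP
  have hfe : f = single a (1 : K) * (P : LaurentSeries K) := eq_single_mul_powerSeriesPart f
  have hP0 : PowerSeries.constantCoeff P ≠ 0 := by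
    rw [hP, ← PowerSeries.coeff_zero_eq_constantCoeff_apply, LaurentSeries.powerSeriesPart_coeff]
    simpa using (fun h => hf (coeff_order_eq_zero.mp h))
  have hPne : (P : LaurentSeries K) ≠ 0 := by
    intro h0
    apply hf
    rw [hfe, h0, mul_zero]
  have hsne : (single a (1 : K) : LaurentSeries K) ≠ 0 := by
    rw [Ne, single_eq_zero_iff]; exact one_ne_zero
  -- inverse of P as a power series
  have hPinv : ((P⁻¹ : PowerSeries K) : LaurentSeries K) = (P : LaurentSeries K)⁻¹ := by
    have h1 : P * P⁻¹ = 1 := PowerSeries.mul_inv_cancel P hP0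
    have h2 : (P : LaurentSeries K) * ((P⁻¹ : PowerSeries K) : LaurentSeries K) = 1 := by
      rw [← PowerSeries.coe_mul, h1, PowerSeries.coe_one]
    exact eq_inv_of_mul_eq_one_right h2
  have key : f⁻¹ * lsD f = HahnSeries.C (a : K) * single (-1) (1 : K) +
      (((P⁻¹ * PowerSeries.derivative K P : PowerSeries K)) : LaurentSeries K) := by
    rw [PowerSeries.coe_mul, hPinv]
    conv_lhs => rw [hfe, lsD_single_mul, lsD_coe]
    have e2 : (single (a - 1) (1 : K) : LaurentSeries K) = single a 1 * single (-1) 1 := by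
      rw [← single_add_one]; congr 1
    rw [e2]
    field_simp
  rw [key, HahnSeries.coeff_add, coeff_neg_one_coe, add_zero, C_mul_eq_smul, HahnSeries.coeff_smul,
    coeff_single_same, smul_eq_mul, mul_one]

end laurent


section place

variable {K F : Type*} [Field K] [Field F] [Algebra K F] [IsAlgClosed K] [CharZero K]

/-- `σ` is an order preserving expansion at the place `v`. -/
def IsExpAt (v : Place K F) (σ : F →ₐ[K] LaurentSeries K) : Prop :=
  ∀ f : F, f ≠ 0 → (σ f).order = v.ord f

theorem exists_isExpAt (hF : IsFunctionField1 K F) (v : Place K F) :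
    ∃ (π : F) (σ : F →ₐ[K] LaurentSeries K), v.ord π = 1 ∧ v.dCoord = D K F π ∧ IsExpAt v σ ∧
      σ π = single (1 : ℤ) (1 : K) := by
  obtain ⟨π, hπ1, hπd⟩ := exists_uniformizer_dCoord v
  obtain ⟨σ, hσord, hσπ⟩ := Expansion.exists_expansion hF v π hπ1
  exact ⟨π, σ, hπ1, hπd, hσord, hσπ⟩

theorem sigma_ne_zero (σ : F →ₐ[K] LaurentSeries K) {f : F} (hf : f ≠ 0) : σ f ≠ 0 :=
  (map_ne_zero_iff _ σ.toRingHom.injective).mpr hf

/-- `ω = c • dπ` for the Prelude's uniformizer. -/
theorem eq_coeff_smul_D (hF : IsFunctionField1 K F) (v : Place K F) {π : F}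
    (hπd : v.dCoord = D K F π) (ω : Ω[F⁄K]) : ω = v.differentialCoeff ω • D K F π := by
  haveI : v.DCoordGenerates := dCoordGenerates hF v
  rw [← hπd, v.differentialCoeff_smul_dCoord]

theorem differentialCoeff_ne_zero (hF : IsFunctionField1 K F) (v : Place K F) {ω : Ω[F⁄K]}
    (hω : ω ≠ 0) : v.differentialCoeff ω ≠ 0 := by
  haveI : v.DCoordGenerates := dCoordGenerates hF v
  intro h0
  apply hω
  rw [← v.differentialCoeff_smul_dCoord ω, h0, zero_smul]

/-- The pull-back of `dπ` along an expansion is a unit power series (order `0`). -/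
theorem order_pull_D_of_ord_one (v : Place K F) {σ : F →ₐ[K] LaurentSeries K} (hσ : IsExpAt v σ)
    {π : F} (hπ1 : v.ord π = 1) :
    pull σ (D K F π) ≠ 0 ∧ (pull σ (D K F π)).order = 0 := by
  have hπ0 : π ≠ 0 := by rintro rfl; simp at hπ1
  have ho : (σ π).order ≠ 0 := by rw [hσ π hπ0, hπ1]; exact one_ne_zero
  obtain ⟨h1, h2⟩ := order_lsDeriv ho
  rw [pull_D]
  refine ⟨h1, ?_⟩
  have : (lsDeriv (σ π)).order = (σ π).order - 1 := h2
  rw [hσ π hπ0, hπ1, sub_self] at this
  exact this

/-- The order of the pull-back of a differential along an expansion at `v` is its order at `v`. -/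
theorem order_pull (hF : IsFunctionField1 K F) (v : Place K F) {σ : F →ₐ[K] LaurentSeries K}
    (hσ : IsExpAt v σ) {ω : Ω[F⁄K]} (hω : ω ≠ 0) :
    pull σ ω ≠ 0 ∧ (pull σ ω).order = v.ordDifferential ω := by
  obtain ⟨π, hπ1, hπd⟩ := exists_uniformizer_dCoord v
  have hc := differentialCoeff_ne_zero hF v hω
  obtain ⟨h1, h2⟩ := order_pull_D_of_ord_one v hσ hπ1
  have e : pull σ ω = σ (v.differentialCoeff ω) * pull σ (D K F π) := by
    conv_lhs => rw [eq_coeff_smul_D hF v hπd ω, pull_smul]
  refine ⟨?_, ?_⟩
  · rw [e]; exact mul_ne_zero (sigma_ne_zero σ hc) h1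
  · rw [e, HahnSeries.order_mul (sigma_ne_zero σ hc) h1, h2, add_zero, hσ _ hc]
    rfl

/-- The three axioms characterising the residue at `v`. -/
structure IsResidueAt (v : Place K F) (r : Ω[F⁄K] →ₗ[K] K) : Prop where
  exact : ∀ g : F, r (D K F g) = 0
  holo : ∀ ω : Ω[F⁄K], 0 ≤ v.ordDifferential ω → r ω = 0
  dlog : ∀ g : F, g ≠ 0 → r (g⁻¹ • D K F g) = ((v.ord g : ℤ) : K)

/-- coefficient of `X^(-1)` as a linear map -/
noncomputable def coeffNegOne : LaurentSeries K →ₗ[K] K where
  toFun f := f.coeff (-1)
  map_add' f g := by simp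
  map_smul' c f := by simp

theorem coeffNegOne_apply (f : LaurentSeries K) : coeffNegOne f = f.coeff (-1) := rfl

theorem ordDifferential_zero (hF : IsFunctionField1 K F) (v : Place K F) :
    v.ordDifferential (0 : Ω[F⁄K]) = 0 := by
  haveI : v.DCoordGenerates := dCoordGenerates hF v
  haveI : Nontrivial Ω[F⁄K] := KaehlerGen.FF.nontrivial hF
  rw [Place.ordDifferential, v.differentialCoeff_zero, v.ord_zero]

/-- Any expansion at `v` gives a functional satisfying the residue axioms. -/
theorem isResidueAt_of_isExpAt (hF : IsFunctionField1 K F) (v : Place K F)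
    {σ : F →ₐ[K] LaurentSeries K} (hσ : IsExpAt v σ) :
    IsResidueAt v (coeffNegOne ∘ₗ pull σ) where
  exact g := by
    show (pull σ (D K F g)).coeff (-1) = 0
    rw [pull_D]; exact coeff_neg_one_lsD _
  holo ω h := by
    show (pull σ ω).coeff (-1) = 0
    rcases eq_or_ne ω 0 with rfl | hω
    · simp
    · obtain ⟨_, h2⟩ := order_pull hF v hσ hω
      exact coeff_eq_zero_of_lt_order (by rw [h2]; omega)
  dlog g hg := by
    show (pull σ (g⁻¹ • D K F g)).coeff (-1) = _
    rw [pull_smul, pull_D, map_inv₀]
    rw [show LaurentSeries.derivative K (σ g) = lsD (σ g) from rfl,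
      coeff_neg_one_dlog _ (sigma_ne_zero σ hg), hσ g hg]


/-- `d(u^m) = -m u^(m+1) dπ`, `u = π⁻¹`. -/
theorem D_inv_pow (π : F) (m : ℕ) :
    D K F ((π⁻¹) ^ m) = -((m : ℕ) • ((π⁻¹) ^ (m + 1) • D K F π)) := by
  rw [Derivation.leibniz_pow, Derivation.leibniz_inv]
  rcases Nat.eq_zero_or_pos m with rfl | hm
  · simp
  · obtain ⟨j, rfl⟩ : ∃ j, m = j + 1 := ⟨m - 1, by omega⟩
    simp only [Nat.add_sub_cancel]
    module

/-- **Uniqueness of the residue**: any functional satisfying the residue axioms is computed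
by the coefficient of `X⁻¹` in the expansion `σ₀` attached to the uniformizer `π`. -/
theorem IsResidueAt.eq_coeff (hF : IsFunctionField1 K F) (v : Place K F)
    {r : Ω[F⁄K] →ₗ[K] K} (hr : IsResidueAt v r) {π : F} (hπ1 : v.ord π = 1)
    (hπd : v.dCoord = D K F π) {σ₀ : F →ₐ[K] LaurentSeries K} (hσ₀ : IsExpAt v σ₀)
    (hσπ : σ₀ π = single (1 : ℤ) (1 : K)) (f : F) :
    r (f • D K F π) = (σ₀ f).coeff (-1) := by
  haveI : v.DCoordGenerates := dCoordGenerates hF v
  haveI : Nontrivial Ω[F⁄K] := KaehlerGen.FF.nontrivial hF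
  have hπ0 : π ≠ 0 := by rintro rfl; simp at hπ1
  have hDπ : D K F π ≠ 0 := by rw [← hπd]; exact v.dCoord_ne_zero
  have hordDπ : v.ordDifferential (D K F π) = 0 := by
    rw [← hπd]; exact v.gate_ordDifferential_dCoord
  have hσu : ∀ n : ℕ, σ₀ ((π⁻¹) ^ n) = single (-(n : ℤ)) (1 : K) := by
    intro n
    rw [map_pow, map_inv₀, hσπ]
    have h1 : (single (1 : ℤ) (1 : K) : LaurentSeries K)⁻¹ = single (-1 : ℤ) (1 : K) := by
      apply inv_eq_of_mul_eq_one_right
      rw [single_mul_single]; simp
    rw [h1]
    induction n with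
    | zero => simp
    | succ n ih =>
      have e : -(n : ℤ) + -1 = -((n + 1 : ℕ) : ℤ) := by push_cast; ring
      rw [pow_succ, ih, single_mul_single, mul_one, e]
  -- main induction on the pole order
  have key : ∀ m : ℕ, ∀ f : F, (f = 0 ∨ -(m : ℤ) ≤ v.ord f) →
      r (f • D K F π) = (σ₀ f).coeff (-1) := by
    intro m
    induction m with
    | zero =>
      intro f hf
      rcases eq_or_ne f 0 with rfl | hf0
      · simp
      · have hord : 0 ≤ v.ord f := by
          rcases hf with h | h
          · exact absurd h hf0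
          · simpa using h
        rw [hr.holo _ (by rw [ordDifferential_smul' hF v f hf0 _ hDπ, hordDπ]; omega)]
        exact (coeff_eq_zero_of_lt_order (by rw [hσ₀ f hf0]; omega)).symm
    | succ m ih =>
      intro f hf
      set c : K := (σ₀ f).coeff (-((m : ℤ) + 1)) with hc
      set f' : F := f - c • (π⁻¹) ^ (m + 1) with hf'
      have hσf' : σ₀ f' = σ₀ f - single (-((m : ℤ) + 1)) c := by
        rw [hf', map_sub, Algebra.smul_def, map_mul, sigma_algebraMap, hσu]
        congr 1
        rw [C_mul_eq_smul]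
        ext j
        rw [HahnSeries.coeff_smul]
        by_cases hj : j = -((m : ℤ) + 1)
        · subst hj
          rw [coeff_single_same]
          have : (-((m + 1 : ℕ) : ℤ)) = -((m : ℤ) + 1) := by push_cast; ring
          rw [this, coeff_single_same, smul_eq_mul, mul_one]
        · rw [coeff_single_of_ne hj, coeff_single_of_ne (by push_cast; exact hj), smul_zero]
      have hcoef : ∀ j : ℤ, j < -(m : ℤ) → (σ₀ f').coeff j = 0 := by
        intro j hj
        rw [hσf', HahnSeries.coeff_sub]
        rcases eq_or_lt_of_le (show j ≤ -((m : ℤ) + 1) by omega) with h | h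
        · rw [h, coeff_single_same, hc, sub_self]
        · rw [coeff_single_of_ne (by omega), sub_zero]
          rcases eq_or_ne f 0 with rfl | hf0
          · simp
          · apply coeff_eq_zero_of_lt_order
            rw [hσ₀ f hf0]
            rcases hf with h' | h'
            · exact absurd h' hf0
            · push_cast at h'; omega
      have hf'ord : f' = 0 ∨ -(m : ℤ) ≤ v.ord f' := by
        rcases eq_or_ne f' 0 with h0 | h0
        · exact Or.inl h0
        · right
          rw [← hσ₀ f' h0, le_order_iff_forall (sigma_ne_zero σ₀ h0)]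
          exact hcoef
      have hsplit : f • D K F π = f' • D K F π + c • ((π⁻¹) ^ (m + 1) • D K F π) := by
        rw [hf', sub_smul, smul_assoc]; abel
      rw [hsplit, map_add, LinearMap.map_smul r c, ih f' hf'ord, hσf', HahnSeries.coeff_sub]
      rcases Nat.eq_zero_or_pos m with rfl | hm
      · -- simple pole
        have h1 : (π⁻¹) ^ (0 + 1) • D K F π = π⁻¹ • D K F π := by simp
        rw [h1, hr.dlog π hπ0, hπ1]
        simp
      · have h0 : r ((π⁻¹) ^ (m + 1) • D K F π) = 0 := by
          have h1 := hr.exact ((π⁻¹) ^ m)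
          rw [D_inv_pow, map_neg, neg_eq_zero, ← Nat.cast_smul_eq_nsmul K, LinearMap.map_smul,
            smul_eq_mul] at h1
          have hm0 : (m : K) ≠ 0 := by exact_mod_cast (by omega : m ≠ 0)
          exact (mul_eq_zero.mp h1).resolve_left hm0
        rw [h0, smul_zero, add_zero, coeff_single_of_ne (by omega), sub_zero]
  rcases eq_or_ne f 0 with rfl | hf0
  · simp
  · exact key (-(v.ord f)).toNat f (Or.inr (by omega))


/-- Two functionals satisfying the residue axioms at `v` agree. -/
theorem IsResidueAt.ext (hF : IsFunctionField1 K F) (v : Place K F)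
    {r r' : Ω[F⁄K] →ₗ[K] K} (hr : IsResidueAt v r) (hr' : IsResidueAt v r') : r = r' := by
  obtain ⟨π, σ₀, hπ1, hπd, hσ₀, hσπ⟩ := exists_isExpAt hF v
  refine LinearMap.ext fun ω => ?_
  rw [eq_coeff_smul_D hF v hπd ω, hr.eq_coeff hF v hπ1 hπd hσ₀ hσπ,
    hr'.eq_coeff hF v hπ1 hπd hσ₀ hσπ]

/-- The chosen expansion at `v`. -/
noncomputable def chosenExp (hF : IsFunctionField1 K F) (v : Place K F) :
    F →ₐ[K] LaurentSeries K :=
  (exists_isExpAt hF v).choose_spec.choose

theorem chosenExp_isExpAt (hF : IsFunctionField1 K F) (v : Place K F) :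
    IsExpAt v (chosenExp hF v) :=
  (exists_isExpAt hF v).choose_spec.choose_spec.2.2.1

/-- **The residue at a place.** -/
noncomputable def res (hF : IsFunctionField1 K F) (v : Place K F) : Ω[F⁄K] →ₗ[K] K :=
  coeffNegOne ∘ₗ pull (chosenExp hF v)

theorem res_isResidueAt (hF : IsFunctionField1 K F) (v : Place K F) :
    IsResidueAt v (res hF v) :=
  isResidueAt_of_isExpAt hF v (chosenExp_isExpAt hF v)

/-- Any order preserving expansion at `v` computes the residue. -/
theorem res_eq_coeff (hF : IsFunctionField1 K F) (v : Place K F)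
    (σ : F →ₐ[K] LaurentSeries K) (hσ : ∀ f : F, f ≠ 0 → (σ f).order = v.ord f) (ω : Ω[F⁄K]) :
    res hF v ω = (pull σ ω).coeff (-1) := by
  have h := IsResidueAt.ext hF v (res_isResidueAt hF v) (isResidueAt_of_isExpAt hF v hσ)
  rw [h]; rfl

theorem res_D (hF : IsFunctionField1 K F) (v : Place K F) (g : F) :
    res hF v (D K F g) = 0 :=
  (res_isResidueAt hF v).exact g

theorem res_eq_zero_of_ordDifferential_nonneg (hF : IsFunctionField1 K F) (v : Place K F)
    {ω : Ω[F⁄K]} (h : 0 ≤ v.ordDifferential ω) : res hF v ω = 0 :=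
  (res_isResidueAt hF v).holo ω h

theorem res_dlog (hF : IsFunctionField1 K F) (v : Place K F) {g : F} (hg : g ≠ 0) :
    res hF v (g⁻¹ • D K F g) = ((v.ord g : ℤ) : K) :=
  (res_isResidueAt hF v).dlog g hg

/-- The uniqueness statement, for any functional satisfying the axioms. -/
theorem IsResidueAt.eq_res (hF : IsFunctionField1 K F) (v : Place K F)
    {r : Ω[F⁄K] →ₗ[K] K} (hr : IsResidueAt v r) : r = res hF v :=
  IsResidueAt.ext hF v hr (res_isResidueAt hF v)

end place

end Fermat.Agent.S20.Residue
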