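import Mathlib
import Fermat.Agent.S20.KaehlerWeil
import Fermat.Agent.S20.WeilDiffExport
import Fermat.Agent.S20.RegularGenus
import Fermat.Agent.S24.ZerosBackupThm

/-!
# S20, block RR, line W: `Star K F` from residue data

The whole Weil line (Riemann's inequality, weak Riemann–Roch, Weil differentials, duality,
Kähler → Weil comparison) is landed; the only remaining input is the residue data
`R : KaehlerWeil.ResidueData K F` (local residues and the residue theorem).  This file produces
the one-line consequence `RegularGenus.Star K F` consumed by `S20/Lower.lean`.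
-/

set_option autoImplicit false

open AlgebraicCurve KaehlerDifferential Module

namespace Fermat.Agent.S20.StarOfResidue

open Fermat.Agent.S24 Fermat.Agent.S20

variable {K F : Type*} [Field K] [Field F] [Algebra K F] [IsAlgClosed K] [CharZero K]

/-- `(★)` from residue data. -/
theorem star_of_residueData (hF : IsFunctionField1 K F) [HasCanonicalDivisor (K := K) (F := F)]
    (R : KaehlerWeil.ResidueData K F) : RegularGenus.Star K F := by
  have hZ : PrincipalDegreeCore.ZerosTheorem K F := ZerosBackup.zerosTheorem
  have hne : Nonempty (Place K F) := Riemann.exists_place hF hZ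
  have hfin : ∀ f : F, f ≠ 0 → {v : Place K F | v.ord f ≠ 0}.Finite :=
    fun f hf => PrincipalDegreeCore.ord_support_finite hZ hF f hf
  have hW : KaehlerWeil.WeilDivisorTheorem K F := WeilDiffExport.weilDivisorTheorem hF hZ
  obtain ⟨ω₀, hω₀⟩ := KaehlerGen.FF.exists_ne_zero hF
  obtain ⟨h1, h2⟩ := KaehlerWeil.canonicalDivisorOf_spec hF R hfin hW hω₀
  refine ⟨ω₀, hω₀, canonicalDivisorOf hω₀, fun v => canonicalDivisorOf_apply hω₀ v, ?_⟩
  rw [h1, h2]
  ring

/-- The final export of the Riemann–Roch block from residue data, in the `CanonicalDiv` shape. -/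
theorem finrank_regularDifferentials_eq_genus (hF : IsFunctionField1 K F)
    [HasCanonicalDivisor (K := K) (F := F)] (R : KaehlerWeil.ResidueData K F) :
    finrank K (CanonicalDiv.regularDifferentials hF) = AlgebraicCurve.genus K F :=
  RegularGenus.finrank_regularDifferentials_eq_genus hF ZerosBackup.zerosTheorem
    (star_of_residueData hF R)

end Fermat.Agent.S20.StarOfResidue
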