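import Mathlib
import Fermat.Agent.S20.KaehlerWeil
import Fermat.Agent.S20.ResidueLocal
import Fermat.Agent.S20.ResidueBridge
import Fermat.Agent.S20.RR.ResidueThm
import Fermat.Agent.S20.RR.HypOfS24
import Fermat.Agent.S20.StarOfResidue

/-!
# S20, block RR: the `ResidueData` constructor

`KaehlerWeil.ResidueData K F` (the only missing input of line W) from the local residues of
`ResidueLocal.lean` and the residue theorem, in two shapes:

* `residueDataOf hF hthm`, with `hthm : ∀ ω, ∑ᶠ v, Residue.res hF v ω = 0`;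
* `residueData_of_localTrace`, with the local trace formulas (row D4) as hypotheses, in the
  shapes of `RR/ResidueThm.lean`.

and the corresponding `RegularGenus.Star K F`.
-/

set_option autoImplicit false

open AlgebraicCurve KaehlerDifferential IntermediateField

namespace Fermat.Agent.S20.ResidueDataOf

open Fermat.Agent.S24 Fermat.Agent.S20 Fermat.Agent.S20.RR

variable {K F : Type*} [Field K] [Field F] [Algebra K F] [IsAlgClosed K] [CharZero K]

/-- `f dg` is regular at `v` when `f` and `g` are. -/
theorem ordDifferential_smul_D_nonneg_of_mem (hF : IsFunctionField1 K F) (v : Place K F)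
    {f g : F} (hf : f ∈ v.toValuationSubring) (hg : g ∈ v.toValuationSubring) :
    0 ≤ v.ordDifferential (f • D K F g) := by
  have h0 : v.ordDifferential (0 : Ω[F⁄K]) = 0 := Residue.ordDifferential_zero hF v
  rcases eq_or_ne f 0 with rfl | hf0
  · rw [zero_smul, h0]
  rcases eq_or_ne (D K F g) 0 with hDg | hDg
  · rw [hDg, smul_zero, h0]
  have hg0 : g ≠ 0 := by
    rintro rfl
    exact hDg (map_zero _)
  have hordf : 0 ≤ v.ord f := (mem_valuationSubring_iff v f hf0).mp hf
  have hordg : 0 ≤ v.ord g := (mem_valuationSubring_iff v g hg0).mp hg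
  obtain ⟨c, hc | hc⟩ := exists_ord_sub_pos hF v g hordg hg0
  · exact absurd (by rw [hc, Derivation.map_algebraMap]) hDg
  · have hD : D K F (g - algebraMap K F c) = D K F g := by
      rw [map_sub, Derivation.map_algebraMap, sub_zero]
    rw [DiffOrder.ordDifferential_smul' hF v f hf0 _ hDg, ← hD,
      DiffOrder.ordDifferential_D hF v _ (ne_of_gt hc)]
    omega

/-- **The residue data**, from the residue theorem for the residues of `ResidueLocal.lean`. -/
noncomputable def residueDataOf (hF : IsFunctionField1 K F)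
    (hthm : ∀ ω : Ω[F⁄K], ∑ᶠ v : Place K F, Residue.res hF v ω = 0) :
    KaehlerWeil.ResidueData K F where
  res := Residue.res hF
  res_eq_zero_of_mem := fun v _ _ hf hg =>
    Residue.res_eq_zero_of_ordDifferential_nonneg hF v
      (ordDifferential_smul_D_nonneg_of_mem hF v hf hg)
  res_dlog := fun v π hπ => by
    have hπ0 : π ≠ 0 := by
      rintro rfl
      simp at hπ
    rw [Residue.res_dlog hF v hπ0, hπ]
    simp
  finsum_res := hthm

/-- `(★)` from the residue theorem. -/
theorem star_of_residue_theorem (hF : IsFunctionField1 K F)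
    [HasCanonicalDivisor (K := K) (F := F)]
    (hthm : ∀ ω : Ω[F⁄K], ∑ᶠ v : Place K F, Residue.res hF v ω = 0) :
    RegularGenus.Star K F :=
  StarOfResidue.star_of_residueData hF (residueDataOf hF hthm)

/-- The residue theorem for `Residue.res`, from the one for `RR.res`. -/
theorem residue_theorem_of_rr (hF : IsFunctionField1 K F)
    (hthm : ∀ (h : Hyp K F) (η : Ω[F⁄K]), ∑ᶠ v : Place K F, RR.res h v η = 0) :
    ∀ ω : Ω[F⁄K], ∑ᶠ v : Place K F, Residue.res hF v ω = 0 := by
  intro ω
  have h : Hyp K F := HypOfS24.hyp hF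
  rw [← hthm h ω]
  exact finsum_congr fun v => (ResidueBridge.res_eq h v ω).symm

/-- `(★)` from the local trace formulas (row D4), in the shapes of `RR/ResidueThm.lean`. -/
theorem star_of_localTrace (hF : IsFunctionField1 K F) [HasCanonicalDivisor (K := K) (F := F)]
    {x : F} (hx : Transcendental K x) [FiniteDimensional K⟮x⟯ F]
    (iotaAt : K → K⟮x⟯ →ₐ[K] LaurentSeries K) (iotaInf : K⟮x⟯ →ₐ[K] LaurentSeries K)
    (hD3 : ∀ r : K⟮x⟯, ∑ᶠ a : K, (iotaAt a r).coeff (-1) = (iotaInf r).coeff 1)
    (hD4z : ∀ (h : Hyp K F) (a : K) (f : F),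
      ∑ᶠ v ∈ zerosOver x a, RR.res h v (f • D K F x)
        = (iotaAt a (Algebra.trace K⟮x⟯ F f)).coeff (-1))
    (hD4p : ∀ (h : Hyp K F) (f : F), ∑ᶠ v ∈ polesOf K x, RR.res h v (f • D K F x)
      = -(iotaInf (Algebra.trace K⟮x⟯ F f)).coeff 1) :
    RegularGenus.Star K F :=
  star_of_residue_theorem hF <| residue_theorem_of_rr hF fun h η =>
    ResidueThm.residue_theorem_of_trace h hx iotaAt iotaInf hD3 (hD4z h) (hD4p h) η

end Fermat.Agent.S20.ResidueDataOf
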