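import Mathlib
import Fermat.Agent.S20.ResidueDataOf
import Fermat.Agent.S20.RatFuncResidueShapes
import Fermat.Agent.S20.RR.LocalTrace

/-!
# S20, block RR: the Riemann–Roch statement `(★)`, unconditionally

For `K` algebraically closed of characteristic zero and `F / K` a function field of one variable
with `HasCanonicalDivisor`, the statement `RegularGenus.Star K F` holds: some (hence every)
canonical divisor `W = div ω₀` satisfies `2 ℓ(W) = deg W + 2`.  Consequently the space of regular
differentials has dimension `genus K F`.

This closes line W of the block: Riemann's inequality (`Riemann`), weak Riemann–Roch (`RRWeak`),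
Weil differentials and duality (`WeilDiff*`), Kähler → Weil comparison (`KaehlerWeil`), local
residues (`ResidueLocal`), the local trace formula (`RR/LocalTrace`), the residue theorem on
`ℙ¹` (`RatFuncResidue`) and the global bookkeeping (`RR/ResidueThm`).
-/

set_option autoImplicit false

open AlgebraicCurve KaehlerDifferential IntermediateField Module

namespace Fermat.Agent.S20.StarFinal

open Fermat.Agent.S24 Fermat.Agent.S20 Fermat.Agent.S20.RR

variable {K F : Type*} [Field K] [Field F] [Algebra K F] [IsAlgClosed K] [CharZero K]

/-- **The residue theorem** for the residues of `ResidueLocal.lean`. -/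
theorem residue_theorem (hF : IsFunctionField1 K F) (ω : Ω[F⁄K]) :
    ∑ᶠ v : Place K F, Residue.res hF v ω = 0 := by
  obtain ⟨x, hx, hfin⟩ := id hF
  haveI := hfin
  refine ResidueDataOf.residue_theorem_of_rr hF (fun h η => ?_) ω
  exact ResidueThm.residue_theorem_of_trace h hx (RatFuncResidue.iotaAt hx)
    (RatFuncResidue.iotaInf hx) (RatFuncResidue.sum_res_eq hx)
    (fun a f => LocalTrace.sum_res_zerosOver_of h x hx a _ (RatFuncResidue.iotaAt_gen hx a) f)
    (fun f => LocalTrace.sum_res_polesOf_of h x hx _ (RatFuncResidue.iotaInf_gen hx) f) η

/-- The residue data of a function field of one variable. -/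
noncomputable def residueData (hF : IsFunctionField1 K F) : KaehlerWeil.ResidueData K F :=
  ResidueDataOf.residueDataOf hF (residue_theorem hF)

/-- **`(★)`**, unconditionally. -/
theorem star (hF : IsFunctionField1 K F) [HasCanonicalDivisor (K := K) (F := F)] :
    RegularGenus.Star K F :=
  ResidueDataOf.star_of_residue_theorem hF (residue_theorem hF)

/-- **Riemann–Roch, final export**: the regular differentials form a space of dimension the
genus. -/
theorem finrank_regularDifferentials_eq_genus (hF : IsFunctionField1 K F)
    [HasCanonicalDivisor (K := K) (F := F)] :
    finrank K (CanonicalDiv.regularDifferentials hF) = AlgebraicCurve.genus K F :=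
  RegularGenus.finrank_regularDifferentials_eq_genus hF ZerosBackup.zerosTheorem (star hF)

end Fermat.Agent.S20.StarFinal
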