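import Mathlib
import Fermat.Agent.S20.LowerFinal
import Fermat.Agent.S20.StarFinal
import Fermat.Agent.S21.FromLower

/-!
# S20 / S21 from the dictionary alone

Block B of S24, the Riemann–Roch block and the Eichler–Shimura upper bound are all
unconditional, so both frozen statements S20 and S21 follow from the single hypothesis
`Lower.DictLower N` (the one-directional dictionary between regular differentials of the
function field of `X₀(N)` and cusp forms of weight two).
-/

set_option autoImplicit false

open AlgebraicCurve KaehlerDifferential IntermediateField Module ModularCurve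

namespace Fermat.Agent.S20.LowerOfDict

open Fermat.Agent.S24 Fermat.Agent.S20.Lower

/-- The lower bound `(L)` from the dictionary. -/
theorem genusFormula_le_finrank_cuspForm (N : ℕ) [NeZero N] (hdict : DictLower N) :
    genusFormula N ≤ (Module.finrank ℂ (CuspForm (CongruenceSubgroup.Gamma0 N) 2) : ℚ) :=
  LowerFinal.genusFormula_le_finrank_cuspForm N
    (StarFinal.residueData (LowerFinal.isFunctionField1_FBar N)) hdict

/-- **S20** from the dictionary. -/
theorem s20_of_dict (N : ℕ) [NeZero N] (hdict : DictLower N) :
    (Module.finrank ℂ (CuspForm (CongruenceSubgroup.Gamma0 N) 2) : ℚ)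
      = ModularCurve.genusFormula N :=
  Fermat.Agent.S21.FromLower.s20_of_lower N (genusFormula_le_finrank_cuspForm N hdict)

/-- **S21** from the dictionary. -/
theorem s21_of_dict (N : ℕ) [NeZero N] (hdict : DictLower N) :
    Function.Injective (ModularCurve.periodHomPair N)
      ∧ LinearMap.range (ModularCurve.periodHomPair N)
          = ModularCurve.Period.parabolicHoms ℂ (CongruenceSubgroup.Gamma0 N) ℂ :=
  Fermat.Agent.S21.FromLower.s21_of_lower N (genusFormula_le_finrank_cuspForm N hdict)

end Fermat.Agent.S20.LowerOfDict
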