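import Mathlib
import Fermat.Agent.S24.CuspExpansion

/-!
# S20, piece L.cusp0: vanishing at the cusp from the Laurent expansion

For `f : ℍ → ℂ` meromorphic at the cusp `i∞` of width `h` (`MerAtCusp h f` of
`Fermat.Agent.S24.CuspExpansion`): if the Laurent coefficients of `f` in `u = exp (2πiτ/h)`
vanish below `k : ℕ`, then `f = u ^ k * g` with `g` holomorphic at the cusp.  Consequently
`f` is bounded at `i∞` if its expansion has no polar part, and tends to `0` at `i∞` if moreover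
the constant coefficient vanishes.  Finally a bundling lemma producing a Mathlib `CuspForm`.
-/

set_option autoImplicit false

namespace Fermat.Agent.S20.CuspVanish

open UpperHalfPlane Filter Function Complex CongruenceSubgroup ModularForm
open Fermat.Agent.S24.CuspExpansion
open scoped Manifold Topology Real MatrixGroups ModularForm

section Local

variable {h : ℕ} [NeZero h] {f : ℍ → ℂ}

/-- `τ ↦ (qh h τ)⁻¹` is holomorphic on `ℍ`. -/
theorem qh_inv_mdiff (h : ℕ) [NeZero h] : MDiff (fun τ : ℍ => (qh h τ)⁻¹) := by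
  intro τ
  rw [UpperHalfPlane.mdifferentiableAt_iff]
  have h1 : DifferentiableAt ℂ (Function.Periodic.qParam (h : ℝ)) (τ : ℂ) :=
    (Function.Periodic.differentiable_qParam (h := (h : ℝ))).differentiableAt
  have h2 : DifferentiableAt ℂ (fun z : ℂ => (Function.Periodic.qParam (h : ℝ) z)⁻¹) (τ : ℂ) :=
    h1.inv (Function.Periodic.qParam_ne_zero _)
  refine h2.congr_of_eventuallyEq ?_
  filter_upwards [isOpen_upperHalfPlaneSet.mem_nhds τ.im_pos] with z hz
  simp [qh, Function.comp_apply, ofComplex_apply_of_im_pos hz]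

/-- If the Laurent coefficients of `f` at the cusp vanish below `k`, then `f = u ^ k * g` with `g`
holomorphic at the cusp, and the `q`-expansion of `g` is the shifted Laurent expansion of `f`. -/
theorem exists_holAtCusp_pow_mul (hf : MerAtCusp h f) (k : ℕ)
    (hk : ∀ j : ℤ, j < k → (cuspLaurent h f).coeff j = 0) :
    ∃ g : ℍ → ℂ, HolAtCusp h g ∧ f = qh h ^ k * g ∧
      qExpansion (h : ℝ) g = PowerSeries.mk (fun n : ℕ => (cuspLaurent h f).coeff ((n : ℤ) + k)) := by
  obtain ⟨m, hm⟩ := hf.mer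
  have hH := hf.holAtCusp_mul hm
  have hc := coeff_cuspLaurent hf hm
  set P := qExpansion (h : ℝ) (qh h ^ m * f) with hP
  have hP0 : ∀ n : ℕ, n < m + k → P.coeff n = 0 := by
    intro n hn
    have h1 := hk ((n : ℤ) - m) (by omega)
    rw [hc] at h1
    have h2 : (0 : ℤ) ≤ (n : ℤ) - m + m := by omega
    rw [if_pos h2] at h1
    have h3 : ((n : ℤ) - m + m).toNat = n := by omega
    rwa [h3] at h1
  have hcoef : ∀ n : ℕ, (cuspLaurent h f).coeff ((n : ℤ) + k) = P.coeff (n + (m + k)) := by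
    intro n
    rw [hc]
    have h2 : (0 : ℤ) ≤ (n : ℤ) + k + m := by omega
    rw [if_pos h2]
    have h3 : ((n : ℤ) + k + m).toNat = n + (m + k) := by omega
    rw [h3]
  -- the function g
  let g : ℍ → ℂ := fun τ => f τ * ((qh h τ)⁻¹) ^ k
  have hfg : f = qh h ^ k * g := by
    ext τ
    simp only [g, Pi.mul_apply, Pi.pow_apply]
    have hq := pow_ne_zero k (qh_ne_zero h τ)
    rw [inv_pow, mul_comm (f τ), ← mul_assoc, mul_inv_cancel₀ hq, one_mul]
  have hsum : ∀ τ : ℍ, HasSum (fun n : ℕ => (cuspLaurent h f).coeff ((n : ℤ) + k) * qh h τ ^ n)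
      (g τ) := by
    intro τ
    have hq := qh_ne_zero h τ
    have h1 := hH.hasSum τ
    -- shift by m + k
    have h2 : HasSum (fun n : ℕ => P.coeff (n + (m + k)) * qh h τ ^ (n + (m + k)))
        ((qh h ^ m * f) τ) := by
      have := (hasSum_nat_add_iff' (m + k)).mpr h1
      have hz : ∑ i ∈ Finset.range (m + k), P.coeff i * qh h τ ^ i = 0 := by
        refine Finset.sum_eq_zero (fun i hi => ?_)
        rw [hP0 i (Finset.mem_range.mp hi), zero_mul]
      rw [hz, sub_zero] at this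
      exact this
    have h3 := h2.mul_right ((qh h τ ^ (m + k))⁻¹)
    have e1 : (qh h ^ m * f) τ * (qh h τ ^ (m + k))⁻¹ = g τ := by
      simp only [g, Pi.mul_apply, Pi.pow_apply]
      have hqm := pow_ne_zero m hq
      rw [pow_add, mul_inv, inv_pow (qh h τ) k]
      calc qh h τ ^ m * f τ * ((qh h τ ^ m)⁻¹ * (qh h τ ^ k)⁻¹)
          = (qh h τ ^ m * (qh h τ ^ m)⁻¹) * (f τ * (qh h τ ^ k)⁻¹) := by ring
        _ = f τ * (qh h τ ^ k)⁻¹ := by rw [mul_inv_cancel₀ hqm, one_mul]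
    rw [e1] at h3
    have e2 : (fun n : ℕ => (cuspLaurent h f).coeff ((n : ℤ) + k) * qh h τ ^ n) =
        fun i : ℕ => P.coeff (i + (m + k)) * qh h τ ^ (i + (m + k)) * (qh h τ ^ (m + k))⁻¹ := by
      funext n
      have hne : qh h τ ^ (m + k) ≠ 0 := pow_ne_zero _ hq
      rw [hcoef n, pow_add (qh h τ) n (m + k), mul_assoc, mul_assoc, mul_inv_cancel₀ hne, mul_one]
    rw [e2]
    exact h3
  have hper : Periodic (g ∘ ofComplex) (h : ℝ) := fun w => by
    have h1 := hf.per w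
    have h2 := qh_periodic h w
    simp only [Function.comp_apply, g] at h1 h2 ⊢
    rw [h1, h2]
  have hhol : MDiff g := hf.hol.mul ((qh_inv_mdiff h).pow k)
  obtain ⟨hg, hq⟩ := HolAtCusp.of_hasSum (h := h) (f := g)
    (c := fun n : ℕ => (cuspLaurent h f).coeff ((n : ℤ) + k)) hper hhol hsum
  exact ⟨g, hg, hfg, hq⟩

/-- No polar part ⟹ holomorphic at the cusp. -/
theorem holAtCusp_of_coeff_neg (hf : MerAtCusp h f)
    (hk : ∀ j : ℤ, j < 0 → (cuspLaurent h f).coeff j = 0) : HolAtCusp h f := by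
  obtain ⟨g, hg, hfg, -⟩ := exists_holAtCusp_pow_mul hf 0 (by simpa using hk)
  have : f = g := by rw [hfg]; simp
  rw [this]; exact hg

/-- No polar part ⟹ bounded at `i∞`. -/
theorem isBoundedAtImInfty_of_coeff_neg (hf : MerAtCusp h f)
    (hk : ∀ j : ℤ, j < 0 → (cuspLaurent h f).coeff j = 0) : IsBoundedAtImInfty f :=
  (holAtCusp_of_coeff_neg hf hk).bdd

/-- Expansion starting in degree `≥ 1` ⟹ `f` tends to `0` at `i∞`. -/
theorem isZeroAtImInfty_of_coeff (hf : MerAtCusp h f)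
    (hk : ∀ j : ℤ, j < 1 → (cuspLaurent h f).coeff j = 0) : IsZeroAtImInfty f := by
  obtain ⟨g, hg, hfg, -⟩ := exists_holAtCusp_pow_mul hf 1 (by simpa using hk)
  have hq : Tendsto (qh h) atImInfty (𝓝 0) := qParam_tendsto_atImInfty (hpos h)
  have hq' : (qh h) =o[atImInfty] (fun _ : ℍ => (1 : ℝ)) := (Asymptotics.isLittleO_one_iff ℝ).mpr hq
  have hg' : g =O[atImInfty] (fun _ : ℍ => (1 : ℝ)) := hg.bdd
  have h1 := hq'.mul_isBigO hg'
  have h2 : (fun τ => qh h τ * g τ) =o[atImInfty] (fun _ : ℍ => (1 : ℝ)) := by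
    simpa using h1
  have h3 : Tendsto (fun τ => qh h τ * g τ) atImInfty (𝓝 0) := (Asymptotics.isLittleO_one_iff ℝ).mp h2
  have : f = fun τ => qh h τ * g τ := by rw [hfg]; ext τ; simp
  rw [this]
  exact h3

theorem isBoundedAtImInfty_of_order_nonneg (hf : MerAtCusp h f)
    (ho : 0 ≤ (cuspLaurent h f).order) : IsBoundedAtImInfty f :=
  isBoundedAtImInfty_of_coeff_neg hf
    (fun _ hj => HahnSeries.coeff_eq_zero_of_lt_order (lt_of_lt_of_le hj ho))

theorem isZeroAtImInfty_of_order_pos (hf : MerAtCusp h f)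
    (ho : 0 < (cuspLaurent h f).order) : IsZeroAtImInfty f :=
  isZeroAtImInfty_of_coeff hf
    (fun j hj => HahnSeries.coeff_eq_zero_of_lt_order (by omega))

end Local

section Bundle

/-- A holomorphic function on `ℍ`, slash-invariant of weight `k` under `Γ₀(N)`, all of whose
`SL(2,ℤ)`-translates vanish at `i∞`, is a cusp form. -/
noncomputable def cuspFormOfZero (N : ℕ) [NeZero N] (k : ℤ) (F : ℍ → ℂ)
    (hol : MDifferentiable 𝓘(ℂ) 𝓘(ℂ) F)
    (hinv : ∀ γ ∈ Gamma0 N, F ∣[k] (γ : SL(2, ℤ)) = F)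
    (hzero : ∀ g : SL(2, ℤ), IsZeroAtImInfty (F ∣[k] g)) :
    CuspForm (Gamma0 N) k where
  toFun := F
  slash_action_eq' := by
    intro γ hγ
    obtain ⟨γ', hγ', rfl⟩ := hγ
    exact hinv γ' hγ'
  holo' := hol
  zero_at_cusps' := by
    intro c hc
    have hc' : IsCusp c 𝒮ℒ :=
      (Subgroup.IsArithmetic.isCusp_iff_isCusp_SL2Z _).mp hc
    rw [OnePoint.isZeroAt_iff_forall_SL2Z hc']
    intro γ _
    exact hzero γ

theorem coe_cuspFormOfZero (N : ℕ) [NeZero N] (k : ℤ) (F : ℍ → ℂ)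
    (hol : MDifferentiable 𝓘(ℂ) 𝓘(ℂ) F)
    (hinv : ∀ γ ∈ Gamma0 N, F ∣[k] (γ : SL(2, ℤ)) = F)
    (hzero : ∀ g : SL(2, ℤ), IsZeroAtImInfty (F ∣[k] g)) :
    ⇑(cuspFormOfZero N k F hol hinv hzero) = F := rfl

end Bundle

end Fermat.Agent.S20.CuspVanish
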