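import Fermat.Agent.S24.Hurwitz

/-!
# S20, piece CANON: the instance `HasCanonicalDivisor` and the degree of the canonical divisor

The frozen statement S24 and the Riemann–Roch export take `HasCanonicalDivisor (K := K) (F := F)`
as an *instance hypothesis*.  To use them for `F = FBar N` one has to construct the instance:
for every nonzero Kähler differential `ω` the function `v ↦ v.ordDifferential ω` has finite
support.  We prove this for a function field `F / K` (`K` algebraically closed of characteristic
zero, zeros theorem `ZerosTheorem K F`) possessing a non-constant `x` such that `F / K(x)` is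
unramified outside a finite set `S` of finite values (this is what Block B of S24 provides for
`FBar N`, `x = jBar N`, `S = {0, 1728}`).

We also export the degree of the canonical divisor `2 g - 2` in the modular case, extracted from
`Fermat.Agent.S24.genus_eq_genusFormula_of_blocks`.
-/

set_option autoImplicit false

open AlgebraicCurve KaehlerDifferential IntermediateField

namespace Fermat.Agent.S20.CanonicalInstance

open Fermat.Agent.S24 Fermat.Agent.S24.Hurwitz
open Fermat.Agent.S24.PrincipalDegreeCore (ZerosTheorem)
open Fermat.Agent.S24.DiffOrder (ordDifferential_D ordDifferential_smul')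

variable {K F : Type*} [Field K] [Field F] [Algebra K F]

section Generic

variable [IsAlgClosed K] [CharZero K]

/-- If `F / K(x)` is unramified outside the finite set `S` of finite values, the divisor of `dx`
has finite support. -/
theorem support_ordDifferential_D_finite (hZ : ZerosTheorem K F) {x : F}
    (hx : Transcendental K x)
    (hfin : FiniteDimensional (IntermediateField.adjoin K ({x} : Set F)) F)
    (S : Finset K)
    (hS : ∀ a ∉ S, Nat.card (zerosOver x a)
      = Module.finrank (IntermediateField.adjoin K ({x} : Set F)) F) :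
    (Function.support fun v : Place K F => v.ordDifferential (D K F x)).Finite := by
  classical
  have hF : IsFunctionField1 K F := ⟨x, hx, hfin⟩
  set P : Finset (Place K F) := (polesOf_finite hZ hF hx).toFinset with hP
  set Z : K → Finset (Place K F) := fun a => (zerosOver_finite hZ hF hx a).toFinset with hZdef
  set U : Finset (Place K F) := P ∪ S.biUnion Z with hU
  refine U.finite_toSet.subset ?_
  intro v hv
  by_contra hvU
  apply hv
  have hvU' : v ∉ U := fun h => hvU (Finset.mem_coe.mpr h)
  rw [hU, Finset.mem_union, not_or] at hvU'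
  obtain ⟨hvP, hvZ⟩ := hvU'
  have hvP' : v ∉ polesOf K x := fun h => hvP ((polesOf_finite hZ hF hx).mem_toFinset.mpr h)
  obtain ⟨a, ha⟩ := (mem_polesOf_or_exists_mem_zerosOver hZ hF hx v).resolve_left hvP'
  have haS : a ∉ S := by
    intro haS
    exact hvZ (Finset.mem_biUnion.mpr ⟨a, haS, (zerosOver_finite hZ hF hx a).mem_toFinset.mpr ha⟩)
  have hcard := hS a haS
  show v.ordDifferential (D K F x) = 0
  rw [ordDifferential_D_of_mem_zerosOver hZ hF ha, ord_eq_one_of_card_eq hZ hF hx a hcard ha,
    sub_self]

/-- **The instance.**  A function field of one variable over an algebraically closed field of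
characteristic zero, satisfying the zeros theorem and possessing a non-constant function
unramified outside finitely many values, has canonical divisors. -/
theorem hasCanonicalDivisor_of_unramified_outside (hZ : ZerosTheorem K F) {x : F}
    (hx : Transcendental K x)
    (hfin : FiniteDimensional (IntermediateField.adjoin K ({x} : Set F)) F)
    (S : Finset K)
    (hS : ∀ a ∉ S, Nat.card (zerosOver x a)
      = Module.finrank (IntermediateField.adjoin K ({x} : Set F)) F) :
    HasCanonicalDivisor (K := K) (F := F) := by
  classical
  have hF : IsFunctionField1 K F := ⟨x, hx, hfin⟩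
  have hdx : D K F x ≠ 0 := KaehlerGen.FF.D_ne_zero hF hx
  refine ⟨fun ω hω => ?_⟩
  obtain ⟨f, hf⟩ : ∃ f : F, f • D K F x = ω := by
    have : ω ∈ Submodule.span F {D K F x} := by
      rw [KaehlerGen.FF.span_D_eq_top hF hx]; exact Submodule.mem_top
    exact Submodule.mem_span_singleton.mp this
  have hf0 : f ≠ 0 := by
    rintro rfl
    exact hω (by rw [← hf, zero_smul])
  have hord : ∀ v : Place K F, v.ordDifferential ω
      = v.ord f + v.ordDifferential (D K F x) := fun v => by
    rw [← hf, ordDifferential_smul' hF v f hf0 _ hdx]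
  have hsuppf : (Function.support fun v : Place K F => v.ord f).Finite :=
    PrincipalDegreeCore.ord_support_finite hZ hF f hf0
  have hsuppE := support_ordDifferential_D_finite hZ hx hfin S hS
  have hsupp : (Function.support fun v : Place K F => v.ordDifferential ω).Finite := by
    refine (hsuppf.union hsuppE).subset ?_
    intro v hv
    by_contra hvn
    rw [Set.mem_union, not_or] at hvn
    apply hv
    show v.ordDifferential ω = 0
    rw [hord v]
    have h1 : v.ord f = 0 := by
      by_contra h; exact hvn.1 h
    have h2 : v.ordDifferential (D K F x) = 0 := by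
      by_contra h; exact hvn.2 h
    rw [h1, h2, add_zero]
  refine ⟨Finsupp.ofSupportFinite (fun v : Place K F => v.ordDifferential ω) hsupp, fun v => ?_⟩
  rfl

end Generic

section Modular

open ModularCurve

/-- The instance for the function field of `X₀(N)` over `ℚ̄`, from Block B of S24 and the zeros
theorem. -/
theorem hasCanonicalDivisor_FBar (N : ℕ) [NeZero N] (hZ : ZerosTheorem Kbar (FBar N))
    (hB : ModularRamificationData N) :
    HasCanonicalDivisor (K := Kbar) (F := FBar N) := by
  classical
  refine hasCanonicalDivisor_of_unramified_outside hZ hB.transcendental hB.finite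
    ({0, 1728} : Finset Kbar) ?_
  intro a ha
  have h0 : a ≠ 0 := fun h => ha (by simp [h])
  have h1 : a ≠ 1728 := fun h => ha (by simp [h])
  rw [hB.degree]
  exact hB.card_generic a h0 h1

/-- The degree of the canonical divisor of `FBar N` is `2 g - 2` with `g` the genus formula
(extracted from the proof of `genus_eq_genusFormula_of_blocks`). -/
theorem degree_canonicalDivisorOf (N : ℕ) [NeZero N]
    [HasCanonicalDivisor (K := Kbar) (F := FBar N)]
    (hA : HurwitzFormula Kbar (FBar N)) (hB : ModularRamificationData N)
    (ω : Ω[FBar N⁄Kbar]) (hω : ω ≠ 0) :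
    ((Divisor.degree (canonicalDivisorOf hω) : ℤ) : ℚ) = 2 * genusFormula N - 2 := by
  classical
  have h1728 : (1728 : Kbar) ≠ 0 := by norm_num
  set S : Finset Kbar := {0, 1728} with hS
  have hS' : ∀ a ∉ S, Nat.card (zerosOver (jBar N) a) = dedekindPsi N := by
    intro a ha
    have h0 : a ≠ 0 := fun h => ha (by simp [hS, h])
    have h1 : a ≠ 1728 := fun h => ha (by simp [hS, h])
    exact hB.card_generic a h0 h1
  obtain ⟨-, hdeg⟩ := hA (jBar N) (dedekindPsi N) hB.transcendental hB.finite hB.degree S hS'
  have hsum : (∑ a ∈ S, (((dedekindPsi N : ℕ) : ℤ) - (Nat.card (zerosOver (jBar N) a) : ℤ)))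
      = (((dedekindPsi N : ℕ) : ℤ) - (Nat.card (zerosOver (jBar N) (0 : Kbar)) : ℤ))
        + (((dedekindPsi N : ℕ) : ℤ) - (Nat.card (zerosOver (jBar N) (1728 : Kbar)) : ℤ)) := by
    rw [hS, Finset.sum_insert (by simp [h1728.symm]), Finset.sum_singleton]
  have h := hdeg ω hω
  rw [hsum, hB.card_infty] at h
  have h0 := hB.card_zero
  have h1 := hB.card_1728
  rw [h]
  have h0q : (3 : ℚ) * (Nat.card (zerosOver (jBar N) (0 : Kbar)) : ℚ)
      = (dedekindPsi N : ℚ) + 2 * (nuThree N : ℚ) := by exact_mod_cast h0
  have h1q : (2 : ℚ) * (Nat.card (zerosOver (jBar N) (1728 : Kbar)) : ℚ)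
      = (dedekindPsi N : ℚ) + (nuTwo N : ℚ) := by exact_mod_cast h1
  unfold genusFormula
  push_cast
  linarith

/-- Integer form: if `g : ℕ` realises the genus formula, the canonical divisor has degree
`2 g - 2`, there is a nonzero differential, and the Prelude genus is `g`. -/
theorem degree_canonicalDivisorOf_nat (N : ℕ) [NeZero N]
    [HasCanonicalDivisor (K := Kbar) (F := FBar N)]
    (hA : HurwitzFormula Kbar (FBar N)) (hB : ModularRamificationData N)
    (g : ℕ) (hg : (g : ℚ) = genusFormula N) :
    (∃ ω : Ω[FBar N⁄Kbar], ω ≠ 0) ∧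
    (∀ (ω : Ω[FBar N⁄Kbar]) (hω : ω ≠ 0),
      Divisor.degree (canonicalDivisorOf hω) = 2 * (g : ℤ) - 2) ∧
    AlgebraicCurve.genus Kbar (FBar N) = g := by
  classical
  have hex : ∃ ω : Ω[FBar N⁄Kbar], ω ≠ 0 := by
    have hF : IsFunctionField1 Kbar (FBar N) := ⟨jBar N, hB.transcendental, hB.finite⟩
    exact ⟨D Kbar (FBar N) (jBar N), KaehlerGen.FF.D_ne_zero hF hB.transcendental⟩
  have key : ∀ (ω : Ω[FBar N⁄Kbar]) (hω : ω ≠ 0),
      Divisor.degree (canonicalDivisorOf hω) = 2 * (g : ℤ) - 2 := by
    intro ω hω
    have hq := degree_canonicalDivisorOf N hA hB ω hω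
    rw [← hg] at hq
    have : ((Divisor.degree (canonicalDivisorOf hω) : ℤ) : ℚ) = ((2 * (g : ℤ) - 2 : ℤ) : ℚ) := by
      rw [hq]; push_cast; ring
    exact_mod_cast this
  refine ⟨hex, key, ?_⟩
  have hgen := genus_eq_genusFormula_of_blocks N hA hB ⟨g, hg⟩
  rw [← hg] at hgen
  exact_mod_cast hgen

end Modular

end Fermat.Agent.S20.CanonicalInstance
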