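import Mathlib
import Fermat.Prelude.Def_ModularCurve_LaurentCoeff

/-!
# S20, dictionary (L4): linear independence survives extension of the coefficient field

`k`-linearly independent Laurent series over `k` stay `L`-linearly independent after applying a
field embedding `φ : k →+* L` to the coefficients (`ModularCurve.coeffMap φ`).  Used to pass from a
`ℚ̄`-basis of regular differentials `h dj` of `FBar N` to `ℂ`-linearly independent cusp forms.
-/

set_option autoImplicit false

namespace Fermat.Agent.S20.CoeffIndep

open ModularCurve

/-- Linear independence of functions is preserved by extension of the field of values: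
if `v i : J → k` are `k`-linearly independent, then `φ ∘ v i : J → L` are `L`-linearly
independent, for any field embedding `φ : k →+* L`. -/
theorem linearIndependent_comp_ringHom {k L : Type*} [Field k] [Field L] (φ : k →+* L)
    {ι J : Type*} (v : ι → J → k) (hv : LinearIndependent k v) :
    LinearIndependent L (fun i => fun j => φ (v i j)) := by
  classical
  let _ : Algebra k L := φ.toAlgebra
  rw [linearIndependent_iff'] at hv ⊢
  intro s c hc i hi
  -- apply an arbitrary `k`-linear functional `π : L → k`
  rw [← Module.forall_dual_apply_eq_zero_iff k (c i)]
  intro π
  refine hv s (fun i => π (c i)) ?_ i hi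
  funext j
  have hj := congrFun hc j
  simp only [Finset.sum_apply, Pi.smul_apply, smul_eq_mul, Pi.zero_apply] at hj ⊢
  have h2 : π (∑ i ∈ s, c i * φ (v i j)) = 0 := by rw [hj, map_zero]
  rw [map_sum] at h2
  rw [← h2]
  refine Finset.sum_congr rfl fun i _ => ?_
  have : c i * φ (v i j) = (v i j) • c i := by
    rw [Algebra.smul_def, mul_comm]; rfl
  rw [this, map_smul, smul_eq_mul, mul_comm]

/-- `k`-linearly independent Laurent series stay linearly independent over `L` after applying a
field embedding `φ : k →+* L` to all coefficients. -/
theorem linearIndependent_coeffMap {k L : Type*} [Field k] [Field L] (φ : k →+* L)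
    {ι : Type*} (h : ι → LaurentSeries k) (hh : LinearIndependent k h) :
    LinearIndependent L (fun i => coeffMap φ (h i)) := by
  classical
  -- pass to coefficient functions
  have h1 : LinearIndependent k (fun i => fun n : ℤ => (h i).coeff n) := by
    rw [linearIndependent_iff'] at hh ⊢
    intro s c hc i hi
    refine hh s c ?_ i hi
    ext n
    have := congrFun hc n
    simpa using this
  have h2 := linearIndependent_comp_ringHom φ _ h1
  rw [linearIndependent_iff'] at h2 ⊢
  intro s c hc i hi
  refine h2 s c ?_ i hi
  funext n
  have := congrArg (fun x : LaurentSeries L => x.coeff n) hc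
  simpa using this

/-- Abstract form used by the dictionary: if an `L`-linear "expansion" map `Λ` sends the `e i` to
the coefficient extensions of `k`-linearly independent Laurent series `x i`, then the `e i` are
`L`-linearly independent. -/
theorem linearIndependent_of_expansion {k L : Type*} [Field k] [Field L] (φ : k →+* L)
    {A : Type*} [AddCommGroup A] [Module L A] (Λ : A →ₗ[L] LaurentSeries L)
    {ι : Type*} (e : ι → A) (x : ι → LaurentSeries k) (hx : LinearIndependent k x)
    (h : ∀ i, Λ (e i) = coeffMap φ (x i)) : LinearIndependent L e := by
  have h1 : LinearIndependent L (Λ ∘ e) := by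
    have := linearIndependent_coeffMap φ x hx
    convert this using 1
    funext i
    exact h i
  exact LinearIndependent.of_comp Λ h1

/-- Division by a common nonzero denominator does not affect linear independence (in a field
`M` that is an `L`-algebra). -/
theorem linearIndependent_div {L M : Type*} [Field L] [Field M] [Algebra L M]
    {ι : Type*} (a : ι → M) (b : M) (hb : b ≠ 0) (ha : LinearIndependent L a) :
    LinearIndependent L (fun i => a i / b) := by
  rw [linearIndependent_iff'] at ha ⊢
  intro s c hc i hi
  refine ha s c ?_ i hi
  have h2 : (∑ i ∈ s, c i • (a i / b)) * b = 0 := by rw [hc, zero_mul]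
  rw [Finset.sum_mul] at h2
  rw [← h2]
  refine Finset.sum_congr rfl fun i _ => ?_
  rw [smul_mul_assoc, div_mul_cancel₀ _ hb]

end Fermat.Agent.S20.CoeffIndep
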