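/-
S20 (L)-dictionary, piece L.deriv (cusp): compatibility of the Laurent expansion at the cusp `i∞`
of width `h` (helper73's `CuspExpansion`) with the normalised derivative `D = (2πi)⁻¹ d/dτ`:
`D = q d/dq = (1/h) u d/du` for `u = exp (2πiτ/h)`.  Owner: helper66.
-/
import Fermat.Agent.S24.CuspExpansion
import Fermat.Agent.S24.LaurentAux

set_option autoImplicit false

open UpperHalfPlane Filter Function Complex
open scoped Manifold Topology Real Derivative Nat

namespace Fermat.Agent.S20.CuspDeriv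

open Fermat.Agent.S24.CuspExpansion

variable {h : ℕ} [NeZero h] {f g : ℍ → ℂ}

/-! ### The derivative of the local parameter -/

theorem hasDerivAt_qParam (h : ℕ) [NeZero h] (w : ℂ) :
    HasDerivAt (Function.Periodic.qParam (h : ℝ))
      (2 * π * Complex.I / (h : ℂ) * Function.Periodic.qParam (h : ℝ) w) w := by
  have hh : ((h : ℝ) : ℂ) ≠ 0 := by exact_mod_cast (hpos h).ne'
  have h1 : HasDerivAt (fun z : ℂ => 2 * π * Complex.I * z / ((h : ℝ) : ℂ))
      (2 * π * Complex.I / ((h : ℝ) : ℂ)) w := by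
    have := ((hasDerivAt_id w).const_mul (2 * π * Complex.I)).div_const ((h : ℝ) : ℂ)
    simpa using this
  have h2 := h1.cexp
  have h3 : (fun z : ℂ => cexp (2 * π * Complex.I * z / ((h : ℝ) : ℂ))) =
      Function.Periodic.qParam (h : ℝ) := by
    funext z
    simp [Function.Periodic.qParam]
  rw [h3] at h2
  have h4 : cexp (2 * π * Complex.I * w / ((h : ℝ) : ℂ)) = Function.Periodic.qParam (h : ℝ) w := by
    simp [Function.Periodic.qParam]
  rw [h4] at h2
  refine h2.congr_deriv ?_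
  push_cast
  ring

/-- On the upper half plane, `f ∘ ofComplex` agrees with `cuspFunction h f ∘ 𝕢 h`. -/
theorem comp_ofComplex_eventuallyEq (hf : HolAtCusp h f) (τ : ℍ) :
    (f ∘ ofComplex) =ᶠ[𝓝 (τ : ℂ)]
      fun w : ℂ => cuspFunction (h : ℝ) f (Function.Periodic.qParam (h : ℝ) w) := by
  have hopen : IsOpen {w : ℂ | 0 < w.im} := isOpen_upperHalfPlaneSet
  filter_upwards [hopen.mem_nhds τ.im_pos] with w hw
  have h1 := eq_cuspFunction (f := f) (ofComplex w) (hpos h).ne' hf.per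
  rw [ofComplex_apply_of_im_pos hw] at h1
  simp only [Function.comp_apply]
  rw [ofComplex_apply_of_im_pos hw]
  exact h1.symm

/-- **Key formula**: `D f τ = (1/h) u G'(u)` with `G` the cusp function and `u = 𝕢 h τ`. -/
theorem D_eq (hf : HolAtCusp h f) (τ : ℍ) :
    D f τ = (1 / (h : ℂ)) * (qh h τ * deriv (cuspFunction (h : ℝ) f) (qh h τ)) := by
  have hq : ‖Function.Periodic.qParam (h : ℝ) (τ : ℂ)‖ < 1 := norm_qh_lt_one h τ
  have hG : DifferentiableAt ℂ (cuspFunction (h : ℝ) f) (Function.Periodic.qParam (h : ℝ) (τ : ℂ)) :=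
    differentiableAt_cuspFunction (hpos h) hf.per hf.hol hf.bdd hq
  have hcomp : HasDerivAt
      (fun w : ℂ => cuspFunction (h : ℝ) f (Function.Periodic.qParam (h : ℝ) w))
      (deriv (cuspFunction (h : ℝ) f) (Function.Periodic.qParam (h : ℝ) (τ : ℂ)) *
        (2 * π * Complex.I / (h : ℂ) * Function.Periodic.qParam (h : ℝ) (τ : ℂ))) (τ : ℂ) :=
    hG.hasDerivAt.comp (τ : ℂ) (hasDerivAt_qParam h (τ : ℂ))
  have hderiv : deriv (f ∘ ofComplex) (τ : ℂ) =
      deriv (cuspFunction (h : ℝ) f) (Function.Periodic.qParam (h : ℝ) (τ : ℂ)) *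
        (2 * π * Complex.I / (h : ℂ) * Function.Periodic.qParam (h : ℝ) (τ : ℂ)) := by
    rw [(comp_ofComplex_eventuallyEq hf τ).deriv_eq]
    exact hcomp.deriv
  have h2pi : (2 * π * Complex.I : ℂ) ≠ 0 := Complex.two_pi_I_ne_zero
  have hh : (h : ℂ) ≠ 0 := by exact_mod_cast NeZero.ne h
  simp only [Derivative.normalizedDerivOfComplex, qh]
  rw [hderiv]
  field_simp

/-- Taylor expansion of the derivative of a function differentiable on the unit disc. -/
theorem hasSum_deriv_of_differentiableOn {G : ℂ → ℂ}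
    (hG : DifferentiableOn ℂ G (Metric.ball 0 1)) {u : ℂ} (hu : ‖u‖ < 1) :
    HasSum (fun n : ℕ => ((n : ℂ) + 1) * (((n + 1)! : ℂ)⁻¹ * iteratedDeriv (n + 1) G 0) * u ^ n)
      (deriv G u) := by
  have hG' : DifferentiableOn ℂ (deriv G) (Metric.ball 0 1) := hG.deriv Metric.isOpen_ball
  have hu' : u ∈ Metric.ball (0 : ℂ) 1 := by simpa using hu
  have h1 := Complex.hasSum_taylorSeries_on_ball hG' hu'
  have hfun : (fun n : ℕ =>
      ((n : ℂ) + 1) * (((n + 1)! : ℂ)⁻¹ * iteratedDeriv (n + 1) G 0) * u ^ n) =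
      fun n : ℕ => ((n ! : ℂ))⁻¹ • (u - 0) ^ n • iteratedDeriv n (deriv G) 0 := by
    funext n
    rw [sub_zero, smul_eq_mul, smul_eq_mul, ← iteratedDeriv_succ']
    have hf1 : ((n + 1)! : ℂ) = ((n : ℂ) + 1) * (n ! : ℂ) := by
      rw [Nat.factorial_succ]; push_cast; ring
    have hn : (n ! : ℂ) ≠ 0 := by exact_mod_cast Nat.factorial_ne_zero n
    have hn1 : ((n : ℂ) + 1) ≠ 0 := by exact_mod_cast Nat.succ_ne_zero n
    rw [hf1]
    field_simp
  rw [hfun]
  exact h1

/-- The `u`-expansion of `D f` for `f` holomorphic at the cusp: coefficients `(n/h) c n`. -/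
theorem HolAtCusp.hasSum_D (hf : HolAtCusp h f) (τ : ℍ) :
    HasSum (fun n : ℕ => ((n : ℂ) / (h : ℂ)) * (qExpansion (h : ℝ) f).coeff n * qh h τ ^ n)
      (D f τ) := by
  have hG : DifferentiableOn ℂ (cuspFunction (h : ℝ) f) (Metric.ball 0 1) :=
    differentiableOn_cuspFunction_ball (hpos h) hf.per hf.hol hf.bdd
  have h1 := hasSum_deriv_of_differentiableOn hG (norm_qh_lt_one h τ)
  have h2 := (h1.mul_left (1 / (h : ℂ) * qh h τ))
  rw [D_eq hf τ]
  rw [← hasSum_nat_add_iff' 1]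
  simp only [Finset.range_one, Finset.sum_singleton, Nat.cast_zero, zero_div, zero_mul, sub_zero]
  have hfun : (fun n : ℕ => ((n + 1 : ℕ) : ℂ) / (h : ℂ) *
        (qExpansion (h : ℝ) f).coeff (n + 1) * qh h τ ^ (n + 1)) =
      fun i : ℕ => 1 / (h : ℂ) * qh h τ * (((i : ℂ) + 1) * (((i + 1)! : ℂ)⁻¹ *
        iteratedDeriv (i + 1) (cuspFunction (h : ℝ) f) 0) * qh h τ ^ i) := by
    funext n
    rw [qExpansion_coeff]
    push_cast
    ring
  rw [hfun, ← mul_assoc]
  exact h2

omit [NeZero h] in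
/-- `D f` is `h`-periodic when `f` is. -/
theorem periodic_D (hper : Periodic (f ∘ ofComplex) (h : ℝ)) :
    Periodic (D f ∘ ofComplex) (h : ℝ) := by
  intro w
  by_cases hw : 0 < w.im
  · have hw1 : 0 < (w + ((h : ℝ) : ℂ)).im := by simpa using hw
    simp only [Function.comp_apply, Derivative.normalizedDerivOfComplex]
    rw [ofComplex_apply_of_im_pos hw1, ofComplex_apply_of_im_pos hw]
    congr 1
    have h1 : (fun z : ℂ => (f ∘ ofComplex) (z + ((h : ℝ) : ℂ))) = f ∘ ofComplex := by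
      funext z
      exact hper z
    rw [← deriv_comp_add_const, h1]
  · have hw' : w.im ≤ 0 := not_lt.mp hw
    have hw1 : (w + ((h : ℝ) : ℂ)).im ≤ 0 := by simpa using hw'
    simp only [Function.comp_apply]
    rw [ofComplex_apply_eq_of_im_nonpos hw1 hw']

/-- `D` preserves holomorphy at the cusp; the `q`-expansion is multiplied by `n / h`. -/
theorem HolAtCusp.D (hf : HolAtCusp h f) :
    HolAtCusp h (D f) ∧ qExpansion (h : ℝ) (D f) =
      PowerSeries.mk fun n => ((n : ℂ) / (h : ℂ)) * (qExpansion (h : ℝ) f).coeff n :=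
  HolAtCusp.of_hasSum (periodic_D hf.per)
    (Derivative.normalizedDerivOfComplex_mdifferentiable hf.hol) (fun τ => HolAtCusp.hasSum_D hf τ)

theorem D_qh_pow (h : ℕ) [NeZero h] (m : ℕ) (τ : ℍ) :
    D (qh h ^ m) τ = ((m : ℂ) / (h : ℂ)) * qh h τ ^ m := by
  have hev : ((qh h ^ m) ∘ ofComplex) =ᶠ[𝓝 (τ : ℂ)]
      fun w : ℂ => Function.Periodic.qParam (h : ℝ) w ^ m := by
    have hopen : IsOpen {w : ℂ | 0 < w.im} := isOpen_upperHalfPlaneSet
    filter_upwards [hopen.mem_nhds τ.im_pos] with w hw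
    simp only [Function.comp_apply, Pi.pow_apply, qh]
    rw [ofComplex_apply_of_im_pos hw]
  have hd : HasDerivAt (fun w : ℂ => Function.Periodic.qParam (h : ℝ) w ^ m)
      ((m : ℂ) * Function.Periodic.qParam (h : ℝ) (τ : ℂ) ^ (m - 1) *
        (2 * π * Complex.I / (h : ℂ) * Function.Periodic.qParam (h : ℝ) (τ : ℂ))) (τ : ℂ) :=
    (hasDerivAt_qParam h (τ : ℂ)).pow m
  have h2pi : (2 * π * Complex.I : ℂ) ≠ 0 := Complex.two_pi_I_ne_zero
  have hh : (h : ℂ) ≠ 0 := by exact_mod_cast NeZero.ne h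
  simp only [Derivative.normalizedDerivOfComplex]
  rw [hev.deriv_eq, hd.deriv]
  simp only [qh]
  rcases m with _ | m
  · simp
  · simp only [Nat.add_sub_cancel, pow_succ]
    push_cast
    field_simp

/-- **Derivative compatibility at the cusp.**  `D` preserves meromorphy at the cusp of width `h`
and multiplies the `k`-th Laurent coefficient by `k / h`. -/
theorem MerAtCusp.D (hf : MerAtCusp h f) :
    MerAtCusp h (D f) ∧ ∀ k : ℤ, (cuspLaurent h (D f)).coeff k =
      ((k : ℂ) / (h : ℂ)) * (cuspLaurent h f).coeff k := by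
  obtain ⟨m, hm⟩ := hf.mer
  have hg := hf.holAtCusp_mul hm
  set c : ℕ → ℂ := fun n => (qExpansion (h : ℝ) (qh h ^ m * f)).coeff n with hc
  have hqm : MDiff (qh h ^ m) := ((HolAtCusp.qh h).pow m).hol
  have hprod : ∀ τ : ℍ, qh h τ ^ m * D f τ =
      D (qh h ^ m * f) τ - ((m : ℂ) / (h : ℂ)) * (qh h τ ^ m * f τ) := by
    intro τ
    rw [Derivative.normalizedDerivOfComplex_mul _ _ hqm hf.hol]
    simp only [Pi.add_apply, Pi.mul_apply, Pi.pow_apply, D_qh_pow]
    ring
  have hs : ∀ τ : ℍ, HasSum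
      (fun n : ℕ => (((n : ℂ) - (m : ℂ)) / (h : ℂ) * c n) * qh h τ ^ n)
      (qh h τ ^ m * D f τ) := by
    intro τ
    rw [hprod τ]
    have h1 := HolAtCusp.hasSum_D hg τ
    have h2 := (hg.hasSum τ).mul_left ((m : ℂ) / (h : ℂ))
    have h3 := h1.sub h2
    have hfun : (fun n : ℕ => (((n : ℂ) - (m : ℂ)) / (h : ℂ) * c n) * qh h τ ^ n) =
        fun n : ℕ => (n : ℂ) / (h : ℂ) * (qExpansion (h : ℝ) (qh h ^ m * f)).coeff n * qh h τ ^ n -
          (m : ℂ) / (h : ℂ) * ((qExpansion (h : ℝ) (qh h ^ m * f)).coeff n * qh h τ ^ n) := by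
      funext n
      simp only [hc]
      ring
    rw [hfun]
    exact h3
  obtain ⟨hDf, hL⟩ := MerAtCusp.of_hasSum (periodic_D hf.per)
    (Derivative.normalizedDerivOfComplex_mdifferentiable hf.hol) hs
  refine ⟨hDf, fun k => ?_⟩
  rw [hL, cuspLaurent_eq hf hm, coeff_single_neg_mul_ofPowerSeries,
    coeff_single_neg_mul_ofPowerSeries]
  split_ifs with hk
  · rw [PowerSeries.coeff_mk]
    have hcast : (((k + (m : ℤ)).toNat : ℕ) : ℂ) = (k : ℂ) + (m : ℂ) := by
      have : (((k + (m : ℤ)).toNat : ℕ) : ℤ) = k + m := Int.toNat_of_nonneg hk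
      exact_mod_cast congrArg (fun z : ℤ => (z : ℂ)) this
    simp only [hc, hcast]
    ring
  · rw [mul_zero]

/-- Derivation form: `cuspLaurent h (D f) = (1/h) · u · d/du (cuspLaurent h f)`. -/
theorem cuspLaurent_D (hf : MerAtCusp h f) :
    cuspLaurent h (D f) =
      HahnSeries.C (1 / (h : ℂ)) *
        (HahnSeries.single (1 : ℤ) (1 : ℂ) * Fermat.Agent.S24.lderiv (cuspLaurent h f)) := by
  ext k
  rw [(MerAtCusp.D hf).2 k, HahnSeries.C_mul_eq_smul, HahnSeries.coeff_smul,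
    HahnSeries.coeff_single_mul, one_mul, Fermat.Agent.S24.coeff_lderiv, smul_eq_mul]
  push_cast
  ring_nf

/-- Order form: if the expansion of `f` has nonzero order, `D f` has the same order. -/
theorem order_cuspLaurent_D (hf : MerAtCusp h f) (h0 : cuspLaurent h f ≠ 0)
    (ho : (cuspLaurent h f).order ≠ 0) :
    (cuspLaurent h (D f)).order = (cuspLaurent h f).order := by
  have hh : (h : ℂ) ≠ 0 := by exact_mod_cast NeZero.ne h
  have hcoeff := (MerAtCusp.D hf).2
  set L := cuspLaurent h f with hL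
  have hne : (cuspLaurent h (D f)).coeff L.order ≠ 0 := by
    rw [hcoeff]
    refine mul_ne_zero (div_ne_zero ?_ hh) (HahnSeries.coeff_order_eq_zero.not.2 h0)
    exact_mod_cast ho
  have hne0 : cuspLaurent h (D f) ≠ 0 := by
    intro h1
    rw [h1] at hne
    exact hne rfl
  apply le_antisymm (HahnSeries.order_le_of_coeff_ne_zero hne)
  by_contra hlt
  rw [not_le] at hlt
  apply HahnSeries.coeff_order_eq_zero.not.2 hne0
  rw [hcoeff, HahnSeries.coeff_eq_zero_of_lt_order hlt, mul_zero]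

end Fermat.Agent.S20.CuspDeriv
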