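/-
S20 (Dedekind–Weber line, piece DW.chi; owner: helper90).
Abstract index lemma for pairs of lattices over `k[X]` and over the valuation ring at infinity
of `RatFunc k`, in coordinates with respect to two bases of a finite-dimensional
`RatFunc k`-vector space.  Mathlib only.
-/
import Mathlib

set_option autoImplicit false
set_option linter.unusedSectionVars false
set_option linter.style.haveILetI false

namespace Fermat.Agent.S20.DWChi

open Polynomial WithZero Module

/-! ### Rational functions: valuation at infinity -/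

section RatFuncLemmas

variable {k : Type*} [Field k] [DecidableEq (RatFunc k)]

theorem inftyValuation_le_exp_iff (r : RatFunc k) (s : ℤ) :
    RatFunc.inftyValuation k r ≤ exp s ↔ r = 0 ∨ r.intDegree ≤ s := by
  rw [RatFunc.inftyValuation_apply]
  by_cases hr : r = 0
  · subst hr
    simp [RatFunc.inftyValuationDef]
  · rw [RatFunc.inftyValuation_of_nonzero _ hr, exp_le_exp]
    simp [hr]

theorem inftyValuation_polynomial_le_iff (p : k[X]) (s : ℤ) :
    RatFunc.inftyValuation k (algebraMap k[X] (RatFunc k) p) ≤ exp s ↔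
      p ∈ degreeLT k (s + 1).toNat := by
  rw [inftyValuation_le_exp_iff, mem_degreeLT]
  by_cases hp : p = 0
  · subst hp
    simp
  · have hp' : algebraMap k[X] (RatFunc k) p ≠ 0 := by
      rwa [Ne, map_eq_zero_iff _ (RatFunc.algebraMap_injective k)]
    rw [RatFunc.intDegree_polynomial, degree_eq_natDegree hp]
    simp only [hp', false_or, Nat.cast_lt]
    omega

theorem div_sub_algebraMap_div (n q : k[X]) (hq : q ≠ 0) :
    algebraMap k[X] (RatFunc k) n / algebraMap k[X] (RatFunc k) q -
      algebraMap k[X] (RatFunc k) (n / q) =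
      algebraMap k[X] (RatFunc k) (n % q) / algebraMap k[X] (RatFunc k) q := by
  have hq' : algebraMap k[X] (RatFunc k) q ≠ 0 := by
    rwa [Ne, map_eq_zero_iff _ (RatFunc.algebraMap_injective k)]
  have h2 : algebraMap k[X] (RatFunc k) n =
      algebraMap k[X] (RatFunc k) q * algebraMap k[X] (RatFunc k) (n / q) +
        algebraMap k[X] (RatFunc k) (n % q) := by
    rw [← map_mul, ← map_add, EuclideanDomain.div_add_mod]
  rw [h2]
  field_simp
  ring

/-- Division with remainder: every rational function is a polynomial plus a rational function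
of negative degree. -/
theorem exists_polynomial_sub_le (r : RatFunc k) :
    ∃ p : k[X], RatFunc.inftyValuation k (r - algebraMap k[X] (RatFunc k) p) ≤ exp (-1) := by
  refine ⟨r.num / r.denom, ?_⟩
  have hq : r.denom ≠ 0 := r.denom_ne_zero
  have hq' : algebraMap k[X] (RatFunc k) r.denom ≠ 0 := by
    rwa [Ne, map_eq_zero_iff _ (RatFunc.algebraMap_injective k)]
  have h1 : r - algebraMap k[X] (RatFunc k) (r.num / r.denom) =
      algebraMap k[X] (RatFunc k) (r.num % r.denom) / algebraMap k[X] (RatFunc k) r.denom := by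
    rw [← div_sub_algebraMap_div r.num r.denom hq, RatFunc.num_div_denom]
  rw [h1, inftyValuation_le_exp_iff]
  by_cases h0 : r.num % r.denom = 0
  · left
    rw [h0, map_zero, zero_div]
  · right
    have h0' : algebraMap k[X] (RatFunc k) (r.num % r.denom) ≠ 0 := by
      rwa [Ne, map_eq_zero_iff _ (RatFunc.algebraMap_injective k)]
    rw [RatFunc.intDegree_div h0' hq', RatFunc.intDegree_polynomial, RatFunc.intDegree_polynomial]
    have h3 := degree_mod_lt r.num hq
    rw [degree_eq_natDegree h0, degree_eq_natDegree hq, Nat.cast_lt] at h3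
    omega

end RatFuncLemmas

/-! ### Pure linear algebra: the index lemma -/

section Index

variable {k : Type*} [Field k] {V : Type*} [AddCommGroup V] [Module k V]

/-- The canonical map `M' ⊓ N' → M'/M × N'/N`. -/
noncomputable def indexMap (M M' N N' : Submodule k V) :
    ↥(M' ⊓ N') →ₗ[k] (↥M' ⧸ M.submoduleOf M') × (↥N' ⧸ N.submoduleOf N') :=
  LinearMap.prod
    ((M.submoduleOf M').mkQ.comp (Submodule.inclusion (inf_le_left : M' ⊓ N' ≤ M')))
    ((N.submoduleOf N').mkQ.comp (Submodule.inclusion (inf_le_right : M' ⊓ N' ≤ N')))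

theorem indexMap_apply (M M' N N' : Submodule k V) (z : ↥(M' ⊓ N')) :
    indexMap M M' N N' z =
      ((M.submoduleOf M').mkQ ⟨z.1, z.2.1⟩, (N.submoduleOf N').mkQ ⟨z.1, z.2.2⟩) := rfl

theorem mem_submoduleOf_iff (M M' : Submodule k V) (z : ↥M') :
    z ∈ M.submoduleOf M' ↔ (z : V) ∈ M := Iff.rfl

theorem indexMap_ker (M M' N N' : Submodule k V) :
    LinearMap.ker (indexMap M M' N N') = (M ⊓ N).submoduleOf (M' ⊓ N') := by
  ext z
  rw [LinearMap.mem_ker, indexMap_apply, Prod.mk_eq_zero, Submodule.mkQ_apply,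
    Submodule.mkQ_apply, Submodule.Quotient.mk_eq_zero, Submodule.Quotient.mk_eq_zero,
    mem_submoduleOf_iff, mem_submoduleOf_iff, mem_submoduleOf_iff, Submodule.mem_inf]

theorem indexMap_surjective {M M' N N' : Submodule k V} (hM : M ≤ M') (hN : N ≤ N')
    (htop : M ⊔ N = ⊤) : Function.Surjective (indexMap M M' N N') := by
  rintro ⟨a, b⟩
  obtain ⟨⟨m', hm'⟩, rfl⟩ := Submodule.mkQ_surjective _ a
  obtain ⟨⟨n', hn'⟩, rfl⟩ := Submodule.mkQ_surjective _ b
  have h1 : m' - n' ∈ M ⊔ N := by rw [htop]; trivial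
  obtain ⟨m, hm, n, hn, hmn⟩ := Submodule.mem_sup.mp h1
  have hz : m' - m = n' + n := by
    have : m' = m + n + n' := by rw [hmn]; abel
    rw [this]; abel
  have hzM' : m' - m ∈ M' := M'.sub_mem hm' (hM hm)
  have hzN' : m' - m ∈ N' := by rw [hz]; exact N'.add_mem hn' (hN hn)
  refine ⟨⟨m' - m, hzM', hzN'⟩, ?_⟩
  rw [indexMap_apply, Prod.mk.injEq, Submodule.mkQ_apply, Submodule.mkQ_apply,
    Submodule.mkQ_apply, Submodule.mkQ_apply, Submodule.Quotient.eq, Submodule.Quotient.eq,
    mem_submoduleOf_iff, mem_submoduleOf_iff]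
  constructor
  · change (m' - m) - m' ∈ M
    have : (m' - m) - m' = -m := by abel
    rw [this]
    exact M.neg_mem hm
  · change (m' - m) - n' ∈ N
    rw [hz]
    have : n' + n - n' = n := by abel
    rw [this]
    exact hn

/-- The index lemma: if `M ⊔ N = ⊤`, `M ≤ M'`, `N ≤ N'` and `M' ⊓ N'` is finite-dimensional then
`M'/M` and `N'/N` are finite-dimensional and
`dim (M' ⊓ N') = dim (M ⊓ N) + dim (M'/M) + dim (N'/N)`. -/
theorem index_add {M M' N N' : Submodule k V} (hM : M ≤ M') (hN : N ≤ N')
    (htop : M ⊔ N = ⊤) [FiniteDimensional k ↥(M' ⊓ N')] :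
    FiniteDimensional k (↥M' ⧸ M.submoduleOf M') ∧
    FiniteDimensional k (↥N' ⧸ N.submoduleOf N') ∧
    finrank k ↥(M' ⊓ N') = finrank k ↥(M ⊓ N) + finrank k (↥M' ⧸ M.submoduleOf M') +
      finrank k (↥N' ⧸ N.submoduleOf N') := by
  have hsurj := indexMap_surjective hM hN htop
  haveI : FiniteDimensional k ((↥M' ⧸ M.submoduleOf M') × (↥N' ⧸ N.submoduleOf N')) :=
    Module.Finite.of_surjective _ hsurj
  haveI h1 : FiniteDimensional k (↥M' ⧸ M.submoduleOf M') :=
    Module.Finite.of_surjective
      (LinearMap.fst k (↥M' ⧸ M.submoduleOf M') (↥N' ⧸ N.submoduleOf N')) LinearMap.fst_surjective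
  haveI h2 : FiniteDimensional k (↥N' ⧸ N.submoduleOf N') :=
    Module.Finite.of_surjective
      (LinearMap.snd k (↥M' ⧸ M.submoduleOf M') (↥N' ⧸ N.submoduleOf N')) LinearMap.snd_surjective
  refine ⟨h1, h2, ?_⟩
  have h3 := LinearMap.finrank_range_add_finrank_ker (indexMap M M' N N')
  rw [LinearMap.range_eq_top.mpr hsurj, finrank_top, indexMap_ker, Module.finrank_prod] at h3
  have h4 : finrank k ↥((M ⊓ N).submoduleOf (M' ⊓ N')) = finrank k ↥(M ⊓ N) :=
    (Submodule.submoduleOfEquivOfLe (inf_le_inf hM hN)).finrank_eq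
  rw [h4] at h3
  omega

/-- Relative dimensions are invariant under linear automorphisms. -/
theorem finrank_quot_map (e : V ≃ₗ[k] V) (N N' : Submodule k V) :
    finrank k (↥(N'.map (e : V →ₗ[k] V)) ⧸
      (N.map (e : V →ₗ[k] V)).submoduleOf (N'.map (e : V →ₗ[k] V))) =
    finrank k (↥N' ⧸ N.submoduleOf N') := by
  symm
  refine LinearEquiv.finrank_eq (Submodule.Quotient.equiv _ _ (e.submoduleMap N') ?_)
  ext ⟨y, hy⟩
  rw [mem_submoduleOf_iff, Submodule.mem_map]
  constructor
  · rintro ⟨⟨x, hx⟩, hxN, hxy⟩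
    rw [mem_submoduleOf_iff] at hxN
    have h1 := congrArg Subtype.val hxy
    exact Submodule.mem_map.mpr ⟨x, hxN, h1⟩
  · intro hyN
    obtain ⟨x, hxN, hxy⟩ := Submodule.mem_map.mp hyN
    obtain ⟨x', hx', hx'y⟩ := Submodule.mem_map.mp hy
    have hxx' : x = x' := e.injective (by
      have h1 : e x = y := hxy
      have h2 : e x' = y := hx'y
      rw [h1, h2])
    subst hxx'
    exact ⟨⟨x, hx'⟩, hxN, Subtype.ext hxy⟩

end Index

/-! ### Lattices in coordinates -/

section Lattices

variable {k : Type*} [Field k] [DecidableEq (RatFunc k)]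
  {V : Type*} [AddCommGroup V] [Module (RatFunc k) V] [Module k V]
  [IsScalarTower k (RatFunc k) V] {ι : Type*} [Fintype ι]

theorem repr_smul_k (w : Basis ι (RatFunc k) V) (c : k) (v : V) (i : ι) :
    w.repr (c • v) i = RatFunc.C c * w.repr v i := by
  rw [← algebraMap_smul (RatFunc k) c v, map_smul, Finsupp.smul_apply, smul_eq_mul,
    RatFunc.algebraMap_eq_C]

/-- The `k[X]`-lattice spanned by the basis `w`, as a `k`-subspace: vectors all of whose
coordinates are polynomials. -/
def polyLat (w : Basis ι (RatFunc k) V) : Submodule k V where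
  carrier := {v | ∀ i, w.repr v i ∈ (algebraMap k[X] (RatFunc k)).range}
  zero_mem' := fun i => by
    rw [map_zero, Finsupp.zero_apply]
    exact Subring.zero_mem _
  add_mem' := fun {a b} ha hb i => by
    rw [map_add, Finsupp.add_apply]
    exact Subring.add_mem _ (ha i) (hb i)
  smul_mem' := fun c v hv i => by
    rw [repr_smul_k]
    refine Subring.mul_mem _ ⟨Polynomial.C c, ?_⟩ (hv i)
    rw [RatFunc.algebraMap_C]

/-- The lattice over the valuation ring at infinity spanned by the `X ^ (-d i) • w i`, as a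
`k`-subspace: the `i`-th coordinate has valuation at infinity `≤ exp (-(d i))`. -/
def inftyLat (w : Basis ι (RatFunc k) V) (d : ι → ℤ) : Submodule k V where
  carrier := {v | ∀ i, RatFunc.inftyValuation k (w.repr v i) ≤ exp (-(d i))}
  zero_mem' := fun i => by
    rw [map_zero, Finsupp.zero_apply, map_zero]
    exact zero_le
  add_mem' := fun {a b} ha hb i => by
    rw [map_add, Finsupp.add_apply]
    exact Valuation.map_add_le _ (ha i) (hb i)
  smul_mem' := fun c v hv i => by
    rw [repr_smul_k, map_mul]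
    by_cases hc : c = 0
    · rw [hc, map_zero, map_zero, zero_mul]
      exact zero_le
    · rw [RatFunc.inftyValuation.C k hc, one_mul]
      exact hv i

theorem mem_polyLat (w : Basis ι (RatFunc k) V) (v : V) :
    v ∈ polyLat w ↔ ∀ i, w.repr v i ∈ (algebraMap k[X] (RatFunc k)).range := Iff.rfl

theorem mem_inftyLat (w : Basis ι (RatFunc k) V) (d : ι → ℤ) (v : V) :
    v ∈ inftyLat w d ↔ ∀ i, RatFunc.inftyValuation k (w.repr v i) ≤ exp (-(d i)) := Iff.rfl

/-- Coordinates, as a `k`-linear equivalence. -/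
noncomputable def coordMap (w : Basis ι (RatFunc k) V) : V ≃ₗ[k] (ι → RatFunc k) :=
  w.equivFun.restrictScalars k

theorem coordMap_apply (w : Basis ι (RatFunc k) V) (v : V) (i : ι) :
    coordMap w v i = w.repr v i := rfl

/-- The `k`-linear map `(p i) ↦ ∑ i, p i • w i` on tuples of polynomials of bounded degrees. -/
noncomputable def polyMap (w : Basis ι (RatFunc k) V) (n : ι → ℕ) :
    (∀ i, ↥(degreeLT k (n i))) →ₗ[k] V :=
  (coordMap w).symm.toLinearMap ∘ₗ
    ((IsScalarTower.toAlgHom k k[X] (RatFunc k)).toLinearMap.compLeft ι) ∘ₗ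
    (LinearMap.pi fun i => (degreeLT k (n i)).subtype ∘ₗ LinearMap.proj i)

theorem repr_polyMap (w : Basis ι (RatFunc k) V) (n : ι → ℕ) (p : ∀ i, ↥(degreeLT k (n i)))
    (i : ι) : w.repr (polyMap w n p) i = algebraMap k[X] (RatFunc k) (p i : k[X]) := by
  rw [← coordMap_apply, polyMap, LinearMap.comp_apply, LinearMap.comp_apply,
    LinearEquiv.coe_coe, LinearEquiv.apply_symm_apply]
  rfl

theorem polyMap_injective (w : Basis ι (RatFunc k) V) (n : ι → ℕ) :
    Function.Injective (polyMap w n) := by
  intro p q hpq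
  funext i
  apply Subtype.ext
  apply RatFunc.algebraMap_injective k
  rw [← repr_polyMap w n p i, ← repr_polyMap w n q i, hpq]

theorem range_polyMap (w : Basis ι (RatFunc k) V) (d : ι → ℤ) :
    LinearMap.range (polyMap w fun i => (-(d i) + 1).toNat) = polyLat w ⊓ inftyLat w d := by
  apply le_antisymm
  · rintro _ ⟨p, rfl⟩
    refine ⟨fun i => ?_, fun i => ?_⟩
    · rw [repr_polyMap]
      exact ⟨_, rfl⟩
    · rw [repr_polyMap, inftyValuation_polynomial_le_iff]
      exact (p i).2
  · rintro v ⟨hv1, hv2⟩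
    choose p hp using hv1
    have hpmem : ∀ i, p i ∈ degreeLT k (-(d i) + 1).toNat := by
      intro i
      rw [← inftyValuation_polynomial_le_iff, hp i]
      exact hv2 i
    refine ⟨fun i => ⟨p i, hpmem i⟩, ?_⟩
    apply (coordMap w).injective
    funext i
    rw [coordMap_apply, coordMap_apply, repr_polyMap, hp i]

theorem finrank_degreeLT (n : ℕ) : finrank k ↥(degreeLT k n) = n := by
  rw [(degreeLTEquiv k n).finrank_eq, Module.finrank_fin_fun]

instance finiteDimensional_inf (w : Basis ι (RatFunc k) V) (d : ι → ℤ) :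
    FiniteDimensional k ↥(polyLat w ⊓ inftyLat w d) := by
  rw [← range_polyMap]
  haveI : ∀ i, FiniteDimensional k ↥(degreeLT k (-(d i) + 1).toNat) := fun i =>
    Module.Finite.of_surjective (degreeLTEquiv k _).symm.toLinearMap
      (degreeLTEquiv k _).symm.surjective
  exact Module.Finite.range _

/-- Dimension of the intersection of the two lattices attached to one basis. -/
theorem finrank_inf (w : Basis ι (RatFunc k) V) (d : ι → ℤ) :
    finrank k ↥(polyLat w ⊓ inftyLat w d) = ∑ i, (1 - d i).toNat := by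
  rw [← range_polyMap, LinearMap.finrank_range_of_inj (polyMap_injective w _)]
  haveI : ∀ i, FiniteDimensional k ↥(degreeLT k (-(d i) + 1).toNat) := fun i =>
    Module.Finite.of_surjective (degreeLTEquiv k _).symm.toLinearMap
      (degreeLTEquiv k _).symm.surjective
  rw [Module.finrank_pi_fintype]
  refine Finset.sum_congr rfl fun i _ => ?_
  rw [finrank_degreeLT]
  congr 1
  ring

/-- If all `d i ≤ 1` the two lattices attached to one basis span everything. -/
theorem sup_eq_top (w : Basis ι (RatFunc k) V) (d : ι → ℤ) (hd : ∀ i, d i ≤ 1) :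
    polyLat w ⊔ inftyLat w d = ⊤ := by
  rw [eq_top_iff]
  intro v _
  choose p hp using fun i => exists_polynomial_sub_le (w.repr v i)
  set a : V := (coordMap w).symm fun i => algebraMap k[X] (RatFunc k) (p i) with ha
  have hrepr : ∀ i, w.repr a i = algebraMap k[X] (RatFunc k) (p i) := by
    intro i
    rw [← coordMap_apply, ha, LinearEquiv.apply_symm_apply]
  have h1 : a ∈ polyLat w := fun i => by rw [hrepr]; exact ⟨_, rfl⟩
  have h2 : v - a ∈ inftyLat w d := fun i => by
    rw [map_sub, Finsupp.sub_apply, hrepr]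
    refine (hp i).trans ?_
    rw [exp_le_exp]
    have := hd i
    omega
  have : v = a + (v - a) := by abel
  rw [this]
  exact Submodule.add_mem_sup h1 h2

/-- Multiplication by `X ^ m`, as a `k`-linear automorphism. -/
noncomputable def scale (k : Type*) [Field k] (V : Type*) [AddCommGroup V] [Module (RatFunc k) V]
    [Module k V] [IsScalarTower k (RatFunc k) V] (m : ℤ) : V ≃ₗ[k] V :=
  (LinearEquiv.smulOfUnit
    (Units.mk0 ((RatFunc.X : RatFunc k) ^ m) (zpow_ne_zero _ RatFunc.X_ne_zero))).restrictScalars k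

theorem scale_apply (m : ℤ) (v : V) : scale k V m v = ((RatFunc.X : RatFunc k) ^ m) • v := rfl

theorem repr_scale (w : Basis ι (RatFunc k) V) (m : ℤ) (v : V) (i : ι) :
    w.repr (scale k V m v) i = (RatFunc.X : RatFunc k) ^ m * w.repr v i := by
  rw [scale_apply, map_smul, Finsupp.smul_apply, smul_eq_mul]

theorem scale_symm_apply (m : ℤ) (v : V) :
    (scale k V m).symm v = ((RatFunc.X : RatFunc k) ^ (-m)) • v := by
  apply (scale k V m).injective
  rw [LinearEquiv.apply_symm_apply, scale_apply, smul_smul, ← zpow_add₀ RatFunc.X_ne_zero,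
    add_neg_cancel, zpow_zero, one_smul]

theorem scale_mem_inftyLat_iff (w : Basis ι (RatFunc k) V) (d : ι → ℤ) (m : ℤ) (v : V) :
    scale k V m v ∈ inftyLat w (fun i => d i - m) ↔ v ∈ inftyLat w d := by
  rw [mem_inftyLat, mem_inftyLat]
  refine forall_congr' fun i => ?_
  rw [repr_scale, map_mul, RatFunc.inftyValuation.X_zpow, neg_sub,
    show m - d i = m + -(d i) by ring, exp_add]
  exact mul_le_mul_iff_right₀ (exp_pos)

theorem map_scale_inftyLat (w : Basis ι (RatFunc k) V) (d : ι → ℤ) (m : ℤ) :
    (inftyLat w d).map (scale k V m : V →ₗ[k] V) = inftyLat w (fun i => d i - m) := by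
  ext v
  rw [Submodule.mem_map]
  constructor
  · rintro ⟨u, hu, rfl⟩
    exact (scale_mem_inftyLat_iff w d m u).mpr hu
  · intro hv
    refine ⟨(scale k V m).symm v, ?_, LinearEquiv.apply_symm_apply _ _⟩
    rw [← scale_mem_inftyLat_iff w d m, LinearEquiv.apply_symm_apply]
    exact hv

/-- **The index formula.** Let `w`, `w'` be two bases and `d` integers such that the polynomial
lattice of `w` is contained in that of `w'` and the lattice at infinity of `(w, d)` in that of
`(w', -d)` (e.g. `w'` the trace-dual basis of a normal basis `w` of a pair of integral closures).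
Then both quotients are finite-dimensional over `k` and their dimensions add up to
`2 * ∑ i, d i`. -/
theorem two_sum_eq (w w' : Basis ι (RatFunc k) V) (d : ι → ℤ)
    (hA : polyLat w ≤ polyLat w')
    (hB : inftyLat w d ≤ inftyLat w' fun i => -(d i)) :
    FiniteDimensional k (↥(polyLat w') ⧸ (polyLat w).submoduleOf (polyLat w')) ∧
    FiniteDimensional k (↥(inftyLat w' fun i => -(d i)) ⧸
      (inftyLat w d).submoduleOf (inftyLat w' fun i => -(d i))) ∧
    (finrank k (↥(polyLat w') ⧸ (polyLat w).submoduleOf (polyLat w')) : ℤ) +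
      (finrank k (↥(inftyLat w' fun i => -(d i)) ⧸
        (inftyLat w d).submoduleOf (inftyLat w' fun i => -(d i))) : ℤ) = 2 * ∑ i, d i := by
  classical
  set m : ℤ := ∑ i, |d i| with hm
  have hle : ∀ i, |d i| ≤ m := fun i =>
    Finset.single_le_sum (f := fun i => |d i|) (fun j _ => abs_nonneg (d j)) (Finset.mem_univ i)
  have hd1 : ∀ i, d i - m ≤ 1 := fun i => by
    have := hle i; have := le_abs_self (d i); omega
  have hd2 : ∀ i, -(d i) - m ≤ 1 := fun i => by
    have := hle i; have := neg_abs_le (d i); omega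
  set N := inftyLat w (fun i => d i - m) with hN
  set N' := inftyLat w' (fun i => -(d i) - m) with hN'
  have hNmap : (inftyLat w d).map (scale k V m : V →ₗ[k] V) = N := map_scale_inftyLat w d m
  have hN'map : (inftyLat w' fun i => -(d i)).map (scale k V m : V →ₗ[k] V) = N' :=
    map_scale_inftyLat w' (fun i => -(d i)) m
  have hNN' : N ≤ N' := by
    rw [← hNmap, ← hN'map]
    exact Submodule.map_mono hB
  have htop : polyLat w ⊔ N = ⊤ := sup_eq_top w _ hd1
  obtain ⟨h1, h2, h3⟩ := index_add hA hNN' htop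
  have h4 : finrank k (↥N' ⧸ N.submoduleOf N') =
      finrank k (↥(inftyLat w' fun i => -(d i)) ⧸
        (inftyLat w d).submoduleOf (inftyLat w' fun i => -(d i))) := by
    rw [← finrank_quot_map (scale k V m) (inftyLat w d) (inftyLat w' fun i => -(d i))]
    rw [hNmap, hN'map]
  have h5 : FiniteDimensional k (↥(inftyLat w' fun i => -(d i)) ⧸
      (inftyLat w d).submoduleOf (inftyLat w' fun i => -(d i))) := by
    have e := Submodule.Quotient.equiv ((inftyLat w d).submoduleOf (inftyLat w' fun i => -(d i)))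
      (((inftyLat w d).map (scale k V m : V →ₗ[k] V)).submoduleOf
        ((inftyLat w' fun i => -(d i)).map (scale k V m : V →ₗ[k] V)))
      ((scale k V m).submoduleMap (inftyLat w' fun i => -(d i))) (by
        ext ⟨y, hy⟩
        rw [mem_submoduleOf_iff, Submodule.mem_map]
        constructor
        · rintro ⟨⟨x, hx⟩, hxN, hxy⟩
          rw [mem_submoduleOf_iff] at hxN
          exact Submodule.mem_map.mpr ⟨x, hxN, congrArg Subtype.val hxy⟩
        · intro hyN
          obtain ⟨x, hxN, hxy⟩ := Submodule.mem_map.mp hyN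
          obtain ⟨x', hx', hx'y⟩ := Submodule.mem_map.mp hy
          have hxx' : x = x' := (scale k V m).injective (by
            have h1 : scale k V m x = y := hxy
            have h2 : scale k V m x' = y := hx'y
            rw [h1, h2])
          subst hxx'
          exact ⟨⟨x, hx'⟩, hxN, Subtype.ext hxy⟩)
    rw [hNmap, hN'map] at e
    exact Module.Finite.of_surjective e.symm.toLinearMap e.symm.surjective
  refine ⟨h1, h5, ?_⟩
  rw [finrank_inf, finrank_inf, h4] at h3
  have h6 : ((∑ i, (1 - (-(d i) - m)).toNat : ℕ) : ℤ) = ∑ i, (1 + d i + m) := by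
    rw [Nat.cast_sum]
    refine Finset.sum_congr rfl fun i _ => ?_
    have := hd2 i
    rw [Int.toNat_of_nonneg (by omega)]
    ring
  have h7 : ((∑ i, (1 - (d i - m)).toNat : ℕ) : ℤ) = ∑ i, (1 - d i + m) := by
    rw [Nat.cast_sum]
    refine Finset.sum_congr rfl fun i _ => ?_
    have := hd1 i
    rw [Int.toNat_of_nonneg (by omega)]
    ring
  have h8 := congrArg (Nat.cast : ℕ → ℤ) h3
  rw [h6] at h8
  push_cast at h8 h7
  rw [h7] at h8
  have h9 : ∑ i, (1 + d i + m) - ∑ i, (1 - d i + m) = 2 * ∑ i, d i := by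
    rw [← Finset.sum_sub_distrib, Finset.mul_sum]
    refine Finset.sum_congr rfl fun i _ => ?_
    ring
  linarith

end Lattices

end Fermat.Agent.S20.DWChi
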