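/-
S20 / block NB (helper11): the Dedekind–Weber normal basis theorem (Birkhoff–Grothendieck
splitting over the projective line), in elementary lattice form.

`k` is any field, `v∞ = RatFunc.inftyValuation k`, `V` a vector space over `RatFunc k` with two
bases `a` (spanning the `k[X]`-lattice `A`) and `b` (spanning the `O_∞`-lattice `B`, the unit ball
of the sup-norm `nrm b`).  Main result: `exists_normal_basis`.
-/
import Mathlib

set_option autoImplicit false
set_option linter.unusedSectionVars false

namespace Fermat.Agent.S20.NormalBasis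

open Polynomial WithZero Module

variable {k : Type*} [Field k] [DecidableEq (RatFunc k)]

/-- residue field at infinity is `k`: every `f` with `v∞ f ≤ 1` is congruent to a constant. -/
theorem exists_C_sub_lt (f : RatFunc k) (hf : RatFunc.inftyValuation k f ≤ 1) :
    ∃ c : k, RatFunc.inftyValuation k (f - RatFunc.C c) < 1 := by
  by_cases hf0 : f = 0
  · exact ⟨0, by simp [hf0]⟩
  set p := f.num with hp
  set q := f.denom with hq
  have hq0 : q ≠ 0 := RatFunc.denom_ne_zero f
  have hp0 : p ≠ 0 := RatFunc.num_ne_zero hf0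
  have hqm : q.Monic := RatFunc.monic_denom f
  have hfpq : f = algebraMap k[X] (RatFunc k) p / algebraMap k[X] (RatFunc k) q :=
    (RatFunc.num_div_denom f).symm
  have hdeg : (p.natDegree : ℤ) ≤ q.natDegree := by
    have h1 : RatFunc.inftyValuation k f = exp f.intDegree := by
      rw [RatFunc.inftyValuation_apply, RatFunc.inftyValuation_of_nonzero k hf0]
    rw [h1, ← exp_zero, exp_le_exp] at hf
    have : f.intDegree = (p.natDegree : ℤ) - q.natDegree := rfl
    omega
  set d := q.natDegree with hd
  refine ⟨p.coeff d, ?_⟩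
  set g : k[X] := p - C (p.coeff d) * q with hg
  have hfg : f - RatFunc.C (p.coeff d) =
      algebraMap k[X] (RatFunc k) g / algebraMap k[X] (RatFunc k) q := by
    have hq' : algebraMap k[X] (RatFunc k) q ≠ 0 := by simpa using hq0
    rw [hg, map_sub, map_mul, sub_div, mul_div_assoc, div_self hq', mul_one, ← hfpq]
    simp [RatFunc.algebraMap_C]
  by_cases hg0 : g = 0
  · rw [hfg, hg0]; simp
  have hgdeg : g.natDegree < d := by
    have hdpos : 0 < d ∨ d = 0 := by omega
    have : g.degree < d := by
      rw [Polynomial.degree_lt_iff_coeff_zero]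
      intro m hm
      rw [hg, coeff_sub, coeff_C_mul]
      rcases hm.lt_or_eq with h | h
      · have h1 : p.coeff m = 0 := coeff_eq_zero_of_natDegree_lt (by omega)
        have h2 : q.coeff m = 0 := coeff_eq_zero_of_natDegree_lt (by omega)
        simp [h1, h2]
      · subst h
        have : q.coeff d = 1 := hqm.coeff_natDegree
        simp [this]
    exact (Polynomial.natDegree_lt_iff_degree_lt hg0).2 this
  have hne : f - RatFunc.C (p.coeff d) ≠ 0 := by
    rw [hfg]
    apply div_ne_zero <;> simpa
  rw [RatFunc.inftyValuation_apply, RatFunc.inftyValuation_of_nonzero k hne, ← exp_zero, exp_lt_exp,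
    hfg, RatFunc.intDegree_div (by simpa) (by simpa), RatFunc.intDegree_polynomial,
    RatFunc.intDegree_polynomial]
  omega

/-- Polynomial approximation of an element of valuation `≥ 1`. -/
theorem exists_poly_sub_lt (h : RatFunc k) (hh : 1 ≤ RatFunc.inftyValuation k h) :
    ∃ r : k[X], RatFunc.inftyValuation k (h - algebraMap k[X] (RatFunc k) r) <
      RatFunc.inftyValuation k h := by
  have h0 : h ≠ 0 := by
    rintro rfl
    simp at hh
  have hv : RatFunc.inftyValuation k h = exp h.intDegree := by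
    rw [RatFunc.inftyValuation_apply, RatFunc.inftyValuation_of_nonzero k h0]
  have hd : 0 ≤ h.intDegree := by
    rw [hv, ← exp_zero, exp_le_exp] at hh
    exact hh
  obtain ⟨n, hn⟩ := Int.eq_ofNat_of_zero_le hd
  have hX : (RatFunc.X : RatFunc k) ^ n ≠ 0 := pow_ne_zero _ RatFunc.X_ne_zero
  have hvX : RatFunc.inftyValuation k ((RatFunc.X : RatFunc k) ^ n) = exp (n : ℤ) := by
    rw [map_pow, RatFunc.inftyValuation.X, ← exp_nsmul]
    simp
  obtain ⟨c, hc⟩ := exists_C_sub_lt (h / RatFunc.X ^ n) (by
    rw [map_div₀, hv, hvX, hn, div_self exp_ne_zero])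
  refine ⟨Polynomial.C c * Polynomial.X ^ n, ?_⟩
  have : h - algebraMap k[X] (RatFunc k) (Polynomial.C c * Polynomial.X ^ n) =
      (h / RatFunc.X ^ n - RatFunc.C c) * RatFunc.X ^ n := by
    rw [sub_mul, div_mul_cancel₀ _ hX]
    simp [RatFunc.algebraMap_C, RatFunc.algebraMap_X]
  rw [this, map_mul, hv, hvX, hn]
  calc RatFunc.inftyValuation k (h / RatFunc.X ^ n - RatFunc.C c) * exp (n : ℤ)
      < 1 * exp (n : ℤ) := by
        exact mul_lt_mul_of_pos_right hc (by simp [zero_lt_iff])
    _ = exp (n : ℤ) := one_mul _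

variable {ι : Type*} [Fintype ι] {V : Type*} [AddCommGroup V] [Module (RatFunc k) V]

/-- sup-norm of the coordinates with respect to the basis `b`, for the valuation at infinity. -/
noncomputable def nrm (b : Basis ι (RatFunc k) V) (x : V) : ℤᵐ⁰ :=
  Finset.univ.sup fun i => RatFunc.inftyValuation k (b.repr x i)

section Norm

variable (b : Basis ι (RatFunc k) V)

theorem nrm_le_iff {x : V} {c : ℤᵐ⁰} :
    nrm b x ≤ c ↔ ∀ i, RatFunc.inftyValuation k (b.repr x i) ≤ c := by
  simp [nrm, Finset.sup_le_iff]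

theorem nrm_lt_iff {x : V} {c : ℤᵐ⁰} (hc : 0 < c) :
    nrm b x < c ↔ ∀ i, RatFunc.inftyValuation k (b.repr x i) < c := by
  simp [nrm, Finset.sup_lt_iff (show (⊥ : ℤᵐ⁰) < c from hc)]

theorem le_nrm (x : V) (i : ι) : RatFunc.inftyValuation k (b.repr x i) ≤ nrm b x :=
  (nrm_le_iff b).1 le_rfl i

@[simp] theorem nrm_zero : nrm b (0 : V) = 0 := by
  apply le_antisymm _ zero_le
  rw [nrm_le_iff]; simp

theorem nrm_eq_zero {x : V} : nrm b x = 0 ↔ x = 0 := by
  constructor
  · intro h
    apply b.repr.injective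
    ext i
    have := le_nrm b x i
    rw [h] at this
    simpa using this
  · rintro rfl; simp

theorem nrm_add_le (x y : V) : nrm b (x + y) ≤ max (nrm b x) (nrm b y) := by
  rw [nrm_le_iff]
  intro i
  rw [map_add, Finsupp.add_apply]
  exact (Valuation.map_add _ _ _).trans (max_le_max (le_nrm b x i) (le_nrm b y i))

theorem nrm_smul_le (g : RatFunc k) (x : V) :
    nrm b (g • x) ≤ RatFunc.inftyValuation k g * nrm b x := by
  rw [nrm_le_iff]
  intro i
  rw [map_smul, Finsupp.smul_apply, smul_eq_mul, map_mul]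
  exact mul_le_mul_right (le_nrm b x i) _

theorem nrm_smul (g : RatFunc k) (x : V) :
    nrm b (g • x) = RatFunc.inftyValuation k g * nrm b x := by
  apply le_antisymm (nrm_smul_le b g x)
  by_cases hg : g = 0
  · simp [hg]
  have hvg : RatFunc.inftyValuation k g ≠ 0 := by simpa using hg
  have := nrm_smul_le b g⁻¹ (g • x)
  rw [smul_smul, inv_mul_cancel₀ hg, one_smul, map_inv₀] at this
  calc RatFunc.inftyValuation k g * nrm b x
      ≤ RatFunc.inftyValuation k g * ((RatFunc.inftyValuation k g)⁻¹ * nrm b (g • x)) :=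
        mul_le_mul_right this _
    _ = nrm b (g • x) := by rw [← mul_assoc, mul_inv_cancel₀ hvg, one_mul]

theorem nrm_neg (x : V) : nrm b (-x) = nrm b x := by
  have := nrm_smul b (-1 : RatFunc k) x
  simpa using this

theorem nrm_sub_le (x y : V) : nrm b (x - y) ≤ max (nrm b x) (nrm b y) := by
  rw [sub_eq_add_neg]
  have := nrm_add_le b x (-y)
  rwa [nrm_neg] at this

theorem nrm_sum_le {α : Type*} (s : Finset α) (y : α → V) (c : ℤᵐ⁰)
    (h : ∀ j ∈ s, nrm b (y j) ≤ c) : nrm b (∑ j ∈ s, y j) ≤ c := by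
  classical
  induction s using Finset.induction_on with
  | empty => simp
  | insert a s ha ih =>
    rw [Finset.sum_insert ha]
    refine (nrm_add_le b _ _).trans (max_le (h a (Finset.mem_insert_self a s)) (ih ?_))
    intro j hj
    exact h j (Finset.mem_insert_of_mem hj)

theorem nrm_sum_lt {α : Type*} (s : Finset α) (y : α → V) (c : ℤᵐ⁰) (hc : 0 < c)
    (h : ∀ j ∈ s, nrm b (y j) < c) : nrm b (∑ j ∈ s, y j) < c := by
  classical
  induction s using Finset.induction_on with
  | empty => simpa using hc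
  | insert a s ha ih =>
    rw [Finset.sum_insert ha]
    refine (nrm_add_le b _ _).trans_lt (max_lt (h a (Finset.mem_insert_self a s)) (ih ?_))
    intro j hj
    exact h j (Finset.mem_insert_of_mem hj)

end Norm

/-- `x` has polynomial coordinates in the basis `w`, i.e. lies in the `k[X]`-lattice spanned
by `w`. -/
def PolyCoords (w : Basis ι (RatFunc k) V) (x : V) : Prop :=
  ∀ i, w.repr x i ∈ (algebraMap k[X] (RatFunc k)).range

namespace PolyCoords

variable {w : Basis ι (RatFunc k) V}

theorem zero : PolyCoords w (0 : V) := fun i => by simp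

theorem add {x y : V} (hx : PolyCoords w x) (hy : PolyCoords w y) : PolyCoords w (x + y) :=
  fun i => by
    rw [map_add, Finsupp.add_apply]
    exact Subring.add_mem _ (hx i) (hy i)

theorem smul {x : V} (p : k[X]) (hx : PolyCoords w x) :
    PolyCoords w (algebraMap k[X] (RatFunc k) p • x) := fun i => by
  rw [map_smul, Finsupp.smul_apply, smul_eq_mul]
  exact Subring.mul_mem _ ⟨p, rfl⟩ (hx i)

theorem neg {x : V} (hx : PolyCoords w x) : PolyCoords w (-x) := fun i => by
  rw [map_neg, Finsupp.neg_apply]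
  exact Subring.neg_mem _ (hx i)

theorem sub {x y : V} (hx : PolyCoords w x) (hy : PolyCoords w y) : PolyCoords w (x - y) := by
  rw [sub_eq_add_neg]; exact hx.add hy.neg

theorem sum {α : Type*} (s : Finset α) (y : α → V) (h : ∀ j ∈ s, PolyCoords w (y j)) :
    PolyCoords w (∑ j ∈ s, y j) := by
  classical
  induction s using Finset.induction_on with
  | empty => simpa using zero
  | insert a s ha ih =>
    rw [Finset.sum_insert ha]
    exact (h a (Finset.mem_insert_self a s)).add
      (ih fun j hj => h j (Finset.mem_insert_of_mem hj))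

theorem self (w : Basis ι (RatFunc k) V) (j : ι) : PolyCoords w (w j) := fun i => by
  classical
  rw [Basis.repr_self, Finsupp.single_apply]
  split_ifs
  · exact Subring.one_mem _
  · exact Subring.zero_mem _

/-- transfer: if every `w' j` has polynomial `w`-coordinates, then so has every vector with
polynomial `w'`-coordinates. -/
theorem trans {w w' : Basis ι (RatFunc k) V} (h : ∀ j, PolyCoords w (w' j)) {x : V}
    (hx : PolyCoords w' x) : PolyCoords w x := by
  rw [← w'.sum_repr x]
  refine sum _ _ fun j _ => ?_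
  obtain ⟨p, hp⟩ := hx j
  rw [← hp]
  exact (h j).smul p

end PolyCoords

/-- `w` is reduced with respect to the sup-norm of `b`. -/
def IsReduced (b w : Basis ι (RatFunc k) V) : Prop :=
  ∀ (g : ι → RatFunc k) (i : ι),
    RatFunc.inftyValuation k (g i) * nrm b (w i) ≤ nrm b (∑ j, g j • w j)

theorem nrm_basis_pos (b w : Basis ι (RatFunc k) V) (j : ι) : 0 < nrm b (w j) := by
  rw [zero_lt_iff, Ne, nrm_eq_zero]
  exact w.ne_zero j

/-- One reduction step. -/
theorem exists_smaller (b w : Basis ι (RatFunc k) V) (hw : ¬ IsReduced b w) :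
    ∃ (w' : Basis ι (RatFunc k) V) (i0 : ι), (∀ j, PolyCoords w (w' j)) ∧
      (∀ j, PolyCoords w' (w j)) ∧ nrm b (w' i0) < nrm b (w i0) ∧ ∀ j, j ≠ i0 → w' j = w j := by
  classical
  simp only [IsReduced, not_forall, not_le] at hw
  obtain ⟨g, i1, hlt⟩ := hw
  set φ : ι → ℤᵐ⁰ := fun j => RatFunc.inftyValuation k (g j) * nrm b (w j) with hφ
  set S := ∑ j, g j • w j with hS
  obtain ⟨i2, -, hi2⟩ := Finset.exists_max_image Finset.univ φ ⟨i1, Finset.mem_univ _⟩
  set μ := φ i2 with hμdef
  have hμ : ∀ j, φ j ≤ μ := fun j => hi2 j (Finset.mem_univ j)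
  have hSμ : nrm b S < μ := hlt.trans_le (hμ i1)
  have hμpos : 0 < μ := lt_of_le_of_lt zero_le hSμ
  obtain ⟨i0, hi0I, hi0⟩ := Finset.exists_max_image (Finset.univ.filter fun j => φ j = μ)
    (fun j => nrm b (w j)) ⟨i2, Finset.mem_filter.2 ⟨Finset.mem_univ _, rfl⟩⟩
  have hφi0 : φ i0 = μ := (Finset.mem_filter.1 hi0I).2
  have hmax : ∀ j, φ j = μ → nrm b (w j) ≤ nrm b (w i0) := fun j hj =>
    hi0 j (by simp [hj])
  set γ := RatFunc.inftyValuation k (g i0) with hγ
  set ν := nrm b (w i0) with hν
  have hγν : γ * ν = μ := hφi0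
  have hγpos : 0 < γ := by
    rw [zero_lt_iff]; intro h; rw [h, zero_mul] at hγν; exact hμpos.ne hγν
  have hgi0 : g i0 ≠ 0 := by
    intro h; rw [hγ, h, map_zero] at hγpos; exact lt_irrefl _ hγpos
  -- polynomial approximations
  have hr : ∀ j, ∃ r : k[X], RatFunc.inftyValuation k (g j - g i0 * algebraMap k[X] (RatFunc k) r) *
      nrm b (w j) < μ ∨ j = i0 := by
    intro j
    by_cases hj : j = i0
    · exact ⟨0, Or.inr hj⟩
    have hwj := nrm_basis_pos b w j
    by_cases h1 : 1 ≤ RatFunc.inftyValuation k (g j / g i0)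
    · obtain ⟨r, hr⟩ := exists_poly_sub_lt _ h1
      refine ⟨r, Or.inl ?_⟩
      have e : g j - g i0 * algebraMap k[X] (RatFunc k) r =
          g i0 * (g j / g i0 - algebraMap k[X] (RatFunc k) r) := by
        field_simp
      have e2 : RatFunc.inftyValuation k (g j) = γ * RatFunc.inftyValuation k (g j / g i0) := by
        rw [hγ, ← map_mul]; congr 1; field_simp
      rw [e, map_mul]
      calc γ * RatFunc.inftyValuation k (g j / g i0 - algebraMap k[X] (RatFunc k) r) * nrm b (w j)
          < γ * RatFunc.inftyValuation k (g j / g i0) * nrm b (w j) := by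
            apply mul_lt_mul_of_pos_right _ hwj
            exact mul_lt_mul_of_pos_left hr hγpos
        _ = φ j := by rw [← e2]
        _ ≤ μ := hμ j
    · refine ⟨0, Or.inl ?_⟩
      rw [not_le] at h1
      simp only [map_zero, mul_zero, sub_zero]
      rcases (hμ j).lt_or_eq with h | h
      · exact h
      · have h3 := hmax j h
        have e2 : RatFunc.inftyValuation k (g j) = γ * RatFunc.inftyValuation k (g j / g i0) := by
          rw [hγ, ← map_mul]; congr 1; field_simp
        calc RatFunc.inftyValuation k (g j) * nrm b (w j)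
            = γ * RatFunc.inftyValuation k (g j / g i0) * nrm b (w j) := by rw [e2]
          _ < γ * 1 * nrm b (w j) := by
              apply mul_lt_mul_of_pos_right _ hwj
              exact mul_lt_mul_of_pos_left h1 hγpos
          _ ≤ γ * 1 * ν := mul_le_mul_right h3 _
          _ = μ := by rw [mul_one, hγν]
  choose r hr using hr
  set u : V := ∑ j ∈ Finset.univ.erase i0, algebraMap k[X] (RatFunc k) (r j) • w j with hu
  have hcoord : w.coord i0 u = 0 := by
    rw [hu, map_sum]
    apply Finset.sum_eq_zero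
    intro j hj
    have hji : j ≠ i0 := Finset.ne_of_mem_erase hj
    simp [Basis.coord_apply, hji]
  set w' : Basis ι (RatFunc k) V := w.map (LinearEquiv.transvection hcoord) with hw'
  have hw'apply : ∀ j, w' j = w j + (if j = i0 then u else 0) := by
    intro j
    rw [hw', Basis.map_apply, LinearEquiv.transvection.apply, Basis.coord_apply, Basis.repr_self,
      Finsupp.single_apply]
    split_ifs <;> simp
  have hw'ne : ∀ j, j ≠ i0 → w' j = w j := by
    intro j hj; rw [hw'apply, if_neg hj, add_zero]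
  have hw'i0 : w' i0 = w i0 + u := by rw [hw'apply, if_pos rfl]
  have hu_w : PolyCoords w u := PolyCoords.sum _ _ fun j _ => (PolyCoords.self w j).smul _
  have hu_w' : PolyCoords w' u := by
    refine PolyCoords.sum _ _ fun j hj => ?_
    rw [← hw'ne j (Finset.ne_of_mem_erase hj)]
    exact (PolyCoords.self w' j).smul _
  refine ⟨w', i0, ?_, ?_, ?_, hw'ne⟩
  · intro j
    rw [hw'apply]
    split_ifs
    · exact (PolyCoords.self w j).add hu_w
    · simpa using PolyCoords.self w j
  · intro j
    by_cases hj : j = i0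
    · subst hj
      have : w j = w' j - u := by rw [hw'i0]; abel
      rw [this]
      exact (PolyCoords.self w' j).sub hu_w'
    · rw [← hw'ne j hj]; exact PolyCoords.self w' j
  · -- norm estimate
    have key : g i0 • w' i0 = S - ∑ j ∈ Finset.univ.erase i0,
        (g j - g i0 * algebraMap k[X] (RatFunc k) (r j)) • w j := by
      rw [hw'i0, hS, ← Finset.add_sum_erase _ _ (Finset.mem_univ i0), hu, smul_add,
        Finset.smul_sum]
      simp only [sub_smul, Finset.sum_sub_distrib, smul_smul]
      abel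
    have h1 : nrm b (g i0 • w' i0) < μ := by
      rw [key]
      refine (nrm_sub_le b _ _).trans_lt (max_lt hSμ ?_)
      refine nrm_sum_lt b _ _ _ hμpos fun j hj => ?_
      rw [nrm_smul]
      rcases hr j with h | h
      · exact h
      · exact absurd h (Finset.ne_of_mem_erase hj)
    rw [nrm_smul, ← hγν] at h1
    exact lt_of_mul_lt_mul_left h1 zero_le

/-! ### lower bound on the lattice -/

theorem one_le_nrm_of_polyCoords (a : Basis ι (RatFunc k) V) {x : V} (hx : PolyCoords a x)
    (hx0 : x ≠ 0) : 1 ≤ nrm a x := by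
  have : ∃ j, a.repr x j ≠ 0 := by
    by_contra h
    rw [not_exists] at h
    apply hx0
    apply a.repr.injective
    ext j
    simpa using h j
  obtain ⟨j, hj⟩ := this
  obtain ⟨p, hp⟩ := hx j
  have hp0 : p ≠ 0 := by
    rintro rfl
    rw [map_zero] at hp
    exact hj hp.symm
  refine le_trans ?_ (le_nrm a x j)
  rw [← hp, RatFunc.inftyValuation_apply, RatFunc.inftyValuation.polynomial k hp0, ← exp_zero,
    exp_le_exp]
  exact Int.natCast_nonneg _

theorem nrm_le_mul_nrm (a b : Basis ι (RatFunc k) V) (x : V) :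
    nrm a x ≤ (Finset.univ.sup fun i => nrm a (b i)) * nrm b x := by
  conv_lhs => rw [← b.sum_repr x]
  refine nrm_sum_le a _ _ _ fun j _ => ?_
  rw [nrm_smul, mul_comm]
  exact mul_le_mul' (Finset.le_sup (f := fun i => nrm a (b i)) (Finset.mem_univ j)) (le_nrm b x j)

theorem exists_lower_bound (a b : Basis ι (RatFunc k) V) :
    ∃ c : ℤᵐ⁰, c ≠ 0 ∧ ∀ x, PolyCoords a x → x ≠ 0 → c ≤ nrm b x := by
  set C := Finset.univ.sup fun i => nrm a (b i) with hC
  by_cases hC0 : C = 0
  · refine ⟨1, one_ne_zero, fun x hx hx0 => ?_⟩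
    have h1 := one_le_nrm_of_polyCoords a hx hx0
    have h2 := nrm_le_mul_nrm a b x
    rw [← hC, hC0, zero_mul] at h2
    exact absurd (h1.trans h2) (by simp)
  · refine ⟨C⁻¹, inv_ne_zero hC0, fun x hx hx0 => ?_⟩
    have h1 := one_le_nrm_of_polyCoords a hx hx0
    have h2 := nrm_le_mul_nrm a b x
    rw [← hC] at h2
    exact (inv_le_iff_one_le_mul₀' (zero_lt_iff.2 hC0)).mpr (h1.trans h2)

/-! ### existence of a reduced basis -/

theorem exists_reduced (a b : Basis ι (RatFunc k) V) :
    ∃ w : Basis ι (RatFunc k) V, (∀ x, PolyCoords a x ↔ PolyCoords w x) ∧ IsReduced b w := by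
  classical
  obtain ⟨c, hc0, hc⟩ := exists_lower_bound a b
  set m : Basis ι (RatFunc k) V → ℕ := fun w => ∑ j, (log (nrm b (w j)) - log c).toNat with hm
  suffices H : ∀ n : ℕ, ∀ w : Basis ι (RatFunc k) V, (∀ x, PolyCoords a x ↔ PolyCoords w x) →
      m w = n → ∃ w' : Basis ι (RatFunc k) V, (∀ x, PolyCoords a x ↔ PolyCoords w' x) ∧
        IsReduced b w' from H _ a (fun x => Iff.rfl) rfl
  intro n
  induction n using Nat.strong_induction_on with
  | _ n ih =>
    intro w hPw hmw
    by_cases hred : IsReduced b w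
    · exact ⟨w, hPw, hred⟩
    obtain ⟨w', i0, h1, h2, h3, h4⟩ := exists_smaller b w hred
    have hPw' : ∀ x, PolyCoords a x ↔ PolyCoords w' x := fun x =>
      (hPw x).trans ⟨fun h => PolyCoords.trans h2 h, fun h => PolyCoords.trans h1 h⟩
    refine ih (m w') ?_ w' hPw' rfl
    rw [← hmw]
    have hge : c ≤ nrm b (w' i0) :=
      hc _ ((hPw' _).2 (PolyCoords.self w' i0)) (w'.ne_zero i0)
    have hpos' : nrm b (w' i0) ≠ 0 := (nrm_basis_pos b w' i0).ne'
    have hpos : nrm b (w i0) ≠ 0 := (nrm_basis_pos b w i0).ne'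
    have hl1 : log c ≤ log (nrm b (w' i0)) := (log_le_log hc0 hpos').2 hge
    have hl2 : log (nrm b (w' i0)) < log (nrm b (w i0)) := (log_lt_log hpos' hpos).2 h3
    apply Finset.sum_lt_sum
    · intro j _
      by_cases hj : j = i0
      · subst hj; omega
      · rw [h4 j hj]
    · exact ⟨i0, Finset.mem_univ _, by omega⟩

/-- **Dedekind–Weber normal basis theorem.** -/
theorem exists_normal_basis (a b : Basis ι (RatFunc k) V) :
    ∃ (w : Basis ι (RatFunc k) V) (d : ι → ℤ),
      (∀ x, PolyCoords a x ↔ PolyCoords w x) ∧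
      (∀ j, nrm b (w j) = exp (d j)) ∧
      (∀ g : ι → RatFunc k, nrm b (∑ j, g j • w j) =
        Finset.univ.sup fun j => RatFunc.inftyValuation k (g j) * exp (d j)) ∧
      (∀ (x : V) (c : ℤᵐ⁰), nrm b x ≤ c ↔
        ∀ j, RatFunc.inftyValuation k (w.repr x j) * exp (d j) ≤ c) := by
  obtain ⟨w, hw, hred⟩ := exists_reduced a b
  have hd : ∀ j, nrm b (w j) = exp (log (nrm b (w j))) := fun j =>
    (exp_log (nrm_basis_pos b w j).ne').symm
  have h3' : ∀ g : ι → RatFunc k, nrm b (∑ j, g j • w j) =
      Finset.univ.sup fun j => RatFunc.inftyValuation k (g j) * nrm b (w j) := by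
    intro g
    apply le_antisymm
    · refine nrm_sum_le b _ _ _ fun j _ => ?_
      rw [nrm_smul]
      exact Finset.le_sup (f := fun j => RatFunc.inftyValuation k (g j) * nrm b (w j))
        (Finset.mem_univ j)
    · exact Finset.sup_le fun j _ => hred g j
  have h3 : ∀ g : ι → RatFunc k, nrm b (∑ j, g j • w j) =
      Finset.univ.sup fun j => RatFunc.inftyValuation k (g j) * exp (log (nrm b (w j))) := by
    intro g
    rw [h3']
    exact Finset.sup_congr rfl fun j _ => by rw [← hd j]
  refine ⟨w, fun j => log (nrm b (w j)), hw, hd, h3, fun x c => ?_⟩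
  conv_lhs => rw [← w.sum_repr x]
  rw [h3]
  simp [Finset.sup_le_iff]


/-- Convenience form of `exists_normal_basis`: `w` is a `k[X]`-basis of the lattice spanned by `a`
and `(X ^ (-d j) • w j)` is an `O_∞`-basis of the unit ball of `b`. -/
theorem exists_normal_basis' (a b : Basis ι (RatFunc k) V) :
    ∃ (w : Basis ι (RatFunc k) V) (d : ι → ℤ),
      (∀ x, PolyCoords a x ↔ PolyCoords w x) ∧
      (∀ x : V, (∀ i, RatFunc.inftyValuation k (b.repr x i) ≤ 1) ↔
        ∀ j, RatFunc.inftyValuation k (w.repr x j) ≤ exp (-(d j))) := by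
  obtain ⟨w, d, h1, -, -, h4⟩ := exists_normal_basis a b
  refine ⟨w, d, h1, fun x => ?_⟩
  rw [← nrm_le_iff, h4 x 1]
  refine forall_congr' fun j => ?_
  rw [exp_neg, ← one_div, le_div_iff₀ (zero_lt_iff.2 exp_ne_zero)]

/-- More generally, for every radius `exp m`. -/
theorem exists_normal_basis'' (a b : Basis ι (RatFunc k) V) :
    ∃ (w : Basis ι (RatFunc k) V) (d : ι → ℤ),
      (∀ x, PolyCoords a x ↔ PolyCoords w x) ∧
      (∀ (x : V) (m : ℤ), (∀ i, RatFunc.inftyValuation k (b.repr x i) ≤ exp m) ↔
        ∀ j, RatFunc.inftyValuation k (w.repr x j) ≤ exp (m - d j)) := by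
  obtain ⟨w, d, h1, -, -, h4⟩ := exists_normal_basis a b
  refine ⟨w, d, h1, fun x m => ?_⟩
  rw [← nrm_le_iff, h4 x (exp m)]
  refine forall_congr' fun j => ?_
  rw [exp_sub, le_div_iff₀ (zero_lt_iff.2 exp_ne_zero)]

/-- `PolyCoords w x` means that `x` lies in the `k[X]`-span of the basis `w`. -/
theorem polyCoords_iff_mem_span [Module k[X] V] [IsScalarTower k[X] (RatFunc k) V]
    (w : Basis ι (RatFunc k) V) (x : V) :
    PolyCoords w x ↔ x ∈ Submodule.span k[X] (Set.range w) := by
  constructor
  · intro hx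
    rw [← w.sum_repr x]
    refine Submodule.sum_mem _ fun j _ => ?_
    obtain ⟨p, hp⟩ := hx j
    rw [← hp, algebraMap_smul]
    exact Submodule.smul_mem _ _ (Submodule.subset_span ⟨j, rfl⟩)
  · intro hx
    induction hx using Submodule.span_induction with
    | mem y hy =>
      obtain ⟨j, rfl⟩ := hy
      exact PolyCoords.self w j
    | zero => exact PolyCoords.zero
    | add y z _ _ hy hz => exact hy.add hz
    | smul p y _ hy =>
      rw [← algebraMap_smul (RatFunc k) p y]
      exact hy.smul p

end Fermat.Agent.S20.NormalBasis
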