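/-
S20 (Dedekind–Weber line, piece DW.asm part 1; owner: helper90).
The abstract Dedekind–Weber theorem: for a `k[X]`-lattice `A` and a lattice `B` over the valuation
ring at infinity in a finite-dimensional `RatFunc k`-space with a nondegenerate bilinear form,
`2 * dim (A^∨ ⊓ X⁻² B^∨) = dim (A^∨/A) + dim (B^∨/B) - 2 n + 2` as soon as `dim (A ⊓ B) = 1`.
-/
import Mathlib
import Fermat.Agent.S20.DWChi
import Fermat.Agent.S20.NormalBasis

set_option autoImplicit false
set_option linter.unusedSectionVars false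

namespace Fermat.Agent.S20.DWCore

open Polynomial WithZero Module Fermat.Agent.S20.DWChi

variable {k : Type*} [Field k] [DecidableEq (RatFunc k)]
  {V : Type*} [AddCommGroup V] [Module (RatFunc k) V] [Module k V]
  [IsScalarTower k (RatFunc k) V] {ι : Type*} [Fintype ι]

theorem bilin_smul_k (T : LinearMap.BilinForm (RatFunc k) V) (c : k) (h y : V) :
    T (c • h) y = RatFunc.C c * T h y := by
  rw [← algebraMap_smul (RatFunc k) c h, map_smul, LinearMap.smul_apply, smul_eq_mul,
    RatFunc.algebraMap_eq_C]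

/-- The dual of a `k[X]`-lattice with respect to `T`. -/
def dualPoly (T : LinearMap.BilinForm (RatFunc k) V) (A : Submodule k V) : Submodule k V where
  carrier := {h | ∀ y ∈ A, T h y ∈ (algebraMap k[X] (RatFunc k)).range}
  zero_mem' := fun y _ => by
    rw [map_zero, LinearMap.zero_apply]
    exact Subring.zero_mem _
  add_mem' := fun {h₁ h₂} h1 h2 y hy => by
    rw [map_add, LinearMap.add_apply]
    exact Subring.add_mem _ (h1 y hy) (h2 y hy)
  smul_mem' := fun c h hh y hy => by
    rw [bilin_smul_k]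
    refine Subring.mul_mem _ ⟨Polynomial.C c, ?_⟩ (hh y hy)
    rw [RatFunc.algebraMap_C]

/-- The dual of a lattice at infinity with respect to `T`, scaled by `X ^ m`:
`{h | T h B ⊆ X ^ m O_∞}`. -/
def dualInfty (T : LinearMap.BilinForm (RatFunc k) V) (B : Submodule k V) (m : ℤ) :
    Submodule k V where
  carrier := {h | ∀ y ∈ B, RatFunc.inftyValuation k (T h y) ≤ exp m}
  zero_mem' := fun y _ => by
    rw [map_zero, LinearMap.zero_apply, map_zero]
    exact zero_le
  add_mem' := fun {h₁ h₂} h1 h2 y hy => by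
    rw [map_add, LinearMap.add_apply]
    exact Valuation.map_add_le _ (h1 y hy) (h2 y hy)
  smul_mem' := fun c h hh y hy => by
    rw [bilin_smul_k, map_mul]
    by_cases hc : c = 0
    · rw [hc, map_zero, map_zero, zero_mul]
      exact zero_le
    · rw [RatFunc.inftyValuation.C k hc, one_mul]
      exact hh y hy

theorem mem_dualPoly (T : LinearMap.BilinForm (RatFunc k) V) (A : Submodule k V) (h : V) :
    h ∈ dualPoly T A ↔ ∀ y ∈ A, T h y ∈ (algebraMap k[X] (RatFunc k)).range := Iff.rfl

theorem mem_dualInfty (T : LinearMap.BilinForm (RatFunc k) V) (B : Submodule k V) (m : ℤ)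
    (h : V) :
    h ∈ dualInfty T B m ↔ ∀ y ∈ B, RatFunc.inftyValuation k (T h y) ≤ exp m := Iff.rfl

theorem bilin_eq_sum (T : LinearMap.BilinForm (RatFunc k) V) (w : Basis ι (RatFunc k) V)
    (h y : V) : T h y = ∑ j, w.repr y j * T h (w j) := by
  conv_lhs => rw [← w.sum_repr y]
  rw [map_sum]
  refine Finset.sum_congr rfl fun j _ => ?_
  rw [map_smul, smul_eq_mul]

section Dual

variable [DecidableEq ι]

/-- The dual of the polynomial lattice of `w` is the polynomial lattice of the dual basis. -/
theorem dualPoly_polyLat (T : LinearMap.BilinForm (RatFunc k) V) (hT : T.Nondegenerate)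
    (w : Basis ι (RatFunc k) V) :
    dualPoly T (polyLat w) = polyLat (T.dualBasis hT w) := by
  ext h
  rw [mem_dualPoly, mem_polyLat]
  constructor
  · intro hh i
    rw [LinearMap.BilinForm.dualBasis_repr_apply]
    refine hh (w i) fun j => ?_
    rw [w.repr_self, Finsupp.single_apply]
    split_ifs
    · exact Subring.one_mem _
    · exact Subring.zero_mem _
  · intro hh y hy
    rw [bilin_eq_sum T w]
    refine Subring.sum_mem _ fun j _ => Subring.mul_mem _ (hy j) ?_
    rw [← LinearMap.BilinForm.dualBasis_repr_apply hT]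
    exact hh j

theorem single_mem_inftyLat (w : Basis ι (RatFunc k) V) (d : ι → ℤ) (i : ι) :
    ((RatFunc.X : RatFunc k) ^ (-(d i))) • w i ∈ inftyLat w d := by
  intro j
  rw [map_smul, Finsupp.smul_apply, w.repr_self, Finsupp.single_apply, smul_eq_mul]
  split_ifs with hij
  · subst hij
    rw [mul_one, RatFunc.inftyValuation.X_zpow]
  · rw [mul_zero, map_zero]
    exact zero_le

/-- The dual of the lattice at infinity of `(w, d)` is the lattice at infinity of the dual
basis with the opposite invariants. -/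
theorem dualInfty_inftyLat (T : LinearMap.BilinForm (RatFunc k) V) (hT : T.Nondegenerate)
    (w : Basis ι (RatFunc k) V) (d : ι → ℤ) (m : ℤ) :
    dualInfty T (inftyLat w d) m = inftyLat (T.dualBasis hT w) (fun i => -(d i) - m) := by
  ext h
  rw [mem_dualInfty, mem_inftyLat]
  constructor
  · intro hh i
    rw [LinearMap.BilinForm.dualBasis_repr_apply]
    have h1 := hh _ (single_mem_inftyLat w d i)
    rw [map_smul, smul_eq_mul, map_mul, RatFunc.inftyValuation.X_zpow] at h1
    have h2 : RatFunc.inftyValuation k (T h (w i)) =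
        exp (d i) * (exp (-(d i)) * RatFunc.inftyValuation k (T h (w i))) := by
      rw [← mul_assoc, ← exp_add, add_neg_cancel, exp_zero, one_mul]
    rw [h2, neg_sub, show m - -(d i) = d i + m by ring, exp_add]
    exact mul_le_mul' le_rfl h1
  · intro hh y hy
    rw [bilin_eq_sum T w]
    refine Valuation.map_sum_le _ fun j _ => ?_
    rw [map_mul]
    have h1 := hy j
    have h2 := hh j
    rw [LinearMap.BilinForm.dualBasis_repr_apply, neg_sub, show m - -(d j) = d j + m by ring]
      at h2
    calc RatFunc.inftyValuation k (w.repr y j) * RatFunc.inftyValuation k (T h (w j))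
        ≤ exp (-(d j)) * exp (d j + m) := mul_le_mul' h1 h2
      _ = exp m := by rw [← exp_add]; congr 1; ring

end Dual

/-- **Abstract Dedekind–Weber theorem.** -/
theorem dw_core (a b : Basis ι (RatFunc k) V) (T : LinearMap.BilinForm (RatFunc k) V)
    (hT : T.Nondegenerate)
    (hA : polyLat a ≤ dualPoly T (polyLat a))
    (hB : inftyLat b 0 ≤ dualInfty T (inftyLat b 0) 0)
    (h1 : finrank k ↥(polyLat a ⊓ inftyLat b 0) = 1) :
    FiniteDimensional k (↥(dualPoly T (polyLat a)) ⧸
      (polyLat a).submoduleOf (dualPoly T (polyLat a))) ∧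
    FiniteDimensional k (↥(dualInfty T (inftyLat b 0) 0) ⧸
      (inftyLat b 0).submoduleOf (dualInfty T (inftyLat b 0) 0)) ∧
    2 * (finrank k ↥(dualPoly T (polyLat a) ⊓ dualInfty T (inftyLat b 0) (-2)) : ℤ) =
      (finrank k (↥(dualPoly T (polyLat a)) ⧸
        (polyLat a).submoduleOf (dualPoly T (polyLat a))) : ℤ) +
      (finrank k (↥(dualInfty T (inftyLat b 0) 0) ⧸
        (inftyLat b 0).submoduleOf (dualInfty T (inftyLat b 0) 0)) : ℤ) -
      2 * (Fintype.card ι : ℤ) + 2 := by
  classical
  obtain ⟨w, d, hw1, hw2⟩ := NormalBasis.exists_normal_basis' a b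
  have hAw : polyLat a = polyLat w := by
    ext x; exact hw1 x
  have hBw : inftyLat b 0 = inftyLat w d := by
    ext x
    rw [mem_inftyLat, mem_inftyLat, ← hw2 x]
    simp
  have hdA : dualPoly T (polyLat a) = polyLat (T.dualBasis hT w) := by
    rw [hAw, dualPoly_polyLat T hT w]
  have hdB0 : dualInfty T (inftyLat b 0) 0 = inftyLat (T.dualBasis hT w) (fun i => -(d i)) := by
    rw [hBw, dualInfty_inftyLat T hT w d 0]
    simp
  have hdB2 : dualInfty T (inftyLat b 0) (-2) =
      inftyLat (T.dualBasis hT w) (fun i => 2 - d i) := by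
    rw [hBw, dualInfty_inftyLat T hT w d (-2)]
    congr 1
    funext i
    ring
  rw [hdA, hAw] at hA
  rw [hdB0, hBw] at hB
  rw [hAw, hBw] at h1
  rw [hdA, hdB0, hdB2, hAw, hBw]
  obtain ⟨f1, f2, hsum⟩ := two_sum_eq w (T.dualBasis hT w) d hA hB
  refine ⟨f1, f2, ?_⟩
  rw [finrank_inf] at h1 ⊢
  -- exactly one `d i` is `0`, the others are `≥ 1`
  have hone : ∃ i₀, d i₀ = 0 ∧ ∀ i, i ≠ i₀ → 1 ≤ d i := by
    have hex : ∃ i₀, (1 - d i₀).toNat ≠ 0 := by
      by_contra hcon
      push Not at hcon
      rw [Finset.sum_eq_zero (fun i _ => hcon i)] at h1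
      exact zero_ne_one h1
    obtain ⟨i₀, hi₀⟩ := hex
    have hsplit := Finset.add_sum_erase Finset.univ (fun i => (1 - d i).toNat)
      (Finset.mem_univ i₀)
    rw [h1] at hsplit
    have h2 : (1 - d i₀).toNat = 1 ∧ ∑ i ∈ Finset.univ.erase i₀, (1 - d i).toNat = 0 := by
      omega
    refine ⟨i₀, by omega, fun i hi => ?_⟩
    have h3 := (Finset.sum_eq_zero_iff.mp h2.2) i (Finset.mem_erase.mpr ⟨hi, Finset.mem_univ i⟩)
    omega
  obtain ⟨i₀, hi₀, hrest⟩ := hone
  have hcount : ((∑ i, (1 - (2 - d i)).toNat : ℕ) : ℤ) = ∑ i, d i - (Fintype.card ι : ℤ) + 1 := by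
    rw [Nat.cast_sum]
    have h4 : ∀ i, (((1 - (2 - d i)).toNat : ℕ) : ℤ) = d i - 1 + if i = i₀ then 1 else 0 := by
      intro i
      split_ifs with hi
      · subst hi
        rw [hi₀]
        simp
      · have := hrest i hi
        rw [Int.toNat_of_nonneg (by omega)]
        ring
    rw [Finset.sum_congr rfl fun i _ => h4 i, Finset.sum_add_distrib, Finset.sum_sub_distrib,
      Finset.sum_ite_eq' Finset.univ i₀]
    simp
  rw [hcount]
  linarith

end Fermat.Agent.S20.DWCore
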