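/-
S20 (Dedekind–Weber line, piece DW.asm part 2; owner: helper90).
Assembly: from a normal basis `(w, d)` of the pair of integral closures (described place by place)
and the place description of the two trace duals, deduce `(★)` for the divisor of `dx`:
`2 ℓ(W) = deg W + 2`.
-/
import Mathlib
import Fermat.Agent.S20.DWCore
import Fermat.Agent.S20.Riemann
import Fermat.Agent.S20.RegularGenus
import Fermat.Agent.S24.Hurwitz

set_option autoImplicit false
set_option linter.unusedSectionVars false

namespace Fermat.Agent.S20.DWAsm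

open Polynomial WithZero Module AlgebraicCurve KaehlerDifferential
open Fermat.Agent.S24 Fermat.Agent.S24.PrincipalDegreeCore
open Fermat.Agent.S20.DWChi Fermat.Agent.S20.DWCore Fermat.Agent.S20.Riemann

section Asymptotic

variable {K F : Type*} [Field K] [Field F] [Algebra K F] [IsAlgClosed K]

/-- Asymptotic Riemann–Roch: for a divisor `B` of positive degree, `ℓ(D + m B)` is given by
Riemann's formula for all large `m`. -/
theorem exists_large (hF : IsFunctionField1 K F) (hZ : ZerosTheorem K F) {g : ℕ}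
    (hg : ∀ D : Divisor K F,
      Divisor.degree D + 1 - g ≤ (finrank K (riemannRochSpace D) : ℤ))
    {D0 : Divisor K F} (hD0 : ∀ D : Divisor K F, D0 ≤ D →
      (finrank K (riemannRochSpace D) : ℤ) = Divisor.degree D + 1 - g)
    (B : Divisor K F) (hB : 0 < Divisor.degree B) (D : Divisor K F) :
    ∃ m₀ : ℕ, ∀ m : ℕ, m₀ ≤ m →
      (finrank K (riemannRochSpace (D + m • B)) : ℤ) =
        Divisor.degree D + m * Divisor.degree B + 1 - g := by
  refine ⟨(Divisor.degree D0 - Divisor.degree D + g).toNat, fun m hm => ?_⟩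
  have hm' : Divisor.degree D0 - Divisor.degree D + g ≤ (m : ℤ) := by
    have := Int.self_le_toNat (Divisor.degree D0 - Divisor.degree D + g)
    have h2 : ((Divisor.degree D0 - Divisor.degree D + g).toNat : ℤ) ≤ m := by exact_mod_cast hm
    omega
  have hmB : (m : ℤ) ≤ m * Divisor.degree B := by
    nlinarith [Int.natCast_nonneg m]
  set E : Divisor K F := D + m • B - D0 with hE
  have hdegE : Divisor.degree E = Divisor.degree D + m * Divisor.degree B - Divisor.degree D0 := by
    rw [hE, map_sub, map_add, map_nsmul, nsmul_eq_mul]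
  have h4 : 0 < finrank K (riemannRochSpace E) := by
    have := hg E
    have : (0 : ℤ) < (finrank K (riemannRochSpace E) : ℤ) := by omega
    exact_mod_cast this
  have hfd := finiteDimensional_L hF hZ E
  obtain ⟨z, hz⟩ := Module.finrank_pos_iff_exists_ne_zero.mp h4
  have hz0 : (z : F) ≠ 0 := fun h => hz (Subtype.ext h)
  obtain ⟨Z, hZdiv⟩ := exists_divisor_eq_ord hZ hF (z : F) hz0
  have hZ0 : Divisor.degree Z = 0 := degree_eq_zero_of_forall_eq_ord hZ hF (z : F) hz0 Z hZdiv
  have hle : D0 ≤ D + m • B + Z := by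
    rw [Finsupp.le_def]
    intro v
    have := (mem_riemannRochSpace_iff.mp z.2 v).resolve_left hz0
    have hEv : E v = D v + (m • B) v - D0 v := by
      rw [hE, Finsupp.sub_apply, Finsupp.add_apply]
    rw [Finsupp.add_apply, Finsupp.add_apply, hZdiv v]
    omega
  have h5 := hD0 _ hle
  rw [finrank_L_shift hF hZ (D + m • B) Z (z : F) hz0 hZdiv, map_add, hZ0, add_zero, map_add,
    map_nsmul, nsmul_eq_mul] at h5
  exact h5

end Asymptotic

section Lattices

variable {K F : Type*} [Field K] [Field F] [Algebra K F] [DecidableEq (RatFunc K)]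
  [Algebra (RatFunc K) F] [IsScalarTower K (RatFunc K) F]
  {ι : Type*} [Fintype ι]

/-- Membership in a shifted lattice at infinity. -/
theorem mem_inftyLat_shift (w : Basis ι (RatFunc K) F) (d : ι → ℤ) (m : ℤ) (y : F) :
    y ∈ inftyLat w (fun i => d i - m) ↔
      ((RatFunc.X : RatFunc K) ^ (-m)) • y ∈ inftyLat w d := by
  have h := scale_mem_inftyLat_iff w d m ((scale K F m).symm y)
  rw [LinearEquiv.apply_symm_apply, scale_symm_apply] at h
  exact h

theorem zpow_smul_eq (m : ℤ) (y : F) :
    ((RatFunc.X : RatFunc K) ^ m) • y = (algebraMap (RatFunc K) F RatFunc.X) ^ m * y := by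
  rw [Algebra.smul_def, map_zpow₀]

/-- A pair of `K`-subspaces described place by place is a Riemann–Roch space. -/
theorem inf_eq_L (x : F) (P Q : Submodule K F) (E : Divisor K F)
    (hP : ∀ y, y ∈ P ↔ ∀ v : Place K F, 0 ≤ v.ord x → y = 0 ∨ -(E v) ≤ v.ord y)
    (hQ : ∀ y, y ∈ Q ↔ ∀ v : Place K F, v.ord x < 0 → y = 0 ∨ -(E v) ≤ v.ord y) :
    P ⊓ Q = riemannRochSpace E := by
  ext y
  rw [Submodule.mem_inf, hP, hQ, mem_riemannRochSpace_iff]
  constructor
  · rintro ⟨h1, h2⟩ v
    rcases lt_or_ge (v.ord x) 0 with h | h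
    · exact h2 v h
    · exact h1 v h
  · intro h
    exact ⟨fun v _ => h v, fun v _ => h v⟩

variable (x : F) (hxX : algebraMap (RatFunc K) F RatFunc.X = x)
include hxX

/-- `A ⊓ X^m B = L(m P_∞)`. -/
theorem inf_eq_L_mul (hx0 : x ≠ 0) (w : Basis ι (RatFunc K) F) (d : ι → ℤ)
    (hA : ∀ y, y ∈ polyLat w ↔ ∀ v : Place K F, 0 ≤ v.ord x → 0 ≤ v.ord y)
    (hB : ∀ y, y ∈ inftyLat w d ↔ ∀ v : Place K F, v.ord x < 0 → 0 ≤ v.ord y)
    (B : Divisor K F) (hBdef : ∀ v, B v = max 0 (-(v.ord x))) (m : ℤ)
    (E : Divisor K F) (hE : ∀ v, E v = m * B v) :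
    polyLat w ⊓ inftyLat w (fun i => d i - m) = riemannRochSpace E := by
  refine inf_eq_L x _ _ E (fun y => ?_) (fun y => ?_)
  · rw [hA]
    refine forall_congr' fun v => ?_
    refine imp_congr_right fun hv => ?_
    rw [hE, hBdef, max_eq_left (by omega), mul_zero, neg_zero]
    constructor
    · intro h; exact Or.inr h
    · rintro (rfl | h)
      · rw [Place.ord_zero]
      · exact h
  · rw [mem_inftyLat_shift, hB]
    refine forall_congr' fun v => ?_
    refine imp_congr_right fun hv => ?_
    rw [hE, hBdef, max_eq_right (by omega), zpow_smul_eq, hxX]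
    by_cases hy : y = 0
    · subst hy
      rw [mul_zero, Place.ord_zero]
      simp
    · rw [v.ord_mul (zpow_ne_zero _ hx0) hy, v.ord_zpow, or_iff_right hy]
      constructor <;> intro h <;> nlinarith

end Lattices

section Dual

variable {K F : Type*} [Field K] [Field F] [Algebra K F] [DecidableEq (RatFunc K)]
  [Algebra (RatFunc K) F] [IsScalarTower K (RatFunc K) F]
  {ι : Type*} [Fintype ι] [DecidableEq ι] [IsAlgClosed K] [CharZero K]

variable (x : F) (hxX : algebraMap (RatFunc K) F RatFunc.X = x)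
include hxX

/-- `A^∨ ⊓ X^m B^∨ = L(W + (m + 2) P_∞)` where `W = div(dx)`. -/
theorem inf_eq_L_dual (hx : Transcendental K x) (hF : IsFunctionField1 K F)
    (hZ : ZerosTheorem K F) (w : Basis ι (RatFunc K) F) (d : ι → ℤ)
    (T : LinearMap.BilinForm (RatFunc K) F) (hT : T.Nondegenerate)
    (hA' : ∀ h, h ∈ dualPoly T (polyLat w) ↔ ∀ (v : Place K F) (c : K),
      0 < v.ord (x - algebraMap K F c) → h = 0 ∨ 1 ≤ v.ord h + v.ord (x - algebraMap K F c))
    (hB' : ∀ h, h ∈ dualInfty T (inftyLat w d) 0 ↔ ∀ v : Place K F,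
      v.ord x < 0 → h = 0 ∨ 1 ≤ v.ord h - v.ord x)
    (B : Divisor K F) (hBdef : ∀ v, B v = max 0 (-(v.ord x)))
    (W : Divisor K F) (hW : ∀ v, W v = v.ordDifferential (D K F x)) (m : ℤ)
    (E : Divisor K F) (hE : ∀ v, E v = W v + (m + 2) * B v) :
    polyLat (T.dualBasis hT w) ⊓ inftyLat (T.dualBasis hT w) (fun i => -(d i) - m) =
      riemannRochSpace E := by
  have hx0 : x ≠ 0 := Hurwitz.ne_zero_of_transcendental hx
  refine inf_eq_L x _ _ E (fun y => ?_) (fun y => ?_)
  · rw [← dualPoly_polyLat T hT w, hA']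
    constructor
    · intro h v hv
      have hnp : v ∉ polesOf K x := by rw [mem_polesOf]; omega
      obtain ⟨a, ha⟩ := (Hurwitz.mem_polesOf_or_exists_mem_zerosOver hZ hF hx v).resolve_left hnp
      have hEv : E v = v.ord (x - algebraMap K F a) - 1 := by
        rw [hE, hW, hBdef, max_eq_left (by omega), mul_zero, add_zero,
          Hurwitz.ordDifferential_D_of_mem_zerosOver hZ hF ha]
      rcases h v a ha with h0 | h1
      · exact Or.inl h0
      · right
        rw [hEv]
        omega
    · intro h v c hc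
      have hv : 0 ≤ v.ord x := by
        by_contra hneg
        rw [not_le] at hneg
        rw [OrdBasic.ord_sub_algebraMap_of_neg v hneg c] at hc
        omega
      have ha : v ∈ zerosOver x c := hc
      have hEv : E v = v.ord (x - algebraMap K F c) - 1 := by
        rw [hE, hW, hBdef, max_eq_left (by omega), mul_zero, add_zero,
          Hurwitz.ordDifferential_D_of_mem_zerosOver hZ hF ha]
      rcases h v hv with h0 | h1
      · exact Or.inl h0
      · right
        rw [hEv] at h1
        omega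
  · have hdual : inftyLat (T.dualBasis hT w) (fun i => -(d i)) =
        dualInfty T (inftyLat w d) 0 := by
      rw [dualInfty_inftyLat T hT w d 0]
      simp only [sub_zero]
    rw [mem_inftyLat_shift (T.dualBasis hT w) (fun i => -(d i)) m, hdual, hB']
    refine forall_congr' fun v => ?_
    refine imp_congr_right fun hv => ?_
    have hp : v ∈ polesOf K x := hv
    rw [hE, hW, hBdef, max_eq_right (by omega), zpow_smul_eq, hxX,
      Hurwitz.ordDifferential_D_of_mem_polesOf hZ hF hp]
    by_cases hy : y = 0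
    · subst hy
      rw [mul_zero]
      simp
    · rw [v.ord_mul (zpow_ne_zero _ hx0) hy, v.ord_zpow, or_iff_right hy,
        or_iff_right (mul_ne_zero (zpow_ne_zero _ hx0) hy)]
      constructor <;> intro h <;> nlinarith

end Dual

section Main

variable {K F : Type*} [Field K] [Field F] [Algebra K F] [DecidableEq (RatFunc K)]
  [Algebra (RatFunc K) F] [IsScalarTower K (RatFunc K) F]
  {ι : Type*} [Fintype ι] [DecidableEq ι] [IsAlgClosed K] [CharZero K]

theorem sum_toNat_sub (d : ι → ℤ) :
    ((∑ i, (d i - 1).toNat : ℕ) : ℤ) - ((∑ i, (1 - d i).toNat : ℕ) : ℤ) =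
      ∑ i, d i - Fintype.card ι := by
  push_cast
  rw [← Finset.sum_sub_distrib]
  have : ∀ i, (((d i - 1).toNat : ℤ) - ((1 - d i).toNat : ℤ)) = d i - 1 := fun i => by
    have := Int.toNat_sub_toNat_neg (d i - 1)
    rwa [neg_sub] at this
  rw [Finset.sum_congr rfl fun i _ => this i, Finset.sum_sub_distrib, Finset.sum_const,
    Finset.card_univ, nsmul_eq_mul, mul_one]

/-- **Dedekind–Weber assembly.** From a normal basis of the pair of integral closures and the
place description of their trace duals: `2 ℓ(W) = deg W + 2` for `W = div(dx)`. -/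
theorem two_mul_finrank_eq (hF : IsFunctionField1 K F) (hZ : ZerosTheorem K F)
    (x : F) (hxX : algebraMap (RatFunc K) F RatFunc.X = x) (hx : Transcendental K x)
    (hn : finrank (RatFunc K) F = finrank (IntermediateField.adjoin K ({x} : Set F)) F)
    (w : Basis ι (RatFunc K) F) (d : ι → ℤ)
    (T : LinearMap.BilinForm (RatFunc K) F) (hT : T.Nondegenerate)
    (hA : ∀ y, y ∈ polyLat w ↔ ∀ v : Place K F, 0 ≤ v.ord x → 0 ≤ v.ord y)
    (hB : ∀ y, y ∈ inftyLat w d ↔ ∀ v : Place K F, v.ord x < 0 → 0 ≤ v.ord y)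
    (hA' : ∀ h, h ∈ dualPoly T (polyLat w) ↔ ∀ (v : Place K F) (c : K),
      0 < v.ord (x - algebraMap K F c) → h = 0 ∨ 1 ≤ v.ord h + v.ord (x - algebraMap K F c))
    (hB' : ∀ h, h ∈ dualInfty T (inftyLat w d) 0 ↔ ∀ v : Place K F,
      v.ord x < 0 → h = 0 ∨ 1 ≤ v.ord h - v.ord x)
    (W : Divisor K F) (hW : ∀ v, W v = v.ordDifferential (D K F x)) :
    2 * (finrank K (riemannRochSpace W) : ℤ) = Divisor.degree W + 2 := by
  have hx0 : x ≠ 0 := Hurwitz.ne_zero_of_transcendental hx
  obtain ⟨g, hg, D0, hD0⟩ := exists_genus hF hZ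
  obtain ⟨B, hBdef⟩ := exists_poleDivisor hF hZ x hx0
  have hdegB : Divisor.degree B = (Fintype.card ι : ℤ) := by
    rw [degree_poleDivisor hF hZ hx B hBdef, ← hn, Module.finrank_eq_card_basis w]
  have hne : Nonempty ι := w.index_nonempty
  have hnpos : 0 < Fintype.card ι := Fintype.card_pos
  have hBpos : 0 < Divisor.degree B := by rw [hdegB]; exact_mod_cast hnpos
  obtain ⟨N₁, h₁⟩ := exists_large hF hZ hg hD0 B hBpos 0
  obtain ⟨N₂, h₂⟩ := exists_large hF hZ hg hD0 B hBpos (W + 2 • B)
  set N : ℕ := N₁ + N₂ + ∑ i, (d i).natAbs with hN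
  have hdN : ∀ i, -(N : ℤ) ≤ d i ∧ d i ≤ N := by
    intro i
    have h1 : (d i).natAbs ≤ ∑ j, (d j).natAbs :=
      Finset.single_le_sum (f := fun j => (d j).natAbs) (fun j _ => Nat.zero_le _)
        (Finset.mem_univ i)
    have h2 : ((d i).natAbs : ℤ) ≤ N := by
      have : (d i).natAbs ≤ N := by omega
      exact_mod_cast this
    constructor <;> omega
  -- the four dimension formulas
  have e1 : (finrank K (riemannRochSpace ((0 : Divisor K F) + N • B)) : ℤ) =
      ∑ i, (1 - (d i - N)) := by
    rw [← inf_eq_L_mul x hxX hx0 w d hA hB B hBdef (N : ℤ) ((0 : Divisor K F) + N • B)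
      (fun v => by rw [Finsupp.add_apply, Finsupp.smul_apply, Finsupp.zero_apply, zero_add,
        nsmul_eq_mul]), finrank_inf]
    push_cast
    refine Finset.sum_congr rfl fun i _ => ?_
    rw [Int.toNat_of_nonneg]
    have := hdN i
    omega
  have e2 : (finrank K (riemannRochSpace (W + 2 • B + N • B)) : ℤ) =
      ∑ i, (1 - (-(d i) - N)) := by
    rw [← inf_eq_L_dual x hxX hx hF hZ w d T hT hA' hB' B hBdef W hW (N : ℤ) (W + 2 • B + N • B)
      (fun v => by
        rw [Finsupp.add_apply, Finsupp.add_apply, Finsupp.smul_apply, Finsupp.smul_apply,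
          nsmul_eq_mul, nsmul_eq_mul]
        push_cast
        ring), finrank_inf]
    push_cast
    refine Finset.sum_congr rfl fun i _ => ?_
    rw [Int.toNat_of_nonneg]
    have := hdN i
    omega
  have e3 : (finrank K (riemannRochSpace (0 : Divisor K F)) : ℤ) =
      ((∑ i, (1 - d i).toNat : ℕ) : ℤ) := by
    rw [← inf_eq_L_mul x hxX hx0 w d hA hB B hBdef 0 (0 : Divisor K F)
      (fun v => by rw [Finsupp.zero_apply, zero_mul]), finrank_inf]
    simp only [sub_zero]
  have e4 : (finrank K (riemannRochSpace W) : ℤ) = ((∑ i, (d i - 1).toNat : ℕ) : ℤ) := by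
    rw [← inf_eq_L_dual x hxX hx hF hZ w d T hT hA' hB' B hBdef W hW (-2) W
      (fun v => by ring), finrank_inf]
    congr 1
    refine Finset.sum_congr rfl fun i _ => ?_
    congr 1
    ring
  have := exists_place hF hZ
  have e0 := CanonicalDiv.finrank_riemannRochSpace_zero hF hZ
  have h1 := h₁ N (by omega)
  have h2 := h₂ N (by omega)
  rw [e1, map_zero, hdegB] at h1
  rw [e2, map_add, map_nsmul, hdegB] at h2
  rw [e0] at e3
  have h5 := sum_toNat_sub d
  rw [← e4, ← e3] at h5
  rw [Finset.sum_sub_distrib, Finset.sum_sub_distrib, Finset.sum_const, Finset.sum_const,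
    Finset.card_univ] at h1
  rw [Finset.sum_sub_distrib, Finset.sum_sub_distrib, Finset.sum_const, Finset.sum_const,
    Finset.card_univ, Finset.sum_neg_distrib] at h2
  simp only [nsmul_eq_mul, mul_one] at h1 h2
  push_cast at h1 h2 h5
  linarith

end Main

end Fermat.Agent.S20.DWAsm
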