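/-
S20 / Dedekind–Weber line, piece DW.bases (helper11): the two lattice inputs of the normal basis
theorem.  For a finite separable extension `F / RatFunc k`, the integral closure of `k[X]`
(resp. of `O_∞ = (RatFunc.inftyValuation k).valuationSubring`) in `F` is a lattice spanned by a
`RatFunc k`-basis of `F`; combined with `NormalBasis.exists_normal_basis'` this gives a basis `w`
of `F` and integers `d` such that `w` is a `k[X]`-basis of the integral closure of `k[X]` and
`(X ^ (-d j) • w j)` is an `O_∞`-basis of the integral closure of `O_∞`.
-/
import Mathlib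
import Fermat.Agent.S20.NormalBasis

set_option autoImplicit false

namespace Fermat.Agent.S20.DWBases

open Polynomial WithZero Module Fermat.Agent.S20.NormalBasis

/-- Generic: the integral closure of a PID `R` in a finite separable extension `F` of `K = Frac R`
is the set of vectors whose coordinates in a suitable `K`-basis of `F` lie in `R`. -/
theorem exists_basis_isIntegral (R K F : Type*) [CommRing R] [IsDomain R] [IsPrincipalIdealRing R]
    [Field K] [Algebra R K] [IsFractionRing R K] [Field F] [Algebra K F] [Algebra R F]
    [IsScalarTower R K F] [FiniteDimensional K F] [Algebra.IsSeparable K F] :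
    ∃ a : Basis (Fin (finrank K F)) K F,
      ∀ y : F, (∀ i, a.repr y i ∈ (algebraMap R K).range) ↔ IsIntegral R y := by
  classical
  have htf : Module.IsTorsionFree R F := by
    have : Function.Injective (algebraMap R F) := by
      rw [IsScalarTower.algebraMap_eq R K F]
      exact (algebraMap K F).injective.comp (IsFractionRing.injective R K)
    exact isTorsionFree_iff_algebraMap_injective.mpr this
  set C := integralClosure R F with hC
  have hfree : Module.Free R C := IsIntegralClosure.module_free R K F C
  have hfin : Module.Finite R C := IsIntegralClosure.finite R K F C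
  have hloc : IsLocalization (Algebra.algebraMapSubmonoid C (nonZeroDivisors R)) F :=
    IsIntegralClosure.isLocalization R K F C
  let b0 := Module.Free.chooseBasis R C
  let a0 : Basis (Module.Free.ChooseBasisIndex R C) K F :=
    b0.localizationLocalization K (nonZeroDivisors R) F
  have hcard : Fintype.card (Module.Free.ChooseBasisIndex R C) = finrank K F :=
    (Module.finrank_eq_card_basis a0).symm
  let e : Module.Free.ChooseBasisIndex R C ≃ Fin (finrank K F) := Fintype.equivFinOfCardEq hcard
  refine ⟨a0.reindex e, fun y => ?_⟩
  have key : (∀ i, a0.repr y i ∈ (algebraMap R K).range) ↔ IsIntegral R y := by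
    constructor
    · intro h
      choose p hp using h
      have : y = algebraMap C F (∑ i, p i • b0 i) := by
        conv_lhs => rw [← a0.sum_repr y]
        rw [map_sum]
        refine Finset.sum_congr rfl fun i _ => ?_
        rw [← hp i, algebraMap_smul, Basis.localizationLocalization_apply]
        exact (map_smul (IsScalarTower.toAlgHom R C F) (p i) (b0 i)).symm
      rw [this]
      exact (∑ i, p i • b0 i).2
    · intro hy i
      have : y = algebraMap C F ⟨y, hy⟩ := rfl
      rw [this, Basis.localizationLocalization_repr_algebraMap]
      exact ⟨_, rfl⟩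
  rw [← key]
  constructor
  · intro h i
    have := h (e i)
    simpa using this
  · intro h i
    have := h (e.symm i)
    simpa using this


section RatFunc

variable (k : Type*) [Field k] [DecidableEq (RatFunc k)] (F : Type*) [Field F]
  [Algebra (RatFunc k) F] [FiniteDimensional (RatFunc k) F] [Algebra.IsSeparable (RatFunc k) F]

theorem mem_range_algebraMap_valuationSubring_iff (f : RatFunc k) :
    f ∈ (algebraMap (RatFunc.inftyValuation k).valuationSubring (RatFunc k)).range ↔
      RatFunc.inftyValuation k f ≤ 1 := by
  rw [← Valuation.mem_valuationSubring_iff]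
  constructor
  · rintro ⟨g, rfl⟩
    exact g.2
  · intro h
    exact ⟨⟨f, h⟩, rfl⟩

/-- The integral closure of `O_∞` in `F` is the unit ball of a suitable basis. -/
theorem exists_basis_isIntegral_infty :
    ∃ b : Basis (Fin (finrank (RatFunc k) F)) (RatFunc k) F,
      ∀ y : F, (∀ i, RatFunc.inftyValuation k (b.repr y i) ≤ 1) ↔
        IsIntegral (RatFunc.inftyValuation k).valuationSubring y := by
  obtain ⟨b, hb⟩ := exists_basis_isIntegral (RatFunc.inftyValuation k).valuationSubring
    (RatFunc k) F
  refine ⟨b, fun y => ?_⟩
  rw [← hb y]
  exact forall_congr' fun i => (mem_range_algebraMap_valuationSubring_iff k _).symm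

variable [Algebra k[X] F] [IsScalarTower k[X] (RatFunc k) F]

omit [DecidableEq (RatFunc k)] in
/-- The integral closure of `k[X]` in `F` is the `k[X]`-lattice of a suitable basis. -/
theorem exists_basis_isIntegral_poly :
    ∃ a : Basis (Fin (finrank (RatFunc k) F)) (RatFunc k) F,
      ∀ y : F, PolyCoords a y ↔ IsIntegral k[X] y :=
  exists_basis_isIntegral k[X] (RatFunc k) F

/-- **Normal basis for the two integral closures** (Dedekind–Weber): there are a
`RatFunc k`-basis `w` of `F` and integers `d j` such that `w` is a `k[X]`-basis of the integral
closure of `k[X]` in `F` and `(X ^ (-d j) • w j)` is an `O_∞`-basis of the integral closure of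
`O_∞` in `F`. -/
theorem exists_normal_basis_integralClosure :
    ∃ (w : Basis (Fin (finrank (RatFunc k) F)) (RatFunc k) F)
      (d : Fin (finrank (RatFunc k) F) → ℤ),
      (∀ y : F, PolyCoords w y ↔ IsIntegral k[X] y) ∧
      (∀ y : F, (∀ j, RatFunc.inftyValuation k (w.repr y j) ≤ exp (-(d j))) ↔
        IsIntegral (RatFunc.inftyValuation k).valuationSubring y) := by
  obtain ⟨a, ha⟩ := exists_basis_isIntegral_poly k F
  obtain ⟨b, hb⟩ := exists_basis_isIntegral_infty k F
  obtain ⟨w, d, h1, h2⟩ := exists_normal_basis' a b
  exact ⟨w, d, fun y => (h1 y).symm.trans (ha y), fun y => (h2 y).symm.trans (hb y)⟩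

end RatFunc

end Fermat.Agent.S20.DWBases
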