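import Mathlib
import Fermat.Prelude.Def_AlgebraicCurve_Repartitions
import Fermat.Agent.S24.Defs
import Fermat.Agent.S24.OrdBasic
import Fermat.Agent.S24.PlaceOfPrime
import Fermat.Agent.S24.PlaceDeg
import Fermat.Agent.S24.PlaceDeg1
import Fermat.Agent.S24.KaehlerGen
import Fermat.Agent.S24.ZerosBackup
import Fermat.Agent.S20.NormalBasis

/-!
# S20 / Dedekind–Weber line, piece `DW.dict` (helper92)

Dictionary between the two Dedekind–Weber lattices of a function field `F / K` relative to a
non-constant `x : F` and the places of `F / K` (Prelude language):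

* `A` = integral closure of `K[X]` in `F` = functions regular at all places where `x` is finite;
* `B` = integral closure of `O_∞ ⊆ K(X)` in `F` = functions regular at all poles of `x`.

Both are free of rank `n = [F : K(X)]` over a PID, and we produce `K(X)`-bases of `F` describing
them in the language of `Fermat.Agent.S20.NormalBasis` (`PolyCoords a`, `nrm b ≤ 1`).

Setting (the one of `S24.ZerosBackup.zeros_generic` with `Kf := RatFunc K`):
`[Algebra K[X] F] [IsScalarTower K K[X] F] [Algebra (RatFunc K) F] [IsScalarTower K[X] (RatFunc K) F]`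
and `x = algebraMap K[X] F X`.
-/

set_option autoImplicit false
set_option linter.style.haveILetI false
set_option linter.unusedSectionVars false

open Polynomial AlgebraicCurve IsDedekindDomain Module

namespace Fermat.Agent.S20.DWDict

/-! ## Abstract part: integral closure of a PID in a finite separable extension -/

section Abstract

variable {K F : Type*} [Field K] [Field F] [Algebra K F]
variable (R Kf : Type*) [CommRing R] [IsDomain R] [IsPrincipalIdealRing R]
  [Field Kf] [Algebra R Kf] [IsFractionRing R Kf]
  [Algebra R F] [Algebra Kf F] [IsScalarTower R Kf F]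
  [FiniteDimensional Kf F] [Algebra.IsSeparable Kf F]

section

variable [Algebra K R] [IsScalarTower K R F]

include Kf in
/-- An element of `F` lies in the integral closure of `R` iff it lies in the valuation ring of
every place of `F / K` whose valuation ring contains `R`. -/
theorem mem_integralClosure_iff (h : F) :
    h ∈ integralClosure R F ↔
      ∀ v : Place K F, (∀ r : R, algebraMap R F r ∈ v.toValuationSubring) →
        h ∈ v.toValuationSubring := by
  classical
  let B := integralClosure R F
  haveI : IsDedekindDomain B := integralClosure.isDedekindDomain R Kf F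
  haveI : IsFractionRing B F := integralClosure.isFractionRing_of_finite_extension Kf F
  haveI : IsScalarTower K B F := IsScalarTower.of_algebraMap_eq (fun c => rfl)
  constructor
  · intro hh v hv
    exact Fermat.Agent.S24.PlaceOfPrime.forall_mem_of_isIntegral (B := B) v (R := R) hv ⟨h, hh⟩
  · intro hh
    have hval : ∀ P : HeightOneSpectrum B, P.valuation F h ≤ 1 := by
      intro P
      have hR : ∀ r : R, algebraMap R F r ∈
          (Place.ofHeightOneSpectrum (K := K) (F := F) P).toValuationSubring := by
        intro r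
        have := Fermat.Agent.S24.PlaceOfPrime.algebraMap_mem_ofHeightOneSpectrum (K := K) (F := F)
          P (algebraMap R B r)
        rwa [← IsScalarTower.algebraMap_apply R B F] at this
      have := hh _ hR
      rwa [Place.ofHeightOneSpectrum_toValuationSubring, Valuation.mem_valuationSubring_iff] at this
    obtain ⟨y, hy⟩ := HeightOneSpectrum.mem_integers_of_valuation_le_one F h hval
    rw [← hy]
    exact y.2

end

/-- There is a `Kf`-basis of `F` whose `R`-span is the integral closure of `R` in `F`. -/
theorem exists_basis_integralClosure :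
    ∃ a : Basis (Fin (Module.finrank Kf F)) Kf F,
      ∀ h : F, (∀ i, a.repr h i ∈ (algebraMap R Kf).range) ↔ h ∈ integralClosure R F := by
  classical
  let B := integralClosure R F
  haveI : Module.IsTorsionFree R F := .trans_faithfulSMul R Kf F
  haveI : Module.Free R B := IsIntegralClosure.module_free R Kf F B
  haveI : Module.Finite R B := IsIntegralClosure.finite R Kf F B
  have hrank : Module.finrank R B = Module.finrank Kf F := IsIntegralClosure.rank R Kf F B
  let b0 : Basis (Fin (Module.finrank Kf F)) R B := Module.finBasisOfFinrankEq R B hrank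
  haveI : IsLocalization (Algebra.algebraMapSubmonoid B (nonZeroDivisors R)) F :=
    IsIntegralClosure.isLocalization R Kf F B
  let a : Basis (Fin (Module.finrank Kf F)) Kf F :=
    b0.localizationLocalization Kf (nonZeroDivisors R) F
  refine ⟨a, fun h => ⟨fun hc => ?_, fun hh => ?_⟩⟩
  · choose r hr using hc
    have hsum : h = ∑ i, a.repr h i • a i := (a.sum_repr h).symm
    have : h = algebraMap B F (∑ i, r i • b0 i) := by
      rw [hsum, map_sum]
      refine Finset.sum_congr rfl fun i _ => ?_
      rw [← hr i, Module.Basis.localizationLocalization_apply, algebraMap_smul, Algebra.smul_def,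
        Algebra.smul_def, map_mul, ← IsScalarTower.algebraMap_apply R B F]
    rw [this]
    exact (∑ i, r i • b0 i).2
  · intro i
    have : h = algebraMap B F ⟨h, hh⟩ := rfl
    rw [this, Module.Basis.localizationLocalization_repr_algebraMap]
    exact ⟨_, rfl⟩

end Abstract

/-! ## The valuation ring at infinity of `K(X)` -/

section Oinf

variable (K : Type*) [Field K] [DecidableEq (RatFunc K)]

/-- The valuation ring at infinity of `K(X)`, as a `K`-subalgebra. -/
noncomputable def Oinf : Subalgebra K (RatFunc K) where
  carrier := {f | RatFunc.inftyValuation K f ≤ 1}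
  mul_mem' := by
    intro a b ha hb
    show RatFunc.inftyValuation K (a * b) ≤ 1
    rw [map_mul]
    exact mul_le_one' ha hb
  add_mem' := by
    intro a b ha hb
    show RatFunc.inftyValuation K (a + b) ≤ 1
    exact (Valuation.map_add _ _ _).trans (max_le ha hb)
  algebraMap_mem' := by
    intro c
    show RatFunc.inftyValuation K (algebraMap K (RatFunc K) c) ≤ 1
    rcases eq_or_ne c 0 with rfl | hc
    · simp
    · rw [RatFunc.algebraMap_eq_C, RatFunc.inftyValuation.C K hc]

variable {K}

theorem mem_Oinf {f : RatFunc K} : f ∈ Oinf K ↔ RatFunc.inftyValuation K f ≤ 1 := Iff.rfl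

variable (K)

theorem integers_Oinf : Valuation.Integers (RatFunc.inftyValuation K) (Oinf K) where
  hom_inj := Subtype.val_injective
  map_le_one := fun x => x.2
  exists_of_le_one := fun {r} hr => ⟨⟨r, hr⟩, rfl⟩

instance isPrincipalIdealRing_Oinf : IsPrincipalIdealRing (Oinf K) := by
  rw [(integers_Oinf K).isPrincipalIdealRing_iff_not_denselyOrdered,
    WithZero.denselyOrdered_set_iff_subsingleton]
  simpa using (RatFunc.inftyValuation K).toMonoidWithZeroHom.range_nontrivial

instance isFractionRing_Oinf : IsFractionRing (Oinf K) (RatFunc K) := by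
  refine IsFractionRing.of_field (Oinf K) (RatFunc K) fun z => ?_
  by_cases hz : RatFunc.inftyValuation K z ≤ 1
  · exact ⟨⟨z, hz⟩, 1, by simp⟩
  · have hz' : RatFunc.inftyValuation K z⁻¹ ≤ 1 := by
      rw [map_inv₀]
      exact inv_le_one_of_one_le₀ (le_of_not_ge hz)
    refine ⟨1, ⟨z⁻¹, hz'⟩, ?_⟩
    simp

end Oinf

/-! ## Orders of polynomial and rational expressions at a pole -/

section OrdPole

variable {K F : Type*} [Field K] [Field F] [Algebra K F]

/-- `h ∈ O_v ↔ 0 ≤ ord_v h` (also for `h = 0`, since `ord_v 0 = 0`). -/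
theorem mem_iff_ord_nonneg (v : Place K F) (h : F) :
    h ∈ v.toValuationSubring ↔ 0 ≤ v.ord h := by
  rcases eq_or_ne h 0 with rfl | hh
  · simp [Place.ord_zero]
  · exact Fermat.Agent.S24.mem_valuationSubring_iff_ord_nonneg v hh

/-- Polynomial expressions in an element of `O_v` lie in `O_v`. -/
theorem aeval_mem (v : Place K F) {y : F} (hy : y ∈ v.toValuationSubring) (p : K[X]) :
    Polynomial.aeval y p ∈ v.toValuationSubring := by
  rw [← Fermat.Agent.S24.KaehlerGen.mem_placeSubalgebra]
  have h1 : Polynomial.aeval y p ∈ Algebra.adjoin K {y} :=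
    Polynomial.aeval_mem_adjoin_singleton _ _
  have h2 : Algebra.adjoin K {y} ≤ Fermat.Agent.S24.KaehlerGen.placeSubalgebra v :=
    Algebra.adjoin_le (Set.singleton_subset_iff.mpr hy)
  exact h2 h1

/-- At a pole of `x`, the valuation of `p(x)` is the valuation of `x` to the power `deg p`. -/
theorem adicValuation_aeval_of_pole (v : Place K F) {x : F} (hx : v.ord x < 0) {p : K[X]}
    (hp : p ≠ 0) :
    v.adicValuation (Polynomial.aeval x p) = v.adicValuation x ^ p.natDegree := by
  have hx0 : x ≠ 0 := by
    rintro rfl
    simp [Place.ord_zero] at hx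
  haveI : Invertible x := invertibleOfNonzero hx0
  have hinv : ⅟x = x⁻¹ := invOf_eq_inv x
  -- `y = x⁻¹` lies in the maximal ideal
  have hy : v.ord x⁻¹ = -v.ord x := v.ord_inv x
  have hyval : v.adicValuation x⁻¹ < 1 := by
    have h1 : ¬ v.adicValuation x ≤ 1 := (v.not_adicValuation_le_one_iff).mpr hx
    rw [map_inv₀]
    exact inv_lt_one_of_one_lt₀ (lt_of_not_ge h1)
  have hymem : x⁻¹ ∈ v.toValuationSubring := by
    rw [mem_iff_ord_nonneg, hy]; omega
  -- the reversed polynomial
  set g := p.reverse with hg
  have hrev : Polynomial.eval₂ (algebraMap K F) x⁻¹ g * x ^ p.natDegree =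
      Polynomial.eval₂ (algebraMap K F) x p := by
    have := Polynomial.eval₂_reverse_mul_pow (algebraMap K F) x p
    rwa [hinv] at this
  have hc0 : g.coeff 0 ≠ 0 := by
    rw [hg, Polynomial.coeff_zero_reverse]
    exact Polynomial.leadingCoeff_ne_zero.mpr hp
  have hsplit : Polynomial.eval₂ (algebraMap K F) x⁻¹ g =
      Polynomial.eval₂ (algebraMap K F) x⁻¹ g.divX * x⁻¹ + algebraMap K F (g.coeff 0) := by
    conv_lhs => rw [← Polynomial.divX_mul_X_add g]
    rw [Polynomial.eval₂_add, Polynomial.eval₂_mul, Polynomial.eval₂_X, Polynomial.eval₂_C]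
  have hq : v.adicValuation (Polynomial.eval₂ (algebraMap K F) x⁻¹ g.divX) ≤ 1 := by
    apply v.adicValuation_le_one_of_mem
    exact aeval_mem v hymem g.divX
  have hconst : v.adicValuation (algebraMap K F (g.coeff 0)) = 1 := by
    have h0 : v.ord (algebraMap K F (g.coeff 0)) = 0 :=
      Fermat.Agent.S24.OrdBasic.ord_algebraMap v hc0
    have hne : algebraMap K F (g.coeff 0) ≠ 0 := by simpa using hc0
    rw [v.adicValuation_eq_exp_neg_ord hne, h0]
    simp
  have hone : v.adicValuation (Polynomial.eval₂ (algebraMap K F) x⁻¹ g) = 1 := by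
    rw [hsplit, add_comm]
    rw [Valuation.map_add_eq_of_lt_left, hconst]
    rw [hconst, map_mul]
    calc v.adicValuation (Polynomial.eval₂ (algebraMap K F) x⁻¹ g.divX) * v.adicValuation x⁻¹
        ≤ 1 * v.adicValuation x⁻¹ := mul_le_mul_left hq _
      _ = v.adicValuation x⁻¹ := one_mul _
      _ < 1 := hyval
  rw [Polynomial.aeval_def, ← hrev, map_mul, hone, one_mul, map_pow]

/-- At a pole of `x`: `ord_v p(x) = deg p * ord_v x`. -/
theorem ord_aeval_of_pole (v : Place K F) {x : F} (hx : v.ord x < 0) {p : K[X]} (hp : p ≠ 0) :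
    v.ord (Polynomial.aeval x p) = p.natDegree * v.ord x := by
  have hx0 : x ≠ 0 := by
    rintro rfl
    simp [Place.ord_zero] at hx
  have h := adicValuation_aeval_of_pole v hx hp
  unfold Place.ord
  rw [h, WithZero.log_pow]
  simp

end OrdPole

/-! ## The concrete setting: `F` as a `K[X]`- and `K(X)`-algebra -/

section Concrete

variable {K F : Type*} [Field K] [DecidableEq (RatFunc K)] [Field F] [Algebra K F]
  [Algebra K[X] F] [IsScalarTower K K[X] F] [Algebra (RatFunc K) F]
  [IsScalarTower K[X] (RatFunc K) F]

variable (K F) in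
/-- The element `x` of `F`, image of `X`. -/
noncomputable def xF : F := algebraMap K[X] F X

instance isScalarTower_ratFunc : IsScalarTower K (RatFunc K) F :=
  IsScalarTower.of_algebraMap_eq fun c => by
    rw [IsScalarTower.algebraMap_apply K K[X] F, IsScalarTower.algebraMap_apply K[X] (RatFunc K) F,
      ← IsScalarTower.algebraMap_apply K K[X] (RatFunc K)]

theorem algebraMap_poly_eq_aeval (p : K[X]) :
    algebraMap K[X] F p = Polynomial.aeval (xF K F) p :=
  Fermat.Agent.S24.ZerosBackup.algebraMap_eq_aeval (xF K F) rfl p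

theorem algebraMap_poly_injective : Function.Injective (algebraMap K[X] F) := by
  rw [IsScalarTower.algebraMap_eq K[X] (RatFunc K) F]
  exact (algebraMap (RatFunc K) F).injective.comp (IsFractionRing.injective K[X] (RatFunc K))

theorem aeval_xF_ne_zero {p : K[X]} (hp : p ≠ 0) : Polynomial.aeval (xF K F) p ≠ 0 := by
  rw [← algebraMap_poly_eq_aeval]
  exact (map_ne_zero_iff _ algebraMap_poly_injective).mpr hp

theorem xF_ne_zero : xF K F ≠ 0 :=
  (map_ne_zero_iff _ algebraMap_poly_injective).mpr X_ne_zero

theorem algebraMap_ratFunc_eq (f : RatFunc K) :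
    algebraMap (RatFunc K) F f =
      Polynomial.aeval (xF K F) f.num / Polynomial.aeval (xF K F) f.denom := by
  conv_lhs => rw [← RatFunc.num_div_denom f]
  rw [map_div₀, ← IsScalarTower.algebraMap_apply K[X] (RatFunc K) F,
    ← IsScalarTower.algebraMap_apply K[X] (RatFunc K) F, algebraMap_poly_eq_aeval,
    algebraMap_poly_eq_aeval]

/-- `x - c` as an element of `F`. -/
theorem algebraMap_X_sub_C (c : K) :
    algebraMap K[X] F (X - C c) = xF K F - algebraMap K F c := by
  rw [map_sub, ← Polynomial.algebraMap_eq, ← IsScalarTower.algebraMap_apply K K[X] F]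
  rfl

/-- A place contains `K[X]` iff `x` has no pole there. -/
theorem forall_poly_mem_iff (v : Place K F) :
    (∀ r : K[X], algebraMap K[X] F r ∈ v.toValuationSubring) ↔ 0 ≤ v.ord (xF K F) := by
  rw [← mem_iff_ord_nonneg]
  constructor
  · intro h
    exact h X
  · intro h r
    rw [algebraMap_poly_eq_aeval]
    exact aeval_mem v h r

/-- A pole of `x` contains `O_∞`. -/
theorem algebraMap_Oinf_mem_of_pole (v : Place K F) (hx : v.ord (xF K F) < 0) (r : Oinf K) :
    algebraMap (Oinf K) F r ∈ v.toValuationSubring := by
  rw [mem_iff_ord_nonneg]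
  have hr : RatFunc.inftyValuation K (r : RatFunc K) ≤ 1 := r.2
  have hmap : algebraMap (Oinf K) F r = algebraMap (RatFunc K) F (r : RatFunc K) := rfl
  rw [hmap]
  rcases eq_or_ne (r : RatFunc K) 0 with h0 | h0
  · rw [h0, map_zero, Place.ord_zero]
  have hnum : (r : RatFunc K).num ≠ 0 := RatFunc.num_ne_zero h0
  have hden : (r : RatFunc K).denom ≠ 0 := RatFunc.denom_ne_zero _
  rw [algebraMap_ratFunc_eq, div_eq_mul_inv,
    v.ord_mul (aeval_xF_ne_zero hnum) (inv_ne_zero (aeval_xF_ne_zero hden)), v.ord_inv,
    ord_aeval_of_pole v hx hnum, ord_aeval_of_pole v hx hden]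
  have hdeg : (r : RatFunc K).intDegree ≤ 0 := by
    have := hr
    rw [RatFunc.inftyValuation_apply, RatFunc.inftyValuation_of_nonzero K h0] at this
    rw [← WithZero.exp_zero] at this
    exact WithZero.exp_le_exp.mp this
  unfold RatFunc.intDegree at hdeg
  nlinarith

variable [IsAlgClosed K]

/-- A place contains `O_∞` iff `x` has a pole there. -/
theorem forall_Oinf_mem_iff (hF : Fermat.Agent.S24.OneVariable K F) (v : Place K F) :
    (∀ r : Oinf K, algebraMap (Oinf K) F r ∈ v.toValuationSubring) ↔ v.ord (xF K F) < 0 := by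
  constructor
  · intro h
    by_contra hcon
    rw [not_lt] at hcon
    have hxmem : xF K F ∈ v.toValuationSubring := (mem_iff_ord_nonneg v _).mpr hcon
    obtain ⟨c, hc⟩ := Fermat.Agent.S24.exists_const_ord_sub_pos v hF hxmem
    have hne : (X - C c : K[X]) ≠ 0 := Polynomial.X_sub_C_ne_zero c
    have hne' : xF K F - algebraMap K F c ≠ 0 := by
      rw [← algebraMap_X_sub_C]
      exact (map_ne_zero_iff _ algebraMap_poly_injective).mpr hne
    have hpos : 0 < v.ord (xF K F - algebraMap K F c) := by
      rcases hc with hc | hc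
      · exact absurd (sub_eq_zero.mpr hc) hne'
      · exact hc
    -- the element `1 / (X - c)` of `O_∞`
    have hval : RatFunc.inftyValuation K (algebraMap K[X] (RatFunc K) (X - C c))⁻¹ ≤ 1 := by
      rw [map_inv₀, RatFunc.inftyValuation_apply, RatFunc.inftyValuation.polynomial K hne,
        Polynomial.natDegree_X_sub_C]
      rw [← WithZero.exp_neg, ← WithZero.exp_zero]
      exact WithZero.exp_le_exp.mpr (by norm_num)
    have hmem := h ⟨_, hval⟩
    have hmap : algebraMap (Oinf K) F ⟨_, hval⟩ = (xF K F - algebraMap K F c)⁻¹ := by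
      show algebraMap (RatFunc K) F ((algebraMap K[X] (RatFunc K) (X - C c))⁻¹) = _
      rw [map_inv₀, ← IsScalarTower.algebraMap_apply K[X] (RatFunc K) F, algebraMap_X_sub_C]
    rw [hmap, mem_iff_ord_nonneg, v.ord_inv] at hmem
    omega
  · intro hx r
    exact algebraMap_Oinf_mem_of_pole v hx r

variable [CharZero K] [FiniteDimensional (RatFunc K) F]

/-- **(A')** The integral closure of `K[X]` in `F` consists of the functions that are regular at
every place where `x` is finite. -/
theorem mem_integralClosure_poly_iff (h : F) :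
    h ∈ integralClosure K[X] F ↔
      ∀ v : Place K F, 0 ≤ v.ord (xF K F) → 0 ≤ v.ord h := by
  rw [mem_integralClosure_iff (K := K) K[X] (RatFunc K) h]
  refine forall_congr' fun v => ?_
  rw [forall_poly_mem_iff, mem_iff_ord_nonneg]

/-- **(B')** The integral closure of `O_∞` in `F` consists of the functions that are regular at
every pole of `x`. -/
theorem mem_integralClosure_inf_iff (hF : Fermat.Agent.S24.OneVariable K F) (h : F) :
    h ∈ integralClosure (Oinf K) F ↔
      ∀ v : Place K F, v.ord (xF K F) < 0 → 0 ≤ v.ord h := by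
  rw [mem_integralClosure_iff (K := K) (Oinf K) (RatFunc K) h]
  refine forall_congr' fun v => ?_
  rw [forall_Oinf_mem_iff hF, mem_iff_ord_nonneg]

/-- **(A)** A `K(X)`-basis of `F` whose `K[X]`-span is the lattice of functions regular at all
places where `x` is finite. -/
theorem exists_basis_fin :
    ∃ a : Basis (Fin (Module.finrank (RatFunc K) F)) (RatFunc K) F,
      ∀ h : F, Fermat.Agent.S20.NormalBasis.PolyCoords a h ↔
        ∀ v : Place K F, 0 ≤ v.ord (xF K F) → 0 ≤ v.ord h := by
  obtain ⟨a, ha⟩ := exists_basis_integralClosure (F := F) K[X] (RatFunc K)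
  exact ⟨a, fun h => (ha h).trans (mem_integralClosure_poly_iff h)⟩

/-- **(B)** A `K(X)`-basis of `F` whose `O_∞`-span (the unit ball of the sup-norm `nrm b`) is the
lattice of functions regular at all poles of `x`. -/
theorem exists_basis_inf (hF : Fermat.Agent.S24.OneVariable K F) :
    ∃ b : Basis (Fin (Module.finrank (RatFunc K) F)) (RatFunc K) F,
      ∀ h : F, Fermat.Agent.S20.NormalBasis.nrm b h ≤ 1 ↔
        ∀ v : Place K F, v.ord (xF K F) < 0 → 0 ≤ v.ord h := by
  obtain ⟨b, hb⟩ := exists_basis_integralClosure (F := F) (Oinf K) (RatFunc K)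
  refine ⟨b, fun h => ?_⟩
  rw [← mem_integralClosure_inf_iff hF h, ← hb h, Fermat.Agent.S20.NormalBasis.nrm_le_iff]
  refine forall_congr' fun i => ?_
  constructor
  · intro hi
    exact ⟨⟨_, hi⟩, rfl⟩
  · rintro ⟨r, hr⟩
    rw [← hr]
    exact r.2

end Concrete

end Fermat.Agent.S20.DWDict
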