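import Mathlib
import Fermat.Prelude.Def_AlgebraicCurve_Repartitions
import Fermat.Agent.S24.Defs
import Fermat.Agent.S24.OrdBasic
import Fermat.Agent.S24.PlaceDeg
import Fermat.Agent.S24.KaehlerGen
import Fermat.Agent.S24.DiffOrder

/-!
# S20 / Dedekind–Weber line, piece `DW.dict` part 2 (helper92): the divisor of `dx`

For a non-constant `x` in a function field `F / K` (`K` algebraically closed of characteristic
zero), every place of `F / K` is either a pole of `x` or a zero of `x - c` for a unique `c : K`,
and the order of the differential `dx` is `ord_v (x - c) - 1`, resp. `ord_v x - 1`.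
Consequently the Riemann–Roch space of `W = div (dx)` is

`L(W) = {h | (∀ v c, 0 < ord_v (x - c) → h = 0 ∨ 1 ≤ ord_v h + ord_v (x - c)) ∧
            (∀ v, ord_v x < 0 → h = 0 ∨ 1 ≤ ord_v (x² h) - ord_v x)}`,

i.e. `A^∨ ∩ x⁻² B^∨` in the notation of the Dedekind–Weber argument (`DWDual`).
-/

set_option autoImplicit false

open AlgebraicCurve KaehlerDifferential

namespace Fermat.Agent.S20.DWDictDiff

open Fermat.Agent.S24

variable {K F : Type*} [Field K] [Field F] [Algebra K F]

/-- A zero of `x - c` is not a pole of `x`. -/
theorem ord_nonneg_of_zero {x : F} (v : Place K F) {c : K}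
    (hc : 0 < v.ord (x - algebraMap K F c)) : 0 ≤ v.ord x := by
  by_contra hneg
  push Not at hneg
  rw [OrdBasic.ord_sub_algebraMap_of_neg v hneg c] at hc
  omega

variable [IsAlgClosed K] [CharZero K]

/-- Every place is a pole of `x` or a zero of `x - c` for some constant `c`. -/
theorem pole_or_zero (hF : IsFunctionField1 K F) {x : F} (hx : Transcendental K x)
    (v : Place K F) : v.ord x < 0 ∨ ∃ c : K, 0 < v.ord (x - algebraMap K F c) := by
  by_cases h : v.ord x < 0
  · exact Or.inl h
  · right
    have hx0 : x ≠ 0 := by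
      rintro rfl
      exact hx isAlgebraic_zero
    obtain ⟨c, hc | hc⟩ := exists_const_ord_sub_pos v (KaehlerGen.FF.oneVariable hF)
      ((mem_valuationSubring_iff_ord_nonneg v hx0).mpr (not_lt.mp h))
    · exact absurd (hc ▸ isAlgebraic_algebraMap c) hx
    · exact ⟨c, hc⟩

/-- The order of `dx` at a zero of `x - c`. -/
theorem ordDifferential_D_of_zero (hF : IsFunctionField1 K F) {x : F} (v : Place K F) {c : K}
    (hc : 0 < v.ord (x - algebraMap K F c)) :
    v.ordDifferential (D K F x) = v.ord (x - algebraMap K F c) - 1 := by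
  have h1 : D K F (x - algebraMap K F c) = D K F x := by
    rw [map_sub, Derivation.map_algebraMap, sub_zero]
  rw [← h1]
  exact DiffOrder.ordDifferential_D hF v _ (ne_of_gt hc)

/-- The order of `dx` at a pole of `x`. -/
theorem ordDifferential_D_of_pole (hF : IsFunctionField1 K F) {x : F} (v : Place K F)
    (hv : v.ord x < 0) : v.ordDifferential (D K F x) = v.ord x - 1 :=
  DiffOrder.ordDifferential_D hF v _ (ne_of_lt hv)

/-- **(D)** The Riemann–Roch space of the divisor of `dx`, in the shape of the
Dedekind–Weber dual lattices. -/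
theorem mem_riemannRochSpace_div_D_iff (hF : IsFunctionField1 K F) {x : F}
    (hx : Transcendental K x) (W : Divisor K F)
    (hW : ∀ v : Place K F, W v = v.ordDifferential (D K F x)) (h : F) :
    h ∈ riemannRochSpace W ↔
      (∀ (v : Place K F) (c : K), 0 < v.ord (x - algebraMap K F c) →
        h = 0 ∨ 1 ≤ v.ord h + v.ord (x - algebraMap K F c)) ∧
      (∀ v : Place K F, v.ord x < 0 → h = 0 ∨ 1 ≤ v.ord (x ^ 2 * h) - v.ord x) := by
  have hx0 : x ≠ 0 := by
    rintro rfl
    exact hx isAlgebraic_zero
  have hpole : ∀ v : Place K F, h ≠ 0 → v.ord (x ^ 2 * h) = 2 * v.ord x + v.ord h := by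
    intro v hh
    rw [Place.ord_mul v (pow_ne_zero 2 hx0) hh, pow_two, Place.ord_mul v hx0 hx0]
    ring
  rw [mem_riemannRochSpace_iff]
  constructor
  · intro H
    refine ⟨fun v c hc => ?_, fun v hv => ?_⟩
    · rcases H v with h0 | h1
      · exact Or.inl h0
      · right
        rw [hW v, ordDifferential_D_of_zero hF v hc] at h1
        omega
    · rcases H v with h0 | h1
      · exact Or.inl h0
      · by_cases hh : h = 0
        · exact Or.inl hh
        right
        rw [hW v, ordDifferential_D_of_pole hF v hv] at h1
        rw [hpole v hh]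
        omega
  · rintro ⟨H1, H2⟩ v
    by_cases hh : h = 0
    · exact Or.inl hh
    right
    rcases pole_or_zero hF hx v with hv | ⟨c, hc⟩
    · rw [hW v, ordDifferential_D_of_pole hF v hv]
      have := (H2 v hv).resolve_left hh
      rw [hpole v hh] at this
      omega
    · rw [hW v, ordDifferential_D_of_zero hF v hc]
      have := (H1 v c hc).resolve_left hh
      omega

end Fermat.Agent.S20.DWDictDiff
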