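/-
S20 / Dedekind–Weber line, piece DW.quot (helper56).

`A` a Dedekind domain which is an algebra over a field `K` such that every residue field of `A`
at a maximal ideal is `K` (elementary form: `A = K + P` for every height one prime `P`).
For nonzero fractional ideals `I ≤ J` the quotient `J / I` is a finite dimensional `K`-vector space
of dimension `∑ᶠ v, (count v I - count v J)`.
-/
import Mathlib

set_option autoImplicit false

namespace Fermat.Agent.S20.DWQuot

open IsDedekindDomain Module

/-! ### Relative quotients of submodules and additivity of the rank in chains -/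

section RelQuot

variable {K A V : Type*} [Field K] [CommRing A] [Algebra K A] [AddCommGroup V] [Module A V]
  [Module K V] [IsScalarTower K A V]

/-- The quotient `M / N` for submodules `N ≤ M` (junk `M / (N ⊓ M)` in general). -/
abbrev RelQuot (N M : Submodule A V) : Type _ := ↥M ⧸ N.comap M.subtype

/-- `L/N → L/M`. -/
def relFactor (N M L : Submodule A V) (hNM : N ≤ M) : RelQuot N L →ₗ[A] RelQuot M L :=
  Submodule.factor (Submodule.comap_mono hNM)

/-- `M/N → L/N`. -/
def relIncl (N M L : Submodule A V) (hML : M ≤ L) : RelQuot N M →ₗ[A] RelQuot N L :=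
  Submodule.mapQ _ _ (Submodule.inclusion hML) (by
    intro x hx
    exact hx)

theorem relIncl_mk (N M L : Submodule A V) (hML : M ≤ L) (x : M) :
    relIncl N M L hML (Submodule.Quotient.mk x) =
      Submodule.Quotient.mk (Submodule.inclusion hML x) := rfl

theorem relFactor_mk (N M L : Submodule A V) (hNM : N ≤ M) (x : L) :
    relFactor N M L hNM (Submodule.Quotient.mk x) = Submodule.Quotient.mk x := rfl

theorem relFactor_surjective (N M L : Submodule A V) (hNM : N ≤ M) :
    Function.Surjective (relFactor N M L hNM) := by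
  intro y
  obtain ⟨x, rfl⟩ := Submodule.Quotient.mk_surjective _ y
  exact ⟨Submodule.Quotient.mk x, rfl⟩

theorem relIncl_injective (N M L : Submodule A V) (hML : M ≤ L) :
    Function.Injective (relIncl N M L hML) := by
  rw [← LinearMap.ker_eq_bot, eq_bot_iff]
  intro y hy
  obtain ⟨x, rfl⟩ := Submodule.Quotient.mk_surjective _ y
  rw [LinearMap.mem_ker, relIncl_mk, Submodule.Quotient.mk_eq_zero] at hy
  rw [Submodule.mem_bot, Submodule.Quotient.mk_eq_zero]
  exact hy

theorem mem_range_relIncl_iff (N M L : Submodule A V) (hNM : N ≤ M) (hML : M ≤ L)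
    (y : RelQuot N L) :
    (∃ z, relIncl N M L hML z = y) ↔ relFactor N M L hNM y = 0 := by
  obtain ⟨x, rfl⟩ := Submodule.Quotient.mk_surjective _ y
  rw [relFactor_mk, Submodule.Quotient.mk_eq_zero]
  constructor
  · rintro ⟨z, hz⟩
    obtain ⟨w, rfl⟩ := Submodule.Quotient.mk_surjective _ z
    rw [relIncl_mk, Submodule.Quotient.eq] at hz
    have h1 : (w : V) - (x : V) ∈ N := hz
    have h2 : (x : V) = (w : V) - ((w : V) - (x : V)) := by abel
    show (x : V) ∈ M
    rw [h2]
    exact M.sub_mem w.2 (hNM h1)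
  · intro hx
    exact ⟨Submodule.Quotient.mk ⟨x.1, hx⟩, rfl⟩

theorem rank_relQuot_add (N M L : Submodule A V) (hNM : N ≤ M) (hML : M ≤ L) :
    Module.rank K (RelQuot N L) = Module.rank K (RelQuot N M) + Module.rank K (RelQuot M L) := by
  have hgs : Function.Surjective ((relFactor N M L hNM).restrictScalars K) :=
    relFactor_surjective N M L hNM
  have hfi : Function.Injective ((relIncl N M L hML).restrictScalars K) :=
    relIncl_injective N M L hML
  have hfg : LinearMap.range ((relIncl N M L hML).restrictScalars K) =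
      LinearMap.ker ((relFactor N M L hNM).restrictScalars K) := by
    ext y
    rw [LinearMap.mem_range, LinearMap.mem_ker]
    exact mem_range_relIncl_iff N M L hNM hML y
  have h1 := LinearMap.rank_range_add_rank_ker ((relFactor N M L hNM).restrictScalars K)
  rw [rank_range_of_surjective _ hgs, ← hfg,
    ← (LinearEquiv.ofInjective _ hfi).rank_eq] at h1
  rw [← h1, add_comm]

end RelQuot

/-! ### Dedekind domains whose residue fields are the base field -/

section Dedekind

variable (K : Type*) [Field K] {A : Type*} [CommRing A] [IsDedekindDomain A] [Algebra K A]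
  {F : Type*} [Field F] [Algebra A F] [IsFractionRing A F] [Algebra K F] [IsScalarTower K A F]

/-- The quotient `J / I` of fractional ideals, as an `A`-module (and `K`-vector space). -/
abbrev FQuot (I J : FractionalIdeal (nonZeroDivisors A) F) : Type _ :=
  RelQuot (I : Submodule A F) (J : Submodule A F)

/-- All residue fields of `A` are `K`: `A = K + P` for every height one prime `P`. -/
def ResidueFieldsTrivial (K : Type*) [Field K] (A : Type*) [CommRing A] [IsDedekindDomain A]
    [Algebra K A] : Prop :=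
  ∀ (v : HeightOneSpectrum A) (a : A), ∃ c : K, a - algebraMap K A c ∈ v.asIdeal

variable {K}

theorem rank_one_quot_prime (hres : ResidueFieldsTrivial K A) (v : HeightOneSpectrum A) :
    Module.rank K (FQuot (F := F) (v.asIdeal : FractionalIdeal (nonZeroDivisors A) F) 1) = 1 := by
  rw [Module.rank_eq_one_iff_finrank_eq_one]
  have h1 : (1 : F) ∈ ((1 : FractionalIdeal (nonZeroDivisors A) F) : Submodule A F) :=
    (FractionalIdeal.mem_one_iff _).mpr ⟨1, map_one _⟩
  set e : FQuot (F := F) (v.asIdeal : FractionalIdeal (nonZeroDivisors A) F) 1 :=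
    Submodule.Quotient.mk ⟨1, h1⟩ with he
  have he0 : e ≠ 0 := by
    rw [he, Ne, Submodule.Quotient.mk_eq_zero]
    intro h
    have h2 : (1 : F) ∈ (v.asIdeal : FractionalIdeal (nonZeroDivisors A) F) := h
    obtain ⟨x, hx, hx1⟩ := (FractionalIdeal.mem_coeIdeal _).mp h2
    have hx2 : x = 1 := by
      apply IsFractionRing.injective A F
      rw [hx1, map_one]
    rw [hx2] at hx
    exact v.isPrime.ne_top ((Ideal.eq_top_iff_one _).mpr hx)
  rw [finrank_eq_one_iff_of_nonzero' e he0]
  intro w
  obtain ⟨⟨y, hy⟩, rfl⟩ := Submodule.Quotient.mk_surjective _ w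
  obtain ⟨a, rfl⟩ := (FractionalIdeal.mem_one_iff _).mp hy
  obtain ⟨c, hc⟩ := hres v a
  refine ⟨c, ?_⟩
  rw [he, ← Submodule.Quotient.mk_smul, Submodule.Quotient.eq]
  show ((c • (⟨1, h1⟩ : ↥((1 : FractionalIdeal (nonZeroDivisors A) F) : Submodule A F))
      - ⟨algebraMap A F a, hy⟩ : ↥((1 : FractionalIdeal (nonZeroDivisors A) F) : Submodule A F)) : F)
      ∈ (v.asIdeal : FractionalIdeal (nonZeroDivisors A) F)
  rw [FractionalIdeal.mem_coeIdeal]
  refine ⟨algebraMap K A c - a, ?_, ?_⟩
  · have := v.asIdeal.neg_mem hc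
    rwa [neg_sub] at this
  · rw [map_sub, ← IsScalarTower.algebraMap_apply]
    simp [Algebra.smul_def]

theorem rank_quot_mul_prime (hres : ResidueFieldsTrivial K A) (v : HeightOneSpectrum A)
    (J : FractionalIdeal (nonZeroDivisors A) F) (hJ : J ≠ 0) :
    Module.rank K (FQuot (J * (v.asIdeal : FractionalIdeal (nonZeroDivisors A) F)) J) = 1 := by
  have hv0 : (v.asIdeal : FractionalIdeal (nonZeroDivisors A) F) ≠ 0 :=
    FractionalIdeal.coeIdeal_ne_zero.mpr v.ne_bot
  have hle : J * (v.asIdeal : FractionalIdeal (nonZeroDivisors A) F) ≤ J := by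
    calc J * (v.asIdeal : FractionalIdeal (nonZeroDivisors A) F) ≤ J * 1 := by
          gcongr
          exact FractionalIdeal.coeIdeal_le_one
      _ = J := mul_one J
  have e := FractionalIdeal.quotientEquiv J
    (J * (v.asIdeal : FractionalIdeal (nonZeroDivisors A) F)) 1
    (v.asIdeal : FractionalIdeal (nonZeroDivisors A) F) (by rw [one_mul]) hle
    FractionalIdeal.coeIdeal_le_one hv0 hJ
  rw [← rank_one_quot_prime (F := F) hres v]
  exact (e.restrictScalars K).rank_eq

/-- The degree of a fractional ideal: the sum of all its exponents. -/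
noncomputable def deg (I : FractionalIdeal (nonZeroDivisors A) F) : ℤ :=
  ∑ᶠ v : HeightOneSpectrum A, FractionalIdeal.count F v I

theorem count_hasFiniteSupport (I : FractionalIdeal (nonZeroDivisors A) F) :
    (Function.support fun v : HeightOneSpectrum A => FractionalIdeal.count F v I).Finite := by
  have := FractionalIdeal.finite_factors I
  rw [Filter.eventually_cofinite] at this
  exact this

theorem deg_mul {I J : FractionalIdeal (nonZeroDivisors A) F} (hI : I ≠ 0) (hJ : J ≠ 0) :
    deg (I * J) = deg I + deg J := by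
  unfold deg
  rw [← finsum_add_distrib (count_hasFiniteSupport I) (count_hasFiniteSupport J)]
  exact finsum_congr fun v => FractionalIdeal.count_mul F v hI hJ

theorem deg_one : deg (1 : FractionalIdeal (nonZeroDivisors A) F) = 0 := by
  unfold deg
  simp [FractionalIdeal.count_one]

theorem deg_prime (v : HeightOneSpectrum A) :
    deg (v.asIdeal : FractionalIdeal (nonZeroDivisors A) F) = 1 := by
  classical
  unfold deg
  rw [finsum_eq_single _ v]
  · rw [FractionalIdeal.count_maximal, if_pos rfl]
  · intro w hw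
    rw [FractionalIdeal.count_maximal, if_neg (Ne.symm hw)]

theorem deg_inv (I : FractionalIdeal (nonZeroDivisors A) F) : deg I⁻¹ = - deg I := by
  unfold deg
  rw [← finsum_neg_distrib]
  exact finsum_congr fun v => FractionalIdeal.count_inv F v I

/-- Main induction: `J / J𝔞` has dimension `deg 𝔞`. -/
theorem rank_quot_mul_ideal (hres : ResidueFieldsTrivial K A) (𝔞 : Ideal A) :
    𝔞 ≠ 0 → ∃ n : ℕ, (n : ℤ) = deg (𝔞 : FractionalIdeal (nonZeroDivisors A) F) ∧
      ∀ J : FractionalIdeal (nonZeroDivisors A) F, J ≠ 0 →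
        Module.rank K (FQuot (J * (𝔞 : FractionalIdeal (nonZeroDivisors A) F)) J) = n := by
  induction 𝔞 using UniqueFactorizationMonoid.induction_on_prime with
  | h₁ => intro h; exact absurd rfl h
  | h₂ x hx =>
    intro _
    have hx1 : x = ⊤ := by rwa [Ideal.isUnit_iff] at hx
    subst hx1
    refine ⟨0, ?_, ?_⟩
    · rw [FractionalIdeal.coeIdeal_top, deg_one, Nat.cast_zero]
    · intro J _
      rw [FractionalIdeal.coeIdeal_top, mul_one, Nat.cast_zero]
      have : Subsingleton (FQuot J J) := by
        apply Submodule.Quotient.subsingleton_iff.mpr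
        rw [eq_top_iff]
        intro y _
        exact y.2
      exact rank_subsingleton' K _
  | h₃ 𝔟 p h𝔟 hp ih =>
    intro _
    obtain ⟨n, hn, ih⟩ := ih h𝔟
    have hpP : p.IsPrime := Ideal.isPrime_of_prime hp
    let v : HeightOneSpectrum A := ⟨p, hpP, hp.ne_zero⟩
    have hv0 : (p : FractionalIdeal (nonZeroDivisors A) F) ≠ 0 :=
      FractionalIdeal.coeIdeal_ne_zero.mpr hp.ne_zero
    have hb0 : (𝔟 : FractionalIdeal (nonZeroDivisors A) F) ≠ 0 :=
      FractionalIdeal.coeIdeal_ne_zero.mpr h𝔟
    refine ⟨n + 1, ?_, ?_⟩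
    · rw [FractionalIdeal.coeIdeal_mul, deg_mul hv0 hb0, ← hn]
      have : deg (p : FractionalIdeal (nonZeroDivisors A) F) = 1 := deg_prime (F := F) v
      rw [this]
      push_cast
      ring
    · intro J hJ
      have hJp : J * (p : FractionalIdeal (nonZeroDivisors A) F) ≠ 0 := mul_ne_zero hJ hv0
      have h1 : J * ((p * 𝔟 : Ideal A) : FractionalIdeal (nonZeroDivisors A) F) =
          J * (p : FractionalIdeal (nonZeroDivisors A) F) *
            (𝔟 : FractionalIdeal (nonZeroDivisors A) F) := by
        rw [FractionalIdeal.coeIdeal_mul, mul_assoc]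
      have hle1 : J * (p : FractionalIdeal (nonZeroDivisors A) F) *
          (𝔟 : FractionalIdeal (nonZeroDivisors A) F) ≤
          J * (p : FractionalIdeal (nonZeroDivisors A) F) := by
        calc J * (p : FractionalIdeal (nonZeroDivisors A) F) *
              (𝔟 : FractionalIdeal (nonZeroDivisors A) F)
            ≤ J * (p : FractionalIdeal (nonZeroDivisors A) F) * 1 := by
              gcongr
              exact FractionalIdeal.coeIdeal_le_one
          _ = _ := mul_one _
      have hle2 : J * (p : FractionalIdeal (nonZeroDivisors A) F) ≤ J := by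
        calc J * (p : FractionalIdeal (nonZeroDivisors A) F) ≤ J * 1 := by
              gcongr
              exact FractionalIdeal.coeIdeal_le_one
          _ = J := mul_one J
      rw [h1]
      have hadd := rank_relQuot_add (K := K)
        ((J * (p : FractionalIdeal (nonZeroDivisors A) F) *
            (𝔟 : FractionalIdeal (nonZeroDivisors A) F) :
            FractionalIdeal (nonZeroDivisors A) F) : Submodule A F)
        ((J * (p : FractionalIdeal (nonZeroDivisors A) F) :
            FractionalIdeal (nonZeroDivisors A) F) : Submodule A F)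
        (J : Submodule A F)
        (FractionalIdeal.coe_le_coe.mpr hle1) (FractionalIdeal.coe_le_coe.mpr hle2)
      have h2 := ih (J * (p : FractionalIdeal (nonZeroDivisors A) F)) hJp
      have h3 := rank_quot_mul_prime (F := F) hres v J hJ
      rw [hadd, h2, h3]
      push_cast
      rfl

theorem deg_sub_eq_finsum (I J : FractionalIdeal (nonZeroDivisors A) F) :
    deg I - deg J =
      ∑ᶠ v : HeightOneSpectrum A, (FractionalIdeal.count F v I - FractionalIdeal.count F v J) := by
  unfold deg
  rw [finsum_sub_distrib (count_hasFiniteSupport I) (count_hasFiniteSupport J)]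

/-- **DW.quot**, cardinal form. -/
theorem rank_quot (hres : ResidueFieldsTrivial K A) {I J : FractionalIdeal (nonZeroDivisors A) F}
    (hI : I ≠ 0) (hIJ : I ≤ J) :
    ∃ n : ℕ, (n : ℤ) = deg I - deg J ∧ Module.rank K (FQuot I J) = n := by
  have hJ : J ≠ 0 := by
    rintro rfl
    exact hI (le_bot_iff.mp hIJ)
  have hle : I * J⁻¹ ≤ 1 := by
    calc I * J⁻¹ ≤ J * J⁻¹ := by gcongr
      _ = 1 := mul_inv_cancel₀ hJ
  obtain ⟨𝔞, h𝔞⟩ := FractionalIdeal.le_one_iff_exists_coeIdeal.mp hle
  have h𝔞0 : 𝔞 ≠ 0 := by
    rintro rfl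
    rw [Ideal.zero_eq_bot, FractionalIdeal.coeIdeal_bot] at h𝔞
    exact mul_ne_zero hI (inv_ne_zero hJ) h𝔞.symm
  obtain ⟨n, hn, hr⟩ := rank_quot_mul_ideal (F := F) hres 𝔞 h𝔞0
  have hI' : J * (𝔞 : FractionalIdeal (nonZeroDivisors A) F) = I := by
    rw [h𝔞, mul_comm I, ← mul_assoc, mul_inv_cancel₀ hJ, one_mul]
  refine ⟨n, ?_, ?_⟩
  · rw [hn, h𝔞, deg_mul hI (inv_ne_zero hJ), deg_inv]
    ring
  · have := hr J hJ
    rwa [hI'] at this

theorem finite_quot (hres : ResidueFieldsTrivial K A) {I J : FractionalIdeal (nonZeroDivisors A) F}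
    (hI : I ≠ 0) (hIJ : I ≤ J) : Module.Finite K (FQuot I J) := by
  obtain ⟨n, -, hr⟩ := rank_quot (F := F) hres hI hIJ
  rw [← Module.rank_lt_aleph0_iff, hr]
  exact Cardinal.natCast_lt_aleph0

/-- **DW.quot**: `dim_K (J / I) = ∑ᶠ v, (count v I - count v J)` for fractional ideals `0 ≠ I ≤ J`
of a Dedekind domain all of whose residue fields are `K`. -/
theorem finrank_quot (hres : ResidueFieldsTrivial K A) {I J : FractionalIdeal (nonZeroDivisors A) F}
    (hI : I ≠ 0) (hIJ : I ≤ J) :
    (Module.finrank K (FQuot I J) : ℤ) =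
      ∑ᶠ v : HeightOneSpectrum A, (FractionalIdeal.count F v I - FractionalIdeal.count F v J) := by
  obtain ⟨n, hn, hr⟩ := rank_quot (F := F) hres hI hIJ
  rw [Module.finrank_eq_of_rank_eq hr, hn, deg_sub_eq_finsum]

/-! ### Version for `K`-subspaces of `F` given by their carriers -/

/-- Identify `M / N` (for `K`-subspaces with the carriers of `J`, `I`) with `J / I`. -/
noncomputable def quotEquivOfCarrier {I J : FractionalIdeal (nonZeroDivisors A) F}
    (N M : Submodule K F) (hN : ∀ x, x ∈ N ↔ x ∈ I) (hM : ∀ x, x ∈ M ↔ x ∈ J) :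
    (↥M ⧸ N.comap M.subtype) ≃ₗ[K] FQuot I J :=
  let f : ↥M ≃ₗ[K] ↥(J : Submodule A F) :=
    { toFun := fun x => ⟨x.1, (hM x.1).mp x.2⟩
      invFun := fun y => ⟨y.1, (hM y.1).mpr y.2⟩
      map_add' := fun _ _ => rfl
      map_smul' := fun _ _ => rfl
      left_inv := fun _ => rfl
      right_inv := fun _ => rfl }
  (Submodule.Quotient.equiv (N.comap M.subtype)
    ((Submodule.comap (J : Submodule A F).subtype (I : Submodule A F)).restrictScalars K) f (by
      ext y
      constructor
      · rintro ⟨x, hx, rfl⟩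
        exact (hN x.1).mp hx
      · intro hy
        exact ⟨⟨y.1, (hM y.1).mpr y.2⟩, (hN y.1).mpr hy, rfl⟩)).trans
    (Submodule.Quotient.restrictScalarsEquiv K _)

theorem finite_quot_of_carrier (hres : ResidueFieldsTrivial K A)
    {I J : FractionalIdeal (nonZeroDivisors A) F} (hI : I ≠ 0) (hIJ : I ≤ J)
    (N M : Submodule K F) (hN : ∀ x, x ∈ N ↔ x ∈ I) (hM : ∀ x, x ∈ M ↔ x ∈ J) :
    Module.Finite K (↥M ⧸ N.comap M.subtype) :=
  haveI := finite_quot (F := F) hres hI hIJ
  Module.Finite.equiv (quotEquivOfCarrier N M hN hM).symm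

theorem finrank_quot_of_carrier (hres : ResidueFieldsTrivial K A)
    {I J : FractionalIdeal (nonZeroDivisors A) F} (hI : I ≠ 0) (hIJ : I ≤ J)
    (N M : Submodule K F) (hN : ∀ x, x ∈ N ↔ x ∈ I) (hM : ∀ x, x ∈ M ↔ x ∈ J) :
    (Module.finrank K (↥M ⧸ N.comap M.subtype) : ℤ) =
      ∑ᶠ v : HeightOneSpectrum A, (FractionalIdeal.count F v I - FractionalIdeal.count F v J) := by
  rw [(quotEquivOfCarrier N M hN hM).finrank_eq, finrank_quot (F := F) hres hI hIJ]

end Dedekind

end Fermat.Agent.S20.DWQuot
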