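/-
S20, Dedekind–Weber route, piece (D): the different in the tame case.
Owner: helper30.

If `p B = P ^ e * Q` with `P ^ e` and `Q` coprime and the residue field `A ⧸ p` has characteristic
zero (or, more generally, `finrank (A ⧸ p) (B ⧸ P ^ e)` is nonzero in `A ⧸ p`), then
`P ^ e` does not divide the different ideal.  Together with Mathlib's
`pow_sub_one_dvd_differentIdeal` this pins down the exponent `e - 1`.
-/
import Mathlib

set_option autoImplicit false
set_option linter.unusedSectionVars false
set_option linter.style.haveILetI false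

namespace Fermat.Agent.S20.TameDifferent

open Module nonZeroDivisors

attribute [local instance] FractionRing.liftAlgebra FractionRing.isScalarTower_liftAlgebra
  Ideal.Quotient.field

variable (A : Type*) {B : Type*} [CommRing A] [CommRing B] [Algebra A B]
  [IsDedekindDomain A] [IsDedekindDomain B] [IsTorsionFree A B] [Module.Finite A B]

/-- Tame case: a coprime factor `P'` of `p B` with `finrank (A ⧸ p) (B ⧸ P')` invertible in the
residue field does not divide the different. -/
theorem not_dvd_differentIdeal_of_finrank_ne_zero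
    [Algebra.IsSeparable (FractionRing A) (FractionRing B)]
    {p : Ideal A} [p.IsMaximal] (P' Q : Ideal B)
    (hPQ : IsCoprime P' Q) (hP : P' * Q = Ideal.map (algebraMap A B) p)
    (hle : p ≤ P'.comap (algebraMap A B))
    (htame : letI : Algebra (A ⧸ p) (B ⧸ P') := Ideal.Quotient.algebraQuotientOfLEComap hle
      ((Module.finrank (A ⧸ p) (B ⧸ P') : ℕ) : A ⧸ p) ≠ 0) :
    ¬ P' ∣ differentIdeal A B := by
  let : Algebra (A ⧸ p) (B ⧸ P') := Ideal.Quotient.algebraQuotientOfLEComap hle
  let : Algebra (A ⧸ p) (B ⧸ Q) := Ideal.Quotient.algebraQuotientOfLEComap (by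
      rw [← Ideal.map_le_iff_le_comap, ← hP]
      exact Ideal.mul_le_right)
  have : IsScalarTower A (A ⧸ p) (B ⧸ Q) := .of_algebraMap_eq' rfl
  have : IsScalarTower A (A ⧸ p) (B ⧸ P') := .of_algebraMap_eq' rfl
  have : Module.Finite (A ⧸ p) (B ⧸ Q) :=
    Module.Finite.of_restrictScalars_finite A (A ⧸ p) (B ⧸ Q)
  have : Module.Finite (A ⧸ p) (B ⧸ P') :=
    Module.Finite.of_restrictScalars_finite A (A ⧸ p) (B ⧸ P')
  let e : (B ⧸ p.map (algebraMap A B)) ≃ₐ[A ⧸ p] ((B ⧸ P') × B ⧸ Q) :=
    { __ := (Ideal.quotEquivOfEq hP.symm).trans (Ideal.quotientMulEquivQuotientProd P' Q hPQ),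
      commutes' := Quotient.ind fun _ ↦ rfl }
  obtain ⟨y, hy⟩ := Ideal.Quotient.mk_surjective (e.symm (1, 0))
  refine not_dvd_differentIdeal_of_intTrace_not_mem A P' Q hP y ?_ ?_
  · have := congr((e $hy).2)
    simp at this
    simpa [e, Ideal.Quotient.eq_zero_iff_mem] using this
  · rw [← Ideal.Quotient.eq_zero_iff_mem, ← Algebra.trace_quotient_eq_of_isDedekindDomain,
      hy, Algebra.trace_eq_of_algEquiv, Algebra.trace_prod_apply]
    rw [map_zero, add_zero, ← map_one (algebraMap (A ⧸ p) (B ⧸ P')), Algebra.trace_algebraMap,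
      nsmul_one]
    exact htame

/-- Decomposition `p B = P ^ n * Q` with `P ^ n`, `Q` coprime, `n ≠ 0` and `n` maximal. -/
theorem exists_pow_mul_coprime (P : Ideal B) [P.IsMaximal] (hP0 : P ≠ ⊥) {p : Ideal A}
    [P.LiesOver p] :
    ∃ (n : ℕ) (Q : Ideal B), n ≠ 0 ∧ IsCoprime (P ^ n) Q ∧
      P ^ n * Q = p.map (algebraMap A B) ∧ ¬ p.map (algebraMap A B) ≤ P ^ (n + 1) := by
  classical
  have hinj : Function.Injective (algebraMap A B) := FaithfulSMul.algebraMap_injective A B
  have hover : p = P.comap (algebraMap A B) := Ideal.LiesOver.over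
  have hp0 : p ≠ ⊥ := by
    intro h
    apply hP0
    exact Ideal.eq_bot_of_comap_eq_bot (R := A) (by rw [← hover, h])
  set I := p.map (algebraMap A B) with hI
  have hI0 : I ≠ ⊥ := by
    rw [hI, ne_eq, Ideal.map_eq_bot_iff_of_injective hinj]
    exact hp0
  have hIP : I ≤ P := by
    rw [hI, Ideal.map_le_iff_le_comap, ← hover]
  have hirr : Irreducible P := (Ideal.prime_of_isPrime hP0 inferInstance).irreducible
  obtain ⟨n, Q, hPQ, hIQ⟩ := WfDvdMonoid.max_power_factor (Ideal.zero_eq_bot (R := B) ▸ hI0) hirr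
  have hPn0 : P ^ n ≠ 0 := pow_ne_zero n (Ideal.zero_eq_bot (R := B) ▸ hP0)
  have hn0 : n ≠ 0 := by
    rintro rfl
    apply hPQ
    rw [pow_zero, one_mul] at hIQ
    rw [Ideal.dvd_iff_le, ← hIQ]
    exact hIP
  have hcop : IsCoprime (P ^ n) Q := by
    refine IsCoprime.pow_left ?_
    rw [Ideal.isCoprime_iff_sup_eq]
    by_contra hne
    have h1 : P ⊔ Q = P := (Ideal.IsMaximal.eq_of_le inferInstance hne le_sup_left).symm
    apply hPQ
    rw [Ideal.dvd_iff_le, ← h1]
    exact le_sup_right
  refine ⟨n, Q, hn0, hcop, hIQ.symm, ?_⟩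
  rw [hIQ, ← Ideal.dvd_iff_le, pow_succ, mul_dvd_mul_iff_left hPn0]
  exact hPQ

/-- Residue characteristic zero: the exact exponent of `P` in the different is `n - 1`, where
`n` is the exponent of `P` in `p B`. -/
theorem pow_dvd_differentIdeal_and_not
    [Algebra.IsSeparable (FractionRing A) (FractionRing B)]
    (P : Ideal B) [P.IsMaximal] (hP0 : P ≠ ⊥) {p : Ideal A} [p.IsMaximal] [P.LiesOver p]
    [CharZero (A ⧸ p)] {n : ℕ} (hle : p.map (algebraMap A B) ≤ P ^ n)
    (hnot : ¬ p.map (algebraMap A B) ≤ P ^ (n + 1)) :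
    P ^ (n - 1) ∣ differentIdeal A B ∧ ¬ P ^ n ∣ differentIdeal A B := by
  classical
  have hover : p = P.comap (algebraMap A B) := Ideal.LiesOver.over
  have hp0 : p ≠ ⊥ := by
    intro h
    apply hP0
    exact Ideal.eq_bot_of_comap_eq_bot (R := A) (by rw [← hover, h])
  refine ⟨pow_sub_one_dvd_differentIdeal A P n hp0 (Ideal.dvd_iff_le.mpr hle), ?_⟩
  obtain ⟨m, Q, hm0, hcop, hIQ, hmnot⟩ := exists_pow_mul_coprime A P hP0 (p := p)
  have hmle : p.map (algebraMap A B) ≤ P ^ m := by
    rw [← hIQ]; exact Ideal.mul_le_left (I := P ^ m) (J := Q)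
  -- `m = n`
  have hmn : m = n := by
    rcases lt_trichotomy m n with h | h | h
    · exact absurd (hle.trans (Ideal.pow_le_pow_right h)) hmnot
    · exact h
    · exact absurd (hmle.trans (Ideal.pow_le_pow_right h)) hnot
  subst hmn
  have hle' : p ≤ (P ^ m).comap (algebraMap A B) := Ideal.map_le_iff_le_comap.mp hmle
  refine not_dvd_differentIdeal_of_finrank_ne_zero A (P ^ m) Q hcop hIQ hle' ?_
  let : Algebra (A ⧸ p) (B ⧸ P ^ m) := Ideal.Quotient.algebraQuotientOfLEComap hle'
  have : IsScalarTower A (A ⧸ p) (B ⧸ P ^ m) := .of_algebraMap_eq' rfl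
  have : Module.Finite (A ⧸ p) (B ⧸ P ^ m) :=
    Module.Finite.of_restrictScalars_finite A (A ⧸ p) (B ⧸ P ^ m)
  have hnt : Nontrivial (B ⧸ P ^ m) := by
    rw [Ideal.Quotient.nontrivial_iff]
    intro h
    have : P ^ m ≤ P := Ideal.pow_le_self hm0
    rw [h, top_le_iff] at this
    exact (Ideal.IsMaximal.ne_top inferInstance) this
  show ((Module.finrank (A ⧸ p) (B ⧸ P ^ m) : ℕ) : A ⧸ p) ≠ 0
  rw [Nat.cast_ne_zero]
  exact (Module.finrank_pos (R := A ⧸ p) (M := B ⧸ P ^ m)).ne'

section Valuation

open IsDedekindDomain WithZero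

variable (K L : Type*) [Field K] [Field L] [Algebra A K] [IsFractionRing A K] [Algebra B L]
  [IsFractionRing B L] [Algebra K L] [Algebra A L] [IsScalarTower A K L] [IsScalarTower A B L]
  [FiniteDimensional K L] [Algebra.IsSeparable K L]

include K L in
/-- Separability transfers to the canonical fraction rings. -/
theorem isSeparable_fractionRing :
    Algebra.IsSeparable (FractionRing A) (FractionRing B) := by
  have H : RingHom.comp (algebraMap (FractionRing A) (FractionRing B))
      ↑(FractionRing.algEquiv A K).symm.toRingEquiv =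
        RingHom.comp ↑(FractionRing.algEquiv B L).symm.toRingEquiv (algebraMap K L) := by
    apply IsLocalization.ringHom_ext A⁰
    ext
    simp only [RingHom.coe_comp, RingHom.coe_coe,
      AlgEquiv.coe_ringEquiv, Function.comp_apply, AlgEquiv.commutes,
      ← IsScalarTower.algebraMap_apply]
    rw [IsScalarTower.algebraMap_apply A B L, AlgEquiv.commutes, ← IsScalarTower.algebraMap_apply]
  exact Algebra.IsSeparable.of_equiv_equiv _ _ H

/-- **Tame different, valuation form.**  In residue characteristic zero, `h` lies in the trace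
dual of `B` iff for every maximal ideal `P` of `B` and every `π ∈ P ∩ A` the product `h * π` has
positive `P`-adic order, i.e. `ord_P h ≥ -(e_P - 1)`. -/
theorem mem_traceDual_one_iff_forall_valuation_lt
    (hchar : ∀ p : Ideal A, p.IsMaximal → CharZero (A ⧸ p)) (h : L) :
    h ∈ Submodule.traceDual A K (1 : Submodule B L) ↔
      ∀ (P : HeightOneSpectrum B) (π : A), algebraMap A B π ∈ P.asIdeal →
        P.valuation L (h * algebraMap A L π) < 1 := by
  classical
  have hsep : Algebra.IsSeparable (FractionRing A) (FractionRing B) :=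
    isSeparable_fractionRing A K L
  have hint : Algebra.IsIntegral A B := inferInstance
  have hic : IsIntegralClosure B A L := IsIntegralClosure.of_isIntegrallyClosed B A L
  have hne1 : (1 : FractionalIdeal B⁰ L) ≠ 0 := one_ne_zero
  have hdual0 : FractionalIdeal.dual A K (1 : FractionalIdeal B⁰ L) ≠ 0 :=
    FractionalIdeal.dual_ne_zero A K hne1
  have hD : ((differentIdeal A B : Ideal B) : FractionalIdeal B⁰ L) =
      (FractionalIdeal.dual A K (1 : FractionalIdeal B⁰ L))⁻¹ := coeIdeal_differentIdeal A K L B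
  have hD0 : ((differentIdeal A B : Ideal B) : FractionalIdeal B⁰ L) ≠ 0 := by
    rw [hD]; exact inv_ne_zero hdual0
  have hmem : h ∈ Submodule.traceDual A K (1 : Submodule B L) ↔
      h ∈ ((differentIdeal A B : Ideal B) : FractionalIdeal B⁰ L)⁻¹ := by
    rw [hD, inv_inv, ← FractionalIdeal.mem_coe, FractionalIdeal.coe_dual_one]
  rw [hmem, FractionalIdeal.mem_inv_iff hD0]
  -- local data at a prime `P`
  have key : ∀ P : HeightOneSpectrum B, ∃ n : ℕ,
      (∀ π : A, algebraMap A B π ∈ P.asIdeal → algebraMap A B π ∈ P.asIdeal ^ n) ∧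
      (∃ π : A, algebraMap A B π ∈ P.asIdeal ∧ algebraMap A B π ∉ P.asIdeal ^ (n + 1)) ∧
      (differentIdeal A B ≤ P.asIdeal ^ (n - 1)) ∧
      (∃ d ∈ differentIdeal A B, d ∉ P.asIdeal ^ n) := by
    intro P
    haveI : P.asIdeal.IsMaximal := P.isMaximal
    haveI : (P.asIdeal.under A).IsMaximal := Ideal.IsMaximal.under A P.asIdeal
    haveI : P.asIdeal.LiesOver (P.asIdeal.under A) := Ideal.over_under P.asIdeal
    haveI : CharZero (A ⧸ P.asIdeal.under A) := hchar _ inferInstance
    obtain ⟨n, Q, hn0, hcop, hIQ, hnot⟩ :=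
      exists_pow_mul_coprime A P.asIdeal P.ne_bot (p := P.asIdeal.under A)
    have hle : (P.asIdeal.under A).map (algebraMap A B) ≤ P.asIdeal ^ n := by
      rw [← hIQ]; exact Ideal.mul_le_left (I := P.asIdeal ^ n) (J := Q)
    obtain ⟨h1, h2⟩ := pow_dvd_differentIdeal_and_not A P.asIdeal P.ne_bot
      (p := P.asIdeal.under A) hle hnot
    refine ⟨n, ?_, ?_, Ideal.dvd_iff_le.mp h1, ?_⟩
    · intro π hπ
      exact hle (Ideal.mem_map_of_mem _ (Ideal.mem_comap.mpr hπ))
    · rw [Ideal.map_le_iff_le_comap] at hnot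
      obtain ⟨π, hπ, hπ'⟩ := SetLike.not_le_iff_exists.mp hnot
      exact ⟨π, hπ, hπ'⟩
    · rw [Ideal.dvd_iff_le] at h2
      obtain ⟨d, hd, hd'⟩ := SetLike.not_le_iff_exists.mp h2
      exact ⟨d, hd, hd'⟩
  have hvmap : ∀ (P : HeightOneSpectrum B) (a : A),
      P.valuation L (algebraMap A L a) = P.intValuation (algebraMap A B a) := by
    intro P a
    rw [IsScalarTower.algebraMap_apply A B L, HeightOneSpectrum.valuation_of_algebraMap]
  constructor
  · intro hh P π hπ
    obtain ⟨n, hn1, -, -, d, hd, hdn⟩ := key P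
    -- `v (h d) ≤ 1`
    have h1 : P.valuation L (h * algebraMap B L d) ≤ 1 := by
      have := hh (algebraMap B L d) ((FractionalIdeal.mem_coeIdeal _).mpr ⟨d, hd, rfl⟩)
      obtain ⟨b, hb⟩ := (FractionalIdeal.mem_one_iff _).mp this
      rw [← hb]
      exact HeightOneSpectrum.valuation_le_one _ _
    have h2 : P.valuation L (algebraMap A L π) ≤ exp (-(n : ℤ)) := by
      rw [hvmap, HeightOneSpectrum.intValuation_le_pow_iff_mem]
      exact hn1 π hπ
    have h3 : exp (-(n : ℤ)) < P.valuation L (algebraMap B L d) := by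
      rw [HeightOneSpectrum.valuation_of_algebraMap, ← not_le,
        HeightOneSpectrum.intValuation_le_pow_iff_mem]
      exact hdn
    have hd0 : 0 < P.valuation L (algebraMap B L d) := lt_of_le_of_lt zero_le h3
    rw [← mul_lt_iff_lt_one_left hd0]
    calc P.valuation L (h * algebraMap A L π) * P.valuation L (algebraMap B L d)
        = P.valuation L (h * algebraMap B L d) * P.valuation L (algebraMap A L π) := by
          rw [map_mul, map_mul, mul_right_comm]
      _ ≤ 1 * exp (-(n : ℤ)) := mul_le_mul' h1 h2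
      _ = exp (-(n : ℤ)) := one_mul _
      _ < _ := h3
  · intro hh y hy
    obtain ⟨d, hd, rfl⟩ := (FractionalIdeal.mem_coeIdeal _).mp hy
    rw [FractionalIdeal.mem_one_iff]
    refine HeightOneSpectrum.mem_integers_of_valuation_le_one L _ fun P => ?_
    obtain ⟨n, -, ⟨π, hπ, hπn⟩, hDn, -⟩ := key P
    have h1 : P.valuation L (h * algebraMap A L π) < 1 := hh P π hπ
    have h2 : P.valuation L (algebraMap B L d) ≤ exp (-((n - 1 : ℕ) : ℤ)) := by
      rw [HeightOneSpectrum.valuation_of_algebraMap, HeightOneSpectrum.intValuation_le_pow_iff_mem]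
      exact hDn hd
    have h3 : exp (-((n + 1 : ℕ) : ℤ)) < P.valuation L (algebraMap A L π) := by
      rw [hvmap, ← not_le, HeightOneSpectrum.intValuation_le_pow_iff_mem]
      exact hπn
    have hπ0 : 0 < P.valuation L (algebraMap A L π) := lt_of_le_of_lt zero_le h3
    -- `exp (-n) ≤ v π`
    have h4 : exp (-(n : ℤ)) ≤ P.valuation L (algebraMap A L π) := by
      rw [← WithZero.lt_mul_exp_iff_le hπ0.ne']
      have : exp (-(n : ℤ)) = exp (-((n + 1 : ℕ) : ℤ)) * exp 1 := by
        rw [← exp_add]; congr 1; push_cast; ring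
      rw [this]
      exact mul_lt_mul_of_pos_right h3 (by simp)
    -- `v (h d) < exp 1`
    rw [← WithZero.lt_mul_exp_iff_le one_ne_zero, one_mul]
    rcases eq_or_ne d 0 with rfl | hd0
    · simp
    have hdpos : 0 < P.valuation L (algebraMap B L d) := by
      rw [Valuation.pos_iff]
      exact (map_ne_zero_iff _ (IsFractionRing.injective B L)).mpr hd0
    by_contra hcon
    rw [not_lt] at hcon
    -- `exp 1 * v π ≤ v (h d) * v π = v (h π) * v d < v d ≤ exp (-(n-1))`
    have h5 : exp (1 : ℤ) * P.valuation L (algebraMap A L π) <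
        P.valuation L (algebraMap B L d) := by
      calc exp (1 : ℤ) * P.valuation L (algebraMap A L π)
          ≤ P.valuation L (h * algebraMap B L d) * P.valuation L (algebraMap A L π) :=
            mul_le_mul_left hcon _
        _ = P.valuation L (h * algebraMap A L π) * P.valuation L (algebraMap B L d) := by
            rw [map_mul, map_mul, mul_right_comm]
        _ < 1 * P.valuation L (algebraMap B L d) := mul_lt_mul_of_pos_right h1 hdpos
        _ = _ := one_mul _
    have h6 : exp (1 : ℤ) * exp (-(n : ℤ)) ≤ exp (1 : ℤ) * P.valuation L (algebraMap A L π) :=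
      mul_le_mul_right h4 _
    have h7 : exp (1 : ℤ) * exp (-(n : ℤ)) < exp (-((n - 1 : ℕ) : ℤ)) :=
      lt_of_le_of_lt h6 (lt_of_lt_of_le h5 h2)
    rw [← exp_add, exp_lt_exp] at h7
    omega

end Valuation

omit [IsDedekindDomain A] in
/-- If `A` is an algebra over a field of characteristic zero then all its residue fields have
characteristic zero (the hypothesis `hchar` of `mem_traceDual_one_iff_forall_valuation_lt`). -/
theorem charZero_quotient_of_algebra (k : Type*) [Field k] [CharZero k] [Algebra k A]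
    (p : Ideal A) (hp : p.IsMaximal) : CharZero (A ⧸ p) :=
  haveI : Nontrivial (A ⧸ p) := Ideal.Quotient.nontrivial_iff.mpr hp.ne_top
  charZero_of_injective_algebraMap (algebraMap k (A ⧸ p)).injective

end Fermat.Agent.S20.TameDifferent
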