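import Mathlib
import Fermat.Prelude.Def_AlgebraicCurve_Repartitions
import Fermat.Agent.S24.Defs
import Fermat.Agent.S24.OrdBasic
import Fermat.Agent.S24.PlaceOfPrime
import Fermat.Agent.S24.PlaceDeg
import Fermat.Agent.S20.TameDifferent
import Fermat.Agent.S20.DWQuot
import Fermat.Agent.S20.DWDict
import Fermat.Agent.S20.DWDictDiff
import Fermat.Agent.S24.ZerosBackupThm

/-!
# S20 / Dedekind–Weber line, piece `DW.deg` (helper92): the two quotient dimensions

For a function field `F / K` (`K` algebraically closed of characteristic zero) presented as a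
finite extension of `K(X)` with `x` the image of `X`:

* `finrank_dualPoly_quot`: `dim_K A^∨ / A = Σ_{v finite} ord_v (dx)` (`A` = integral closure of
  `K[X]`, `A^∨` its trace dual), and `dx` has nonzero order at only finitely many finite places;
* `finrank_dualInfty_quot`: `dim_K B^∨ / B = Σ_{v | ∞} (-ord_v x - 1)` (`B` = integral closure of
  `O_∞`);
* `poles_finite_and_sum`, `finrank_adjoin_eq`.

Abstract core: `count_differentIdeal` (exponent of the different in residue characteristic zero),
`finrank_traceDual_quot`, `finrank_dual_quot_eq_finsum`.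
-/

set_option autoImplicit false
set_option linter.style.haveILetI false
set_option linter.unusedSectionVars false

open Polynomial AlgebraicCurve IsDedekindDomain Module nonZeroDivisors

namespace Fermat.Agent.S20.DWDegree

section Abstract

attribute [local instance] FractionRing.liftAlgebra FractionRing.isScalarTower_liftAlgebra

variable (A : Type*) {B : Type*} [CommRing A] [CommRing B] [Algebra A B]
  [IsDedekindDomain A] [IsDedekindDomain B] [IsTorsionFree A B] [Module.Finite A B]
variable (Kf L : Type*) [Field Kf] [Field L] [Algebra A Kf] [IsFractionRing A Kf] [Algebra B L]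
  [IsFractionRing B L] [Algebra Kf L] [Algebra A L] [IsScalarTower A Kf L] [IsScalarTower A B L]
  [FiniteDimensional Kf L] [Algebra.IsSeparable Kf L]

include Kf in
/-- The exponent of a prime `P` in the different is `e_P - 1`, where `e_P` is the exponent of `P`
in a generator `π` of `P ∩ A` (residue characteristic zero). -/
theorem count_differentIdeal (P : HeightOneSpectrum B) (π : A)
    (hπ : P.asIdeal.under A = Ideal.span {π}) [CharZero (A ⧸ P.asIdeal.under A)] :
    FractionalIdeal.count L P ((differentIdeal A B : Ideal B) : FractionalIdeal B⁰ L) =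
      (multiplicity P.asIdeal (Ideal.span {algebraMap A B π}) : ℤ) - 1 := by
  classical
  have hsep : Algebra.IsSeparable (FractionRing A) (FractionRing B) :=
    TameDifferent.isSeparable_fractionRing A Kf L
  haveI : P.asIdeal.IsMaximal := P.isMaximal
  haveI : (P.asIdeal.under A).IsMaximal := Ideal.IsMaximal.under A P.asIdeal
  haveI : P.asIdeal.LiesOver (P.asIdeal.under A) := Ideal.over_under P.asIdeal
  have hinj : Function.Injective (algebraMap A B) := FaithfulSMul.algebraMap_injective A B
  set n := multiplicity P.asIdeal (Ideal.span {algebraMap A B π}) with hn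
  -- `π ≠ 0`
  have hπ0 : π ≠ 0 := by
    rintro rfl
    have hbot : P.asIdeal.under A = ⊥ := by rw [hπ]; simp
    exact P.ne_bot (Ideal.eq_bot_of_comap_eq_bot (R := A) hbot)
  have hπB0 : algebraMap A B π ≠ 0 := (map_ne_zero_iff _ hinj).mpr hπ0
  have hval : P.intValuation (algebraMap A B π) = WithZero.exp (-(n : ℤ)) :=
    P.intValuation_eq_exp_neg_multiplicity hπB0
  have hmap : (P.asIdeal.under A).map (algebraMap A B) = Ideal.span {algebraMap A B π} := by
    rw [hπ, Ideal.map_span, Set.image_singleton]
  have hle : (P.asIdeal.under A).map (algebraMap A B) ≤ P.asIdeal ^ n := by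
    rw [hmap, Ideal.span_singleton_le_iff_mem, ← HeightOneSpectrum.intValuation_le_pow_iff_mem,
      hval]
  have hnot : ¬ (P.asIdeal.under A).map (algebraMap A B) ≤ P.asIdeal ^ (n + 1) := by
    rw [hmap, Ideal.span_singleton_le_iff_mem, ← HeightOneSpectrum.intValuation_le_pow_iff_mem,
      hval, WithZero.exp_le_exp]
    push_cast
    omega
  have hn1 : 1 ≤ n := by
    by_contra hcon
    have hn0 : n = 0 := by omega
    have hπP : algebraMap A B π ∈ P.asIdeal := by
      have : π ∈ P.asIdeal.under A := by rw [hπ]; exact Ideal.mem_span_singleton_self π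
      exact this
    rw [← HeightOneSpectrum.intValuation_lt_one_iff_mem, hval, hn0] at hπP
    simp at hπP
  obtain ⟨h1, h2⟩ := TameDifferent.pow_dvd_differentIdeal_and_not A P.asIdeal P.ne_bot
    (p := P.asIdeal.under A) hle hnot
  have hD0 : differentIdeal A B ≠ 0 := differentIdeal_ne_bot
  rw [FractionalIdeal.count_coe L P hD0,
    Ideal.count_associates_factors_eq hD0 P.isPrime P.ne_bot,
    Ideal.count_normalizedFactors_eq (n := n - 1) (Ideal.dvd_iff_le.mp h1)
      (by rw [Nat.sub_add_cancel hn1, ← Ideal.dvd_iff_le]; exact h2)]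
  push_cast [hn1]
  rfl

variable {k : Type*} [Field k] [Algebra k B] [Algebra k L] [IsScalarTower k B L]

include Kf in
/-- The dimension of `B^∨ / B` over the constant field is the degree of the different. -/
theorem finrank_traceDual_quot (hres : DWQuot.ResidueFieldsTrivial k B)
    (N M : Submodule k L) (hN : ∀ h, h ∈ N ↔ h ∈ (1 : Submodule B L))
    (hM : ∀ h, h ∈ M ↔ h ∈ Submodule.traceDual A Kf (1 : Submodule B L)) :
    Module.Finite k (↥M ⧸ N.comap M.subtype) ∧
    (Module.finrank k (↥M ⧸ N.comap M.subtype) : ℤ) =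
      ∑ᶠ P : HeightOneSpectrum B,
        FractionalIdeal.count L P ((differentIdeal A B : Ideal B) : FractionalIdeal B⁰ L) := by
  classical
  have hic : IsIntegralClosure B A L := IsIntegralClosure.of_isIntegrallyClosed B A L
  have hD : ((differentIdeal A B : Ideal B) : FractionalIdeal B⁰ L) =
      (FractionalIdeal.dual A Kf (1 : FractionalIdeal B⁰ L))⁻¹ := coeIdeal_differentIdeal A Kf L B
  have hJ : (FractionalIdeal.dual A Kf (1 : FractionalIdeal B⁰ L)) =
      ((differentIdeal A B : Ideal B) : FractionalIdeal B⁰ L)⁻¹ := by rw [hD, inv_inv]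
  have hI : (1 : FractionalIdeal B⁰ L) ≠ 0 := one_ne_zero
  have hIJ : (1 : FractionalIdeal B⁰ L) ≤ FractionalIdeal.dual A Kf (1 : FractionalIdeal B⁰ L) :=
    FractionalIdeal.one_le_dual_one A Kf
  have hN' : ∀ h, h ∈ N ↔ h ∈ (1 : FractionalIdeal B⁰ L) := by
    intro h
    rw [hN h, ← FractionalIdeal.mem_coe, FractionalIdeal.coe_one]
  have hM' : ∀ h, h ∈ M ↔ h ∈ FractionalIdeal.dual A Kf (1 : FractionalIdeal B⁰ L) := by
    intro h
    rw [hM h, ← FractionalIdeal.mem_coe, FractionalIdeal.coe_dual_one]
  refine ⟨DWQuot.finite_quot_of_carrier hres hI hIJ N M hN' hM', ?_⟩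
  rw [DWQuot.finrank_quot_of_carrier hres hI hIJ N M hN' hM']
  refine finsum_congr fun P => ?_
  rw [FractionalIdeal.count_one, hJ, FractionalIdeal.count_inv]
  ring

end Abstract

section Bridge

variable {K F : Type*} [Field K] [Field F] [Algebra K F] [IsAlgClosed K] [CharZero K]
variable (R Kf : Type*) [CommRing R] [IsDomain R] [IsPrincipalIdealRing R]
  [Field Kf] [Algebra R Kf] [IsFractionRing R Kf]
  [Algebra R F] [Algebra Kf F] [IsScalarTower R Kf F]
  [FiniteDimensional Kf F] [Algebra.IsSeparable Kf F]
  [Algebra K R] [IsScalarTower K R F]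

include Kf in
/-- Dimension of `B^∨ / B` for the integral closure `B` of a PID `R ⊆ Kf` in the function
field `F`, as a sum of `e_v - 1` over the places `v` of `F` whose valuation ring contains `R`. -/
theorem finrank_dual_quot_eq_finsum (hF : Fermat.Agent.S24.OneVariable K F)
    (e : Place K F → ℤ)
    (he : ∀ v : Place K F, (∀ r : R, algebraMap R F r ∈ v.toValuationSubring) →
      ∃ π : R, (∀ r : R, 0 < v.ord (algebraMap R F r) → π ∣ r) ∧
        0 < v.ord (algebraMap R F π) ∧ v.ord (algebraMap R F π) = e v)
    (N M : Submodule K F) (hN : ∀ h, h ∈ N ↔ h ∈ integralClosure R F)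
    (hM : ∀ h, h ∈ M ↔ ∀ y ∈ integralClosure R F,
      Algebra.trace Kf F (h * y) ∈ (algebraMap R Kf).range) :
    Module.Finite K (↥M ⧸ N.comap M.subtype) ∧
    (Module.finrank K (↥M ⧸ N.comap M.subtype) : ℤ) =
      ∑ᶠ v ∈ {v : Place K F | ∀ r : R, algebraMap R F r ∈ v.toValuationSubring}, (e v - 1) ∧
    {v : Place K F | (∀ r : R, algebraMap R F r ∈ v.toValuationSubring) ∧ e v - 1 ≠ 0}.Finite := by
  classical
  let B := integralClosure R F
  haveI : IsDedekindDomain B := integralClosure.isDedekindDomain R Kf F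
  haveI : IsFractionRing B F := integralClosure.isFractionRing_of_finite_extension Kf F
  haveI : Module.Finite R B := IsIntegralClosure.finite R Kf F B
  haveI : IsScalarTower K B F := IsScalarTower.of_algebraMap_eq (fun c => rfl)
  haveI : Module.IsTorsionFree R F := .trans_faithfulSMul R Kf F
  haveI : Module.IsTorsionFree R B := inferInstance
  have hinjB : Function.Injective (algebraMap B F) := IsFractionRing.injective B F
  -- the valuation ring of the place of `P` contains `R`
  have hRmem : ∀ (P : HeightOneSpectrum B) (r : R), algebraMap R F r ∈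
      (Place.ofHeightOneSpectrum (K := K) (F := F) P).toValuationSubring := by
    intro P r
    have := Fermat.Agent.S24.PlaceOfPrime.algebraMap_mem_ofHeightOneSpectrum (K := K) (F := F)
      P (algebraMap R B r)
    rwa [← IsScalarTower.algebraMap_apply R B F] at this
  -- residue fields are trivial
  have hres : DWQuot.ResidueFieldsTrivial K B := by
    intro P b
    set v : Place K F := Place.ofHeightOneSpectrum (K := K) (F := F) P with hv
    have hb : algebraMap B F b ∈ v.toValuationSubring :=
      Fermat.Agent.S24.PlaceOfPrime.algebraMap_mem_ofHeightOneSpectrum (K := K) (F := F) P b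
    obtain ⟨c, hc | hc⟩ := Fermat.Agent.S24.exists_const_ord_sub_pos v hF hb
    · refine ⟨c, ?_⟩
      have : b - algebraMap K B c = 0 := by
        apply hinjB
        rw [map_sub, map_zero, ← IsScalarTower.algebraMap_apply K B F, hc, sub_self]
      rw [this]
      exact zero_mem _
    · refine ⟨c, ?_⟩
      have hc' : 0 < v.ord (algebraMap B F (b - algebraMap K B c)) := by
        rwa [map_sub, ← IsScalarTower.algebraMap_apply K B F]
      have hne : b - algebraMap K B c ≠ 0 := by
        intro h0
        rw [h0, map_zero, Place.ord_zero] at hc'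
        exact lt_irrefl _ hc'
      exact (Fermat.Agent.S24.PlaceOfPrime.ord_algebraMap_pos_iff (K := K) (F := F) P hne).mp hc'
  -- the different has exponent `e v - 1` at `P`
  have hcount : ∀ P : HeightOneSpectrum B,
      FractionalIdeal.count F P ((differentIdeal R B : Ideal B) : FractionalIdeal B⁰ F) =
        e (Place.ofHeightOneSpectrum (K := K) (F := F) P) - 1 := by
    intro P
    set v : Place K F := Place.ofHeightOneSpectrum (K := K) (F := F) P with hv
    obtain ⟨π, hπdvd, hπpos, hπe⟩ := he v (hRmem P)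
    have hπB : algebraMap B F (algebraMap R B π) = algebraMap R F π :=
      (IsScalarTower.algebraMap_apply R B F π).symm
    have hπne : algebraMap R B π ≠ 0 := by
      intro h0
      rw [← hπB, h0, map_zero, Place.ord_zero] at hπpos
      exact lt_irrefl _ hπpos
    have hunder : P.asIdeal.under R = Ideal.span {π} := by
      apply le_antisymm
      · intro r hr
        rw [Ideal.mem_span_singleton]
        by_cases hr0 : algebraMap R B r = 0
        · have : r = 0 := by
            have hinj : Function.Injective (algebraMap R B) :=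
              FaithfulSMul.algebraMap_injective R B
            exact hinj (by rw [hr0, map_zero])
          rw [this]
          exact dvd_zero π
        · apply hπdvd
          have hr' : algebraMap R B r ∈ P.asIdeal := hr
          have := (Fermat.Agent.S24.PlaceOfPrime.ord_algebraMap_pos_iff (K := K) (F := F) P
            hr0).mpr hr'
          rwa [← IsScalarTower.algebraMap_apply R B F] at this
      · rw [Ideal.span_singleton_le_iff_mem]
        show algebraMap R B π ∈ P.asIdeal
        apply (Fermat.Agent.S24.PlaceOfPrime.ord_algebraMap_pos_iff (K := K) (F := F) P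
          hπne).mp
        rwa [hπB]
    haveI : CharZero (R ⧸ P.asIdeal.under R) := by
      haveI : P.asIdeal.IsMaximal := P.isMaximal
      exact TameDifferent.charZero_quotient_of_algebra R K _ (Ideal.IsMaximal.under R P.asIdeal)
    rw [count_differentIdeal R Kf F P π hunder,
      ← Fermat.Agent.S24.PlaceOfPrime.ord_algebraMap_eq_multiplicity (K := K) (F := F) P hπne,
      hπB, hπe]
  -- the range of `P ↦ v_P`
  have hrange : Set.range (Place.ofHeightOneSpectrum (K := K) (F := F) (R := B)) =
      {v : Place K F | ∀ r : R, algebraMap R F r ∈ v.toValuationSubring} := by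
    ext v
    constructor
    · rintro ⟨P, rfl⟩
      exact hRmem P
    · intro hv
      have hvB : ∀ b : B, algebraMap B F b ∈ v.toValuationSubring :=
        Fermat.Agent.S24.PlaceOfPrime.forall_mem_of_isIntegral (B := B) v (R := R) hv
      obtain ⟨P, hP, -⟩ :=
        Fermat.Agent.S24.PlaceOfPrime.existsUnique_eq_ofHeightOneSpectrum (B := B) v hvB
      exact ⟨P, hP.symm⟩
  have hN' : ∀ h, h ∈ N ↔ h ∈ (1 : Submodule B F) := by
    intro h
    rw [hN h, Submodule.mem_one]
    constructor
    · intro hh
      exact ⟨⟨h, hh⟩, rfl⟩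
    · rintro ⟨b, rfl⟩
      exact b.2
  have hM' : ∀ h, h ∈ M ↔ h ∈ Submodule.traceDual R Kf (1 : Submodule B F) := by
    intro h
    rw [hM h, Submodule.mem_traceDual]
    constructor
    · intro hh y hy
      rw [Submodule.mem_one] at hy
      obtain ⟨b, rfl⟩ := hy
      exact hh _ b.2
    · intro hh y hy
      exact hh y (Submodule.mem_one.mpr ⟨⟨y, hy⟩, rfl⟩)
  obtain ⟨hfin, hrk⟩ := finrank_traceDual_quot R Kf F hres N M hN' hM'
  refine ⟨hfin, ?_, ?_⟩
  · rw [hrk, ← hrange,
      finsum_mem_range (Fermat.Agent.S24.PlaceOfPrime.ofHeightOneSpectrum_injective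
        (K := K) (F := F) (B := B))]
    exact finsum_congr hcount
  · have hff := FractionalIdeal.finite_factors
      ((differentIdeal R B : Ideal B) : FractionalIdeal B⁰ F)
    rw [Filter.eventually_cofinite] at hff
    refine (hff.image (Place.ofHeightOneSpectrum (K := K) (F := F) (R := B))).subset ?_
    rintro v ⟨hv, hev⟩
    have hv' : v ∈ Set.range (Place.ofHeightOneSpectrum (K := K) (F := F) (R := B)) := by
      rw [hrange]; exact hv
    obtain ⟨P, rfl⟩ := hv'
    exact ⟨P, (by show ¬ _ = 0; rw [hcount P]; exact hev), rfl⟩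

end Bridge

section Concrete

open Fermat.Agent.S20.DWDict KaehlerDifferential

variable {K F : Type*} [Field K] [DecidableEq (RatFunc K)] [Field F] [Algebra K F]
  [Algebra K[X] F] [IsScalarTower K K[X] F] [Algebra (RatFunc K) F]
  [IsScalarTower K[X] (RatFunc K) F]
  [IsAlgClosed K] [CharZero K] [FiniteDimensional (RatFunc K) F]

/-- At a zero `v` of `x - c`, the polynomials of positive order at `v` are the multiples of
`X - c`. -/
theorem X_sub_C_dvd_of_ord_pos (v : Place K F) {c : K}
    (hc : 0 < v.ord (xF K F - algebraMap K F c)) (r : K[X])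
    (hr : 0 < v.ord (algebraMap K[X] F r)) : (X - C c) ∣ r := by
  rw [Polynomial.dvd_iff_isRoot, Polynomial.IsRoot.def]
  by_contra hne
  have hx : 0 ≤ v.ord (xF K F) := DWDictDiff.ord_nonneg_of_zero v hc
  have hdecomp : r = C (r.eval c) + (X - C c) * (r /ₘ (X - C c)) := by
    rw [← Polynomial.modByMonic_X_sub_C_eq_C_eval]
    exact (Polynomial.modByMonic_add_div r (X - C c)).symm
  set q := r /ₘ (X - C c) with hq
  have hmap : algebraMap K[X] F r =
      algebraMap K F (r.eval c) + (xF K F - algebraMap K F c) * Polynomial.aeval (xF K F) q := by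
    conv_lhs => rw [hdecomp]
    rw [map_add, map_mul, algebraMap_X_sub_C, algebraMap_poly_eq_aeval q,
      ← Polynomial.algebraMap_eq, ← IsScalarTower.algebraMap_apply K K[X] F]
  have hconst : v.ord (algebraMap K F (r.eval c)) = 0 := Fermat.Agent.S24.OrdBasic.ord_algebraMap v hne
  have hconst0 : algebraMap K F (r.eval c) ≠ 0 := (map_ne_zero_iff _ (algebraMap K F).injective).mpr hne
  by_cases hu : (xF K F - algebraMap K F c) * Polynomial.aeval (xF K F) q = 0
  · rw [hmap, hu, add_zero, hconst] at hr
    exact lt_irrefl _ hr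
  · have hu1 : xF K F - algebraMap K F c ≠ 0 := left_ne_zero_of_mul hu
    have hu2 : Polynomial.aeval (xF K F) q ≠ 0 := right_ne_zero_of_mul hu
    have hq0 : 0 ≤ v.ord (Polynomial.aeval (xF K F) q) :=
      (mem_iff_ord_nonneg v _).mp (aeval_mem v ((mem_iff_ord_nonneg v _).mpr hx) q)
    have hlt : v.ord (algebraMap K F (r.eval c)) <
        v.ord ((xF K F - algebraMap K F c) * Polynomial.aeval (xF K F) q) := by
      rw [hconst, v.ord_mul hu1 hu2]
      omega
    have := Fermat.Agent.S24.OrdBasic.ord_add_eq_of_lt v hconst0 hu hlt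
    rw [hmap, this, hconst] at hr
    exact lt_irrefl _ hr

theorem transcendental_xF : Transcendental K (xF K F) := by
  rw [transcendental_iff_injective]
  intro p q hpq
  apply algebraMap_poly_injective (K := K) (F := F)
  rw [algebraMap_poly_eq_aeval, algebraMap_poly_eq_aeval]
  exact hpq

/-- **Finite side.** `dim_K A^∨ / A = Σ_{v finite} ord_v (dx)`, where `A` is the integral closure of
`K[X]` in `F` and `A^∨` its dual under the trace form; in particular `dx` has nonzero order at
only finitely many finite places. -/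
theorem finrank_dualPoly_quot (hF : Fermat.Agent.S24.IsFunctionField1 K F)
    (N M : Submodule K F) (hN : ∀ h, h ∈ N ↔ h ∈ integralClosure K[X] F)
    (hM : ∀ h, h ∈ M ↔ ∀ y ∈ integralClosure K[X] F,
      Algebra.trace (RatFunc K) F (h * y) ∈ (algebraMap K[X] (RatFunc K)).range) :
    Module.Finite K (↥M ⧸ N.comap M.subtype) ∧
    (Module.finrank K (↥M ⧸ N.comap M.subtype) : ℤ) =
      ∑ᶠ v ∈ {v : Place K F | 0 ≤ v.ord (xF K F)}, v.ordDifferential (D K F (xF K F)) ∧
    {v : Place K F | 0 ≤ v.ord (xF K F) ∧ v.ordDifferential (D K F (xF K F)) ≠ 0}.Finite := by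
  have hx : Transcendental K (xF K F) := transcendental_xF
  have he : ∀ v : Place K F, (∀ r : K[X], algebraMap K[X] F r ∈ v.toValuationSubring) →
      ∃ π : K[X], (∀ r : K[X], 0 < v.ord (algebraMap K[X] F r) → π ∣ r) ∧
        0 < v.ord (algebraMap K[X] F π) ∧
        v.ord (algebraMap K[X] F π) = v.ordDifferential (D K F (xF K F)) + 1 := by
    intro v hv
    rw [forall_poly_mem_iff] at hv
    obtain ⟨c, hc⟩ := (DWDictDiff.pole_or_zero hF hx v).resolve_left (not_lt.mpr hv)
    refine ⟨X - C c, fun r hr => X_sub_C_dvd_of_ord_pos v hc r hr, ?_, ?_⟩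
    · rwa [algebraMap_X_sub_C]
    · rw [algebraMap_X_sub_C, DWDictDiff.ordDifferential_D_of_zero hF v hc]
      ring
  obtain ⟨h1, h2, h3⟩ := finrank_dual_quot_eq_finsum (K := K) (F := F) K[X] (RatFunc K)
    (Fermat.Agent.S24.KaehlerGen.FF.oneVariable hF)
    (fun v => v.ordDifferential (D K F (xF K F)) + 1) he N M hN hM
  have hset : {v : Place K F | ∀ r : K[X], algebraMap K[X] F r ∈ v.toValuationSubring} =
      {v : Place K F | 0 ≤ v.ord (xF K F)} := by
    ext v
    exact forall_poly_mem_iff v
  refine ⟨h1, ?_, ?_⟩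
  · rw [h2, hset]
    refine finsum_mem_congr rfl fun v _ => ?_
    ring
  · refine h3.subset ?_
    rintro v ⟨hv1, hv2⟩
    refine ⟨(forall_poly_mem_iff v).mpr hv1, ?_⟩
    simpa using hv2

variable (K) in
/-- The uniformizer `1 / X` of `O_∞`. -/
noncomputable def piInf : Oinf K :=
  ⟨(RatFunc.X : RatFunc K)⁻¹, by
    rw [mem_Oinf, ← one_div, RatFunc.inftyValuation.X_inv, ← WithZero.exp_zero]
    exact WithZero.exp_le_exp.mpr (by norm_num)⟩

theorem algebraMap_piInf : algebraMap (Oinf K) F (piInf K) = (xF K F)⁻¹ := by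
  show algebraMap (RatFunc K) F ((RatFunc.X : RatFunc K)⁻¹) = _
  rw [map_inv₀, ← RatFunc.algebraMap_X, ← IsScalarTower.algebraMap_apply K[X] (RatFunc K) F]
  rfl

/-- At a pole `v` of `x`, the elements of `O_∞` of positive order at `v` are the multiples of
`1 / X`. -/
theorem piInf_dvd_of_ord_pos (v : Place K F) (hx : v.ord (xF K F) < 0) (r : Oinf K)
    (hr : 0 < v.ord (algebraMap (Oinf K) F r)) : piInf K ∣ r := by
  have hmap : algebraMap (Oinf K) F r = algebraMap (RatFunc K) F (r : RatFunc K) := rfl
  have hr0 : (r : RatFunc K) ≠ 0 := by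
    intro h0
    rw [hmap, h0, map_zero, Place.ord_zero] at hr
    exact lt_irrefl _ hr
  have hlt : RatFunc.inftyValuation K (r : RatFunc K) < 1 := by
    by_contra hcon
    have h1 : RatFunc.inftyValuation K (r : RatFunc K) = 1 := le_antisymm r.2 (not_lt.mp hcon)
    have hinv : (r : RatFunc K)⁻¹ ∈ Oinf K := by
      rw [mem_Oinf, map_inv₀, h1, inv_one]
    have hmem := algebraMap_Oinf_mem_of_pole v hx ⟨_, hinv⟩
    have hmap' : algebraMap (Oinf K) F ⟨_, hinv⟩ = (algebraMap (RatFunc K) F (r : RatFunc K))⁻¹ := by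
      show algebraMap (RatFunc K) F ((r : RatFunc K)⁻¹) = _
      rw [map_inv₀]
    rw [hmap', mem_iff_ord_nonneg, v.ord_inv, ← hmap] at hmem
    omega
  have hle : RatFunc.inftyValuation K (r : RatFunc K) ≤ WithZero.exp (-1 : ℤ) := by
    rw [← WithZero.lt_mul_exp_iff_le (by simp), ← WithZero.exp_add]
    simpa using hlt
  have hs : (r : RatFunc K) * RatFunc.X ∈ Oinf K := by
    rw [mem_Oinf, map_mul, RatFunc.inftyValuation.X]
    calc RatFunc.inftyValuation K (r : RatFunc K) * WithZero.exp 1
        ≤ WithZero.exp (-1 : ℤ) * WithZero.exp 1 := mul_le_mul_left hle _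
      _ = 1 := by rw [← WithZero.exp_add]; simp
  refine ⟨⟨_, hs⟩, ?_⟩
  apply Subtype.ext
  show (r : RatFunc K) = (RatFunc.X : RatFunc K)⁻¹ * ((r : RatFunc K) * RatFunc.X)
  field_simp [RatFunc.X_ne_zero]

/-- **Infinite side.** `dim_K B^∨ / B = Σ_{v | ∞} (e_v - 1)` with `e_v = -ord_v x`, where `B` is
the integral closure of `O_∞` in `F` and `B^∨` its dual under the trace form. -/
theorem finrank_dualInfty_quot (hF : Fermat.Agent.S24.IsFunctionField1 K F)
    (N M : Submodule K F) (hN : ∀ h, h ∈ N ↔ h ∈ integralClosure (Oinf K) F)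
    (hM : ∀ h, h ∈ M ↔ ∀ y ∈ integralClosure (Oinf K) F,
      RatFunc.inftyValuation K (Algebra.trace (RatFunc K) F (h * y)) ≤ 1) :
    Module.Finite K (↥M ⧸ N.comap M.subtype) ∧
    (Module.finrank K (↥M ⧸ N.comap M.subtype) : ℤ) =
      ∑ᶠ v ∈ {v : Place K F | v.ord (xF K F) < 0}, (-v.ord (xF K F) - 1) := by
  have hF1 := Fermat.Agent.S24.KaehlerGen.FF.oneVariable hF
  have he : ∀ v : Place K F, (∀ r : Oinf K, algebraMap (Oinf K) F r ∈ v.toValuationSubring) →
      ∃ π : Oinf K, (∀ r : Oinf K, 0 < v.ord (algebraMap (Oinf K) F r) → π ∣ r) ∧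
        0 < v.ord (algebraMap (Oinf K) F π) ∧
        v.ord (algebraMap (Oinf K) F π) = -v.ord (xF K F) := by
    intro v hv
    rw [forall_Oinf_mem_iff hF1] at hv
    refine ⟨piInf K, fun r hr => piInf_dvd_of_ord_pos v hv r hr, ?_, ?_⟩
    · rw [algebraMap_piInf, v.ord_inv]
      omega
    · rw [algebraMap_piInf, v.ord_inv]
  have hM' : ∀ h, h ∈ M ↔ ∀ y ∈ integralClosure (Oinf K) F,
      Algebra.trace (RatFunc K) F (h * y) ∈ (algebraMap (Oinf K) (RatFunc K)).range := by
    intro h
    rw [hM h]
    refine forall₂_congr fun y _ => ?_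
    constructor
    · intro hi
      exact ⟨⟨_, hi⟩, rfl⟩
    · rintro ⟨r, hr⟩
      rw [← hr]
      exact r.2
  obtain ⟨h1, h2, -⟩ := finrank_dual_quot_eq_finsum (K := K) (F := F) (Oinf K) (RatFunc K)
    hF1 (fun v => -v.ord (xF K F)) he N M hN hM'
  have hset : {v : Place K F | ∀ r : Oinf K, algebraMap (Oinf K) F r ∈ v.toValuationSubring} =
      {v : Place K F | v.ord (xF K F) < 0} := by
    ext v
    exact forall_Oinf_mem_iff hF1 v
  refine ⟨h1, ?_⟩
  rw [h2, hset]

/-- `[F : K(x)]` computed with the intermediate field `K⟮x⟯` and with `RatFunc K` agree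
(both are the degree of the zero divisor of `x`). -/
theorem finrank_adjoin_eq (hF : Fermat.Agent.S24.IsFunctionField1 K F) :
    Module.finrank (IntermediateField.adjoin K ({xF K F} : Set F)) F =
      Module.finrank (RatFunc K) F := by
  have hx : Transcendental K (xF K F) := transcendental_xF
  have hfin := Fermat.Agent.S24.Exchange.finiteDimensional_adjoin_of_transcendental hF hx
  have h1 := (Fermat.Agent.S24.ZerosBackup.zerosTheorem (K := K) (F := F) (xF K F) hx hfin).2
  have h2 := (Fermat.Agent.S24.ZerosBackup.zeros_generic (K := K) (F := F) (RatFunc K)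
    (xF K F) rfl).2
  rw [h1] at h2
  exact_mod_cast h2

/-- The poles of `x` are finite in number and their orders sum to `-[F : K(x)]`. -/
theorem poles_finite_and_sum (hF : Fermat.Agent.S24.IsFunctionField1 K F) :
    {v : Place K F | v.ord (xF K F) < 0}.Finite ∧
      ∑ᶠ v ∈ {v : Place K F | v.ord (xF K F) < 0}, v.ord (xF K F) =
        -(Module.finrank (RatFunc K) F : ℤ) := by
  have hx : Transcendental K (xF K F) := transcendental_xF
  have hZ := Fermat.Agent.S24.ZerosBackup.zerosTheorem (K := K) (F := F)
  have hfin := Fermat.Agent.S24.Hurwitz.polesOf_finite hZ hF hx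
  refine ⟨hfin, ?_⟩
  have hsum := Fermat.Agent.S24.Hurwitz.sum_ord_polesOf hZ hF hx
  rw [finrank_adjoin_eq hF] at hsum
  rw [← hsum]
  exact finsum_mem_eq_finite_toFinset_sum _ hfin

end Concrete

end Fermat.Agent.S20.DWDegree
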