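/-
S20 / Dedekind–Weber line, piece DW.deg.core (helper59).

Dedekind-level core of the two quotient dimensions of the Dedekind–Weber count: for an extension
`A ⊆ B` of Dedekind domains with tame ramification (residue characteristic zero) and all residue
fields of `B` equal to a base field `k`, the `k`-dimension of `B^∨ / B` (trace dual modulo `B`)
is `∑ᶠ P, (e P - 1)`, where `e P` is the exact exponent of `P` in `(P ∩ A) B`.
-/
import Mathlib
import Fermat.Agent.S20.TameDifferent
import Fermat.Agent.S20.DWQuot

set_option autoImplicit false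

namespace Fermat.Agent.S20.DWDegreeCore

open Module nonZeroDivisors IsDedekindDomain WithZero

attribute [local instance] FractionRing.liftAlgebra FractionRing.isScalarTower_liftAlgebra
  Ideal.Quotient.field

section Count

variable {R : Type*} [CommRing R] [IsDedekindDomain R] (K : Type*) [Field K] [Algebra R K]
  [IsFractionRing R K]

/-- The `v`-adic count of an integral ideal from its exact `v`-power divisibility. -/
theorem count_coe_eq_of_pow_dvd (v : HeightOneSpectrum R) {J : Ideal R} (hJ : J ≠ 0) {m : ℕ}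
    (h1 : v.asIdeal ^ m ∣ J) (h2 : ¬ v.asIdeal ^ (m + 1) ∣ J) :
    FractionalIdeal.count K v (J : FractionalIdeal R⁰ K) = m := by
  classical
  rw [FractionalIdeal.count_coe K v hJ]
  have hJ' : Associates.mk J ≠ 0 := Associates.mk_ne_zero.mpr hJ
  have key : ∀ k : ℕ, v.asIdeal ^ k ∣ J ↔
      k ≤ (Associates.mk v.asIdeal).count (Associates.mk J).factors := by
    intro k
    rw [← Associates.prime_pow_dvd_iff_le hJ' v.associates_irreducible, ← Associates.mk_pow,
      Associates.mk_le_mk_iff_dvd]
  have a1 := (key m).1 h1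
  have a2 := mt (key (m + 1)).2 h2
  have : (Associates.mk v.asIdeal).count (Associates.mk J).factors = m := by omega
  rw [this]

end Count

section Main

variable (A : Type*) {B : Type*} [CommRing A] [CommRing B] [Algebra A B]
  [IsDedekindDomain A] [IsDedekindDomain B] [IsTorsionFree A B] [Module.Finite A B]

/-- `n` is the exact exponent of `P` in the extension of `P ∩ A` to `B`
(i.e. the ramification index of `P` over `A`). -/
def IsRamExp (P : HeightOneSpectrum B) (n : ℕ) : Prop :=
  (P.asIdeal.under A).map (algebraMap A B) ≤ P.asIdeal ^ n ∧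
    ¬ (P.asIdeal.under A).map (algebraMap A B) ≤ P.asIdeal ^ (n + 1)

omit [IsDedekindDomain A] [IsDedekindDomain B] [IsTorsionFree A B] [Module.Finite A B] in
theorem IsRamExp.pos {P : HeightOneSpectrum B} {n : ℕ} (h : IsRamExp A P n) : 1 ≤ n := by
  by_contra hcon
  have hn : n = 0 := by omega
  subst hn
  apply h.2
  rw [zero_add, pow_one, Ideal.map_le_iff_le_comap]

variable (K L : Type*) [Field K] [Field L] [Algebra A K] [IsFractionRing A K] [Algebra B L]
  [IsFractionRing B L] [Algebra K L] [Algebra A L] [IsScalarTower A K L] [IsScalarTower A B L]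
  [FiniteDimensional K L] [Algebra.IsSeparable K L]

/-- **Tame different, count form**: the `P`-adic count of the trace dual of `B` is `-(e - 1)`. -/
theorem count_dual_one (hchar : ∀ p : Ideal A, p.IsMaximal → CharZero (A ⧸ p))
    (P : HeightOneSpectrum B) {n : ℕ} (hn : IsRamExp A P n) :
    FractionalIdeal.count L P (FractionalIdeal.dual A K (1 : FractionalIdeal B⁰ L)) =
      -((n : ℤ) - 1) := by
  classical
  have hsep : Algebra.IsSeparable (FractionRing A) (FractionRing B) :=
    TameDifferent.isSeparable_fractionRing A K L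
  have hic : IsIntegralClosure B A L := IsIntegralClosure.of_isIntegrallyClosed B A L
  have hne1 : (1 : FractionalIdeal B⁰ L) ≠ 0 := one_ne_zero
  have hdual0 : FractionalIdeal.dual A K (1 : FractionalIdeal B⁰ L) ≠ 0 :=
    FractionalIdeal.dual_ne_zero A K hne1
  have hD : ((differentIdeal A B : Ideal B) : FractionalIdeal B⁰ L) =
      (FractionalIdeal.dual A K (1 : FractionalIdeal B⁰ L))⁻¹ := coeIdeal_differentIdeal A K L B
  have hD0 : ((differentIdeal A B : Ideal B) : FractionalIdeal B⁰ L) ≠ 0 := by
    rw [hD]; exact inv_ne_zero hdual0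
  have hD0' : differentIdeal A B ≠ 0 := by
    intro h0
    apply hD0
    rw [h0]
    simp
  have : P.asIdeal.IsMaximal := P.isMaximal
  have : (P.asIdeal.under A).IsMaximal := Ideal.IsMaximal.under A P.asIdeal
  have : P.asIdeal.LiesOver (P.asIdeal.under A) := Ideal.over_under P.asIdeal
  have : CharZero (A ⧸ P.asIdeal.under A) := hchar _ inferInstance
  obtain ⟨h1, h2⟩ := TameDifferent.pow_dvd_differentIdeal_and_not A P.asIdeal P.ne_bot
    (p := P.asIdeal.under A) hn.1 hn.2
  have hpos := hn.pos
  have h2' : ¬ P.asIdeal ^ (n - 1 + 1) ∣ differentIdeal A B := by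
    rwa [Nat.sub_add_cancel hpos]
  have hc := count_coe_eq_of_pow_dvd L P hD0' h1 h2'
  have hinv : FractionalIdeal.dual A K (1 : FractionalIdeal B⁰ L) =
      ((differentIdeal A B : Ideal B) : FractionalIdeal B⁰ L)⁻¹ := by
    rw [hD, inv_inv]
  rw [hinv, FractionalIdeal.count_inv, hc]
  push_cast [hpos]
  ring

variable {k : Type*} [Field k] [Algebra k B] [Algebra k L] [IsScalarTower k B L]

/-- **DW.deg core**: `dim_k (B^∨ / B) = ∑ᶠ P, (e P - 1)`, fractional ideal carriers given as
`k`-subspaces `N` (`= B`) and `M` (`= B^∨`, the trace dual). -/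
theorem finrank_traceDual_quot (hchar : ∀ p : Ideal A, p.IsMaximal → CharZero (A ⧸ p))
    (hres : DWQuot.ResidueFieldsTrivial k B)
    (e : HeightOneSpectrum B → ℕ) (he : ∀ P, IsRamExp A P (e P))
    (N M : Submodule k L) (hN : ∀ x, x ∈ N ↔ ∃ b : B, algebraMap B L b = x)
    (hM : ∀ x, x ∈ M ↔ x ∈ Submodule.traceDual A K (1 : Submodule B L)) :
    Module.Finite k (↥M ⧸ N.comap M.subtype) ∧
      (finrank k (↥M ⧸ N.comap M.subtype) : ℤ) =
        ∑ᶠ P : HeightOneSpectrum B, ((e P : ℤ) - 1) := by
  have hic : IsIntegralClosure B A L := IsIntegralClosure.of_isIntegrallyClosed B A L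
  have hne1 : (1 : FractionalIdeal B⁰ L) ≠ 0 := one_ne_zero
  have hle : (1 : FractionalIdeal B⁰ L) ≤ FractionalIdeal.dual A K 1 :=
    FractionalIdeal.one_le_dual_one A K
  have hN' : ∀ x, x ∈ N ↔ x ∈ (1 : FractionalIdeal B⁰ L) := by
    intro x
    rw [hN, FractionalIdeal.mem_one_iff]
  have hM' : ∀ x, x ∈ M ↔ x ∈ FractionalIdeal.dual A K (1 : FractionalIdeal B⁰ L) := by
    intro x
    rw [hM, ← FractionalIdeal.mem_coe, FractionalIdeal.coe_dual_one]
  refine ⟨DWQuot.finite_quot_of_carrier hres hne1 hle N M hN' hM', ?_⟩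
  rw [DWQuot.finrank_quot_of_carrier hres hne1 hle N M hN' hM']
  refine finsum_congr fun P => ?_
  rw [FractionalIdeal.count_one, count_dual_one A K L hchar P (he P)]
  ring

/-- `finrank_traceDual_quot` with the carriers described through integrality and traces
(the shapes of `DWBases` / `DWDual`). -/
theorem finrank_traceDual_quot' (hchar : ∀ p : Ideal A, p.IsMaximal → CharZero (A ⧸ p))
    (hres : DWQuot.ResidueFieldsTrivial k B)
    (e : HeightOneSpectrum B → ℕ) (he : ∀ P, IsRamExp A P (e P))
    (N M : Submodule k L) (hN : ∀ x, x ∈ N ↔ IsIntegral A x)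
    (hM : ∀ x, x ∈ M ↔ ∀ y : L, IsIntegral A y →
      Algebra.trace K L (x * y) ∈ (algebraMap A K).range) :
    Module.Finite k (↥M ⧸ N.comap M.subtype) ∧
      (finrank k (↥M ⧸ N.comap M.subtype) : ℤ) =
        ∑ᶠ P : HeightOneSpectrum B, ((e P : ℤ) - 1) := by
  have hic : IsIntegralClosure B A L := IsIntegralClosure.of_isIntegrallyClosed B A L
  refine finrank_traceDual_quot A K L hchar hres e he N M ?_ ?_
  · intro x
    rw [hN, IsIntegralClosure.isIntegral_iff (A := B)]
  · intro x
    rw [hM, Submodule.mem_traceDual]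
    constructor
    · intro h a ha
      obtain ⟨b, rfl⟩ := Submodule.mem_one.mp ha
      rw [Algebra.traceForm_apply]
      exact h _ ((IsIntegralClosure.isIntegral_iff (A := B)).mpr ⟨b, rfl⟩)
    · intro h y hy
      obtain ⟨b, rfl⟩ := (IsIntegralClosure.isIntegral_iff (A := B)).mp hy
      have := h (algebraMap B L b) (Submodule.mem_one.mpr ⟨b, rfl⟩)
      rwa [Algebra.traceForm_apply] at this

omit [IsDedekindDomain A] [IsDedekindDomain B] [IsTorsionFree A B] [Module.Finite A B] in
/-- If `π` generates a maximal ideal of `A` and lies in `P` then `P ∩ A = (π)`. -/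
theorem under_eq_span_of_mem (P : HeightOneSpectrum B) {π : A}
    (hmax : (Ideal.span {π}).IsMaximal) (hπ : algebraMap A B π ∈ P.asIdeal) :
    P.asIdeal.under A = Ideal.span {π} := by
  symm
  apply hmax.eq_of_le
  · intro h
    have h1 : (1 : A) ∈ P.asIdeal.under A := by rw [h]; trivial
    rw [Ideal.under_def, Ideal.mem_comap, map_one] at h1
    exact P.isPrime.ne_top ((Ideal.eq_top_iff_one _).mpr h1)
  · rw [Ideal.span_singleton_le_iff_mem]
    exact hπ

omit [IsDedekindDomain A] [IsTorsionFree A B] [Module.Finite A B] [FiniteDimensional K L]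
  [Algebra.IsSeparable K L] [IsFractionRing A K] [Algebra A K] [IsScalarTower A K L]
  [Algebra K L] in
/-- Valuation form of the exact exponent, when `P ∩ A = (π)` is principal. -/
theorem isRamExp_of_valuation_eq (P : HeightOneSpectrum B) {π : A}
    (hspan : P.asIdeal.under A = Ideal.span {π}) {n : ℕ}
    (hval : P.valuation L (algebraMap A L π) = exp (-(n : ℤ))) : IsRamExp A P n := by
  have hv : P.valuation L (algebraMap A L π) = P.intValuation (algebraMap A B π) := by
    rw [IsScalarTower.algebraMap_apply A B L, HeightOneSpectrum.valuation_of_algebraMap]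
  rw [hv] at hval
  unfold IsRamExp
  rw [hspan, Ideal.map_span, Set.image_singleton, Ideal.span_singleton_le_iff_mem,
    Ideal.span_singleton_le_iff_mem, ← HeightOneSpectrum.intValuation_le_pow_iff_mem,
    ← HeightOneSpectrum.intValuation_le_pow_iff_mem, hval]
  refine ⟨le_rfl, ?_⟩
  rw [exp_le_exp]
  push_cast
  omega

end Main

end Fermat.Agent.S20.DWDegreeCore
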