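/-
S20, Dedekind–Weber line, piece DW.dual: PLACE FORM of the tame duality.
Owner: helper30.

`R` is a Dedekind domain containing the constant field `K` (of characteristic zero), with
fraction field `Kf`; `F / Kf` is finite separable.  An element `h : F` lies in the trace dual of
the integral closure of `R` in `F` iff at every place `v` of `F / K` whose valuation ring contains
`R` and every `π : R` of positive order at `v` we have `h = 0` or `0 < ord_v h + ord_v π`.
-/
import Mathlib
import Fermat.Agent.S20.TameDifferent
import Fermat.Agent.S24.PlaceOfPrime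
import Fermat.Agent.S24.PlaceDeg
import Fermat.Agent.S24.OrdBasic

set_option autoImplicit false
set_option linter.unusedSectionVars false
set_option linter.style.haveILetI false

noncomputable section

namespace Fermat.Agent.S20.DWDual

open AlgebraicCurve IsDedekindDomain WithZero Fermat.Agent.S24

section Generic

variable {K F : Type*} [Field K] [CharZero K] [Field F] [Algebra K F]
variable (R Kf : Type*) [CommRing R] [IsDedekindDomain R] [Algebra K R] [Field Kf] [Algebra R Kf]
  [IsFractionRing R Kf] [Algebra Kf F] [Algebra R F] [IsScalarTower R Kf F] [IsScalarTower K R F]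
  [FiniteDimensional Kf F] [Algebra.IsSeparable Kf F]

/-- **Tame duality, place form (generic base ring).** -/
theorem mem_dual_iff_places (h : F) :
    (∀ y : F, IsIntegral R y → Algebra.trace Kf F (h * y) ∈ (algebraMap R Kf).range) ↔
      ∀ v : Place K F, (∀ r : R, algebraMap R F r ∈ v.toValuationSubring) →
        ∀ π : R, 0 < v.ord (algebraMap R F π) → h = 0 ∨ 0 < v.ord h + v.ord (algebraMap R F π) := by
  classical
  let B := integralClosure R F
  haveI : IsDedekindDomain B := integralClosure.isDedekindDomain R Kf F
  haveI : IsFractionRing B F := integralClosure.isFractionRing_of_finite_extension Kf F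
  haveI : Module.Finite R B := IsIntegralClosure.finite R Kf F B
  haveI : IsScalarTower K B F := IsScalarTower.of_algebraMap_eq (fun c => rfl)
  haveI : Algebra.IsIntegral R B := inferInstance
  haveI : Module.IsTorsionFree R F := .trans_faithfulSMul R Kf F
  haveI : Module.IsTorsionFree R B := IsIntegralClosure.isTorsionFree R F
  have hchar : ∀ p : Ideal R, p.IsMaximal → CharZero (R ⧸ p) :=
    fun p hp => TameDifferent.charZero_quotient_of_algebra R K p hp
  have key := TameDifferent.mem_traceDual_one_iff_forall_valuation_lt R (B := B) Kf F hchar h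
  have hL : (∀ y : F, IsIntegral R y → Algebra.trace Kf F (h * y) ∈ (algebraMap R Kf).range) ↔
      h ∈ Submodule.traceDual R Kf (1 : Submodule B F) := by
    rw [Submodule.mem_traceDual]
    constructor
    · intro hh a ha
      obtain ⟨b, rfl⟩ := Submodule.mem_one.mp ha
      rw [Algebra.traceForm_apply]
      exact hh _ b.2
    · intro hh y hy
      have := hh y (Submodule.mem_one.mpr ⟨⟨y, hy⟩, rfl⟩)
      rwa [Algebra.traceForm_apply] at this
  rw [hL, key]
  constructor
  · intro hh v hv π hπ
    have hvB : ∀ b : B, algebraMap B F b ∈ v.toValuationSubring :=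
      PlaceOfPrime.forall_mem_of_isIntegral v (R := R) hv
    by_cases h0 : h = 0
    · exact Or.inl h0
    right
    have hπF : algebraMap R F π ≠ 0 := by
      intro h1; rw [h1, Place.ord_zero] at hπ; exact lt_irrefl _ hπ
    have hπB : algebraMap R B π ≠ 0 := by
      intro h1; apply hπF
      rw [IsScalarTower.algebraMap_apply R B F, h1, map_zero]
    set P := PlaceOfPrime.center v hvB with hP
    have hmem : algebraMap R B π ∈ P.asIdeal := by
      rw [hP, PlaceOfPrime.mem_center_iff_ord_pos v hvB hπB,
        ← IsScalarTower.algebraMap_apply R B F]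
      exact hπ
    have h1 := hh P π hmem
    have hne : h * algebraMap R F π ≠ 0 := mul_ne_zero h0 hπF
    have hv' : v = Place.ofHeightOneSpectrum (K := K) P :=
      PlaceOfPrime.eq_ofHeightOneSpectrum_center v hvB
    rw [PlaceOfPrime.valuation_eq_exp_neg_ord (K := K) P hne, ← hv', ← exp_zero, exp_lt_exp,
      v.ord_mul h0 hπF] at h1
    omega
  · intro hh P π hπ
    set v : Place K F := Place.ofHeightOneSpectrum (K := K) P with hv
    have hvB : ∀ b : B, algebraMap B F b ∈ v.toValuationSubring :=
      PlaceOfPrime.algebraMap_mem_ofHeightOneSpectrum P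
    have hvR : ∀ r : R, algebraMap R F r ∈ v.toValuationSubring := fun r => by
      rw [IsScalarTower.algebraMap_apply R B F]; exact hvB _
    by_cases h0 : h = 0
    · rw [h0, zero_mul, map_zero]; exact zero_lt_one
    by_cases hπ0 : algebraMap R F π = 0
    · rw [hπ0, mul_zero, map_zero]; exact zero_lt_one
    have hπB : algebraMap R B π ≠ 0 := by
      intro h1; apply hπ0
      rw [IsScalarTower.algebraMap_apply R B F, h1, map_zero]
    have hpos : 0 < v.ord (algebraMap R F π) := by
      rw [IsScalarTower.algebraMap_apply R B F]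
      exact (PlaceOfPrime.ord_algebraMap_pos_iff (K := K) P hπB).mpr hπ
    have hne : h * algebraMap R F π ≠ 0 := mul_ne_zero h0 hπ0
    rcases hh v hvR π hpos with h1 | h1
    · exact absurd h1 h0
    · rw [PlaceOfPrime.valuation_eq_exp_neg_ord (K := K) P hne, ← hv, ← exp_zero, exp_lt_exp,
        v.ord_mul h0 hπ0]
      omega

end Generic

section Poly

open Polynomial

variable {K F : Type*} [Field K] [CharZero K] [IsAlgClosed K] [Field F] [Algebra K F]
variable [Algebra K[X] F] [IsScalarTower K K[X] F]
variable (Kf : Type*) [Field Kf] [Algebra K[X] Kf] [IsFractionRing K[X] Kf] [Algebra Kf F]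
  [IsScalarTower K[X] Kf F] [FiniteDimensional Kf F] [Algebra.IsSeparable Kf F]

omit [CharZero K] [IsAlgClosed K] in
/-- `algebraMap K[X] F` is evaluation at `x = algebraMap K[X] F X`. -/
theorem algebraMap_poly_eq_aeval (r : K[X]) :
    algebraMap K[X] F r = Polynomial.aeval (algebraMap K[X] F X) r := by
  have : (algebraMap K[X] F) =
      ((Polynomial.aeval (algebraMap K[X] F X) : K[X] →ₐ[K] F) : K[X] →+* F) := by
    refine Polynomial.ringHom_ext (fun c => ?_) ?_
    · rw [← Polynomial.algebraMap_eq, ← IsScalarTower.algebraMap_apply K K[X] F]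
      simp
    · simp
  exact RingHom.congr_fun this r

omit [CharZero K] [IsAlgClosed K] in
theorem algebraMap_X_sub_C (c : K) :
    algebraMap K[X] F (X - C c) = algebraMap K[X] F X - algebraMap K F c := by
  rw [map_sub, ← Polynomial.algebraMap_eq, ← IsScalarTower.algebraMap_apply K K[X] F]

omit [CharZero K] [IsAlgClosed K] in
/-- If `x ∈ O_v` then all of `K[x] ⊆ O_v`. -/
theorem algebraMap_poly_mem_of_mem (v : Place K F)
    (hx : algebraMap K[X] F X ∈ v.toValuationSubring) (r : K[X]) :
    algebraMap K[X] F r ∈ v.toValuationSubring := by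
  rw [algebraMap_poly_eq_aeval]
  induction r using Polynomial.induction_on' with
  | add p q hp hq => rw [map_add]; exact add_mem hp hq
  | monomial n a =>
    rw [Polynomial.aeval_monomial]
    exact mul_mem (v.algebraMap_mem' a) (pow_mem hx n)

/-- **Tame duality at the finite places.**  `h` lies in the trace dual of the integral closure of
`K[x]` iff `h = 0` or `ord_v h + ord_v (x - c) ≥ 1` at every place `v` and every `c : K` with
`ord_v (x - c) > 0`. -/
theorem mem_dualPoly_iff (hF : OneVariable K F) (h : F) :
    (∀ y : F, IsIntegral K[X] y →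
        Algebra.trace Kf F (h * y) ∈ (algebraMap K[X] Kf).range) ↔
      ∀ (v : Place K F) (c : K), 0 < v.ord (algebraMap K[X] F X - algebraMap K F c) →
        h = 0 ∨ 0 < v.ord h + v.ord (algebraMap K[X] F X - algebraMap K F c) := by
  rw [mem_dual_iff_places (K := K) K[X] Kf h]
  have hinj : Function.Injective (algebraMap K[X] F) := by
    rw [IsScalarTower.algebraMap_eq K[X] Kf F]
    exact (algebraMap Kf F).injective.comp (IsFractionRing.injective K[X] Kf)
  constructor
  · intro hh v c hc
    have hne : algebraMap K[X] F X - algebraMap K F c ≠ 0 := by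
      intro h0; rw [h0, Place.ord_zero] at hc; exact lt_irrefl _ hc
    have hmem : algebraMap K[X] F X - algebraMap K F c ∈ v.toValuationSubring :=
      (mem_valuationSubring_iff_ord_nonneg v hne).mpr hc.le
    have hx : algebraMap K[X] F X ∈ v.toValuationSubring := by
      have := add_mem hmem (v.algebraMap_mem' c)
      rwa [sub_add_cancel] at this
    have := hh v (algebraMap_poly_mem_of_mem v hx) (X - C c) (by rwa [algebraMap_X_sub_C])
    rwa [algebraMap_X_sub_C] at this
  · intro hh v hv π hπ
    by_cases h0 : h = 0
    · exact Or.inl h0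
    right
    set x : F := algebraMap K[X] F X with hxdef
    have hx : x ∈ v.toValuationSubring := hv X
    -- the residue `c` of `x`
    obtain ⟨c, hc⟩ := exists_const_ord_sub_pos v hF hx
    have hxc : x ≠ algebraMap K F c := by
      intro h1
      have : algebraMap K[X] F X = algebraMap K[X] F (C c) := by
        rw [← hxdef, h1, ← Polynomial.algebraMap_eq, ← IsScalarTower.algebraMap_apply K K[X] F]
      have := hinj this
      exact Polynomial.X_ne_C c this
    have hc' : 0 < v.ord (x - algebraMap K F c) := hc.resolve_left hxc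
    have hxc0 : x - algebraMap K F c ≠ 0 := sub_ne_zero.mpr hxc
    -- divide `π` by `X - C c`
    have hdiv : π = (X - C c) * (π /ₘ (X - C c)) + C (π.eval c) := by
      have := Polynomial.modByMonic_add_div π (X - C c)
      rw [Polynomial.modByMonic_X_sub_C_eq_C_eval] at this
      rw [add_comm]; exact this.symm
    set q := π /ₘ (X - C c) with hq
    have hπx : algebraMap K[X] F π =
        (x - algebraMap K F c) * algebraMap K[X] F q + algebraMap K F (π.eval c) := by
      conv_lhs => rw [hdiv]
      rw [map_add, map_mul, algebraMap_X_sub_C, ← Polynomial.algebraMap_eq,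
        ← IsScalarTower.algebraMap_apply K K[X] F]
    have hπ0 : algebraMap K[X] F π ≠ 0 := by
      intro h1; rw [h1, Place.ord_zero] at hπ; exact lt_irrefl _ hπ
    have hqmem : algebraMap K[X] F q ∈ v.toValuationSubring := hv q
    -- the constant term vanishes
    have heval : π.eval c = 0 := by
      by_contra hne
      have hconst : v.ord (algebraMap K F (π.eval c)) = 0 := OrdBasic.ord_algebraMap v hne
      have hconst0 : algebraMap K F (π.eval c) ≠ 0 :=
        (map_ne_zero_iff _ (algebraMap K F).injective).mpr hne
      by_cases hq0 : algebraMap K[X] F q = 0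
      · rw [hπx, hq0, mul_zero, zero_add, hconst] at hπ
        exact lt_irrefl _ hπ
      · have hprod : (x - algebraMap K F c) * algebraMap K[X] F q ≠ 0 := mul_ne_zero hxc0 hq0
        have hpos : 0 < v.ord ((x - algebraMap K F c) * algebraMap K[X] F q) := by
          rw [v.ord_mul hxc0 hq0]
          have := (mem_valuationSubring_iff_ord_nonneg v hq0).mp hqmem
          omega
        have := OrdBasic.ord_add_eq_of_lt v hconst0 hprod (by rw [hconst]; exact hpos)
        rw [add_comm, ← hπx, hconst] at this
        rw [this] at hπ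
        exact lt_irrefl _ hπ
    rw [heval, map_zero, add_zero] at hπx
    have hq0 : algebraMap K[X] F q ≠ 0 := by
      intro h1; apply hπ0; rw [hπx, h1, mul_zero]
    have hqnn : 0 ≤ v.ord (algebraMap K[X] F q) :=
      (mem_valuationSubring_iff_ord_nonneg v hq0).mp hqmem
    rcases hh v c hc' with h1 | h1
    · exact absurd h1 h0
    · rw [hπx, v.ord_mul hxc0 hq0]
      omega

end Poly

section OrdTools

open Polynomial

variable {K F : Type*} [Field K] [Field F] [Algebra K F] (v : Place K F)

/-- Polynomials in an element of `O_v` lie in `O_v`. -/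
theorem aeval_mem {t : F} (ht : t ∈ v.toValuationSubring) (q : K[X]) :
    Polynomial.aeval t q ∈ v.toValuationSubring := by
  induction q using Polynomial.induction_on' with
  | add p q hp hq => rw [map_add]; exact add_mem hp hq
  | monomial n a =>
    rw [Polynomial.aeval_monomial]
    exact mul_mem (v.algebraMap_mem' a) (pow_mem ht n)

/-- A polynomial with nonzero constant term is a unit at a point of positive order. -/
theorem ord_aeval_eq_zero {t : F} (ht : 0 < v.ord t) (q : K[X]) (hq : q.coeff 0 ≠ 0) :
    v.ord (Polynomial.aeval t q) = 0 := by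
  have ht0 : t ≠ 0 := by
    intro h; rw [h, Place.ord_zero] at ht; exact lt_irrefl _ ht
  have htmem : t ∈ v.toValuationSubring := (mem_valuationSubring_iff_ord_nonneg v ht0).mpr ht.le
  have hdecomp : Polynomial.aeval t q = algebraMap K F (q.coeff 0) + t * Polynomial.aeval t q.divX := by
    conv_lhs => rw [← Polynomial.divX_mul_X_add q]
    rw [map_add, map_mul, Polynomial.aeval_X, Polynomial.aeval_C]
    ring
  have hconst : v.ord (algebraMap K F (q.coeff 0)) = 0 := OrdBasic.ord_algebraMap v hq
  have hconst0 : algebraMap K F (q.coeff 0) ≠ 0 :=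
    (map_ne_zero_iff _ (algebraMap K F).injective).mpr hq
  rw [hdecomp]
  by_cases hd : Polynomial.aeval t q.divX = 0
  · rw [hd, mul_zero, add_zero, hconst]
  · have hdmem := aeval_mem v htmem q.divX
    have hdnn : 0 ≤ v.ord (Polynomial.aeval t q.divX) :=
      (mem_valuationSubring_iff_ord_nonneg v hd).mp hdmem
    have hlt : v.ord (algebraMap K F (q.coeff 0)) < v.ord (t * Polynomial.aeval t q.divX) := by
      rw [hconst, v.ord_mul ht0 hd]; omega
    rw [OrdBasic.ord_add_eq_of_lt v hconst0 (mul_ne_zero ht0 hd) hlt, hconst]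

/-- At a pole `y` the order of `p(y)` is `deg p * ord y`. -/
theorem ord_aeval_of_ord_neg {y : F} (hy : v.ord y < 0) (p : K[X]) (hp : p ≠ 0) :
    v.ord (Polynomial.aeval y p) = p.natDegree * v.ord y := by
  have hy0 : y ≠ 0 := by
    intro h; rw [h, Place.ord_zero] at hy; exact lt_irrefl _ hy
  letI : Invertible y := invertibleOfNonzero hy0
  have h1 := Polynomial.eval₂_reverse_mul_pow (algebraMap K F) y p
  rw [invOf_eq_inv] at h1
  have hrev : p.reverse.coeff 0 ≠ 0 := by
    rw [Polynomial.coeff_zero_reverse]
    exact Polynomial.leadingCoeff_ne_zero.mpr hp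
  have hinv : 0 < v.ord y⁻¹ := by rw [v.ord_inv]; omega
  have h2 := ord_aeval_eq_zero v hinv p.reverse hrev
  have hne : Polynomial.aeval y⁻¹ p.reverse ≠ 0 := by
    intro h0
    have h3 : Polynomial.aeval y⁻¹ p.reverse = algebraMap K F (p.reverse.coeff 0) +
        y⁻¹ * Polynomial.aeval y⁻¹ p.reverse.divX := by
      conv_lhs => rw [← Polynomial.divX_mul_X_add p.reverse]
      rw [map_add, map_mul, Polynomial.aeval_X, Polynomial.aeval_C]
      ring
    -- order zero elements are nonzero unless ... use `h2` directly
    rw [h0, Place.ord_zero] at h2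
    -- `h2 : 0 = 0` gives nothing; argue via the decomposition
    have hconst0 : algebraMap K F (p.reverse.coeff 0) ≠ 0 :=
      (map_ne_zero_iff _ (algebraMap K F).injective).mpr hrev
    have hconst : v.ord (algebraMap K F (p.reverse.coeff 0)) = 0 := OrdBasic.ord_algebraMap v hrev
    rw [h0] at h3
    have h4 : algebraMap K F (p.reverse.coeff 0) = -(y⁻¹ * Polynomial.aeval y⁻¹ p.reverse.divX) :=
      eq_neg_of_add_eq_zero_left h3.symm
    have hd : Polynomial.aeval y⁻¹ p.reverse.divX ≠ 0 := by
      intro hd0; rw [hd0, mul_zero, neg_zero] at h4; exact hconst0 h4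
    have hmem : y⁻¹ ∈ v.toValuationSubring :=
      (mem_valuationSubring_iff_ord_nonneg v (inv_ne_zero hy0)).mpr hinv.le
    have hdnn : 0 ≤ v.ord (Polynomial.aeval y⁻¹ p.reverse.divX) :=
      (mem_valuationSubring_iff_ord_nonneg v hd).mp (aeval_mem v hmem _)
    have := congrArg v.ord h4
    rw [hconst, OrdBasic.ord_neg, v.ord_mul (inv_ne_zero hy0) hd] at this
    omega
  have h5 : Polynomial.aeval y p = Polynomial.aeval y⁻¹ p.reverse * y ^ p.natDegree := by
    rw [Polynomial.aeval_def, Polynomial.aeval_def]; exact h1.symm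
  rw [h5, v.ord_mul hne (pow_ne_zero _ hy0), h2, zero_add, ← zpow_natCast, v.ord_zpow]

end OrdTools

section Infty

open Polynomial

variable {K F : Type*} [Field K] [DecidableEq (RatFunc K)] [Field F] [Algebra K F]
variable [Algebra K[X] F] [IsScalarTower K K[X] F] [Algebra (RatFunc K) F]
  [IsScalarTower K[X] (RatFunc K) F]

/-- The order of a rational function of `x` at a pole of `x`. -/
theorem ord_algebraMap_ratFunc (v : Place K F) (hx : v.ord (algebraMap K[X] F X) < 0)
    (r : RatFunc K) (hr : r ≠ 0) :
    v.ord (algebraMap (RatFunc K) F r) = r.intDegree * v.ord (algebraMap K[X] F X) := by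
  have hnum : r.num ≠ 0 := RatFunc.num_ne_zero hr
  have hden : r.denom ≠ 0 := r.denom_ne_zero
  have h1 : algebraMap (RatFunc K) F r =
      algebraMap K[X] F r.num / algebraMap K[X] F r.denom := by
    conv_lhs => rw [← RatFunc.num_div_denom r]
    rw [map_div₀, ← IsScalarTower.algebraMap_apply K[X] (RatFunc K) F,
      ← IsScalarTower.algebraMap_apply K[X] (RatFunc K) F]
  have hn := ord_aeval_of_ord_neg v hx r.num hnum
  have hd := ord_aeval_of_ord_neg v hx r.denom hden
  rw [← algebraMap_poly_eq_aeval] at hn hd
  have hn0 : algebraMap K[X] F r.num ≠ 0 := by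
    intro h0
    rw [h0, Place.ord_zero] at hn
    have : algebraMap K[X] F r.denom ≠ 0 ∨ True := Or.inr trivial
    -- `num(x) = 0` forces `r(x) = 0`, impossible for `r ≠ 0` (field hom)
    have h2 : algebraMap (RatFunc K) F r = 0 := by rw [h1, h0, zero_div]
    exact hr ((map_eq_zero_iff _ (algebraMap (RatFunc K) F).injective).mp h2)
  have hd0 : algebraMap K[X] F r.denom ≠ 0 := by
    intro h0
    have h2 : algebraMap (RatFunc K) F (algebraMap K[X] (RatFunc K) r.denom) = 0 := by
      rw [← IsScalarTower.algebraMap_apply K[X] (RatFunc K) F, h0]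
    have h3 := (map_eq_zero_iff _ (algebraMap (RatFunc K) F).injective).mp h2
    exact hden ((map_eq_zero_iff _ (RatFunc.algebraMap_injective K)).mp h3)
  rw [h1, div_eq_mul_inv, v.ord_mul hn0 (inv_ne_zero hd0), v.ord_inv, hn, hd, RatFunc.intDegree]
  ring

omit [DecidableEq (RatFunc K)] in
theorem algebraMap_ratFunc_X :
    algebraMap (RatFunc K) F RatFunc.X = algebraMap K[X] F X := by
  rw [← RatFunc.algebraMap_X, ← IsScalarTower.algebraMap_apply K[X] (RatFunc K) F]

omit [DecidableEq (RatFunc K)] in
theorem algebraMap_ratFunc_C (c : K) :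
    algebraMap (RatFunc K) F (RatFunc.C c) = algebraMap K F c := by
  rw [← RatFunc.algebraMap_C, ← IsScalarTower.algebraMap_apply K[X] (RatFunc K) F,
    ← Polynomial.algebraMap_eq, ← IsScalarTower.algebraMap_apply K K[X] F]

omit [DecidableEq (RatFunc K)] in
theorem algebraMap_poly_injective : Function.Injective (algebraMap K[X] F) := by
  rw [IsScalarTower.algebraMap_eq K[X] (RatFunc K) F]
  exact (algebraMap (RatFunc K) F).injective.comp (RatFunc.algebraMap_injective K)

/-- Elements of `O_∞` are regular at the poles of `x`. -/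
theorem algebraMap_mem_of_inftyValuation_le_one (v : Place K F)
    (hx : v.ord (algebraMap K[X] F X) < 0) (r : RatFunc K)
    (hr : RatFunc.inftyValuation K r ≤ 1) :
    algebraMap (RatFunc K) F r ∈ v.toValuationSubring := by
  by_cases hr0 : r = 0
  · rw [hr0, map_zero]; exact zero_mem _
  have hne : algebraMap (RatFunc K) F r ≠ 0 :=
    (map_ne_zero_iff _ (algebraMap (RatFunc K) F).injective).mpr hr0
  rw [mem_valuationSubring_iff_ord_nonneg v hne, ord_algebraMap_ratFunc v hx r hr0]
  rw [RatFunc.inftyValuation_apply, RatFunc.inftyValuation_of_nonzero K hr0, ← WithZero.exp_zero,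
    WithZero.exp_le_exp] at hr
  nlinarith

variable [CharZero K] [IsAlgClosed K] [FiniteDimensional (RatFunc K) F]
  [Algebra.IsSeparable (RatFunc K) F]

/-- **Tame duality at the infinite places.**  `h` lies in the trace dual (with respect to `O_∞`)
of the integral closure of `O_∞` iff `h = 0` or `ord_v h - ord_v x ≥ 1` at every pole `v` of
`x`. -/
theorem mem_dualInfty_iff (hF : OneVariable K F) (h : F) :
    (∀ y : F, IsIntegral (RatFunc.inftyValuation K).valuationSubring y →
        RatFunc.inftyValuation K (Algebra.trace (RatFunc K) F (h * y)) ≤ 1) ↔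
      ∀ v : Place K F, v.ord (algebraMap K[X] F X) < 0 →
        h = 0 ∨ 0 < v.ord h - v.ord (algebraMap K[X] F X) := by
  classical
  set O := (RatFunc.inftyValuation K).valuationSubring with hO
  have hCmem : ∀ c : K, algebraMap K (RatFunc K) c ∈ O.toSubring := by
    intro c
    show RatFunc.inftyValuation K (algebraMap K (RatFunc K) c) ≤ 1
    rw [RatFunc.algebraMap_eq_C]
    by_cases hc : c = 0
    · rw [hc, map_zero, map_zero]; exact zero_le_one
    · rw [RatFunc.inftyValuation.C K hc]
  letI algKO : Algebra K O := ((algebraMap K (RatFunc K)).codRestrict O.toSubring hCmem).toAlgebra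
  haveI : IsScalarTower O (RatFunc K) F := IsScalarTower.of_algebraMap_eq (fun r => rfl)
  haveI : IsScalarTower K O F := IsScalarTower.of_algebraMap_eq (fun c => by
    show algebraMap K F c = algebraMap (RatFunc K) F (algebraMap K (RatFunc K) c)
    rw [RatFunc.algebraMap_eq_C, algebraMap_ratFunc_C])
  have key := mem_dual_iff_places (K := K) O (RatFunc K) h
  have hrange : ∀ f : RatFunc K, f ∈ (algebraMap O (RatFunc K)).range ↔
      RatFunc.inftyValuation K f ≤ 1 := by
    intro f
    rw [← Valuation.mem_valuationSubring_iff]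
    constructor
    · rintro ⟨g, rfl⟩; exact g.2
    · intro hf; exact ⟨⟨f, hf⟩, rfl⟩
  have hL : (∀ y : F, IsIntegral O y →
        RatFunc.inftyValuation K (Algebra.trace (RatFunc K) F (h * y)) ≤ 1) ↔
      (∀ y : F, IsIntegral O y →
        Algebra.trace (RatFunc K) F (h * y) ∈ (algebraMap O (RatFunc K)).range) :=
    forall₂_congr fun y _ => (hrange _).symm
  rw [hL, key]
  set x : F := algebraMap K[X] F X with hxdef
  have hx0 : x ≠ 0 := (map_ne_zero_iff _ algebraMap_poly_injective).mpr Polynomial.X_ne_zero
  -- the element `1 / X` of `O_∞`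
  have hXinv : (RatFunc.X : RatFunc K)⁻¹ ∈ O := by
    show RatFunc.inftyValuation K (RatFunc.X : RatFunc K)⁻¹ ≤ 1
    rw [map_inv₀, RatFunc.inftyValuation.X, ← WithZero.exp_neg, ← WithZero.exp_zero,
      WithZero.exp_le_exp]
    norm_num
  have hXinvF : algebraMap O F ⟨(RatFunc.X : RatFunc K)⁻¹, hXinv⟩ = x⁻¹ := by
    show algebraMap (RatFunc K) F (RatFunc.X : RatFunc K)⁻¹ = x⁻¹
    rw [map_inv₀, algebraMap_ratFunc_X]
  constructor
  · intro hh v hv
    have hvO : ∀ r : O, algebraMap O F r ∈ v.toValuationSubring := fun r =>
      algebraMap_mem_of_inftyValuation_le_one v hv (r : RatFunc K) r.2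
    have := hh v hvO ⟨(RatFunc.X : RatFunc K)⁻¹, hXinv⟩ (by rw [hXinvF, v.ord_inv]; omega)
    rw [hXinvF, v.ord_inv] at this
    rcases this with h1 | h1
    · exact Or.inl h1
    · right; omega
  · intro hh v hv π hπ
    by_cases h0 : h = 0
    · exact Or.inl h0
    right
    -- `ord_v x < 0`
    have hxinv_mem : x⁻¹ ∈ v.toValuationSubring := by
      rw [← hXinvF]; exact hv _
    have hxle : v.ord x ≤ 0 := by
      have := (mem_valuationSubring_iff_ord_nonneg v (inv_ne_zero hx0)).mp hxinv_mem
      rw [v.ord_inv] at this; omega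
    have hxneg : v.ord x < 0 := by
      rcases hxle.lt_or_eq with h1 | h1
      · exact h1
      exfalso
      have hxmem : x ∈ v.toValuationSubring :=
        (mem_valuationSubring_iff_ord_nonneg v hx0).mpr h1.ge
      obtain ⟨c, hc⟩ := exists_const_ord_sub_pos v hF hxmem
      have hxc : x ≠ algebraMap K F c := by
        intro h2
        have : algebraMap K[X] F X = algebraMap K[X] F (C c) := by
          rw [← hxdef, h2, ← Polynomial.algebraMap_eq, ← IsScalarTower.algebraMap_apply K K[X] F]
        exact Polynomial.X_ne_C c (algebraMap_poly_injective this)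
      have hc' : 0 < v.ord (x - algebraMap K F c) := hc.resolve_left hxc
      -- `1 / (X - c) ∈ O_∞`
      have hne : (Polynomial.X - Polynomial.C c : K[X]) ≠ 0 := Polynomial.X_sub_C_ne_zero c
      have hmemO : (algebraMap K[X] (RatFunc K) (Polynomial.X - Polynomial.C c))⁻¹ ∈ O := by
        show RatFunc.inftyValuation K (algebraMap K[X] (RatFunc K) (X - C c))⁻¹ ≤ 1
        rw [map_inv₀, RatFunc.inftyValuation_apply, RatFunc.inftyValuation.polynomial K hne,
          Polynomial.natDegree_X_sub_C, ← WithZero.exp_neg, ← WithZero.exp_zero,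
          WithZero.exp_le_exp]
        norm_num
      have hF' : algebraMap O F ⟨_, hmemO⟩ = (x - algebraMap K F c)⁻¹ := by
        show algebraMap (RatFunc K) F (algebraMap K[X] (RatFunc K) (X - C c))⁻¹ = _
        rw [map_inv₀, ← IsScalarTower.algebraMap_apply K[X] (RatFunc K) F, algebraMap_X_sub_C]
      have hmem2 : (x - algebraMap K F c)⁻¹ ∈ v.toValuationSubring := by
        rw [← hF']; exact hv _
      have hxc0 : x - algebraMap K F c ≠ 0 := sub_ne_zero.mpr hxc
      have := (mem_valuationSubring_iff_ord_nonneg v (inv_ne_zero hxc0)).mp hmem2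
      rw [v.ord_inv] at this
      omega
    -- `ord_v π ≥ -ord_v x`
    have hπ0 : (π : RatFunc K) ≠ 0 := by
      intro h1
      have : algebraMap O F π = 0 := by
        show algebraMap (RatFunc K) F (π : RatFunc K) = 0
        rw [h1, map_zero]
      rw [this, Place.ord_zero] at hπ
      exact lt_irrefl _ hπ
    have hord : v.ord (algebraMap O F π) = (π : RatFunc K).intDegree * v.ord x :=
      ord_algebraMap_ratFunc v hxneg (π : RatFunc K) hπ0
    have hdeg : (π : RatFunc K).intDegree ≤ -1 := by
      by_contra hcon
      rw [not_le] at hcon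
      have : (π : RatFunc K).intDegree * v.ord x ≤ 0 := by nlinarith
      omega
    rcases hh v hxneg with h1 | h1
    · exact absurd h1 h0
    · rw [hord]
      nlinarith

end Infty

end Fermat.Agent.S20.DWDual
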