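import Mathlib
import Fermat.Agent.S24.ZerosBackup

/-!
# S20 / DW.setup: the `K[X]`- and `RatFunc K`-algebra structures on a function field

Let `F / K` be a field extension and `x : F` transcendental over `K`.  We equip `F` with the
`K[X]`-algebra structure `X ↦ x` (`Fermat.Agent.S24.ZerosBackup.polyAlgebra x`) and with the
`RatFunc K`-algebra structure `X ↦ x` (`ratFuncAlgebra x hx`), and prove the compatibilities
needed by the Dedekind–Weber line (`DWDict`, `DWBases`, `NormalBasis`):
scalar towers `K → K[X] → RatFunc K → F`, `algebraMap K[X] F X = x`,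
`finrank (RatFunc K) F = finrank K⟮x⟯ F`, finiteness, separability in characteristic zero.
-/

set_option autoImplicit false
set_option linter.unusedSectionVars false
set_option linter.style.haveILetI false

noncomputable section

namespace Fermat.Agent.S20.DWSetup

open Polynomial IntermediateField Fermat.Agent.S24.ZerosBackup

variable {K F : Type*} [Field K] [Field F] [Algebra K F]

/-- The `RatFunc K`-algebra structure on `F` sending `X` to the transcendental element `x`:
`RatFunc K ≃ K(x) ↪ F`. -/
@[reducible] def ratFuncAlgebra (x : F) (hx : Transcendental K x) : Algebra (RatFunc K) F :=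
  ((algebraMap K⟮x⟯ F).comp
    ((RatFunc.algEquivOfTranscendental x hx : RatFunc K ≃ₐ[K] K⟮x⟯) : RatFunc K →+* K⟮x⟯)).toAlgebra

section

variable (x : F) (hx : Transcendental K x)

theorem algebraMap_ratFunc_apply (u : RatFunc K) :
    letI := ratFuncAlgebra x hx
    algebraMap (RatFunc K) F u = ((RatFunc.algEquivOfTranscendental x hx u : K⟮x⟯) : F) := rfl

theorem algebraMap_ratFunc_eq_div (u : RatFunc K) :
    letI := ratFuncAlgebra x hx
    algebraMap (RatFunc K) F u = aeval x u.num / aeval x u.denom := by
  letI := ratFuncAlgebra x hx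
  rw [algebraMap_ratFunc_apply, RatFunc.algEquivOfTranscendental_apply]

theorem algebraMap_ratFunc_X :
    letI := ratFuncAlgebra x hx
    algebraMap (RatFunc K) F (RatFunc.X : RatFunc K) = x := by
  letI := ratFuncAlgebra x hx
  rw [algebraMap_ratFunc_apply, RatFunc.algEquivOfTranscendental_X]

theorem algebraMap_ratFunc_algebraMap (p : K[X]) :
    letI := ratFuncAlgebra x hx
    algebraMap (RatFunc K) F (algebraMap K[X] (RatFunc K) p) = aeval x p := by
  letI := ratFuncAlgebra x hx
  rw [algebraMap_ratFunc_apply, RatFunc.algEquivOfTranscendental_algebraMap,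
    ← IntermediateField.algebraMap_apply, ← Polynomial.aeval_algebraMap_apply,
    AdjoinSimple.algebraMap_gen]

theorem algebraMap_poly_X :
    letI := polyAlgebra (K := K) x
    algebraMap K[X] F (X : K[X]) = x := by
  letI := polyAlgebra (K := K) x
  rw [algebraMap_poly_apply, aeval_X]

/-- `K[X] → RatFunc K → F` is `K[X] → F`. -/
theorem isScalarTower_poly_ratFunc :
    letI := polyAlgebra (K := K) x
    letI := ratFuncAlgebra x hx
    IsScalarTower K[X] (RatFunc K) F := by
  letI := polyAlgebra (K := K) x
  letI := ratFuncAlgebra x hx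
  refine IsScalarTower.of_algebraMap_eq fun p => ?_
  rw [algebraMap_ratFunc_algebraMap, algebraMap_poly_apply]

/-- `K → RatFunc K → F` is `K → F`. -/
theorem isScalarTower_ratFunc :
    letI := ratFuncAlgebra x hx
    IsScalarTower K (RatFunc K) F := by
  letI := ratFuncAlgebra x hx
  refine IsScalarTower.of_algebraMap_eq fun c => ?_
  rw [algebraMap_ratFunc_apply, AlgEquiv.commutes, ← IntermediateField.algebraMap_apply,
    ← IsScalarTower.algebraMap_apply K K⟮x⟯ F]

/-- `RatFunc K → F` is `RatFunc K ≃ K(x) → F`. -/
theorem algebraMap_comp_algEquiv :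
    letI := ratFuncAlgebra x hx
    (algebraMap K⟮x⟯ F).comp
        (RatFunc.algEquivOfTranscendental x hx).toRingEquiv.toRingHom =
      (RingEquiv.refl F).toRingHom.comp (algebraMap (RatFunc K) F) := rfl

theorem finrank_ratFunc :
    letI := ratFuncAlgebra x hx
    Module.finrank (RatFunc K) F = Module.finrank K⟮x⟯ F := by
  letI := ratFuncAlgebra x hx
  exact Algebra.finrank_eq_of_equiv_equiv (RatFunc.algEquivOfTranscendental x hx).toRingEquiv
    (RingEquiv.refl F) (algebraMap_comp_algEquiv x hx)

theorem finiteDimensional_ratFunc [FiniteDimensional K⟮x⟯ F] :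
    letI := ratFuncAlgebra x hx
    FiniteDimensional (RatFunc K) F := by
  letI := ratFuncAlgebra x hx
  refine Module.Finite.of_equiv_equiv (RatFunc.algEquivOfTranscendental x hx).symm.toRingEquiv
    (RingEquiv.refl F) ?_
  ext u
  show algebraMap (RatFunc K) F ((RatFunc.algEquivOfTranscendental x hx).symm u) = (u : F)
  rw [algebraMap_ratFunc_apply, AlgEquiv.apply_symm_apply]

theorem isSeparable_ratFunc [CharZero K] [FiniteDimensional K⟮x⟯ F] :
    letI := ratFuncAlgebra x hx
    Algebra.IsSeparable (RatFunc K) F := by
  letI := ratFuncAlgebra x hx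
  haveI := finiteDimensional_ratFunc x hx
  haveI : CharZero (RatFunc K) := charZero_of_injective_algebraMap (algebraMap K (RatFunc K)).injective
  infer_instance

end

/-- **DW.setup, bundled**: for a transcendental `x : F` with `F / K(x)` finite there are
`K[X]`- and `RatFunc K`-algebra structures on `F` (both `X ↦ x`) forming scalar towers
`K → K[X] → RatFunc K → F`, with `F` finite-dimensional over `RatFunc K` of degree `[F : K(x)]`. -/
theorem exists_setup (x : F) (hx : Transcendental K x) [FiniteDimensional K⟮x⟯ F] :
    ∃ (_ : Algebra K[X] F) (_ : Algebra (RatFunc K) F),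
      IsScalarTower K K[X] F ∧ IsScalarTower K[X] (RatFunc K) F ∧ IsScalarTower K (RatFunc K) F ∧
      FiniteDimensional (RatFunc K) F ∧ algebraMap K[X] F X = x ∧
      algebraMap (RatFunc K) F RatFunc.X = x ∧
      Module.finrank (RatFunc K) F = Module.finrank K⟮x⟯ F :=
  ⟨polyAlgebra (K := K) x, ratFuncAlgebra x hx, isScalarTower_poly x,
    isScalarTower_poly_ratFunc x hx, isScalarTower_ratFunc x hx, finiteDimensional_ratFunc x hx,
    algebraMap_poly_X x, algebraMap_ratFunc_X x hx, finrank_ratFunc x hx⟩

/-- **DW.setup, bundled, characteristic zero**: as `exists_setup`, plus separability. -/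
theorem exists_setup_sep [CharZero K] (x : F) (hx : Transcendental K x)
    [FiniteDimensional K⟮x⟯ F] :
    ∃ (_ : Algebra K[X] F) (_ : Algebra (RatFunc K) F),
      IsScalarTower K K[X] F ∧ IsScalarTower K[X] (RatFunc K) F ∧ IsScalarTower K (RatFunc K) F ∧
      FiniteDimensional (RatFunc K) F ∧ Algebra.IsSeparable (RatFunc K) F ∧
      algebraMap K[X] F X = x ∧ algebraMap (RatFunc K) F RatFunc.X = x ∧
      Module.finrank (RatFunc K) F = Module.finrank K⟮x⟯ F :=
  ⟨polyAlgebra (K := K) x, ratFuncAlgebra x hx, isScalarTower_poly x,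
    isScalarTower_poly_ratFunc x hx, isScalarTower_ratFunc x hx, finiteDimensional_ratFunc x hx,
    isSeparable_ratFunc x hx, algebraMap_poly_X x, algebraMap_ratFunc_X x hx,
    finrank_ratFunc x hx⟩

/-- Usage check: the bundled form feeds instance search after `obtain`. -/
example [CharZero K] (x : F) (hx : Transcendental K x) [FiniteDimensional K⟮x⟯ F] :
    ∃ (_ : Algebra K[X] F) (_ : Algebra (RatFunc K) F), IsScalarTower K[X] (RatFunc K) F ∧
      Module.Finite (RatFunc K) F := by
  obtain ⟨a1, a2, h1, h2, h3, h4, h5, h6, h7, h8⟩ := exists_setup_sep x hx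
  exact ⟨a1, a2, inferInstance, inferInstance⟩

end Fermat.Agent.S20.DWSetup
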