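/-
S20 (Dedekind–Weber line, piece DW.asm part 3; owner: helper90).
Final wrapper: `RegularGenus.Star K F` from the Dedekind–Weber pieces
(DWSetup, DWBases, DWDict, DWDual, DWAsm).
-/
import Mathlib
import Fermat.Agent.S20.DWAsm
import Fermat.Agent.S20.DWBases
import Fermat.Agent.S20.DWDict
import Fermat.Agent.S20.DWDual
import Fermat.Agent.S20.DWSetup

set_option autoImplicit false
set_option linter.unusedSectionVars false

namespace Fermat.Agent.S20.DWFinal

open Polynomial WithZero Module AlgebraicCurve KaehlerDifferential
open Fermat.Agent.S24 Fermat.Agent.S24.PrincipalDegreeCore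
open Fermat.Agent.S20.DWChi Fermat.Agent.S20.DWCore

section Concrete

variable {K F : Type*} [Field K] [DecidableEq (RatFunc K)] [Field F] [Algebra K F]
  [Algebra K[X] F] [IsScalarTower K K[X] F] [Algebra (RatFunc K) F]
  [IsScalarTower K[X] (RatFunc K) F]

/-- Integrality over the valuation ring at infinity, in its two incarnations. -/
theorem isIntegral_valuationSubring_iff (y : F) :
    IsIntegral (RatFunc.inftyValuation K).valuationSubring y ↔ IsIntegral (DWDict.Oinf K) y := by
  constructor
  · intro h
    let φ : (RatFunc.inftyValuation K).valuationSubring →+* DWDict.Oinf K :=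
      { toFun := fun r => ⟨r.1, r.2⟩
        map_one' := rfl
        map_mul' := fun _ _ => rfl
        map_zero' := rfl
        map_add' := fun _ _ => rfl }
    have := IsIntegral.map_of_comp_eq φ (RingHom.id F) (by ext r; rfl) h
    exact this
  · intro h
    let φ : DWDict.Oinf K →+* (RatFunc.inftyValuation K).valuationSubring :=
      { toFun := fun r => ⟨r.1, r.2⟩
        map_one' := rfl
        map_mul' := fun _ _ => rfl
        map_zero' := rfl
        map_add' := fun _ _ => rfl }
    have := IsIntegral.map_of_comp_eq φ (RingHom.id F) (by ext r; rfl) h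
    exact this

variable [IsAlgClosed K] [CharZero K] [FiniteDimensional (RatFunc K) F]
  [Algebra.IsSeparable (RatFunc K) F]

/-- The Dedekind–Weber theorem for `x = algebraMap K[X] F X`, given the divisor of `dx`. -/
theorem two_mul_finrank_eq_concrete (hF : IsFunctionField1 K F) (hZ : ZerosTheorem K F)
    (hx : Transcendental K (algebraMap K[X] F X))
    (hn : finrank (RatFunc K) F =
      finrank (IntermediateField.adjoin K ({algebraMap K[X] F X} : Set F)) F)
    (W : Divisor K F) (hW : ∀ v, W v = v.ordDifferential (D K F (algebraMap K[X] F X))) :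
    2 * (finrank K (riemannRochSpace W) : ℤ) = Divisor.degree W + 2 := by
  have hOV : OneVariable K F := KaehlerGen.FF.oneVariable hF
  obtain ⟨w, d, h1, h2⟩ := DWBases.exists_normal_basis_integralClosure K F
  have hxX : algebraMap (RatFunc K) F RatFunc.X = algebraMap K[X] F X := by
    rw [IsScalarTower.algebraMap_apply K[X] (RatFunc K) F, RatFunc.algebraMap_X]
  have hT : (Algebra.traceForm (RatFunc K) F).Nondegenerate := traceForm_nondegenerate _ _
  refine DWAsm.two_mul_finrank_eq hF hZ _ hxX hx hn w d (Algebra.traceForm (RatFunc K) F) hT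
    ?_ ?_ ?_ ?_ W hW
  · intro y
    rw [mem_polyLat]
    exact (h1 y).trans (DWDict.mem_integralClosure_poly_iff y)
  · intro y
    rw [mem_inftyLat]
    exact (h2 y).trans ((isIntegral_valuationSubring_iff y).trans
      (DWDict.mem_integralClosure_inf_iff hOV y))
  · intro h
    rw [mem_dualPoly]
    have key := DWDual.mem_dualPoly_iff (RatFunc K) hOV h
    constructor
    · intro hh v c hc
      have h3 := (key.mp fun y hy => hh y ((h1 y).mpr hy)) v c hc
      rcases h3 with h3 | h3
      · exact Or.inl h3
      · right; omega
    · intro hh y hy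
      refine key.mpr (fun v c hc => ?_) y ((h1 y).mp hy)
      rcases hh v c hc with h3 | h3
      · exact Or.inl h3
      · right; omega
  · intro h
    rw [mem_dualInfty, exp_zero]
    have key := DWDual.mem_dualInfty_iff hOV h
    constructor
    · intro hh v hv
      have h3 := (key.mp fun y hy => hh y ((h2 y).mpr hy)) v hv
      rcases h3 with h3 | h3
      · exact Or.inl h3
      · right; omega
    · intro hh y hy
      refine key.mpr (fun v hv => ?_) y ((h2 y).mp hy)
      rcases hh v hv with h3 | h3
      · exact Or.inl h3
      · right; omega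

end Concrete

section Final

variable {K F : Type*} [Field K] [Field F] [Algebra K F] [IsAlgClosed K] [CharZero K]

/-- `(★)` from the Dedekind–Weber line, given that the differentials `dx` have divisors. -/
theorem star_of_exists_divisor (hF : IsFunctionField1 K F) (hZ : ZerosTheorem K F)
    (hdiv : ∀ x : F, Transcendental K x →
      ∃ W : Divisor K F, ∀ v : Place K F, W v = v.ordDifferential (D K F x)) :
    RegularGenus.Star K F := by
  classical
  obtain ⟨x, hx, hfin⟩ := id hF
  obtain ⟨a1, a2, t1, t2, t3, fd, sep, hX, hXr, hn⟩ := DWSetup.exists_setup_sep x hx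
  obtain ⟨W, hW⟩ := hdiv x hx
  refine ⟨D K F x, KaehlerGen.FF.D_ne_zero hF hx, W, hW, ?_⟩
  subst hX
  exact two_mul_finrank_eq_concrete hF hZ hx hn W hW

/-- **`(★)` from the Dedekind–Weber line** (no residues, no adeles). -/
theorem star [HasCanonicalDivisor (K := K) (F := F)] (hF : IsFunctionField1 K F)
    (hZ : ZerosTheorem K F) : RegularGenus.Star K F :=
  star_of_exists_divisor hF hZ fun x hx =>
    HasCanonicalDivisor.exists_divisor (D K F x) (KaehlerGen.FF.D_ne_zero hF hx)

end Final

end Fermat.Agent.S20.DWFinal
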