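/-
S20, Dedekind–Weber line, piece DW.quotdim (owner: helper30).

The two quotient dimensions of the Dedekind–Weber theorem in place language:
* `finrank_quot_poly` / `finrank_quot_poly_places`: for `N` = integral closure of `K[x]` in `F` and
  `M` = its trace dual, `dim_K (M / N) = ∑_{v finite} ord_v (dx)`  (`= ∑ (e_v - 1)`);
* `finrank_quot_infty` / `finrank_quot_infty_places`: for `N` = integral closure of `O_∞` and
  `M` = its trace dual, `dim_K (M / N) = ∑_{v | ∞} (- ord_v x - 1)`  (`= ∑ (e_v - 1)`).
Both come from the generic `finrank_quot_places` (Dedekind base ring `R`), which combines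
`DWQuot.finrank_quot_of_carrier`, the tame different `TameDifferent.pow_dvd_differentIdeal_and_not`
(in count form: `count_differentIdeal`) and `PlaceOfPrime.placeEquiv`.
-/
import Mathlib
import Fermat.Agent.S20.TameDifferent
import Fermat.Agent.S20.DWQuot
import Fermat.Agent.S20.DWDual
import Fermat.Agent.S24.PlaceOfPrime
import Fermat.Agent.S24.PlaceDeg
import Fermat.Agent.S24.OrdBasic
import Fermat.Agent.S24.DiffOrder
import Fermat.Agent.S24.Hurwitz

set_option autoImplicit false
set_option linter.unusedSectionVars false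
set_option linter.style.haveILetI false

namespace Fermat.Agent.S20.DWQuotDim

open AlgebraicCurve IsDedekindDomain WithZero Module nonZeroDivisors Fermat.Agent.S24
open KaehlerDifferential

section Count

variable {S : Type*} [CommRing S] [IsDedekindDomain S] (F : Type*) [Field F] [Algebra S F]
  [IsFractionRing S F]

/-- The `P`-adic count of an integral ideal from exact divisibility. -/
theorem count_coeIdeal_eq_of_dvd_not_dvd {I : Ideal S} (P : HeightOneSpectrum S) (m : ℕ)
    (h1 : P.asIdeal ^ m ∣ I) (h2 : ¬ P.asIdeal ^ (m + 1) ∣ I) :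
    FractionalIdeal.count F P (I : FractionalIdeal S⁰ F) = m := by
  classical
  have hI : I ≠ 0 := by
    rintro rfl
    exact h2 (dvd_zero _)
  rw [FractionalIdeal.count_coe F P hI]
  have hirr : Irreducible (Associates.mk P.asIdeal) := P.associates_irreducible
  have hI' : Associates.mk I ≠ 0 := by
    rwa [ne_eq, Associates.mk_eq_zero]
  have key : ∀ k : ℕ, P.asIdeal ^ k ∣ I ↔
      k ≤ (Associates.mk P.asIdeal).count (Associates.mk I).factors := by
    intro k
    rw [← Associates.prime_pow_dvd_iff_le hI' hirr, ← Associates.mk_pow,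
      Associates.mk_le_mk_iff_dvd]
  have a1 := (key m).mp h1
  have a2 := (key (m + 1)).not.mp h2
  congr 1
  omega

end Count

section Different

attribute [local instance] FractionRing.liftAlgebra FractionRing.isScalarTower_liftAlgebra

variable (R : Type*) {S : Type*} [CommRing R] [CommRing S] [Algebra R S]
  [IsDedekindDomain R] [IsDedekindDomain S] [IsTorsionFree R S] [Module.Finite R S]
variable (Kf F : Type*) [Field Kf] [Field F] [Algebra R Kf] [IsFractionRing R Kf] [Algebra S F]
  [IsFractionRing S F] [Algebra Kf F] [Algebra R F] [IsScalarTower R Kf F] [IsScalarTower R S F]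
  [FiniteDimensional Kf F] [Algebra.IsSeparable Kf F]

include Kf in
/-- **Tame different, count form.**  If `n` is the ramification index of `P` (every `π ∈ P ∩ R`
lies in `P ^ n`, some `π ∈ P ∩ R` does not lie in `P ^ (n + 1)`) and the residue characteristics
are zero, then `P` occurs in the different with exponent exactly `n - 1`. -/
theorem count_differentIdeal (hchar : ∀ p : Ideal R, p.IsMaximal → CharZero (R ⧸ p))
    (P : HeightOneSpectrum S) (n : ℕ)
    (hn1 : ∀ π : R, algebraMap R S π ∈ P.asIdeal → algebraMap R S π ∈ P.asIdeal ^ n)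
    (hn2 : ∃ π : R, algebraMap R S π ∈ P.asIdeal ∧ algebraMap R S π ∉ P.asIdeal ^ (n + 1)) :
    FractionalIdeal.count F P ((differentIdeal R S : Ideal S) : FractionalIdeal S⁰ F) =
      (n : ℤ) - 1 := by
  classical
  have hsep : Algebra.IsSeparable (FractionRing R) (FractionRing S) :=
    TameDifferent.isSeparable_fractionRing R Kf F
  haveI : P.asIdeal.IsMaximal := P.isMaximal
  haveI : (P.asIdeal.under R).IsMaximal := Ideal.IsMaximal.under R P.asIdeal
  haveI : P.asIdeal.LiesOver (P.asIdeal.under R) := Ideal.over_under P.asIdeal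
  haveI : CharZero (R ⧸ P.asIdeal.under R) := hchar _ inferInstance
  have hle : (P.asIdeal.under R).map (algebraMap R S) ≤ P.asIdeal ^ n := by
    rw [Ideal.map_le_iff_le_comap]
    intro π hπ
    exact hn1 π hπ
  have hnot : ¬ (P.asIdeal.under R).map (algebraMap R S) ≤ P.asIdeal ^ (n + 1) := by
    obtain ⟨π, hπ, hπn⟩ := hn2
    intro hcon
    exact hπn (hcon (Ideal.mem_map_of_mem _ (Ideal.mem_comap.mpr hπ)))
  obtain ⟨h1, h2⟩ := TameDifferent.pow_dvd_differentIdeal_and_not R P.asIdeal P.ne_bot
    (p := P.asIdeal.under R) hle hnot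
  have hn0 : n ≠ 0 := by
    rintro rfl
    exact h2 (by rw [pow_zero]; exact one_dvd _)
  have h2' : ¬ P.asIdeal ^ (n - 1 + 1) ∣ differentIdeal R S := by
    rwa [Nat.sub_add_cancel (Nat.one_le_iff_ne_zero.mpr hn0)]
  rw [count_coeIdeal_eq_of_dvd_not_dvd F P (n - 1) h1 h2']
  have : 1 ≤ n := Nat.one_le_iff_ne_zero.mpr hn0
  push_cast [this]
  ring

end Different

section Generic

variable {K F : Type*} [Field K] [CharZero K] [IsAlgClosed K] [Field F] [Algebra K F]

section Res

variable {B : Type*} [CommRing B] [IsDedekindDomain B] [Algebra B F] [IsFractionRing B F]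
  [Algebra K B] [IsScalarTower K B F]

omit [CharZero K] in
/-- Over an algebraically closed constant field all residue fields of a Dedekind subring of a
function field in one variable are trivial. -/
theorem residueFieldsTrivial (hF : OneVariable K F) : DWQuot.ResidueFieldsTrivial K B := by
  intro P b
  set v : Place K F := Place.ofHeightOneSpectrum (K := K) P with hv
  have hb : algebraMap B F b ∈ v.toValuationSubring :=
    PlaceOfPrime.algebraMap_mem_ofHeightOneSpectrum P b
  obtain ⟨c, hc⟩ := exists_const_ord_sub_pos v hF hb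
  refine ⟨c, ?_⟩
  have hmap : algebraMap B F (b - algebraMap K B c) = algebraMap B F b - algebraMap K F c := by
    rw [map_sub, ← IsScalarTower.algebraMap_apply K B F]
  by_cases h0 : b - algebraMap K B c = 0
  · rw [h0]; exact Ideal.zero_mem _
  · rcases hc with hc | hc
    · exfalso
      apply h0
      apply IsFractionRing.injective B F
      rw [hmap, hc, sub_self, map_zero]
    · rw [← PlaceOfPrime.ord_algebraMap_pos_iff (K := K) (F := F) P h0, hmap]
      exact hc

omit [CharZero K] [IsAlgClosed K] in
/-- Membership in a power of a prime in terms of the order at the attached place. -/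
theorem mem_pow_iff_le_ord (P : HeightOneSpectrum B) {b : B} (hb : b ≠ 0) (n : ℕ) :
    b ∈ P.asIdeal ^ n ↔
      (n : ℤ) ≤ (Place.ofHeightOneSpectrum (K := K) P).ord (algebraMap B F b) := by
  have hb' : algebraMap B F b ≠ 0 := by
    simpa using hb
  rw [← HeightOneSpectrum.intValuation_le_pow_iff_mem, ← HeightOneSpectrum.valuation_of_algebraMap
    (K := F), PlaceOfPrime.valuation_eq_exp_neg_ord (K := K) P hb', exp_le_exp]
  omega

end Res

variable (R Kf : Type*) [CommRing R] [IsDedekindDomain R] [Algebra K R] [Field Kf] [Algebra R Kf]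
  [IsFractionRing R Kf] [Algebra Kf F] [Algebra R F] [IsScalarTower R Kf F] [IsScalarTower K R F]
  [FiniteDimensional Kf F] [Algebra.IsSeparable Kf F]

omit [CharZero K] [IsAlgClosed K] in
include Kf in
/-- An element of `F` is integral over the Dedekind domain `R` iff it lies in the valuation ring
of every place of `F / K` whose valuation ring contains `R`. -/
theorem isIntegral_iff_places (h : F) :
    IsIntegral R h ↔
      ∀ v : Place K F, (∀ r : R, algebraMap R F r ∈ v.toValuationSubring) →
        h ∈ v.toValuationSubring := by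
  classical
  let B := integralClosure R F
  haveI : IsDedekindDomain B := integralClosure.isDedekindDomain R Kf F
  haveI : IsFractionRing B F := integralClosure.isFractionRing_of_finite_extension Kf F
  haveI : IsScalarTower K B F := IsScalarTower.of_algebraMap_eq (fun c => rfl)
  constructor
  · intro hh v hv
    exact PlaceOfPrime.forall_mem_of_isIntegral (B := B) v (R := R) hv ⟨h, hh⟩
  · intro hh
    have hval : ∀ P : HeightOneSpectrum B, P.valuation F h ≤ 1 := by
      intro P
      have hR : ∀ r : R, algebraMap R F r ∈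
          (Place.ofHeightOneSpectrum (K := K) (F := F) P).toValuationSubring := by
        intro r
        have := PlaceOfPrime.algebraMap_mem_ofHeightOneSpectrum (K := K) (F := F)
          P (algebraMap R B r)
        rwa [← IsScalarTower.algebraMap_apply R B F] at this
      have := hh _ hR
      rwa [Place.ofHeightOneSpectrum_toValuationSubring, Valuation.mem_valuationSubring_iff] at this
    obtain ⟨y, hy⟩ := HeightOneSpectrum.mem_integers_of_valuation_le_one F h hval
    rw [← hy]
    exact y.2

/-- **Quotient dimension, generic base ring, place form.**  `N` = integral closure of `R` in `F`,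
`M` = its trace dual, `e v` = the ramification index (minimal positive order of an element of `R`)
at a place `v` whose valuation ring contains `R`.  Then `dim_K (M / N) = ∑ (e v - 1)` over those
places. -/
theorem finrank_quot_places (hF : OneVariable K F) (N M : Submodule K F)
    (hN : ∀ h : F, h ∈ N ↔ IsIntegral R h)
    (hM : ∀ h : F, h ∈ M ↔ ∀ y : F, IsIntegral R y →
      Algebra.trace Kf F (h * y) ∈ (algebraMap R Kf).range)
    (e : Place K F → ℤ)
    (he1 : ∀ v : Place K F, (∀ r : R, algebraMap R F r ∈ v.toValuationSubring) →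
      ∀ π : R, 0 < v.ord (algebraMap R F π) → e v ≤ v.ord (algebraMap R F π))
    (he2 : ∀ v : Place K F, (∀ r : R, algebraMap R F r ∈ v.toValuationSubring) →
      ∃ π : R, 0 < v.ord (algebraMap R F π) ∧ v.ord (algebraMap R F π) = e v) :
    Module.Finite K (↥M ⧸ N.submoduleOf M) ∧
    (finrank K (↥M ⧸ N.submoduleOf M) : ℤ) =
      ∑ᶠ v ∈ {v : Place K F | ∀ r : R, algebraMap R F r ∈ v.toValuationSubring}, (e v - 1) := by
  classical
  let B := integralClosure R F
  haveI : IsDedekindDomain B := integralClosure.isDedekindDomain R Kf F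
  haveI : IsFractionRing B F := integralClosure.isFractionRing_of_finite_extension Kf F
  haveI : Module.Finite R B := IsIntegralClosure.finite R Kf F B
  haveI : IsScalarTower K B F := IsScalarTower.of_algebraMap_eq (fun c => rfl)
  haveI : Algebra.IsIntegral R B := inferInstance
  haveI : Module.IsTorsionFree R F := .trans_faithfulSMul R Kf F
  haveI : Module.IsTorsionFree R B := IsIntegralClosure.isTorsionFree R F
  have hchar : ∀ p : Ideal R, p.IsMaximal → CharZero (R ⧸ p) :=
    fun p hp => TameDifferent.charZero_quotient_of_algebra R K p hp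
  have hres : DWQuot.ResidueFieldsTrivial K B := residueFieldsTrivial hF
  obtain ⟨I, hI⟩ : ∃ I : FractionalIdeal B⁰ F, I = 1 := ⟨1, rfl⟩
  obtain ⟨J, hJ⟩ : ∃ J : FractionalIdeal B⁰ F,
    J = FractionalIdeal.dual R Kf (1 : FractionalIdeal B⁰ F) := ⟨_, rfl⟩
  have hI0 : I ≠ 0 := by
    rw [hI]
    exact one_ne_zero' (FractionalIdeal B⁰ F)
  have hIJ : I ≤ J := by rw [hI, hJ]; exact FractionalIdeal.one_le_dual_one R Kf
  have hJ0 : J ≠ 0 := by rw [hJ]; exact FractionalIdeal.dual_ne_zero R Kf one_ne_zero
  have hD : ((differentIdeal R B : Ideal B) : FractionalIdeal B⁰ F) = J⁻¹ := by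
    rw [hJ]; exact coeIdeal_differentIdeal R Kf F B
  have hN' : ∀ x, x ∈ N ↔ x ∈ I := by
    intro x
    rw [hN, hI, FractionalIdeal.mem_one_iff]
    constructor
    · intro hx; exact ⟨⟨x, hx⟩, rfl⟩
    · rintro ⟨b, rfl⟩; exact b.2
  have hM' : ∀ x, x ∈ M ↔ x ∈ J := by
    intro x
    rw [hM, hJ, FractionalIdeal.mem_dual (one_ne_zero' (FractionalIdeal B⁰ F))]
    constructor
    · intro hh a ha
      obtain ⟨b, rfl⟩ := (FractionalIdeal.mem_one_iff _).mp ha
      rw [Algebra.traceForm_apply]
      exact hh _ b.2
    · intro hh y hy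
      have := hh y ((FractionalIdeal.mem_one_iff _).mpr ⟨⟨y, hy⟩, rfl⟩)
      rwa [Algebra.traceForm_apply] at this
  refine ⟨DWQuot.finite_quot_of_carrier hres hI0 hIJ N M hN' hM', ?_⟩
  have hfin := DWQuot.finrank_quot_of_carrier hres hI0 hIJ N M hN' hM'
  show (finrank K (↥M ⧸ N.comap M.subtype) : ℤ) = _
  rw [hfin]
  -- the local terms
  have hterm : ∀ P : HeightOneSpectrum B,
      FractionalIdeal.count F P I - FractionalIdeal.count F P J =
        e (Place.ofHeightOneSpectrum (K := K) P) - 1 := by
    intro P
    set v : Place K F := Place.ofHeightOneSpectrum (K := K) P with hv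
    have hvB : ∀ b : B, algebraMap B F b ∈ v.toValuationSubring :=
      PlaceOfPrime.algebraMap_mem_ofHeightOneSpectrum P
    have hvR : ∀ r : R, algebraMap R F r ∈ v.toValuationSubring := fun r => by
      rw [IsScalarTower.algebraMap_apply R B F]; exact hvB _
    obtain ⟨π₀, hπ₀pos, hπ₀⟩ := he2 v hvR
    have hepos : 0 < e v := hπ₀ ▸ hπ₀pos
    obtain ⟨n, hn⟩ : ∃ n : ℕ, (n : ℤ) = e v := ⟨(e v).toNat, Int.toNat_of_nonneg hepos.le⟩
    have hRB : ∀ π : R, algebraMap B F (algebraMap R B π) = algebraMap R F π := fun π =>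
      (IsScalarTower.algebraMap_apply R B F π).symm
    have hcount := count_differentIdeal R Kf F hchar P n ?_ ?_
    · rw [hD, FractionalIdeal.count_inv] at hcount
      rw [hI, FractionalIdeal.count_one, ← hn]
      linarith
    · intro π hπ
      by_cases h0 : algebraMap R B π = 0
      · rw [h0]; exact Ideal.zero_mem _
      rw [mem_pow_iff_le_ord (K := K) (F := F) P h0, hn, hRB]
      apply he1 v hvR π
      rw [← hRB]
      exact (PlaceOfPrime.ord_algebraMap_pos_iff (K := K) P h0).mpr hπ
    · have h0 : algebraMap R B π₀ ≠ 0 := by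
        intro h
        have : algebraMap R F π₀ = 0 := by rw [← hRB, h, map_zero]
        rw [this, Place.ord_zero] at hπ₀pos
        exact lt_irrefl _ hπ₀pos
      refine ⟨π₀, ?_, ?_⟩
      · rw [← PlaceOfPrime.ord_algebraMap_pos_iff (K := K) (F := F) P h0, hRB]
        exact hπ₀pos
      · rw [mem_pow_iff_le_ord (K := K) (F := F) P h0, hRB, ← hv, hπ₀, ← hn]
        push_cast
        omega
  rw [finsum_congr hterm]
  -- reindex along `placeEquiv`
  have hset : {v : Place K F | ∀ r : R, algebraMap R F r ∈ v.toValuationSubring} =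
      {v : Place K F | ∀ b : B, algebraMap B F b ∈ v.toValuationSubring} := by
    ext v
    constructor
    · intro hv
      exact PlaceOfPrime.forall_mem_of_isIntegral v (R := R) hv
    · intro hv r
      rw [IsScalarTower.algebraMap_apply R B F]
      exact hv _
  rw [hset, ← finsum_set_coe_eq_finsum_mem]
  exact finsum_comp_equiv (PlaceOfPrime.placeEquiv (K := K) (F := F) (B := B)).symm
    (f := fun v : {v : Place K F // ∀ b : B, algebraMap B F b ∈ v.toValuationSubring} =>
      e v.1 - 1)

end Generic

section Poly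

open Polynomial

variable {K F : Type*} [Field K] [CharZero K] [IsAlgClosed K] [Field F] [Algebra K F]
variable [Algebra K[X] F] [IsScalarTower K K[X] F]

omit [CharZero K] [IsAlgClosed K] in
/-- At a place `v` with `ord_v (x - c) > 0`, every polynomial in `x` of positive order has order
at least `ord_v (x - c)`. -/
theorem ord_sub_le_ord_poly (v : Place K F)
    (c : K) (hc : 0 < v.ord (algebraMap K[X] F X - algebraMap K F c))
    (π : K[X]) (hπ : 0 < v.ord (algebraMap K[X] F π)) :
    v.ord (algebraMap K[X] F X - algebraMap K F c) ≤ v.ord (algebraMap K[X] F π) := by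
  set x : F := algebraMap K[X] F X with hxdef
  have hxc0 : x - algebraMap K F c ≠ 0 := by
    intro h0; rw [h0, Place.ord_zero] at hc; exact lt_irrefl _ hc
  have hmem : x - algebraMap K F c ∈ v.toValuationSubring :=
    (mem_valuationSubring_iff_ord_nonneg v hxc0).mpr hc.le
  have hx : x ∈ v.toValuationSubring := by
    have := add_mem hmem (v.algebraMap_mem' c)
    rwa [sub_add_cancel] at this
  have hv : ∀ r : K[X], algebraMap K[X] F r ∈ v.toValuationSubring :=
    DWDual.algebraMap_poly_mem_of_mem v hx
  have hdiv : π = (X - C c) * (π /ₘ (X - C c)) + C (π.eval c) := by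
    have := Polynomial.modByMonic_add_div π (X - C c)
    rw [Polynomial.modByMonic_X_sub_C_eq_C_eval] at this
    rw [add_comm]; exact this.symm
  set q := π /ₘ (X - C c) with hq
  have hπx : algebraMap K[X] F π =
      (x - algebraMap K F c) * algebraMap K[X] F q + algebraMap K F (π.eval c) := by
    conv_lhs => rw [hdiv]
    rw [map_add, map_mul, DWDual.algebraMap_X_sub_C, ← Polynomial.algebraMap_eq,
      ← IsScalarTower.algebraMap_apply K K[X] F]
  have hπ0 : algebraMap K[X] F π ≠ 0 := by
    intro h1; rw [h1, Place.ord_zero] at hπ; exact lt_irrefl _ hπ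
  have hqmem : algebraMap K[X] F q ∈ v.toValuationSubring := hv q
  have heval : π.eval c = 0 := by
    by_contra hne
    have hconst : v.ord (algebraMap K F (π.eval c)) = 0 := OrdBasic.ord_algebraMap v hne
    have hconst0 : algebraMap K F (π.eval c) ≠ 0 :=
      (map_ne_zero_iff _ (algebraMap K F).injective).mpr hne
    by_cases hq0 : algebraMap K[X] F q = 0
    · rw [hπx, hq0, mul_zero, zero_add, hconst] at hπ
      exact lt_irrefl _ hπ
    · have hprod : (x - algebraMap K F c) * algebraMap K[X] F q ≠ 0 := mul_ne_zero hxc0 hq0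
      have hpos : 0 < v.ord ((x - algebraMap K F c) * algebraMap K[X] F q) := by
        rw [v.ord_mul hxc0 hq0]
        have := (mem_valuationSubring_iff_ord_nonneg v hq0).mp hqmem
        omega
      have := OrdBasic.ord_add_eq_of_lt v hconst0 hprod (by rw [hconst]; exact hpos)
      rw [add_comm, ← hπx, hconst] at this
      rw [this] at hπ
      exact lt_irrefl _ hπ
  rw [heval, map_zero, add_zero] at hπx
  have hq0 : algebraMap K[X] F q ≠ 0 := by
    intro h1; apply hπ0; rw [hπx, h1, mul_zero]
  have hqnn : 0 ≤ v.ord (algebraMap K[X] F q) :=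
    (mem_valuationSubring_iff_ord_nonneg v hq0).mp hqmem
  rw [hπx, v.ord_mul hxc0 hq0]
  omega

variable (Kf : Type*) [Field Kf] [Algebra K[X] Kf] [IsFractionRing K[X] Kf] [Algebra Kf F]
  [IsScalarTower K[X] Kf F] [FiniteDimensional Kf F] [Algebra.IsSeparable Kf F]

/-- **Finite part.**  `N` = integral closure of `K[x]` in `F`, `M` = its trace dual:
`dim_K (M / N) = ∑_{v finite} ord_v (dx)`. -/
theorem finrank_quot_poly (hF : IsFunctionField1 K F) (N M : Submodule K F)
    (hN : ∀ h : F, h ∈ N ↔ IsIntegral K[X] h)
    (hM : ∀ h : F, h ∈ M ↔ ∀ y : F, IsIntegral K[X] y →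
      Algebra.trace Kf F (h * y) ∈ (algebraMap K[X] Kf).range) :
    Module.Finite K (↥M ⧸ N.submoduleOf M) ∧
    (finrank K (↥M ⧸ N.submoduleOf M) : ℤ) =
      ∑ᶠ v ∈ {v : Place K F | 0 ≤ v.ord (algebraMap K[X] F X)},
        v.ordDifferential (D K F (algebraMap K[X] F X)) := by
  have hOne : OneVariable K F := KaehlerGen.FF.oneVariable hF
  have hinj : Function.Injective (algebraMap K[X] F) := by
    rw [IsScalarTower.algebraMap_eq K[X] Kf F]
    exact (algebraMap Kf F).injective.comp (IsFractionRing.injective K[X] Kf)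
  set x : F := algebraMap K[X] F X with hxdef
  have hx0 : x ≠ 0 := (map_ne_zero_iff _ hinj).mpr Polynomial.X_ne_zero
  -- the local data at a finite place
  have hloc : ∀ v : Place K F, (∀ r : K[X], algebraMap K[X] F r ∈ v.toValuationSubring) →
      ∃ c : K, 0 < v.ord (x - algebraMap K F c) ∧
        v.ordDifferential (D K F x) + 1 = v.ord (x - algebraMap K F c) := by
    intro v hv
    have hx : x ∈ v.toValuationSubring := hv X
    obtain ⟨c, hc⟩ := exists_const_ord_sub_pos v hOne hx
    have hxc : x ≠ algebraMap K F c := by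
      intro h1
      have : algebraMap K[X] F X = algebraMap K[X] F (C c) := by
        rw [← hxdef, h1, ← Polynomial.algebraMap_eq, ← IsScalarTower.algebraMap_apply K K[X] F]
      exact Polynomial.X_ne_C c (hinj this)
    have hc' : 0 < v.ord (x - algebraMap K F c) := hc.resolve_left hxc
    refine ⟨c, hc', ?_⟩
    have := DiffOrder.ordDifferential_D hF v (x - algebraMap K F c) (ne_of_gt hc')
    rw [Hurwitz.D_sub_algebraMap] at this
    rw [this]; ring
  obtain ⟨hfin, hrank⟩ := finrank_quot_places (K := K) (F := F) K[X] Kf hOne N M hN hM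
    (fun v => v.ordDifferential (D K F x) + 1)
    (by
      intro v hv π hπ
      obtain ⟨c, hc, hcd⟩ := hloc v hv
      show v.ordDifferential (D K F x) + 1 ≤ _
      rw [hcd]
      exact ord_sub_le_ord_poly v c hc π hπ)
    (by
      intro v hv
      obtain ⟨c, hc, hcd⟩ := hloc v hv
      refine ⟨X - C c, ?_, ?_⟩
      · rw [DWDual.algebraMap_X_sub_C]; exact hc
      · show _ = v.ordDifferential (D K F x) + 1
        rw [DWDual.algebraMap_X_sub_C, hcd])
  refine ⟨hfin, ?_⟩
  rw [hrank]
  have hset : {v : Place K F | ∀ r : K[X], algebraMap K[X] F r ∈ v.toValuationSubring} =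
      {v : Place K F | 0 ≤ v.ord x} := by
    ext v
    constructor
    · intro hv
      exact (mem_valuationSubring_iff_ord_nonneg v hx0).mp (hv X)
    · intro hv
      exact DWDual.algebraMap_poly_mem_of_mem v ((mem_valuationSubring_iff_ord_nonneg v hx0).mpr hv)
  rw [hset]
  refine finsum_mem_congr rfl fun v _ => ?_
  ring

omit [CharZero K] [IsAlgClosed K] in
include Kf in
/-- Integrality over `K[x]` in place language: regular at all places where `x` is finite. -/
theorem isIntegral_poly_iff (h : F) :
    IsIntegral K[X] h ↔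
      ∀ v : Place K F, 0 ≤ v.ord (algebraMap K[X] F X) → 0 ≤ v.ord h := by
  have hinj : Function.Injective (algebraMap K[X] F) := by
    rw [IsScalarTower.algebraMap_eq K[X] Kf F]
    exact (algebraMap Kf F).injective.comp (IsFractionRing.injective K[X] Kf)
  have hx0 : algebraMap K[X] F X ≠ 0 := (map_ne_zero_iff _ hinj).mpr Polynomial.X_ne_zero
  have hmem : ∀ (v : Place K F) (f : F), f ∈ v.toValuationSubring ↔ 0 ≤ v.ord f := by
    intro v f
    rcases eq_or_ne f 0 with rfl | hf
    · simp [Place.ord_zero]
    · exact mem_valuationSubring_iff_ord_nonneg v hf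
  rw [isIntegral_iff_places (K := K) K[X] Kf h]
  refine forall_congr' fun v => ?_
  rw [hmem v h]
  constructor
  · intro hh hx
    exact hh (DWDual.algebraMap_poly_mem_of_mem v ((hmem v _).mpr hx))
  · intro hh hv
    exact hh ((hmem v _).mp (hv X))

include Kf in
/-- **Finite part, place form.**  `N` = functions regular at all places where `x` is finite,
`M` = functions `h` with `ord_v h ≥ -(e_v - 1)` at those places:
`dim_K (M / N) = ∑_{v finite} ord_v (dx)`. -/
theorem finrank_quot_poly_places (hF : IsFunctionField1 K F) (N M : Submodule K F)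
    (hN : ∀ h : F, h ∈ N ↔
      ∀ v : Place K F, 0 ≤ v.ord (algebraMap K[X] F X) → 0 ≤ v.ord h)
    (hM : ∀ h : F, h ∈ M ↔
      ∀ (v : Place K F) (c : K), 0 < v.ord (algebraMap K[X] F X - algebraMap K F c) →
        h = 0 ∨ 0 < v.ord h + v.ord (algebraMap K[X] F X - algebraMap K F c)) :
    Module.Finite K (↥M ⧸ N.submoduleOf M) ∧
    (finrank K (↥M ⧸ N.submoduleOf M) : ℤ) =
      ∑ᶠ v ∈ {v : Place K F | 0 ≤ v.ord (algebraMap K[X] F X)},
        v.ordDifferential (D K F (algebraMap K[X] F X)) :=
  finrank_quot_poly Kf hF N M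
    (fun h => (hN h).trans (isIntegral_poly_iff Kf h).symm)
    (fun h => (hM h).trans (DWDual.mem_dualPoly_iff Kf (KaehlerGen.FF.oneVariable hF) h).symm)

end Poly

section Infty

open Polynomial

variable {K F : Type*} [Field K] [DecidableEq (RatFunc K)] [Field F] [Algebra K F]
variable [Algebra K[X] F] [IsScalarTower K K[X] F] [Algebra (RatFunc K) F]
  [IsScalarTower K[X] (RatFunc K) F]

/-- The element `1 / X` of `O_∞`. -/
theorem inv_X_mem : (RatFunc.X : RatFunc K)⁻¹ ∈ (RatFunc.inftyValuation K).valuationSubring := by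
  show RatFunc.inftyValuation K (RatFunc.X : RatFunc K)⁻¹ ≤ 1
  rw [map_inv₀, RatFunc.inftyValuation.X, ← WithZero.exp_neg, ← WithZero.exp_zero,
    WithZero.exp_le_exp]
  norm_num

theorem algebraMap_inv_X :
    algebraMap (RatFunc.inftyValuation K).valuationSubring F
      ⟨(RatFunc.X : RatFunc K)⁻¹, inv_X_mem⟩ = (algebraMap K[X] F X)⁻¹ := by
  show algebraMap (RatFunc K) F (RatFunc.X : RatFunc K)⁻¹ = _
  rw [map_inv₀, DWDual.algebraMap_ratFunc_X]

/-- The places whose valuation ring contains `O_∞` are the poles of `x`. -/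
theorem forall_valuationSubring_mem_iff [IsAlgClosed K] (hOne : OneVariable K F) (v : Place K F) :
    (∀ r : (RatFunc.inftyValuation K).valuationSubring,
        algebraMap (RatFunc.inftyValuation K).valuationSubring F r ∈ v.toValuationSubring) ↔
      v.ord (algebraMap K[X] F X) < 0 := by
  set O := (RatFunc.inftyValuation K).valuationSubring with hO
  set x : F := algebraMap K[X] F X with hxdef
  have hx0 : x ≠ 0 :=
    (map_ne_zero_iff _ DWDual.algebraMap_poly_injective).mpr Polynomial.X_ne_zero
  constructor
  · intro hv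
    have hxinv_mem : x⁻¹ ∈ v.toValuationSubring := by
      rw [hxdef, ← algebraMap_inv_X]; exact hv _
    have hxle : v.ord x ≤ 0 := by
      have := (mem_valuationSubring_iff_ord_nonneg v (inv_ne_zero hx0)).mp hxinv_mem
      rw [v.ord_inv] at this; omega
    rcases hxle.lt_or_eq with h1 | h1
    · exact h1
    exfalso
    have hxmem : x ∈ v.toValuationSubring :=
      (mem_valuationSubring_iff_ord_nonneg v hx0).mpr h1.ge
    obtain ⟨c, hc⟩ := exists_const_ord_sub_pos v hOne hxmem
    have hxc : x ≠ algebraMap K F c := by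
      intro h2
      have : algebraMap K[X] F X = algebraMap K[X] F (C c) := by
        rw [← hxdef, h2, ← Polynomial.algebraMap_eq, ← IsScalarTower.algebraMap_apply K K[X] F]
      exact Polynomial.X_ne_C c (DWDual.algebraMap_poly_injective this)
    have hc' : 0 < v.ord (x - algebraMap K F c) := hc.resolve_left hxc
    have hne : (Polynomial.X - Polynomial.C c : K[X]) ≠ 0 := Polynomial.X_sub_C_ne_zero c
    have hmemO : (algebraMap K[X] (RatFunc K) (Polynomial.X - Polynomial.C c))⁻¹ ∈ O := by
      show RatFunc.inftyValuation K (algebraMap K[X] (RatFunc K) (X - C c))⁻¹ ≤ 1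
      rw [map_inv₀, RatFunc.inftyValuation_apply, RatFunc.inftyValuation.polynomial K hne,
        Polynomial.natDegree_X_sub_C, ← WithZero.exp_neg, ← WithZero.exp_zero,
        WithZero.exp_le_exp]
      norm_num
    have hF' : algebraMap O F ⟨_, hmemO⟩ = (x - algebraMap K F c)⁻¹ := by
      show algebraMap (RatFunc K) F (algebraMap K[X] (RatFunc K) (X - C c))⁻¹ = _
      rw [map_inv₀, ← IsScalarTower.algebraMap_apply K[X] (RatFunc K) F,
        DWDual.algebraMap_X_sub_C]
    have hmem2 : (x - algebraMap K F c)⁻¹ ∈ v.toValuationSubring := by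
      rw [← hF']; exact hv _
    have hxc0 : x - algebraMap K F c ≠ 0 := sub_ne_zero.mpr hxc
    have := (mem_valuationSubring_iff_ord_nonneg v (inv_ne_zero hxc0)).mp hmem2
    rw [v.ord_inv] at this
    omega
  · intro hv r
    exact DWDual.algebraMap_mem_of_inftyValuation_le_one v hv (r : RatFunc K) r.2

variable [CharZero K] [IsAlgClosed K] [FiniteDimensional (RatFunc K) F]
  [Algebra.IsSeparable (RatFunc K) F]

/-- Integrality over `O_∞` in place language: regular at all poles of `x`. -/
theorem isIntegral_infty_iff (hOne : OneVariable K F) (h : F) :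
    IsIntegral (RatFunc.inftyValuation K).valuationSubring h ↔
      ∀ v : Place K F, v.ord (algebraMap K[X] F X) < 0 → 0 ≤ v.ord h := by
  classical
  set O := (RatFunc.inftyValuation K).valuationSubring with hO
  have hCmem : ∀ c : K, algebraMap K (RatFunc K) c ∈ O.toSubring := by
    intro c
    show RatFunc.inftyValuation K (algebraMap K (RatFunc K) c) ≤ 1
    rw [RatFunc.algebraMap_eq_C]
    by_cases hc : c = 0
    · rw [hc, map_zero, map_zero]; exact zero_le_one
    · rw [RatFunc.inftyValuation.C K hc]
  letI algKO : Algebra K O := ((algebraMap K (RatFunc K)).codRestrict O.toSubring hCmem).toAlgebra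
  haveI : IsScalarTower O (RatFunc K) F := IsScalarTower.of_algebraMap_eq (fun r => rfl)
  haveI : IsScalarTower K O F := IsScalarTower.of_algebraMap_eq (fun c => by
    show algebraMap K F c = algebraMap (RatFunc K) F (algebraMap K (RatFunc K) c)
    rw [RatFunc.algebraMap_eq_C, DWDual.algebraMap_ratFunc_C])
  have hmem : ∀ (v : Place K F) (f : F), f ∈ v.toValuationSubring ↔ 0 ≤ v.ord f := by
    intro v f
    rcases eq_or_ne f 0 with rfl | hf
    · simp [Place.ord_zero]
    · exact mem_valuationSubring_iff_ord_nonneg v hf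
  rw [isIntegral_iff_places (K := K) O (RatFunc K) h]
  refine forall_congr' fun v => ?_
  rw [forall_valuationSubring_mem_iff hOne v, hmem v h]

/-- **Infinite part.**  `N` = integral closure of `O_∞` in `F`, `M` = its trace dual with respect
to `O_∞`: `dim_K (M / N) = ∑_{v | ∞} (e_v - 1)` with `e_v = - ord_v x`. -/
theorem finrank_quot_infty (hF : IsFunctionField1 K F) (N M : Submodule K F)
    (hN : ∀ h : F, h ∈ N ↔ IsIntegral (RatFunc.inftyValuation K).valuationSubring h)
    (hM : ∀ h : F, h ∈ M ↔ ∀ y : F, IsIntegral (RatFunc.inftyValuation K).valuationSubring y →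
      RatFunc.inftyValuation K (Algebra.trace (RatFunc K) F (h * y)) ≤ 1) :
    Module.Finite K (↥M ⧸ N.submoduleOf M) ∧
    (finrank K (↥M ⧸ N.submoduleOf M) : ℤ) =
      ∑ᶠ v ∈ {v : Place K F | v.ord (algebraMap K[X] F X) < 0},
        (-v.ord (algebraMap K[X] F X) - 1) := by
  classical
  have hOne : OneVariable K F := KaehlerGen.FF.oneVariable hF
  set O := (RatFunc.inftyValuation K).valuationSubring with hO
  have hCmem : ∀ c : K, algebraMap K (RatFunc K) c ∈ O.toSubring := by
    intro c
    show RatFunc.inftyValuation K (algebraMap K (RatFunc K) c) ≤ 1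
    rw [RatFunc.algebraMap_eq_C]
    by_cases hc : c = 0
    · rw [hc, map_zero, map_zero]; exact zero_le_one
    · rw [RatFunc.inftyValuation.C K hc]
  letI algKO : Algebra K O := ((algebraMap K (RatFunc K)).codRestrict O.toSubring hCmem).toAlgebra
  haveI : IsScalarTower O (RatFunc K) F := IsScalarTower.of_algebraMap_eq (fun r => rfl)
  haveI : IsScalarTower K O F := IsScalarTower.of_algebraMap_eq (fun c => by
    show algebraMap K F c = algebraMap (RatFunc K) F (algebraMap K (RatFunc K) c)
    rw [RatFunc.algebraMap_eq_C, DWDual.algebraMap_ratFunc_C])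
  have hrange : ∀ f : RatFunc K, f ∈ (algebraMap O (RatFunc K)).range ↔
      RatFunc.inftyValuation K f ≤ 1 := by
    intro f
    rw [← Valuation.mem_valuationSubring_iff]
    constructor
    · rintro ⟨g, rfl⟩; exact g.2
    · intro hf; exact ⟨⟨f, hf⟩, rfl⟩
  have hM' : ∀ h : F, h ∈ M ↔ ∀ y : F, IsIntegral O y →
      Algebra.trace (RatFunc K) F (h * y) ∈ (algebraMap O (RatFunc K)).range := by
    intro h
    rw [hM]
    exact forall₂_congr fun y _ => (hrange _).symm
  set x : F := algebraMap K[X] F X with hxdef
  have hset : {v : Place K F | ∀ r : O, algebraMap O F r ∈ v.toValuationSubring} =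
      {v : Place K F | v.ord x < 0} := by
    ext v
    exact forall_valuationSubring_mem_iff hOne v
  have hmemset : ∀ v : Place K F, (∀ r : O, algebraMap O F r ∈ v.toValuationSubring) →
      v.ord x < 0 := fun v hv => (forall_valuationSubring_mem_iff hOne v).mp hv
  obtain ⟨hfin, hrank⟩ := finrank_quot_places (K := K) (F := F) O (RatFunc K) hOne N M hN hM'
    (fun v => -v.ord x)
    (by
      intro v hv π hπ
      have hxneg := hmemset v hv
      have hπ0 : (π : RatFunc K) ≠ 0 := by
        intro h1
        have : algebraMap O F π = 0 := by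
          show algebraMap (RatFunc K) F (π : RatFunc K) = 0
          rw [h1, map_zero]
        rw [this, Place.ord_zero] at hπ
        exact lt_irrefl _ hπ
      have hord : v.ord (algebraMap O F π) = (π : RatFunc K).intDegree * v.ord x :=
        DWDual.ord_algebraMap_ratFunc v hxneg (π : RatFunc K) hπ0
      have hdeg : (π : RatFunc K).intDegree ≤ -1 := by
        by_contra hcon
        rw [not_le] at hcon
        have : (π : RatFunc K).intDegree * v.ord x ≤ 0 := by nlinarith
        omega
      show -v.ord x ≤ _
      rw [hord]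
      nlinarith)
    (by
      intro v hv
      have hxneg := hmemset v hv
      refine ⟨⟨(RatFunc.X : RatFunc K)⁻¹, inv_X_mem⟩, ?_, ?_⟩
      · rw [algebraMap_inv_X, v.ord_inv, ← hxdef]; omega
      · rw [algebraMap_inv_X, v.ord_inv])
  refine ⟨hfin, ?_⟩
  rw [hrank, hset]

/-- **Infinite part, place form.**  `N` = functions regular at all poles of `x`, `M` = functions
`h` with `ord_v h ≥ -(e_v - 1)` at the poles (`e_v = - ord_v x`):
`dim_K (M / N) = ∑_{v | ∞} (e_v - 1)`. -/
theorem finrank_quot_infty_places (hF : IsFunctionField1 K F) (N M : Submodule K F)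
    (hN : ∀ h : F, h ∈ N ↔
      ∀ v : Place K F, v.ord (algebraMap K[X] F X) < 0 → 0 ≤ v.ord h)
    (hM : ∀ h : F, h ∈ M ↔
      ∀ v : Place K F, v.ord (algebraMap K[X] F X) < 0 →
        h = 0 ∨ 0 < v.ord h - v.ord (algebraMap K[X] F X)) :
    Module.Finite K (↥M ⧸ N.submoduleOf M) ∧
    (finrank K (↥M ⧸ N.submoduleOf M) : ℤ) =
      ∑ᶠ v ∈ {v : Place K F | v.ord (algebraMap K[X] F X) < 0},
        (-v.ord (algebraMap K[X] F X) - 1) :=
  finrank_quot_infty hF N M
    (fun h => (hN h).trans (isIntegral_infty_iff (KaehlerGen.FF.oneVariable hF) h).symm)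
    (fun h => (hM h).trans (DWDual.mem_dualInfty_iff (KaehlerGen.FF.oneVariable hF) h).symm)

end Infty

end Fermat.Agent.S20.DWQuotDim
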