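/-
S20, block (L), piece L.frac (owner: helper84; helper13 report 721).

Reduction of the dictionary interface `Lower.DictLower N` to families of *numerators in the
generated algebra* `genAlg N` over one common denominator:

* `exists_common_denom`     : a finite family of `FBar N` has a common denominator in `genAlg N`;
* `exists_eq_smul_D_jBar`   : every Kähler differential of `FBar N / Kbar` is `h • D (jBar N)`;
* `exists_rep`              : a `Kbar`-independent family `η` of differentials is
                              `η i = (incl (a i) / incl b) • D (jBar N)` with `a` `Kbar`-independent;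
* `dictLower_of_genAlg`     : `DictLower N` from its `genAlg`-numerator form.
-/
import Fermat.Agent.S24.FieldGen
import Fermat.Agent.S24.KaehlerGen
import Fermat.Agent.S20.Lower

set_option autoImplicit false
set_option linter.style.haveILetI false

open AlgebraicCurve KaehlerDifferential ModularCurve

namespace Fermat.Agent.S20.DictFrac

open Fermat.Agent.S24 Fermat.Agent.S24.FieldGen

variable (N : ℕ) [NeZero N]

/-- A finite family of elements of `FBar N` has a common denominator in `genAlg N`. -/
theorem exists_common_denom {ι : Type*} [Finite ι] (h : ι → FBar N) :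
    ∃ (b : genAlg N) (a : ι → genAlg N), b ≠ 0 ∧ ∀ i, h i = incl N (a i) / incl N b := by
  letI := algebraGenAlg N
  haveI := isFractionRing_genAlg N
  obtain ⟨b, hb⟩ := IsLocalization.exist_integer_multiples_of_finite
    (nonZeroDivisors (genAlg N)) h
  have hb0 : (b : genAlg N) ≠ 0 := nonZeroDivisors.ne_zero b.2
  choose a ha using hb
  refine ⟨b, a, hb0, fun i => ?_⟩
  have h1 : incl N (a i) = incl N (b : genAlg N) * h i := by
    have := ha i
    rw [Algebra.smul_def] at this
    exact this
  rw [h1, mul_div_assoc, mul_comm, div_mul_cancel₀ _ (incl_ne_zero N hb0)]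

/-- Every Kähler differential of `FBar N / Kbar` is a multiple of `D (jBar N)`. -/
theorem exists_eq_smul_D_jBar (hF : IsFunctionField1 Kbar (FBar N))
    (hj : Transcendental Kbar (jBar N)) (ω : Ω[FBar N⁄Kbar]) :
    ∃ h : FBar N, ω = h • D Kbar (FBar N) (jBar N) := by
  haveI := KaehlerGen.FF.isAlgebraic_adjoin hF hj
  exact KaehlerGen.exists_eq_smul_D (jBar N) ω

/-- A `Kbar`-linearly independent family of differentials has `Kbar`-linearly independent
coefficients with respect to `D (jBar N)`. -/
theorem linearIndependent_coeff {ι : Type*} {η : ι → Ω[FBar N⁄Kbar]}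
    (hη : LinearIndependent Kbar η) {h : ι → FBar N}
    (hh : ∀ i, η i = h i • D Kbar (FBar N) (jBar N)) : LinearIndependent Kbar h := by
  -- `η = φ ∘ h` with `φ : FBar N →ₗ[Kbar] Ω`, `x ↦ x • D jBar`
  let φ : FBar N →ₗ[Kbar] Ω[FBar N⁄Kbar] :=
    (LinearMap.toSpanSingleton (FBar N) Ω[FBar N⁄Kbar] (D Kbar (FBar N) (jBar N))).restrictScalars
      Kbar
  have hφ : η = φ ∘ h := by
    funext i
    rw [hh i]
    rfl
  rw [hφ] at hη
  exact LinearIndependent.of_comp φ hη

/-- Dividing by a fixed nonzero denominator preserves `Kbar`-linear independence of the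
numerators. -/
theorem linearIndependent_numerators {ι : Type*} {h : ι → FBar N}
    (hh : LinearIndependent Kbar h) {b : genAlg N} {a : ι → genAlg N}
    (hab : ∀ i, h i = incl N (a i) / incl N b) : LinearIndependent Kbar a := by
  let ψ : genAlg N →ₗ[Kbar] FBar N :=
    ((LinearMap.mulRight Kbar ((incl N b)⁻¹ : FBar N))).comp (incl N).toLinearMap
  have hψ : h = ψ ∘ a := by
    funext i
    rw [hab i, div_eq_mul_inv]
    rfl
  rw [hψ] at hh
  exact LinearIndependent.of_comp ψ hh

/-- **Representation of independent differentials.**  A finite `Kbar`-linearly independent family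
of Kähler differentials of `FBar N / Kbar` can be written `η i = (a i / b) • D (jBar N)` with
numerators `a i` and a common denominator `b ≠ 0` in the generated algebra `genAlg N`, the
numerators being `Kbar`-linearly independent. -/
theorem exists_rep (hF : IsFunctionField1 Kbar (FBar N)) (hj : Transcendental Kbar (jBar N))
    {ι : Type*} [Finite ι] (η : ι → Ω[FBar N⁄Kbar]) (hη : LinearIndependent Kbar η) :
    ∃ (b : genAlg N) (a : ι → genAlg N), b ≠ 0 ∧ LinearIndependent Kbar a ∧
      ∀ i, η i = (incl N (a i) / incl N b) • D Kbar (FBar N) (jBar N) := by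
  choose h hh using fun i => exists_eq_smul_D_jBar N hF hj (η i)
  obtain ⟨b, a, hb, hab⟩ := exists_common_denom N h
  refine ⟨b, a, hb, ?_, fun i => ?_⟩
  · exact linearIndependent_numerators N (linearIndependent_coeff N hη hh) hab
  · rw [hh i, hab i]

/-- The `genAlg`-numerator form of the dictionary interface. -/
def DictLowerGen : Prop :=
  ∀ (n : ℕ) (b : genAlg N) (a : Fin n → genAlg N), b ≠ 0 → LinearIndependent Kbar a →
    (∀ (i : Fin n) (v : Place Kbar (FBar N)),
      0 ≤ v.ordDifferential ((incl N (a i) / incl N b) • D Kbar (FBar N) (jBar N))) →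
    n ≤ Module.finrank ℂ (CuspForm (CongruenceSubgroup.Gamma0 N) 2)

/-- `DictLower N` follows from its `genAlg`-numerator form. -/
theorem dictLower_of_genAlg (hF : IsFunctionField1 Kbar (FBar N))
    (hj : Transcendental Kbar (jBar N)) (H : DictLowerGen N) : Lower.DictLower N := by
  intro n η hη hreg
  obtain ⟨b, a, hb, ha, hab⟩ := exists_rep N hF hj η hη
  refine H n b a hb ha fun i v => ?_
  rw [← hab i]
  exact hreg i v

/-- Variant with Block B of S24 as the input. -/
theorem dictLower_of_genAlg' (hB : ModularRamificationData N) (H : DictLowerGen N) :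
    Lower.DictLower N :=
  dictLower_of_genAlg N ⟨jBar N, hB.transcendental, hB.finite⟩ hB.transcendental H

end Fermat.Agent.S20.DictFrac
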