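import Fermat.Agent.S24.DiscExpansion
import Fermat.Agent.S24.FiniteDatum
import Fermat.Agent.S24.LaurentAux

/-!
# S20 / (L) dictionary: derivative compatibility of the disc expansion at a point of `ℍ`

For `f : ℍ → ℂ` holomorphic (in the shape
`DifferentiableOn ℂ (f ∘ ofComplex) upperHalfPlaneSet` used by `S24/DiscExpansion` and
`S24/FiniteDatum.holAlg`) the derivative `derivH f τ = deriv (f ∘ ofComplex) τ` is again
holomorphic, and in the disc coordinate `w = (z - z0) / (z - conj z0)` one has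
`dw/dz = (1 - w)^2 / (z0 - conj z0)`, hence

`discExp z0 (derivH f) = C (1 / (z0 - conj z0)) * (1 - X)^2 * d/dX (discExp z0 f)`.

The prefactor is a unit power series, so orders of `g * derivH f` at `z0` can be read off from
`σ g * lderiv (σ f)` where `σ = FiniteDatum.discHom z0`.

Owner: helper28.
-/

set_option autoImplicit false

open UpperHalfPlane Complex Filter Topology
open scoped ComplexConjugate Nat

namespace Fermat.Agent.S20.DiscDeriv

open Fermat.Agent.S24 Fermat.Agent.S24.DiscExpansion Fermat.Agent.S24.FiniteDatum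
  Fermat.Agent.S24.LaurentAux

/-! ## The derivative of a function on `ℍ` -/

/-- The complex derivative of `f : ℍ → ℂ`, as a function on `ℍ`. -/
noncomputable def derivH (f : ℍ → ℂ) : ℍ → ℂ := fun τ => deriv (f ∘ ofComplex) (τ : ℂ)

theorem derivH_apply (f : ℍ → ℂ) (τ : ℍ) : derivH f τ = deriv (f ∘ ofComplex) (τ : ℂ) := rfl

theorem derivH_comp_ofComplex {f : ℍ → ℂ} {z : ℂ} (hz : z ∈ upperHalfPlaneSet) :
    (derivH f ∘ ofComplex) z = deriv (f ∘ ofComplex) z := by
  have hz' : 0 < z.im := hz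
  simp only [Function.comp_apply, derivH_apply, ofComplex_apply_of_im_pos hz']

/-- The derivative of a holomorphic function on `ℍ` is holomorphic. -/
theorem derivH_holo {f : ℍ → ℂ} (hf : DifferentiableOn ℂ (f ∘ ofComplex) upperHalfPlaneSet) :
    DifferentiableOn ℂ (derivH f ∘ ofComplex) upperHalfPlaneSet :=
  (hf.deriv isOpen_upperHalfPlaneSet).congr fun _ hz => derivH_comp_ofComplex hz

theorem derivH_mem_holAlg {f : ℍ → ℂ} (hf : f ∈ holAlg) : derivH f ∈ holAlg :=
  derivH_holo hf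


theorem taylor0_id : taylor0 (fun u : ℂ => u) = PowerSeries.X := by
  ext n
  rw [coeff_taylor0, PowerSeries.coeff_X]
  rcases n with _ | _ | n
  · simp
  · simp [iteratedDeriv_one]
  · have : iteratedDeriv (n + 1 + 1) (fun u : ℂ => u) 0 = 0 := by
      rw [iteratedDeriv_succ', iteratedDeriv_succ']
      have h1 : deriv (fun u : ℂ => u) = fun _ => 1 := by
        funext x; simp
      rw [h1]
      have h2 : deriv (fun _ : ℂ => (1 : ℂ)) = fun _ => 0 := by
        funext x; simp
      rw [h2, iteratedDeriv_const]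
      simp
    rw [this]
    simp

open PowerSeries in
theorem taylor0_deriv (G : ℂ → ℂ) : taylor0 (deriv G) = d⁄dX ℂ (taylor0 G) := by
  ext n
  rw [coeff_taylor0, PowerSeries.coeff_derivative, coeff_taylor0, ← iteratedDeriv_succ',
    Nat.factorial_succ]
  push_cast
  have h1 : ((n ! : ℕ) : ℂ) ≠ 0 := Nat.cast_ne_zero.mpr n.factorial_ne_zero
  have h2 : ((n : ℂ) + 1) ≠ 0 := Nat.cast_add_one_ne_zero n
  field_simp

theorem hasDerivAt_discParam (z0 : ℍ) {u : ℂ} (hu : (1 : ℂ) - u ≠ 0) :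
    HasDerivAt (discParam z0) (((z0 : ℂ) - conj (z0 : ℂ)) / (1 - u) ^ 2) u := by
  have h1 : HasDerivAt (fun u : ℂ => (z0 : ℂ) - conj (z0 : ℂ) * u) (-(conj (z0 : ℂ))) u := by
    simpa using ((hasDerivAt_id u).const_mul (conj (z0 : ℂ))).const_sub (z0 : ℂ)
  have h2 : HasDerivAt (fun u : ℂ => (1 : ℂ) - u) (-1) u := by
    simpa using (hasDerivAt_id u).const_sub 1
  have h3 := h1.div h2 hu
  have e : ((z0 : ℂ) - conj (z0 : ℂ)) / (1 - u) ^ 2 = (-(conj (z0 : ℂ)) * (1 - u) -
      ((z0 : ℂ) - conj (z0 : ℂ) * u) * -1) / (1 - u) ^ 2 := by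
    congr 1
    ring
  rw [e]
  exact h3

theorem discPull_derivH (z0 : ℍ) {f : ℍ → ℂ}
    (hf : DifferentiableOn ℂ (f ∘ ofComplex) upperHalfPlaneSet) {u : ℂ} (hu : ‖u‖ < 1) :
    discPull z0 (derivH f) u
      = (1 / ((z0 : ℂ) - conj (z0 : ℂ))) * (1 - u) ^ 2 * deriv (discPull z0 f) u := by
  have hu1 : (1 : ℂ) - u ≠ 0 := one_sub_ne_zero_of_norm_lt hu
  have him : 0 < (discParam z0 u).im := im_discParam_pos z0 hu
  have h0 := coe_sub_conj_ne_zero z0
  have hL : discPull z0 (derivH f) u = deriv (f ∘ ofComplex) (discParam z0 u) := by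
    show derivH f (ofComplex (discParam z0 u)) = _
    rw [derivH_apply, ofComplex_apply_of_im_pos him]
  have hd : HasDerivAt (f ∘ ofComplex) (deriv (f ∘ ofComplex) (discParam z0 u))
      (discParam z0 u) :=
    (hf.differentiableAt (isOpen_upperHalfPlaneSet.mem_nhds him)).hasDerivAt
  have hc := hd.comp u (hasDerivAt_discParam z0 hu1)
  have hR : deriv (discPull z0 f) u = deriv (f ∘ ofComplex) (discParam z0 u) *
      (((z0 : ℂ) - conj (z0 : ℂ)) / (1 - u) ^ 2) := by
    rw [discPull_eq_comp]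
    exact hc.deriv
  rw [hL, hR]
  field_simp

open PowerSeries in
/-- **Derivative compatibility of the disc expansion.** -/
theorem discExp_derivH (z0 : ℍ) {f : ℍ → ℂ}
    (hf : DifferentiableOn ℂ (f ∘ ofComplex) upperHalfPlaneSet) :
    discExp z0 (derivH f)
      = PowerSeries.C (1 / ((z0 : ℂ) - conj (z0 : ℂ))) * (1 - PowerSeries.X) ^ 2
        * d⁄dX ℂ (discExp z0 f) := by
  unfold discExp
  have hev : discPull z0 (derivH f) =ᶠ[𝓝 0]
      ((fun _ : ℂ => 1 / ((z0 : ℂ) - conj (z0 : ℂ))) * ((fun _ : ℂ => (1 : ℂ)) - fun u : ℂ => u) ^ 2)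
        * deriv (discPull z0 f) := by
    filter_upwards [Metric.ball_mem_nhds (0 : ℂ) one_pos] with u hu
    have hu' : ‖u‖ < 1 := by simpa using hu
    rw [discPull_derivH z0 hf hu']
    simp
  have hG : AnalyticAt ℂ (discPull z0 f) 0 := analyticAt_discPull z0 hf
  have hc : AnalyticAt ℂ (fun _ : ℂ => 1 / ((z0 : ℂ) - conj (z0 : ℂ))) 0 := analyticAt_const
  have h1 : AnalyticAt ℂ (fun _ : ℂ => (1 : ℂ)) 0 := analyticAt_const
  have hid : AnalyticAt ℂ (fun u : ℂ => u) 0 := analyticAt_id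
  rw [taylor0_congr hev, taylor0_mul (hc.mul ((h1.sub hid).pow 2)) hG.deriv,
    taylor0_mul hc ((h1.sub hid).pow 2), taylor0_pow (h1.sub hid), taylor0_sub h1 hid,
    taylor0_const, taylor0_const, taylor0_id, taylor0_deriv, map_one]


/-- Relation with Mathlib's normalised derivative `D = (2πi)⁻¹ d/dz`. -/
theorem derivH_eq_D (f : ℍ → ℂ) (τ : ℍ) :
    derivH f τ = 2 * Real.pi * Complex.I * Derivative.normalizedDerivOfComplex f τ := by
  have h : (2 * (Real.pi : ℂ) * Complex.I) ≠ 0 := Complex.two_pi_I_ne_zero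
  rw [Derivative.normalizedDerivOfComplex, derivH_apply, ← mul_assoc, mul_inv_cancel₀ h, one_mul]

/-! ## Laurent series form -/

theorem coeff_ofPowerSeries_of_neg (p : PowerSeries ℂ) {k : ℤ} (hk : k < 0) :
    (HahnSeries.ofPowerSeries ℤ ℂ p).coeff k = 0 := by
  rw [HahnSeries.ofPowerSeries_apply]
  refine HahnSeries.embDomain_of_notMem_range ?_
  rintro ⟨m, hm⟩
  have : (0 : ℤ) ≤ k := by rw [← hm]; exact Int.natCast_nonneg m
  omega

open PowerSeries in
/-- `d/du` on Laurent series restricts to the formal derivative on power series. -/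
theorem lderiv_ofPowerSeries (p : PowerSeries ℂ) :
    lderiv (HahnSeries.ofPowerSeries ℤ ℂ p) = HahnSeries.ofPowerSeries ℤ ℂ (d⁄dX ℂ p) := by
  ext k
  rw [coeff_lderiv]
  rcases lt_or_ge k 0 with hk | hk
  · rw [coeff_ofPowerSeries_of_neg _ hk]
    rcases eq_or_ne (k + 1) 0 with h1 | h1
    · have : (k : ℂ) + 1 = 0 := by exact_mod_cast h1
      rw [this, zero_mul]
    · rw [coeff_ofPowerSeries_of_neg _ (by omega), mul_zero]
  · obtain ⟨m, rfl⟩ := Int.eq_ofNat_of_zero_le hk
    have e : ((m : ℤ) + 1) = ((m + 1 : ℕ) : ℤ) := by push_cast; ring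
    rw [e, HahnSeries.ofPowerSeries_apply_coeff, HahnSeries.ofPowerSeries_apply_coeff,
      PowerSeries.coeff_derivative]
    push_cast
    ring

/-- The unit `dw/dz = (1 - w)^2 / (z0 - conj z0)` as a power series. -/
noncomputable def unitSeries (z0 : ℍ) : PowerSeries ℂ :=
  PowerSeries.C (1 / ((z0 : ℂ) - conj (z0 : ℂ))) * (1 - PowerSeries.X) ^ 2

theorem constantCoeff_unitSeries (z0 : ℍ) :
    PowerSeries.constantCoeff (unitSeries z0) = 1 / ((z0 : ℂ) - conj (z0 : ℂ)) := by
  simp [unitSeries]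

theorem constantCoeff_unitSeries_ne_zero (z0 : ℍ) :
    PowerSeries.constantCoeff (unitSeries z0) ≠ 0 := by
  rw [constantCoeff_unitSeries]
  exact one_div_ne_zero (coe_sub_conj_ne_zero z0)

theorem unitSeries_ne_zero (z0 : ℍ) : unitSeries z0 ≠ 0 := fun h =>
  constantCoeff_unitSeries_ne_zero z0 (by rw [h, map_zero])

theorem order_unitSeries (z0 : ℍ) : (unitSeries z0).order = 0 :=
  PowerSeries.order_zero_of_unit
    (PowerSeries.isUnit_iff_constantCoeff.mpr (isUnit_iff_ne_zero.mpr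
      (constantCoeff_unitSeries_ne_zero z0)))

open PowerSeries in
theorem discExp_derivH' (z0 : ℍ) {f : ℍ → ℂ}
    (hf : DifferentiableOn ℂ (f ∘ ofComplex) upperHalfPlaneSet) :
    discExp z0 (derivH f) = unitSeries z0 * d⁄dX ℂ (discExp z0 f) :=
  discExp_derivH z0 hf

open PowerSeries in
/-- Orders: the order at `z0` of `g * f'` is `ord g + ord (d/dX (expansion of f))`. -/
theorem order_discExp_mul_derivH (z0 : ℍ) {f g : ℍ → ℂ}
    (hf : DifferentiableOn ℂ (f ∘ ofComplex) upperHalfPlaneSet)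
    (hg : DifferentiableOn ℂ (g ∘ ofComplex) upperHalfPlaneSet) :
    (discExp z0 (g * derivH f)).order
      = (discExp z0 g).order + (d⁄dX ℂ (discExp z0 f)).order := by
  rw [discExp_mul z0 hg (derivH_holo hf), discExp_derivH' z0 hf, PowerSeries.order_mul,
    PowerSeries.order_mul, order_unitSeries, zero_add]

/-- The unit `dw/dz` as a Laurent series. -/
noncomputable def unitLaurent (z0 : ℍ) : LaurentSeries ℂ :=
  HahnSeries.ofPowerSeries ℤ ℂ (unitSeries z0)

theorem unitLaurent_ne_zero (z0 : ℍ) : unitLaurent z0 ≠ 0 := fun h =>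
  unitSeries_ne_zero z0 (HahnSeries.ofPowerSeries_injective (by rw [← unitLaurent, h, map_zero]))

theorem order_unitLaurent (z0 : ℍ) : (unitLaurent z0).order = 0 := by
  have := FiniteDatum.order_ofPowerSeries (p := unitSeries z0) (n := 0)
    (by rw [order_unitSeries]; rfl)
  simpa [unitLaurent] using this

/-- **Derivative compatibility, Laurent form**: `σ (f') = (dw/dz) * d/du (σ f)` for
`σ = FiniteDatum.discHom z0`. -/
theorem discHom_derivH (z0 : ℍ) (f : holAlg) :
    discHom z0 ⟨derivH (f : ℍ → ℂ), derivH_mem_holAlg f.2⟩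
      = unitLaurent z0 * lderiv (discHom z0 f) := by
  rw [discHom_apply, discHom_apply, lderiv_ofPowerSeries, unitLaurent, ← map_mul]
  congr 1
  exact discExp_derivH' z0 f.2

theorem discHom_mul_derivH (z0 : ℍ) (f g : holAlg) :
    discHom z0 (g * ⟨derivH (f : ℍ → ℂ), derivH_mem_holAlg f.2⟩)
      = unitLaurent z0 * (discHom z0 g * lderiv (discHom z0 f)) := by
  rw [map_mul, discHom_derivH]
  ring

/-- Orders, Laurent form (unconditional: `HahnSeries.order 0 = 0` on both sides). -/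
theorem order_discHom_mul_derivH (z0 : ℍ) (f g : holAlg) :
    (discHom z0 (g * ⟨derivH (f : ℍ → ℂ), derivH_mem_holAlg f.2⟩)).order
      = (discHom z0 g * lderiv (discHom z0 f)).order := by
  rw [discHom_mul_derivH]
  rcases eq_or_ne (discHom z0 g * lderiv (discHom z0 f)) 0 with h | h
  · rw [h, mul_zero]
  · rw [HahnSeries.order_mul (unitLaurent_ne_zero z0) h, order_unitLaurent, zero_add]

end Fermat.Agent.S20.DiscDeriv
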