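import Fermat.Agent.S20.HolQuotient
import Fermat.Agent.S24.ExpandAt
import Fermat.Agent.S24.DiscExpansion

/-!
# S20, block (L): the holomorphic-quotient lemma phrased with the two disc expansions of S24

`a = c * b` with `c` holomorphic as soon as the expansion of `b` has order at most the order of the
expansion of `a` at every point `z0 : ℍ` (for `S24.ExpandAt.expand` and for
`S24.DiscExpansion.discExp`).
-/

set_option autoImplicit false

open UpperHalfPlane Complex
open scoped Manifold Topology

noncomputable section

namespace Fermat.Agent.S20.HolQuotient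

open Fermat.Agent.S24

/-- Holomorphic quotient, orders measured by `S24.ExpandAt.expand`. -/
theorem exists_mdiff_mul_eq_of_order_expand {a b : ℍ → ℂ} (ha : MDiff a) (hb : MDiff b)
    (hb0 : b ≠ 0)
    (h : ∀ z0 : ℍ, (ExpandAt.expand z0 b).order ≤ (ExpandAt.expand z0 a).order) :
    ∃ c : ℍ → ℂ, MDiff c ∧ a = c * b := by
  refine exists_mdiff_mul_eq ha hb hb0 fun z => ?_
  have := h z
  rwa [ExpandAt.order_expand hb, ExpandAt.order_expand ha] at this

/-- Holomorphic quotient, orders measured by `S24.DiscExpansion.discExp`. -/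
theorem exists_mdiff_mul_eq_of_order_discExp {a b : ℍ → ℂ} (ha : MDiff a) (hb : MDiff b)
    (hb0 : b ≠ 0)
    (h : ∀ z0 : ℍ, (DiscExpansion.discExp z0 b).order ≤ (DiscExpansion.discExp z0 a).order) :
    ∃ c : ℍ → ℂ, MDiff c ∧ a = c * b := by
  refine exists_mdiff_mul_eq ha hb hb0 fun z => ?_
  have := h z
  rwa [DiscExpansion.order_discExp z (UpperHalfPlane.mdifferentiable_iff.mp hb),
    DiscExpansion.order_discExp z (UpperHalfPlane.mdifferentiable_iff.mp ha)] at this

end Fermat.Agent.S20.HolQuotient
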