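import Fermat.Agent.S20.DiscDeriv
import Fermat.Agent.S20.HolQuotientExpand

/-!
# S20 / (L) dictionary: holomorphic quotients involving a derivative

Glue between `S20/DiscDeriv` (derivative compatibility of the disc expansion) and helper57's
`S20/HolQuotientExpand` (a ratio of holomorphic functions with nonnegative order everywhere is
holomorphic): if at every `z0 ∈ ℍ` the formal order of `σ a * d/du (σ j)` is at least the order of
`σ b` (`σ = FiniteDatum.discHom z0`), then `a * j' / b` is holomorphic on `ℍ`.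

Owner: helper28.
-/

set_option autoImplicit false

open UpperHalfPlane Complex Filter Topology
open scoped ComplexConjugate Nat Manifold

namespace Fermat.Agent.S20.DiscDerivQuot

open Fermat.Agent.S24 Fermat.Agent.S24.DiscExpansion Fermat.Agent.S24.FiniteDatum
  Fermat.Agent.S24.LaurentAux Fermat.Agent.S20.DiscDeriv

theorem order_ofPowerSeries_eq {p : PowerSeries ℂ} (hp : p ≠ 0) :
    (HahnSeries.ofPowerSeries ℤ ℂ p).order = (p.order.toNat : ℤ) := by
  apply FiniteDatum.order_ofPowerSeries
  rw [ENat.natCast_toNat]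
  exact fun h => hp (PowerSeries.order_eq_top.mp h)

theorem order_ofPowerSeries_le_iff {p q : PowerSeries ℂ} (hp : p ≠ 0) (hq : q ≠ 0) :
    (HahnSeries.ofPowerSeries ℤ ℂ p).order ≤ (HahnSeries.ofPowerSeries ℤ ℂ q).order
      ↔ p.order ≤ q.order := by
  rw [order_ofPowerSeries_eq hp, order_ofPowerSeries_eq hq, Int.ofNat_le]
  have h1 : p.order ≠ ⊤ := fun h => hp (PowerSeries.order_eq_top.mp h)
  have h2 : q.order ≠ ⊤ := fun h => hq (PowerSeries.order_eq_top.mp h)
  constructor
  · intro h
    rw [← ENat.natCast_toNat h1, ← ENat.natCast_toNat h2]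
    exact_mod_cast h
  · intro h
    exact ENat.toNat_le_toNat h h2

/-- **Holomorphic quotient with a derivative** (the analytic step (L2) of the dictionary):
if at every `z0 ∈ ℍ` the formal order of `σ a * d/du (σ j)` is at least the order of `σ b`
(`σ = discHom z0`), then `a * j' / b` is holomorphic on `ℍ`. -/
theorem exists_mdiff_mul_derivH_eq {a b j : ℍ → ℂ} (ha : a ∈ holAlg) (hb : b ∈ holAlg)
    (hj : j ∈ holAlg) (hb0 : b ≠ 0)
    (h : ∀ z0 : ℍ, (discHom z0 ⟨b, hb⟩).order
      ≤ (discHom z0 ⟨a, ha⟩ * lderiv (discHom z0 ⟨j, hj⟩)).order) :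
    ∃ c : ℍ → ℂ, MDiff c ∧ a * derivH j = c * b := by
  have hdj : derivH j ∈ holAlg := derivH_mem_holAlg hj
  have hmul : a * derivH j ∈ holAlg := holAlg.mul_mem ha hdj
  refine HolQuotient.exists_mdiff_mul_eq_of_order_discExp (mem_holAlg_iff_mdiff.mp hmul)
    (mem_holAlg_iff_mdiff.mp hb) hb0 fun z0 => ?_
  rcases eq_or_ne (discExp z0 (a * derivH j)) 0 with h0 | h0
  · rw [h0, PowerSeries.order_zero]
    exact le_top
  · have hb1 : discExp z0 b ≠ 0 := fun h1 =>
      hb0 (eq_zero_of_discExp_eq_zero z0 hb h1)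
    rw [← order_ofPowerSeries_le_iff hb1 h0]
    have e := order_discHom_mul_derivH z0 ⟨j, hj⟩ ⟨a, ha⟩
    have := h z0
    rw [← e] at this
    exact this

end Fermat.Agent.S20.DiscDerivQuot
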