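/-
S20 (L)-dictionary, piece L.deriv (finite points): compatibility of the disc-coordinate Taylor
expansion at `z0 : ℍ` with the normalised derivative `D = (2πi)⁻¹ d/dτ`.  Owner: helper66.
-/
import Fermat.Agent.S24.ExpandAt
import Fermat.Agent.S24.DiscExpansionInv
import Fermat.Agent.S24.LaurentAux
import Fermat.Agent.S24.FiniteDatum

set_option autoImplicit false

open UpperHalfPlane Complex Filter Topology
open scoped ComplexConjugate Manifold Derivative

namespace Fermat.Agent.S20.ExpandDeriv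

open Fermat.Agent.S24 Fermat.Agent.S24.ExpandAt

noncomputable section

/-! ### Taylor series of a derivative, of the identity -/

lemma taylor_deriv (g : ℂ → ℂ) :
    taylor (deriv g) = PowerSeries.derivative ℂ (taylor g) := by
  ext m
  rw [coeff_taylor, PowerSeries.coeff_derivative, coeff_taylor, ← iteratedDeriv_succ']
  have h : ((m + 1).factorial : ℂ) = (m + 1 : ℂ) * (m.factorial : ℂ) := by
    rw [Nat.factorial_succ]; push_cast; ring
  rw [h]
  have h1 : (m.factorial : ℂ) ≠ 0 := by exact_mod_cast Nat.factorial_ne_zero m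
  have h2 : (m + 1 : ℂ) ≠ 0 := by exact_mod_cast Nat.succ_ne_zero m
  field_simp

lemma taylor_id : taylor (fun u : ℂ => u) = PowerSeries.X := by
  ext m
  rw [coeff_taylor, PowerSeries.coeff_X]
  rcases m with _ | _ | m
  · simp
  · simp [iteratedDeriv_one]
  · have h1 : deriv (fun u : ℂ => u) = fun _ => (1 : ℂ) := by
      funext u; exact deriv_id u
    have h2 : deriv (fun _ : ℂ => (1 : ℂ)) = fun _ => (0 : ℂ) := by
      funext u; exact deriv_const u 1
    rw [iteratedDeriv_succ', iteratedDeriv_succ', h1, h2, iteratedDeriv_const]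
    simp

lemma taylor_one_sub_sq :
    taylor (fun u : ℂ => (1 - u) ^ 2) = (1 - PowerSeries.X) ^ 2 := by
  have hid : AnalyticAt ℂ (fun u : ℂ => u) 0 := analyticAt_id
  have hc : AnalyticAt ℂ (fun _ : ℂ => (1 : ℂ)) 0 := analyticAt_const
  have h1 : taylor (fun u : ℂ => 1 - u) = 1 - PowerSeries.X := by
    have : (fun u : ℂ => 1 - u) = (fun _ : ℂ => (1 : ℂ)) + (-(fun u : ℂ => u)) := by
      funext u; simp [sub_eq_add_neg]
    rw [this, taylor_add hc hid.neg, taylor_neg, taylor_const, taylor_id, map_one, sub_eq_add_neg]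
  have h2 : AnalyticAt ℂ (fun u : ℂ => 1 - u) 0 := hc.sub hid
  have : (fun u : ℂ => (1 - u) ^ 2) = (fun u : ℂ => 1 - u) * (fun u : ℂ => 1 - u) := by
    funext u; simp [pow_two]
  rw [this, taylor_mul h2 h2, h1, pow_two]

/-! ### The chain rule in the disc coordinate -/

variable {z0 : ℍ} {f : ℍ → ℂ}

lemma hasDerivAt_disc (z0 : ℍ) {u : ℂ} (hu : ‖u‖ < 1) :
    HasDerivAt (disc z0) (((z0 : ℂ) - conj (z0 : ℂ)) / (1 - u) ^ 2) u := by
  have h1 : (1 : ℂ) - u ≠ 0 := one_sub_ne_zero_of_norm_lt hu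
  have hnum : HasDerivAt (fun v : ℂ => (z0 : ℂ) - conj (z0 : ℂ) * v) (-(conj (z0 : ℂ))) u := by
    simpa using ((hasDerivAt_id u).const_mul (conj (z0 : ℂ))).const_sub (z0 : ℂ)
  have hden : HasDerivAt (fun v : ℂ => (1 : ℂ) - v) (-1) u := by
    simpa using (hasDerivAt_id u).const_sub (1 : ℂ)
  have h3 : HasDerivAt (disc z0)
      ((-(conj (z0 : ℂ)) * (1 - u) - ((z0 : ℂ) - conj (z0 : ℂ) * u) * -1) / (1 - u) ^ 2) u :=
    hnum.div hden h1
  refine h3.congr_deriv ?_
  rw [div_left_inj' (pow_ne_zero 2 h1)]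
  ring

lemma coe_sub_conj_ne_zero (z0 : ℍ) : (z0 : ℂ) - conj (z0 : ℂ) ≠ 0 := by
  intro h
  have him := congrArg Complex.im h
  simp only [sub_im, conj_im, zero_im, UpperHalfPlane.coe_im] at him
  have := z0.im_pos
  linarith

/-- The constant `(2πi)⁻¹ (z0 - conj z0)⁻¹`. -/
def derivConst (z0 : ℍ) : ℂ := (2 * Real.pi * Complex.I)⁻¹ * ((z0 : ℂ) - conj (z0 : ℂ))⁻¹

lemma derivConst_ne_zero (z0 : ℍ) : derivConst z0 ≠ 0 := by
  unfold derivConst
  have : (2 * Real.pi * Complex.I : ℂ) ≠ 0 := by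
    simp [Real.pi_ne_zero]
  exact mul_ne_zero (inv_ne_zero this) (inv_ne_zero (coe_sub_conj_ne_zero z0))

lemma pull_D_eq (hf : MDiff f) {u : ℂ} (hu : ‖u‖ < 1) :
    pull z0 (D f) u = derivConst z0 * (1 - u) ^ 2 * deriv (pull z0 f) u := by
  have h1 : (1 : ℂ) - u ≠ 0 := one_sub_ne_zero_of_norm_lt hu
  have him : 0 < (disc z0 u).im := disc_im_pos z0 hu
  have hg : DifferentiableAt ℂ (f ∘ ofComplex) (disc z0 u) :=
    ((analyticOnNhd_comp_ofComplex hf) _ him).differentiableAt
  have hchain : HasDerivAt (pull z0 f)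
      (deriv (f ∘ ofComplex) (disc z0 u) * (((z0 : ℂ) - conj (z0 : ℂ)) / (1 - u) ^ 2)) u := by
    rw [pull_eq_comp]
    exact hg.hasDerivAt.comp u (hasDerivAt_disc z0 hu)
  rw [hchain.deriv]
  simp only [pull, Derivative.normalizedDerivOfComplex, derivConst]
  rw [ofComplex_apply_of_im_pos him]
  have h2 := coe_sub_conj_ne_zero z0
  field_simp

/-- **Derivative compatibility at a finite point.** -/
theorem expand_D (hf : MDiff f) :
    expand z0 (D f) =
      PowerSeries.C (derivConst z0) * (1 - PowerSeries.X) ^ 2 *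
        PowerSeries.derivative ℂ (expand z0 f) := by
  have h1 : pull z0 (D f) =ᶠ[𝓝 0]
      ((fun _ : ℂ => derivConst z0) * (fun u : ℂ => (1 - u) ^ 2)) * deriv (pull z0 f) := by
    filter_upwards [Metric.ball_mem_nhds (0 : ℂ) one_pos] with u hu
    have hu' : ‖u‖ < 1 := by simpa using hu
    rw [pull_D_eq hf hu']
    rfl
  have ha : AnalyticAt ℂ (fun _ : ℂ => derivConst z0) 0 := analyticAt_const
  have hb : AnalyticAt ℂ (fun u : ℂ => (1 - u) ^ 2) 0 :=
    (analyticAt_const.sub analyticAt_id).pow 2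
  have hc : AnalyticAt ℂ (deriv (pull z0 f)) 0 := (analyticAt_pull_zero z0 hf).deriv
  rw [expand, taylor_congr h1, taylor_mul (ha.mul hb) hc, taylor_mul ha hb, taylor_const,
    taylor_one_sub_sq, taylor_deriv, expand]

theorem discExp_D (hf : MDiff f) :
    DiscExpansion.discExp z0 (D f) =
      PowerSeries.C (derivConst z0) * (1 - PowerSeries.X) ^ 2 *
        PowerSeries.derivative ℂ (DiscExpansion.discExp z0 f) := by
  rw [DiscExpansionInv.discExp_eq_expand, DiscExpansionInv.discExp_eq_expand, expand_D hf]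

/-! ### Laurent-series forms -/

/-- The unit factor `c (1 - X)²`. -/
def derivFactor (z0 : ℍ) : PowerSeries ℂ :=
  PowerSeries.C (derivConst z0) * (1 - PowerSeries.X) ^ 2

lemma constantCoeff_derivFactor (z0 : ℍ) :
    PowerSeries.constantCoeff (derivFactor z0) = derivConst z0 := by
  simp [derivFactor]

lemma isUnit_derivFactor (z0 : ℍ) : IsUnit (derivFactor z0) := by
  rw [PowerSeries.isUnit_iff_constantCoeff, constantCoeff_derivFactor]
  exact (derivConst_ne_zero z0).isUnit

lemma derivFactor_ne_zero (z0 : ℍ) : derivFactor z0 ≠ 0 := (isUnit_derivFactor z0).ne_zero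

lemma order_derivFactor (z0 : ℍ) : (derivFactor z0).order = 0 := by
  rw [PowerSeries.order_zero_of_unit (isUnit_derivFactor z0)]

theorem expand_D' (hf : MDiff f) :
    expand z0 (D f) = derivFactor z0 * PowerSeries.derivative ℂ (expand z0 f) := expand_D hf

/-- `(expand z0 (D f)).order = (d/dX (expand z0 f)).order`. -/
theorem order_expand_D (hf : MDiff f) :
    (expand z0 (D f)).order = (PowerSeries.derivative ℂ (expand z0 f)).order := by
  rw [expand_D' hf, PowerSeries.order_mul, order_derivFactor, zero_add]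

lemma coeff_ofPowerSeries_of_neg (p : PowerSeries ℂ) {k : ℤ} (hk : k < 0) :
    (HahnSeries.ofPowerSeries ℤ ℂ p).coeff k = 0 := by
  rw [HahnSeries.ofPowerSeries_apply]
  refine HahnSeries.embDomain_of_notMem_range ?_
  rintro ⟨n, rfl⟩
  exact absurd hk (not_lt.mpr (Int.natCast_nonneg n))

lemma lderiv_ofPowerSeries (p : PowerSeries ℂ) :
    lderiv (HahnSeries.ofPowerSeries ℤ ℂ p) =
      HahnSeries.ofPowerSeries ℤ ℂ (PowerSeries.derivative ℂ p) := by
  ext k
  rw [coeff_lderiv]
  rcases lt_or_ge k 0 with hk | hk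
  · rw [coeff_ofPowerSeries_of_neg _ hk]
    rcases eq_or_lt_of_le (show k + 1 ≤ 0 by omega) with h0 | h0
    · have : (k : ℂ) + 1 = 0 := by exact_mod_cast h0
      rw [this, zero_mul]
    · rw [coeff_ofPowerSeries_of_neg _ h0, mul_zero]
  · lift k to ℕ using hk
    have h1 : ((k : ℤ) + 1) = ((k + 1 : ℕ) : ℤ) := by push_cast; ring
    rw [h1, HahnSeries.ofPowerSeries_apply_coeff, HahnSeries.ofPowerSeries_apply_coeff,
      PowerSeries.coeff_derivative]
    push_cast
    ring

/-- Laurent form of the derivative compatibility: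
`ofPowerSeries (expand z0 (D f)) = unit * d/du (ofPowerSeries (expand z0 f))`. -/
theorem ofPowerSeries_expand_D (hf : MDiff f) :
    HahnSeries.ofPowerSeries ℤ ℂ (expand z0 (D f)) =
      HahnSeries.ofPowerSeries ℤ ℂ (derivFactor z0) *
        lderiv (HahnSeries.ofPowerSeries ℤ ℂ (expand z0 f)) := by
  rw [expand_D' hf, map_mul, lderiv_ofPowerSeries]

theorem ofPowerSeries_discExp_D (hf : MDiff f) :
    HahnSeries.ofPowerSeries ℤ ℂ (DiscExpansion.discExp z0 (D f)) =
      HahnSeries.ofPowerSeries ℤ ℂ (derivFactor z0) *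
        lderiv (HahnSeries.ofPowerSeries ℤ ℂ (DiscExpansion.discExp z0 f)) := by
  rw [DiscExpansionInv.discExp_eq_expand, DiscExpansionInv.discExp_eq_expand,
    ofPowerSeries_expand_D hf]

lemma ofPowerSeries_derivFactor_ne_zero (z0 : ℍ) :
    HahnSeries.ofPowerSeries ℤ ℂ (derivFactor z0) ≠ 0 := by
  intro h
  apply derivFactor_ne_zero z0
  have h2 : HahnSeries.ofPowerSeries ℤ ℂ (derivFactor z0) = HahnSeries.ofPowerSeries ℤ ℂ 0 := by
    rw [h, map_zero]
  exact HahnSeries.ofPowerSeries_injective h2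

lemma order_ofPowerSeries_derivFactor (z0 : ℍ) :
    (HahnSeries.ofPowerSeries ℤ ℂ (derivFactor z0)).order = 0 := by
  have := FiniteDatum.order_ofPowerSeries (p := derivFactor z0) (n := 0)
    (by rw [order_derivFactor]; rfl)
  simpa using this

/-- For an invertible-at-order expansion: multiplying by the unit factor does not change orders. -/
theorem order_ofPowerSeries_expand_D (hf : MDiff f)
    (h : lderiv (HahnSeries.ofPowerSeries ℤ ℂ (expand z0 f)) ≠ 0) :
    (HahnSeries.ofPowerSeries ℤ ℂ (expand z0 (D f))).order =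
      (lderiv (HahnSeries.ofPowerSeries ℤ ℂ (expand z0 f))).order := by
  rw [ofPowerSeries_expand_D hf,
    Fermat.Agent.S24.order_mul (ofPowerSeries_derivFactor_ne_zero z0) h,
    order_ofPowerSeries_derivFactor, zero_add]

end

end Fermat.Agent.S20.ExpandDeriv
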