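/-
Finite-rank trace on endomorphisms of an arbitrary (possibly infinite-dimensional) vector space.
`trfr θ` is the ordinary trace of `θ` computed on its (finite-dimensional) range.
Main tool: the factorisation lemma `trfr_comp`: if `θ = X ∘ Y` with `Y : V → U`, `X : U → V`
and `U` finite-dimensional then `trfr θ = trace (Y ∘ X)`.
-/
import Mathlib

set_option autoImplicit false

namespace Fermat.Agent.S20.FiniteRankTrace

open LinearMap

variable {K : Type*} [Field K]
variable {V W U : Type*} [AddCommGroup V] [Module K V] [AddCommGroup W] [Module K W]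
  [AddCommGroup U] [Module K U]

/-- A linear map has finite rank if its range is finite-dimensional. -/
def IsFiniteRank (θ : V →ₗ[K] W) : Prop := FiniteDimensional K (LinearMap.range θ)

/-- The trace of a finite rank endomorphism (junk value `0` if the rank is infinite). -/
noncomputable def trfr (θ : V →ₗ[K] V) : K :=
  LinearMap.trace K (LinearMap.range θ) (θ.rangeRestrict ∘ₗ (LinearMap.range θ).subtype)

theorem isFiniteRank_of_range_le {θ : V →ₗ[K] W} {S : Submodule K W} [FiniteDimensional K S]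
    (h : LinearMap.range θ ≤ S) : IsFiniteRank θ :=
  Submodule.finiteDimensional_of_le h

theorem isFiniteRank_comp_left {θ : V →ₗ[K] W} (hθ : IsFiniteRank θ) (φ : W →ₗ[K] U) :
    IsFiniteRank (φ ∘ₗ θ) := by
  unfold IsFiniteRank at *
  rw [LinearMap.range_comp]
  exact Module.Finite.map _ φ

theorem isFiniteRank_comp_right {θ : V →ₗ[K] W} (hθ : IsFiniteRank θ) (φ : U →ₗ[K] V) :
    IsFiniteRank (θ ∘ₗ φ) := by
  unfold IsFiniteRank at *
  exact Submodule.finiteDimensional_of_le (LinearMap.range_comp_le_range φ θ)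

theorem isFiniteRank_zero : IsFiniteRank (0 : V →ₗ[K] W) := by
  unfold IsFiniteRank
  rw [LinearMap.range_zero]
  infer_instance

theorem isFiniteRank_add {θ₁ θ₂ : V →ₗ[K] W} (h₁ : IsFiniteRank θ₁) (h₂ : IsFiniteRank θ₂) :
    IsFiniteRank (θ₁ + θ₂) := by
  unfold IsFiniteRank at *
  have : LinearMap.range (θ₁ + θ₂) ≤ LinearMap.range θ₁ ⊔ LinearMap.range θ₂ := by
    rintro _ ⟨x, rfl⟩
    exact Submodule.add_mem_sup ⟨x, rfl⟩ ⟨x, rfl⟩
  exact Submodule.finiteDimensional_of_le this

theorem isFiniteRank_smul {θ : V →ₗ[K] W} (h : IsFiniteRank θ) (c : K) :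
    IsFiniteRank (c • θ) := by
  unfold IsFiniteRank at *
  have : LinearMap.range (c • θ) ≤ LinearMap.range θ := by
    rintro _ ⟨x, rfl⟩
    exact ⟨c • x, by simp⟩
  exact Submodule.finiteDimensional_of_le this

theorem isFiniteRank_neg {θ : V →ₗ[K] W} (h : IsFiniteRank θ) : IsFiniteRank (-θ) := by
  have := isFiniteRank_smul h (-1 : K)
  simpa using this

theorem isFiniteRank_sub {θ₁ θ₂ : V →ₗ[K] W} (h₁ : IsFiniteRank θ₁) (h₂ : IsFiniteRank θ₂) :
    IsFiniteRank (θ₁ - θ₂) := by
  rw [sub_eq_add_neg]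
  exact isFiniteRank_add h₁ (isFiniteRank_neg h₂)

theorem isFiniteRank_of_finiteDimensional_domain [FiniteDimensional K V] (θ : V →ₗ[K] W) :
    IsFiniteRank θ := by
  unfold IsFiniteRank
  infer_instance

theorem isFiniteRank_of_finiteDimensional_codomain [FiniteDimensional K W] (θ : V →ₗ[K] W) :
    IsFiniteRank θ := by
  unfold IsFiniteRank
  infer_instance

/-- **Factorisation lemma.** -/
theorem trfr_comp [FiniteDimensional K U] (X : U →ₗ[K] V) (Y : V →ₗ[K] U) :
    trfr (X ∘ₗ Y) = LinearMap.trace K U (Y ∘ₗ X) := by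
  classical
  set θ : V →ₗ[K] V := X ∘ₗ Y with hθ
  set R := LinearMap.range θ with hR
  set U' := LinearMap.range Y with hU'
  -- `Y ∘ X` has values in `U'`
  have h1 : ∀ u, (Y ∘ₗ X) u ∈ U' := fun u => ⟨X u, rfl⟩
  have e1 := LinearMap.trace_restrict_eq_of_forall_mem U' (Y ∘ₗ X) h1
  rw [← e1]
  -- `X' : U' → R`, `Y' : R → U'`
  have hX' : ∀ u ∈ U', X u ∈ R := by
    rintro _ ⟨v, rfl⟩
    exact ⟨v, rfl⟩
  let X' : U' →ₗ[K] R := X.restrict hX'
  let Y' : R →ₗ[K] U' := Y.rangeRestrict ∘ₗ R.subtype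
  have hR_fin : FiniteDimensional K R := by
    have : R ≤ LinearMap.range X := by
      rw [hR, hθ]; exact LinearMap.range_comp_le_range Y X
    exact Submodule.finiteDimensional_of_le this
  have e2 : (Y ∘ₗ X).restrict (fun x _ => h1 x) = Y' ∘ₗ X' := by
    ext u
    simp [X', Y', LinearMap.restrict_apply]
  have e3 : θ.rangeRestrict ∘ₗ R.subtype = X' ∘ₗ Y' := by
    ext r
    simp [X', Y', LinearMap.restrict_apply, θ]
  unfold trfr
  rw [e2, e3]
  exact LinearMap.trace_comp_comm' Y' X'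


/-- FR4: the finite-rank trace can be computed on any finite-dimensional subspace containing the
range. -/
theorem trfr_eq_trace_restrict (θ : V →ₗ[K] V) (S : Submodule K V) [FiniteDimensional K S]
    (h : LinearMap.range θ ≤ S) :
    trfr θ = LinearMap.trace K S (θ.restrict (p := S) (q := S) (fun x _ => h ⟨x, rfl⟩)) := by
  have e : θ = S.subtype ∘ₗ (θ.codRestrict S (fun x => h ⟨x, rfl⟩)) := by
    ext x; simp
  conv_lhs => rw [e]
  rw [trfr_comp]
  congr 1

theorem trfr_zero : trfr (0 : V →ₗ[K] V) = 0 := by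
  have e : (0 : V →ₗ[K] V) = (0 : PUnit →ₗ[K] V) ∘ₗ (0 : V →ₗ[K] PUnit) := by simp
  rw [e, trfr_comp]
  simp

/-- FR1 (additivity). -/
theorem trfr_add {θ₁ θ₂ : V →ₗ[K] V} (h₁ : IsFiniteRank θ₁) (h₂ : IsFiniteRank θ₂) :
    trfr (θ₁ + θ₂) = trfr θ₁ + trfr θ₂ := by
  unfold IsFiniteRank at h₁ h₂
  set S := LinearMap.range θ₁ ⊔ LinearMap.range θ₂ with hS
  have hS_fin : FiniteDimensional K S := by rw [hS]; infer_instance
  have le1 : LinearMap.range θ₁ ≤ S := le_sup_left
  have le2 : LinearMap.range θ₂ ≤ S := le_sup_right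
  have le12 : LinearMap.range (θ₁ + θ₂) ≤ S := by
    rintro _ ⟨x, rfl⟩
    exact Submodule.add_mem_sup ⟨x, rfl⟩ ⟨x, rfl⟩
  rw [trfr_eq_trace_restrict θ₁ S le1, trfr_eq_trace_restrict θ₂ S le2,
    trfr_eq_trace_restrict (θ₁ + θ₂) S le12, ← map_add]
  congr 1

theorem trfr_smul (c : K) (θ : V →ₗ[K] V) (h : IsFiniteRank θ) :
    trfr (c • θ) = c * trfr θ := by
  unfold IsFiniteRank at h
  set S := LinearMap.range θ with hS
  have le1 : LinearMap.range (c • θ) ≤ S := by
    rintro _ ⟨x, rfl⟩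
    exact ⟨c • x, by simp⟩
  rw [trfr_eq_trace_restrict θ S le_rfl, trfr_eq_trace_restrict (c • θ) S le1, ← smul_eq_mul,
    ← map_smul]
  congr 1

theorem trfr_neg (θ : V →ₗ[K] V) (h : IsFiniteRank θ) : trfr (-θ) = -trfr θ := by
  have := trfr_smul (-1 : K) θ h
  simpa using this

theorem trfr_sub {θ₁ θ₂ : V →ₗ[K] V} (h₁ : IsFiniteRank θ₁) (h₂ : IsFiniteRank θ₂) :
    trfr (θ₁ - θ₂) = trfr θ₁ - trfr θ₂ := by
  rw [sub_eq_add_neg, trfr_add h₁ (isFiniteRank_neg h₂), trfr_neg θ₂ h₂, sub_eq_add_neg]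

theorem trfr_sum {ι : Type*} (s : Finset ι) (θ : ι → (V →ₗ[K] V))
    (h : ∀ i ∈ s, IsFiniteRank (θ i)) :
    trfr (∑ i ∈ s, θ i) = ∑ i ∈ s, trfr (θ i) := by
  classical
  induction s using Finset.induction_on with
  | empty => simp [trfr_zero]
  | insert a s ha ih =>
    rw [Finset.sum_insert ha, Finset.sum_insert ha]
    have hs : IsFiniteRank (∑ i ∈ s, θ i) := by
      clear ih
      induction s using Finset.induction_on with
      | empty => simpa using (isFiniteRank_zero (K := K) (V := V) (W := V))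
      | insert b t hb ih2 =>
        rw [Finset.sum_insert hb]
        refine isFiniteRank_add (h b (by simp)) (ih2 ?_ ?_)
        · intro hat; exact ha (by simp [hat])
        · intro i hi
          exact h i (by
            rcases Finset.mem_insert.mp hi with rfl | hi'
            · simp
            · simp [hi'])
    rw [trfr_add (h a (by simp)) hs, ih (fun i hi => h i (by simp [hi]))]

/-- FR2 (cyclicity), two-space version: `X` of finite rank. -/
theorem trfr_comm (X : W →ₗ[K] V) (Y : V →ₗ[K] W) (hX : IsFiniteRank X) :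
    trfr (X ∘ₗ Y) = trfr (Y ∘ₗ X) := by
  unfold IsFiniteRank at hX
  set R := LinearMap.range X with hR
  have eX : X = R.subtype ∘ₗ X.rangeRestrict := by
    ext x; simp
  have e1 : X ∘ₗ Y = R.subtype ∘ₗ (X.rangeRestrict ∘ₗ Y) := by
    conv_lhs => rw [eX]
    rfl
  have e2 : Y ∘ₗ X = (Y ∘ₗ R.subtype) ∘ₗ X.rangeRestrict := by
    conv_lhs => rw [eX]
    rfl
  rw [e1, e2, trfr_comp, trfr_comp]
  rfl

/-- FR2 (cyclicity), `Y` of finite rank. -/
theorem trfr_comm' (X : W →ₗ[K] V) (Y : V →ₗ[K] W) (hY : IsFiniteRank Y) :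
    trfr (X ∘ₗ Y) = trfr (Y ∘ₗ X) :=
  (trfr_comm Y X hY).symm

/-- On a finite-dimensional space the finite-rank trace is the ordinary trace. -/
theorem trfr_eq_trace [FiniteDimensional K V] (θ : V →ₗ[K] V) :
    trfr θ = LinearMap.trace K V θ := by
  have e : θ = θ ∘ₗ LinearMap.id := by simp
  conv_lhs => rw [e]
  rw [trfr_comp]
  simp

/-- FR3: a nilpotent finite-rank operator has trace zero. -/
theorem trfr_eq_zero_of_pow_eq_zero (θ : V →ₗ[K] V) {n : ℕ}
    (hn : θ ^ n = 0) : trfr θ = 0 := by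
  unfold trfr
  set T : LinearMap.range θ →ₗ[K] LinearMap.range θ :=
    θ.rangeRestrict ∘ₗ (LinearMap.range θ).subtype with hT
  have hpow : ∀ (m : ℕ) (r : LinearMap.range θ), ((T ^ m) r : V) = (θ ^ m) (r : V) := by
    intro m
    induction m with
    | zero => intro r; simp
    | succ m ih =>
      intro r
      rw [pow_succ, Module.End.mul_apply, ih, pow_succ, Module.End.mul_apply]
      simp [hT]
  have hnil : IsNilpotent T := by
    refine ⟨n, ?_⟩
    ext r
    rw [hpow n r, hn]
    simp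
  exact (LinearMap.isNilpotent_trace_of_isNilpotent hnil).eq_zero

/-- The trace of a finite-rank idempotent is the dimension of its range. -/
theorem trfr_of_isIdempotentElem (e : V →ₗ[K] V) (h : IsFiniteRank e) (he : e ∘ₗ e = e) :
    trfr e = (Module.finrank K (LinearMap.range e) : K) := by
  unfold IsFiniteRank at h
  unfold trfr
  have : e.rangeRestrict ∘ₗ (LinearMap.range e).subtype = LinearMap.id := by
    ext ⟨r, x, rfl⟩
    have := LinearMap.congr_fun he x
    simpa using this
  rw [this, LinearMap.trace_id]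

end Fermat.Agent.S20.FiniteRankTrace
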