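/-
`Fermat.Agent.S20.LatticeChi` : Euler characteristic of a pair of subspaces (pure linear algebra).

For `k`-subspaces `M M'` of a `k`-vector space `V` put
`chi M M' = dim (M ⊓ M') - dim (V ⧸ (M ⊔ M'))` (an integer, meaningful when both are finite, i.e.
`IsFredholmPair M M'`).  Main results:

* `enlarge_left` / `enlarge_right` : enlarging one member of the pair by a finite-dimensional
  amount `c` keeps the pair Fredholm and adds `c` to `chi`;
* `finite_quot_left` : conversely the quotient `N / M` is finite-dimensional as soon as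
  `N ⊓ M'` and `V ⧸ (M ⊔ M')` are;
* `index_add` : the two-sided statement used for the Dedekind–Weber count;
* `chi_map_equiv`, `chi_pi` : invariance under linear equivalences and additivity over finite
  products.
-/
import Mathlib

set_option autoImplicit false

namespace Fermat.Agent.S20.LatticeChi

open Module

universe u v

variable {k : Type u} {V : Type v} [Field k] [AddCommGroup V] [Module k V]

/-- A pair of subspaces with finite-dimensional intersection and finite-codimensional sum. -/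
structure IsFredholmPair (M M' : Submodule k V) : Prop where
  inf : FiniteDimensional k ↥(M ⊓ M')
  sup : FiniteDimensional k (V ⧸ (M ⊔ M'))

/-- The Euler characteristic `dim (M ⊓ M') - dim (V ⧸ (M ⊔ M'))` of a pair of subspaces. -/
noncomputable def chi (M M' : Submodule k V) : ℤ :=
  (finrank k ↥(M ⊓ M') : ℤ) - (finrank k (V ⧸ (M ⊔ M')) : ℤ)

theorem chi_comm (M M' : Submodule k V) : chi M M' = chi M' M := by
  unfold chi
  rw [inf_comm, sup_comm]

theorem IsFredholmPair.symm {M M' : Submodule k V} (h : IsFredholmPair M M') :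
    IsFredholmPair M' M := by
  obtain ⟨h1, h2⟩ := h
  constructor
  · rw [inf_comm]; exact h1
  · rw [sup_comm]; exact h2

theorem isFredholmPair_comm {M M' : Submodule k V} :
    IsFredholmPair M M' ↔ IsFredholmPair M' M :=
  ⟨IsFredholmPair.symm, IsFredholmPair.symm⟩

section Sequence

variable (M N M' : Submodule k V)

/-- `N ⊓ M' → N / M`. -/
noncomputable def seqF : ↥(N ⊓ M') →ₗ[k] (↥N ⧸ M.submoduleOf N) :=
  (M.submoduleOf N).mkQ ∘ₗ Submodule.inclusion (inf_le_left : N ⊓ M' ≤ N)

/-- `N / M → V / (M + M')`. -/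
noncomputable def seqG : (↥N ⧸ M.submoduleOf N) →ₗ[k] (V ⧸ (M ⊔ M')) :=
  (M.submoduleOf N).liftQ ((M ⊔ M').mkQ ∘ₗ N.subtype) (by
    intro x hx
    rw [LinearMap.mem_ker, LinearMap.comp_apply, Submodule.mkQ_apply,
      Submodule.Quotient.mk_eq_zero]
    exact Submodule.mem_sup_left hx)

/-- `V / (M + M') → V / (N + M')` (for `M ≤ N`). -/
noncomputable def seqH (hMN : M ≤ N) : (V ⧸ (M ⊔ M')) →ₗ[k] (V ⧸ (N ⊔ M')) :=
  (M ⊔ M').mapQ (N ⊔ M') LinearMap.id (by
    rw [Submodule.comap_id]; exact sup_le_sup_right hMN M')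

theorem seqF_eq_zero_iff (x : ↥(N ⊓ M')) : seqF M N M' x = 0 ↔ (x : V) ∈ M := by
  unfold seqF
  rw [LinearMap.comp_apply, Submodule.mkQ_apply, Submodule.Quotient.mk_eq_zero]
  rfl

theorem seqG_mk (n : ↥N) :
    seqG M N M' (Submodule.Quotient.mk n) = Submodule.Quotient.mk (n : V) := by
  unfold seqG
  rfl

theorem seqH_mk (hMN : M ≤ N) (v : V) :
    seqH M N M' hMN (Submodule.Quotient.mk v) = Submodule.Quotient.mk v := by
  unfold seqH
  rfl

theorem seqH_surjective (hMN : M ≤ N) : Function.Surjective (seqH M N M' hMN) := by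
  intro y
  obtain ⟨v, rfl⟩ := Submodule.Quotient.mk_surjective _ y
  exact ⟨Submodule.Quotient.mk v, seqH_mk M N M' hMN v⟩

/-- The kernel of `seqF` is `M ⊓ M'`. -/
noncomputable def kerSeqFEquiv (hMN : M ≤ N) :
    ↥(LinearMap.ker (seqF M N M')) ≃ₗ[k] ↥(M ⊓ M') where
  toFun x := ⟨(x.1 : V), (seqF_eq_zero_iff M N M' x.1).1 x.2, x.1.2.2⟩
  map_add' _ _ := rfl
  map_smul' _ _ := rfl
  invFun y := ⟨⟨(y : V), hMN y.2.1, y.2.2⟩, (seqF_eq_zero_iff M N M' _).2 y.2.1⟩
  left_inv _ := rfl
  right_inv _ := rfl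

theorem range_seqF (hMN : M ≤ N) :
    LinearMap.range (seqF M N M') = LinearMap.ker (seqG M N M') := by
  ext y
  obtain ⟨n, rfl⟩ := Submodule.Quotient.mk_surjective _ y
  rw [LinearMap.mem_ker, LinearMap.mem_range, seqG_mk, Submodule.Quotient.mk_eq_zero]
  constructor
  · rintro ⟨x, hx⟩
    have h1 : seqF M N M' x = Submodule.Quotient.mk ⟨(x : V), x.2.1⟩ := rfl
    rw [h1, Submodule.Quotient.eq] at hx
    have h2 : (x : V) - (n : V) ∈ M := hx
    have h3 : (n : V) = (x : V) - ((x : V) - (n : V)) := by abel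
    rw [h3]
    exact Submodule.sub_mem _ (Submodule.mem_sup_right x.2.2) (Submodule.mem_sup_left h2)
  · intro hn
    obtain ⟨m, hm, m', hm', hsum⟩ := Submodule.mem_sup.1 hn
    have hm'N : m' ∈ N := by
      have : m' = (n : V) - m := by rw [← hsum]; abel
      rw [this]
      exact N.sub_mem n.2 (hMN hm)
    refine ⟨⟨m', hm'N, hm'⟩, ?_⟩
    have h1 : seqF M N M' ⟨m', hm'N, hm'⟩ = Submodule.Quotient.mk ⟨m', hm'N⟩ := rfl
    rw [h1, Submodule.Quotient.eq]
    change m' - (n : V) ∈ M
    have : m' - (n : V) = -m := by rw [← hsum]; abel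
    rw [this]
    exact M.neg_mem hm

theorem range_seqG (hMN : M ≤ N) :
    LinearMap.range (seqG M N M') = LinearMap.ker (seqH M N M' hMN) := by
  ext y
  obtain ⟨v, rfl⟩ := Submodule.Quotient.mk_surjective _ y
  rw [LinearMap.mem_ker, LinearMap.mem_range, seqH_mk, Submodule.Quotient.mk_eq_zero]
  constructor
  · rintro ⟨x, hx⟩
    obtain ⟨n, rfl⟩ := Submodule.Quotient.mk_surjective _ x
    rw [seqG_mk, Submodule.Quotient.eq] at hx
    have h3 : v = (n : V) - ((n : V) - v) := by abel
    rw [h3]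
    exact Submodule.sub_mem _ (Submodule.mem_sup_left n.2)
      (sup_le_sup_right hMN M' hx)
  · intro hv
    obtain ⟨n, hn, m', hm', hsum⟩ := Submodule.mem_sup.1 hv
    refine ⟨Submodule.Quotient.mk ⟨n, hn⟩, ?_⟩
    rw [seqG_mk, Submodule.Quotient.eq]
    have : n - v = -m' := by rw [← hsum]; abel
    change n - v ∈ M ⊔ M'
    rw [this]
    exact Submodule.neg_mem _ (Submodule.mem_sup_right hm')

end Sequence

section Count

variable {M N M' N' : Submodule k V}

/-- If `N ⊓ M'` and `V ⧸ (M ⊔ M')` are finite-dimensional (and `M ≤ N`) then so is `N / M`. -/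
theorem finite_quot_left (hMN : M ≤ N) [FiniteDimensional k ↥(N ⊓ M')]
    [FiniteDimensional k (V ⧸ (M ⊔ M'))] : FiniteDimensional k (↥N ⧸ M.submoduleOf N) := by
  have : FiniteDimensional k ↥(LinearMap.ker (seqG M N M')) := by
    rw [← range_seqF M N M' hMN]; infer_instance
  have : FiniteDimensional k ((↥N ⧸ M.submoduleOf N) ⧸ LinearMap.ker (seqG M N M')) :=
    LinearEquiv.finiteDimensional (LinearMap.quotKerEquivRange (seqG M N M')).symm
  exact Module.Finite.of_submodule_quotient (LinearMap.ker (seqG M N M'))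

/-- Enlarging the first member of a Fredholm pair by a finite-dimensional amount keeps it Fredholm
and adds the dimension of the enlargement to `chi`. -/
theorem enlarge_left (hMN : M ≤ N) [FiniteDimensional k (↥N ⧸ M.submoduleOf N)]
    (h : IsFredholmPair M M') :
    IsFredholmPair N M' ∧
      chi N M' = chi M M' + (finrank k (↥N ⧸ M.submoduleOf N) : ℤ) := by
  have := h.inf
  have := h.sup
  have : FiniteDimensional k ↥(LinearMap.ker (seqF M N M')) :=
    LinearEquiv.finiteDimensional (kerSeqFEquiv M N M' hMN).symm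
  have : FiniteDimensional k ↥(N ⊓ M') := by
    have : FiniteDimensional k (↥(N ⊓ M') ⧸ LinearMap.ker (seqF M N M')) :=
      LinearEquiv.finiteDimensional (LinearMap.quotKerEquivRange (seqF M N M')).symm
    exact Module.Finite.of_submodule_quotient (LinearMap.ker (seqF M N M'))
  have : FiniteDimensional k (V ⧸ (N ⊔ M')) :=
    Module.Finite.of_surjective (seqH M N M' hMN) (seqH_surjective M N M' hMN)
  refine ⟨⟨inferInstance, inferInstance⟩, ?_⟩
  have e1 := LinearMap.finrank_range_add_finrank_ker (seqF M N M')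
  have e2 := LinearMap.finrank_range_add_finrank_ker (seqG M N M')
  have e3 := LinearMap.finrank_range_add_finrank_ker (seqH M N M' hMN)
  rw [LinearMap.range_eq_top.2 (seqH_surjective M N M' hMN), finrank_top,
    ← range_seqG M N M' hMN] at e3
  rw [← range_seqF M N M' hMN] at e2
  rw [LinearEquiv.finrank_eq (kerSeqFEquiv M N M' hMN)] at e1
  unfold chi
  omega

/-- Conversely, shrinking the first member by a finite-dimensional amount keeps it Fredholm. -/
theorem IsFredholmPair.of_enlarge_left (hMN : M ≤ N)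
    [FiniteDimensional k (↥N ⧸ M.submoduleOf N)] (h : IsFredholmPair N M') :
    IsFredholmPair M M' := by
  have := h.inf
  have := h.sup
  constructor
  · exact LinearEquiv.finiteDimensional (kerSeqFEquiv M N M' hMN)
  · have : FiniteDimensional k ↥(LinearMap.ker (seqH M N M' hMN)) := by
      rw [← range_seqG M N M' hMN]; infer_instance
    have : FiniteDimensional k ((V ⧸ (M ⊔ M')) ⧸ LinearMap.ker (seqH M N M' hMN)) :=
      LinearEquiv.finiteDimensional
        ((LinearMap.quotKerEquivOfSurjective _ (seqH_surjective M N M' hMN))).symm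
    exact Module.Finite.of_submodule_quotient (LinearMap.ker (seqH M N M' hMN))

theorem isFredholmPair_enlarge_left_iff (hMN : M ≤ N)
    [FiniteDimensional k (↥N ⧸ M.submoduleOf N)] :
    IsFredholmPair N M' ↔ IsFredholmPair M M' :=
  ⟨IsFredholmPair.of_enlarge_left hMN, fun h => (enlarge_left hMN h).1⟩

/-- `enlarge_left` for the second member. -/
theorem enlarge_right (hMN' : M' ≤ N') [FiniteDimensional k (↥N' ⧸ M'.submoduleOf N')]
    (h : IsFredholmPair M M') :
    IsFredholmPair M N' ∧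
      chi M N' = chi M M' + (finrank k (↥N' ⧸ M'.submoduleOf N') : ℤ) := by
  obtain ⟨h1, h2⟩ := enlarge_left (M' := M) hMN' h.symm
  exact ⟨h1.symm, by rw [chi_comm M N', h2, chi_comm M' M]⟩

theorem isFredholmPair_enlarge_right_iff (hMN' : M' ≤ N')
    [FiniteDimensional k (↥N' ⧸ M'.submoduleOf N')] :
    IsFredholmPair M N' ↔ IsFredholmPair M M' := by
  rw [isFredholmPair_comm, isFredholmPair_enlarge_left_iff hMN', isFredholmPair_comm]

/-- **Index additivity** (two-sided): for Fredholm pairs `(M, M')` and `(N, N')` with `M ≤ N`,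
`M' ≤ N'`, both quotients `N / M`, `N' / M'` are finite-dimensional and
`chi N N' = chi M M' + dim N/M + dim N'/M'`. -/
theorem index_add' (hMN : M ≤ N) (hMN' : M' ≤ N') (h : IsFredholmPair M M')
    (h' : IsFredholmPair N N') :
    FiniteDimensional k (↥N ⧸ M.submoduleOf N) ∧
      FiniteDimensional k (↥N' ⧸ M'.submoduleOf N') ∧
      chi N N' = chi M M' + (finrank k (↥N ⧸ M.submoduleOf N) : ℤ)
        + (finrank k (↥N' ⧸ M'.submoduleOf N') : ℤ) := by
  have := h.inf
  have := h.sup
  have := h'.inf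
  have := h'.sup
  have hNM' : FiniteDimensional k ↥(N ⊓ M') :=
    Submodule.finiteDimensional_of_le (inf_le_inf_left N hMN')
  have hfin1 : FiniteDimensional k (↥N ⧸ M.submoduleOf N) := finite_quot_left (M' := M') hMN
  obtain ⟨hF1, hchi1⟩ := enlarge_left hMN h
  -- second step: enlarge `M'` to `N'` against `N`
  have hF1' := hF1.symm
  have : FiniteDimensional k ↥(N' ⊓ N) := h'.symm.inf
  have : FiniteDimensional k (V ⧸ (M' ⊔ N)) := hF1'.sup
  have hfin2 : FiniteDimensional k (↥N' ⧸ M'.submoduleOf N') := finite_quot_left (M' := N) hMN'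
  obtain ⟨_, hchi2⟩ := enlarge_right hMN' hF1
  exact ⟨hfin1, hfin2, by rw [hchi2, hchi1]⟩

/-- `index_add'` with instance hypotheses and unfolded `chi`. -/
theorem index_add (hMN : M ≤ N) (hMN' : M' ≤ N') [FiniteDimensional k ↥(M ⊓ M')]
    [FiniteDimensional k (V ⧸ (M ⊔ M'))] [FiniteDimensional k ↥(N ⊓ N')]
    [FiniteDimensional k (V ⧸ (N ⊔ N'))] :
    FiniteDimensional k (↥N ⧸ M.submoduleOf N) ∧
      FiniteDimensional k (↥N' ⧸ M'.submoduleOf N') ∧
      (finrank k ↥(N ⊓ N') : ℤ) - (finrank k (V ⧸ (N ⊔ N')) : ℤ) =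
        (finrank k ↥(M ⊓ M') : ℤ) - (finrank k (V ⧸ (M ⊔ M')) : ℤ)
          + (finrank k (↥N ⧸ M.submoduleOf N) : ℤ)
          + (finrank k (↥N' ⧸ M'.submoduleOf N') : ℤ) :=
  index_add' hMN hMN' ⟨inferInstance, inferInstance⟩ ⟨inferInstance, inferInstance⟩

end Count

section Equiv

variable {W : Type*} [AddCommGroup W] [Module k W]

/-- Transport of the intersection along a linear equivalence. -/
noncomputable def infMapEquiv (e : V ≃ₗ[k] W) (M M' : Submodule k V) :
    ↥(M.map (e : V →ₗ[k] W) ⊓ M'.map (e : V →ₗ[k] W)) ≃ₗ[k] ↥(M ⊓ M') :=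
  (LinearEquiv.ofEq _ _ (Submodule.map_inf (e : V →ₗ[k] W) e.injective).symm).trans
    (e.submoduleMap (M ⊓ M')).symm

/-- Transport of the quotient by the sum along a linear equivalence. -/
noncomputable def quotSupMapEquiv (e : V ≃ₗ[k] W) (M M' : Submodule k V) :
    (W ⧸ (M.map (e : V →ₗ[k] W) ⊔ M'.map (e : V →ₗ[k] W))) ≃ₗ[k] (V ⧸ (M ⊔ M')) :=
  (Submodule.Quotient.equiv (M ⊔ M') (M.map (e : V →ₗ[k] W) ⊔ M'.map (e : V →ₗ[k] W)) e
    (Submodule.map_sup _ _ _)).symm

theorem isFredholmPair_map_equiv (e : V ≃ₗ[k] W) {M M' : Submodule k V} :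
    IsFredholmPair (M.map (e : V →ₗ[k] W)) (M'.map (e : V →ₗ[k] W)) ↔ IsFredholmPair M M' := by
  constructor
  · rintro ⟨h1, h2⟩
    exact ⟨LinearEquiv.finiteDimensional (infMapEquiv e M M'),
      LinearEquiv.finiteDimensional (quotSupMapEquiv e M M')⟩
  · rintro ⟨h1, h2⟩
    exact ⟨LinearEquiv.finiteDimensional (infMapEquiv e M M').symm,
      LinearEquiv.finiteDimensional (quotSupMapEquiv e M M').symm⟩

theorem chi_map_equiv (e : V ≃ₗ[k] W) (M M' : Submodule k V) :
    chi (M.map (e : V →ₗ[k] W)) (M'.map (e : V →ₗ[k] W)) = chi M M' := by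
  unfold chi
  rw [LinearEquiv.finrank_eq (infMapEquiv e M M'), LinearEquiv.finrank_eq (quotSupMapEquiv e M M')]

theorem isFredholmPair_comap_equiv (e : W ≃ₗ[k] V) {M M' : Submodule k V} :
    IsFredholmPair (M.comap (e : W →ₗ[k] V)) (M'.comap (e : W →ₗ[k] V)) ↔ IsFredholmPair M M' := by
  rw [Submodule.comap_equiv_eq_map_symm, Submodule.comap_equiv_eq_map_symm]
  exact isFredholmPair_map_equiv e.symm

theorem chi_comap_equiv (e : W ≃ₗ[k] V) (M M' : Submodule k V) :
    chi (M.comap (e : W →ₗ[k] V)) (M'.comap (e : W →ₗ[k] V)) = chi M M' := by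
  rw [Submodule.comap_equiv_eq_map_symm, Submodule.comap_equiv_eq_map_symm]
  exact chi_map_equiv e.symm M M'

end Equiv

section Pi

variable {ι : Type*} [Fintype ι] {W : ι → Type*} [∀ i, AddCommGroup (W i)]
  [∀ i, Module k (W i)]

omit [Fintype ι] in
theorem pi_inf_pi (p q : ∀ i, Submodule k (W i)) :
    Submodule.pi Set.univ p ⊓ Submodule.pi Set.univ q =
      Submodule.pi Set.univ (fun i => p i ⊓ q i) := by
  ext x
  simp only [Submodule.mem_inf, Submodule.mem_pi, Set.mem_univ, true_implies]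
  exact ⟨fun h i => ⟨h.1 i, h.2 i⟩, fun h => ⟨fun i => (h i).1, fun i => (h i).2⟩⟩

theorem pi_sup_pi (p q : ∀ i, Submodule k (W i)) :
    Submodule.pi Set.univ p ⊔ Submodule.pi Set.univ q =
      Submodule.pi Set.univ (fun i => p i ⊔ q i) := by
  classical
  rw [← Submodule.iSup_map_single, ← Submodule.iSup_map_single, ← Submodule.iSup_map_single,
    ← iSup_sup_eq]
  exact iSup_congr fun i => (Submodule.map_sup _ _ _).symm

/-- A product of submodules is the product of the submodules, as a module. -/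
noncomputable def piSubmoduleEquiv (p : ∀ i, Submodule k (W i)) :
    ↥(Submodule.pi Set.univ p) ≃ₗ[k] ∀ i, ↥(p i) where
  toFun x i := ⟨x.1 i, x.2 i (Set.mem_univ i)⟩
  map_add' _ _ := rfl
  map_smul' _ _ := rfl
  invFun y := ⟨fun i => (y i : W i), fun i _ => (y i).2⟩
  left_inv _ := rfl
  right_inv _ := rfl

theorem isFredholmPair_pi {p q : ∀ i, Submodule k (W i)}
    (h : ∀ i, IsFredholmPair (p i) (q i)) :
    IsFredholmPair (Submodule.pi Set.univ p) (Submodule.pi Set.univ q) := by
  classical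
  have h1 : ∀ i, FiniteDimensional k ↥(p i ⊓ q i) := fun i => (h i).inf
  have h2 : ∀ i, FiniteDimensional k (W i ⧸ (p i ⊔ q i)) := fun i => (h i).sup
  constructor
  · rw [pi_inf_pi]
    exact LinearEquiv.finiteDimensional (piSubmoduleEquiv fun i => p i ⊓ q i).symm
  · rw [pi_sup_pi]
    exact LinearEquiv.finiteDimensional (Submodule.quotientPi fun i => p i ⊔ q i).symm

theorem finrank_pi_inf_pi {p q : ∀ i, Submodule k (W i)}
    (h : ∀ i, FiniteDimensional k ↥(p i ⊓ q i)) :
    finrank k ↥(Submodule.pi Set.univ p ⊓ Submodule.pi Set.univ q) =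
      ∑ i, finrank k ↥(p i ⊓ q i) := by
  rw [pi_inf_pi, LinearEquiv.finrank_eq (piSubmoduleEquiv fun i => p i ⊓ q i), finrank_pi_fintype]

theorem finrank_quot_pi_sup_pi {p q : ∀ i, Submodule k (W i)}
    (h : ∀ i, FiniteDimensional k (W i ⧸ (p i ⊔ q i))) :
    finrank k ((∀ i, W i) ⧸ (Submodule.pi Set.univ p ⊔ Submodule.pi Set.univ q)) =
      ∑ i, finrank k (W i ⧸ (p i ⊔ q i)) := by
  classical
  rw [pi_sup_pi, LinearEquiv.finrank_eq (Submodule.quotientPi fun i => p i ⊔ q i),
    finrank_pi_fintype]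

theorem chi_pi {p q : ∀ i, Submodule k (W i)} (h : ∀ i, IsFredholmPair (p i) (q i)) :
    chi (Submodule.pi Set.univ p) (Submodule.pi Set.univ q) = ∑ i, chi (p i) (q i) := by
  unfold chi
  rw [finrank_pi_inf_pi fun i => (h i).inf, finrank_quot_pi_sup_pi fun i => (h i).sup,
    Finset.sum_sub_distrib]
  push_cast
  rfl

end Pi

end Fermat.Agent.S20.LatticeChi
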