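/-
`Fermat.Agent.S20.LatticeChiRatFunc` : the Euler characteristic of the pair
(`k[X]`-lattice, `O_∞`-lattice) attached to a basis of a `RatFunc k`-vector space, and the
Dedekind–Weber index identity `dim A'/A + dim B'/B = 2 ∑ d i`.
-/
import Fermat.Agent.S20.LatticeChi

set_option autoImplicit false

namespace Fermat.Agent.S20.LatticeChiRatFunc

open Module Polynomial WithZero Fermat.Agent.S20.LatticeChi

variable (k : Type*) [Field k]

/-- The `k`-linear inclusion `k[X] → k(X)`. -/
noncomputable def polyIncl : k[X] →ₗ[k] RatFunc k :=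
  (IsScalarTower.toAlgHom k k[X] (RatFunc k)).toLinearMap

@[simp]
theorem polyIncl_apply (p : k[X]) : polyIncl k p = algebraMap k[X] (RatFunc k) p := rfl

theorem polyIncl_injective : Function.Injective (polyIncl k) :=
  RatFunc.algebraMap_injective k

/-- The polynomials inside `k(X)`, as a `k`-subspace. -/
noncomputable def polyPart : Submodule k (RatFunc k) := LinearMap.range (polyIncl k)

theorem mem_polyPart {f : RatFunc k} :
    f ∈ polyPart k ↔ f ∈ (algebraMap k[X] (RatFunc k)).range := Iff.rfl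

variable [DecidableEq (RatFunc k)]

/-- `{f | v∞ f ≤ exp (-m)}`, as a `k`-subspace of `k(X)`. -/
noncomputable def inftyPart (m : ℤ) : Submodule k (RatFunc k) where
  carrier := {f | RatFunc.inftyValuation k f ≤ exp (-m)}
  zero_mem' := by
    change RatFunc.inftyValuation k 0 ≤ exp (-m)
    simp
  add_mem' := by
    intro a b ha hb
    change RatFunc.inftyValuation k (a + b) ≤ exp (-m)
    change RatFunc.inftyValuation k a ≤ exp (-m) at ha
    change RatFunc.inftyValuation k b ≤ exp (-m) at hb
    exact le_trans (Valuation.map_add _ a b) (max_le ha hb)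
  smul_mem' := by
    intro c f hf
    change RatFunc.inftyValuation k f ≤ exp (-m) at hf
    change RatFunc.inftyValuation k (c • f) ≤ exp (-m)
    rw [Algebra.smul_def, Valuation.map_mul]
    calc RatFunc.inftyValuation k (algebraMap k (RatFunc k) c) * RatFunc.inftyValuation k f
        ≤ 1 * RatFunc.inftyValuation k f :=
          mul_le_mul_left (Valuation.IsTrivialOn.valuation_algebraMap_le_one _ c) _
      _ ≤ exp (-m) := by rw [one_mul]; exact hf

theorem mem_inftyPart {m : ℤ} {f : RatFunc k} :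
    f ∈ inftyPart k m ↔ RatFunc.inftyValuation k f ≤ exp (-m) := Iff.rfl

theorem inftyPart_anti {m n : ℤ} (h : m ≤ n) : inftyPart k n ≤ inftyPart k m := by
  intro f hf
  rw [mem_inftyPart] at hf ⊢
  exact le_trans hf (exp_le_exp.2 (by omega))

theorem inftyValuation_algebraMap_poly {p : k[X]} (hp : p ≠ 0) :
    RatFunc.inftyValuation k (algebraMap k[X] (RatFunc k) p) = exp (p.natDegree : ℤ) := by
  rw [RatFunc.inftyValuation_apply, RatFunc.inftyValuation.polynomial k hp]

/-- Base case: a polynomial with `v∞ ≤ exp (-1)` vanishes. -/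
theorem polyPart_inf_inftyPart_one : polyPart k ⊓ inftyPart k 1 = ⊥ := by
  rw [eq_bot_iff]
  rintro f ⟨⟨p, rfl⟩, hf⟩
  rw [SetLike.mem_coe, mem_inftyPart, polyIncl_apply] at hf
  rw [Submodule.mem_bot, polyIncl_apply]
  by_contra hne
  have hp : p ≠ 0 := by
    rintro rfl
    exact hne (map_zero _)
  rw [inftyValuation_algebraMap_poly k hp, exp_le_exp] at hf
  omega

/-- Base case: division with remainder, `k(X) = k[X] + X⁻¹ O_∞`. -/
theorem polyPart_sup_inftyPart_one : polyPart k ⊔ inftyPart k 1 = ⊤ := by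
  rw [eq_top_iff]
  intro f _
  have hden : f.denom ≠ 0 := RatFunc.denom_ne_zero f
  have hden' : algebraMap k[X] (RatFunc k) f.denom ≠ 0 := RatFunc.algebraMap_ne_zero hden
  have hdecomp : f = algebraMap k[X] (RatFunc k) (f.num / f.denom)
      + algebraMap k[X] (RatFunc k) (f.num % f.denom) / algebraMap k[X] (RatFunc k) f.denom := by
    conv_lhs => rw [← RatFunc.num_div_denom f, ← EuclideanDomain.div_add_mod f.num f.denom]
    rw [map_add, map_mul, add_div, mul_div_assoc, mul_div_cancel₀ _ hden']
  rw [hdecomp]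
  refine Submodule.add_mem_sup ⟨f.num / f.denom, rfl⟩ ?_
  rw [mem_inftyPart, map_div₀]
  by_cases hr : f.num % f.denom = 0
  · rw [hr, map_zero, map_zero, zero_div]; exact zero_le
  · rw [inftyValuation_algebraMap_poly k hr, inftyValuation_algebraMap_poly k hden,
      ← exp_sub, exp_le_exp]
    have hlt : (f.num % f.denom).natDegree < f.denom.natDegree :=
      Polynomial.natDegree_lt_natDegree hr (EuclideanDomain.mod_lt _ hden)
    omega

/-! ### Multiplication by `X ^ m` -/

omit [DecidableEq (RatFunc k)] in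
theorem X_pow_ne_zero' (m : ℕ) : (RatFunc.X : RatFunc k) ^ m ≠ 0 :=
  pow_ne_zero m RatFunc.X_ne_zero

/-- Multiplication by `X ^ m` as a `k`-linear automorphism of `k(X)`. -/
noncomputable def mulXPow (m : ℕ) : RatFunc k ≃ₗ[k] RatFunc k where
  toFun f := RatFunc.X ^ m * f
  invFun f := (RatFunc.X ^ m)⁻¹ * f
  map_add' := mul_add _
  map_smul' c f := by simp
  left_inv f := by
    change (RatFunc.X ^ m)⁻¹ * (RatFunc.X ^ m * f) = f
    rw [← mul_assoc, inv_mul_cancel₀ (X_pow_ne_zero' k m), one_mul]
  right_inv f := by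
    change RatFunc.X ^ m * ((RatFunc.X ^ m)⁻¹ * f) = f
    rw [← mul_assoc, mul_inv_cancel₀ (X_pow_ne_zero' k m), one_mul]

omit [DecidableEq (RatFunc k)] in
@[simp]
theorem mulXPow_apply (m : ℕ) (f : RatFunc k) : mulXPow k m f = RatFunc.X ^ m * f := rfl

omit [DecidableEq (RatFunc k)] in
@[simp]
theorem mulXPow_symm_apply (m : ℕ) (f : RatFunc k) :
    (mulXPow k m).symm f = (RatFunc.X ^ m)⁻¹ * f := rfl

theorem map_mulXPow_inftyPart (m : ℕ) (j : ℤ) :
    (inftyPart k j).map (mulXPow k m : RatFunc k →ₗ[k] RatFunc k) = inftyPart k (j - m) := by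
  ext f
  rw [Submodule.mem_map_equiv, mem_inftyPart, mem_inftyPart, mulXPow_symm_apply, map_mul,
    map_inv₀, map_pow, RatFunc.inftyValuation.X, ← exp_nsmul, ← exp_neg]
  have h1 : exp (-(j - (m : ℤ))) = exp ((m : ℤ)) * exp (-j) := by
    rw [← exp_add]; congr 1; ring
  have h2 : RatFunc.inftyValuation k f
      = exp ((m : ℤ)) * (exp (-(m • (1 : ℤ))) * RatFunc.inftyValuation k f) := by
    rw [← mul_assoc, ← exp_add]
    simp
  rw [h1]
  constructor
  · intro h
    rw [h2]
    exact (mul_le_mul_iff_right₀ (exp_pos)).2 h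
  · intro h
    rw [h2] at h
    exact (mul_le_mul_iff_right₀ (exp_pos)).1 h

omit [DecidableEq (RatFunc k)] in
theorem map_mulXPow_polyPart_le (m : ℕ) :
    (polyPart k).map (mulXPow k m : RatFunc k →ₗ[k] RatFunc k) ≤ polyPart k := by
  rintro _ ⟨_, ⟨p, rfl⟩, rfl⟩
  refine ⟨X ^ m * p, ?_⟩
  simp

/-- `k[X] ≃ polyPart k`. -/
noncomputable def polyEquiv : k[X] ≃ₗ[k] ↥(polyPart k) :=
  LinearEquiv.ofInjective (polyIncl k) (polyIncl_injective k)

omit [DecidableEq (RatFunc k)] in
theorem coe_polyEquiv (p : k[X]) :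
    ((polyEquiv k p : ↥(polyPart k)) : RatFunc k) = algebraMap k[X] (RatFunc k) p := rfl

omit [DecidableEq (RatFunc k)] in
theorem map_polyEquiv_span (m : ℕ) :
    ((Ideal.span {(X : k[X]) ^ m}).restrictScalars k).map
        (polyEquiv k : k[X] →ₗ[k] ↥(polyPart k)) =
      ((polyPart k).map (mulXPow k m : RatFunc k →ₗ[k] RatFunc k)).submoduleOf (polyPart k) := by
  ext y
  rw [Submodule.mem_map]
  change _ ↔ (y : RatFunc k) ∈ (polyPart k).map (mulXPow k m : RatFunc k →ₗ[k] RatFunc k)
  rw [Submodule.mem_map]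
  constructor
  · rintro ⟨p, hp, rfl⟩
    rw [Submodule.restrictScalars_mem, Ideal.mem_span_singleton] at hp
    obtain ⟨q, rfl⟩ := hp
    refine ⟨algebraMap k[X] (RatFunc k) q, ⟨q, rfl⟩, ?_⟩
    rw [LinearEquiv.coe_coe, LinearEquiv.coe_coe, coe_polyEquiv, mulXPow_apply]
    simp
  · rintro ⟨_, ⟨q, rfl⟩, hq⟩
    refine ⟨X ^ m * q, ?_, ?_⟩
    · rw [Submodule.restrictScalars_mem, Ideal.mem_span_singleton]
      exact dvd_mul_right _ _
    · apply Subtype.ext
      rw [LinearEquiv.coe_coe, coe_polyEquiv, ← hq, LinearEquiv.coe_coe, mulXPow_apply]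
      simp

/-- `k[X] / (X ^ m) ≃ polyPart / X ^ m polyPart`. -/
noncomputable def quotPolyEquiv (m : ℕ) :
    (k[X] ⧸ Ideal.span {(X : k[X]) ^ m}) ≃ₗ[k]
      (↥(polyPart k) ⧸
        ((polyPart k).map (mulXPow k m : RatFunc k →ₗ[k] RatFunc k)).submoduleOf (polyPart k)) :=
  (Submodule.Quotient.restrictScalarsEquiv k (Ideal.span {(X : k[X]) ^ m})).symm.trans
    (Submodule.Quotient.equiv _ _ (polyEquiv k) (map_polyEquiv_span k m))

omit [DecidableEq (RatFunc k)] in
theorem finiteDimensional_quot_polyPart (m : ℕ) :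
    FiniteDimensional k (↥(polyPart k) ⧸
      ((polyPart k).map (mulXPow k m : RatFunc k →ₗ[k] RatFunc k)).submoduleOf (polyPart k)) := by
  have : Module.Finite k (k[X] ⧸ Ideal.span {(X : k[X]) ^ m}) :=
    (monic_X_pow m).finite_quotient
  exact LinearEquiv.finiteDimensional (quotPolyEquiv k m)

omit [DecidableEq (RatFunc k)] in
theorem finrank_quot_polyPart (m : ℕ) :
    finrank k (↥(polyPart k) ⧸
      ((polyPart k).map (mulXPow k m : RatFunc k →ₗ[k] RatFunc k)).submoduleOf (polyPart k))
      = m := by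
  rw [← LinearEquiv.finrank_eq (quotPolyEquiv k m), finrank_quotient_span_eq_natDegree,
    natDegree_X_pow]

/-! ### The rank one computation -/

theorem isFredholmPair_shift_iff (j : ℤ) (m : ℕ) :
    IsFredholmPair (polyPart k) (inftyPart k (j - m)) ↔
      IsFredholmPair (polyPart k) (inftyPart k j) := by
  have := finiteDimensional_quot_polyPart k m
  rw [isFredholmPair_enlarge_left_iff (map_mulXPow_polyPart_le k m), ← map_mulXPow_inftyPart]
  exact isFredholmPair_map_equiv (mulXPow k m)

theorem chi_shift (j : ℤ) (m : ℕ) (h : IsFredholmPair (polyPart k) (inftyPart k j)) :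
    chi (polyPart k) (inftyPart k (j - m)) = chi (polyPart k) (inftyPart k j) + m := by
  have := finiteDimensional_quot_polyPart k m
  have h' : IsFredholmPair ((polyPart k).map (mulXPow k m : RatFunc k →ₗ[k] RatFunc k))
      (inftyPart k (j - m)) := by
    rw [← map_mulXPow_inftyPart]
    exact (isFredholmPair_map_equiv (mulXPow k m)).2 h
  rw [(enlarge_left (map_mulXPow_polyPart_le k m) h').2, finrank_quot_polyPart,
    ← map_mulXPow_inftyPart, chi_map_equiv]

theorem isFredholmPair_one : IsFredholmPair (polyPart k) (inftyPart k 1) := by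
  constructor
  · rw [polyPart_inf_inftyPart_one]; infer_instance
  · rw [polyPart_sup_inftyPart_one]; infer_instance

theorem chi_one : chi (polyPart k) (inftyPart k 1) = 0 := by
  unfold chi
  rw [polyPart_inf_inftyPart_one, polyPart_sup_inftyPart_one]
  have : finrank k (RatFunc k ⧸ (⊤ : Submodule k (RatFunc k))) = 0 := finrank_zero_of_subsingleton
  simp [this]

/-- The pair (`k[X]`, `{v∞ ≤ exp (-n)}`) in `k(X)` is Fredholm. -/
theorem isFredholmPair_polyPart_inftyPart (n : ℤ) :
    IsFredholmPair (polyPart k) (inftyPart k n) := by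
  rcases le_total n 1 with h | h
  · have := (isFredholmPair_shift_iff k 1 (1 - n).toNat).2 (isFredholmPair_one k)
    rwa [Int.toNat_of_nonneg (by omega), sub_sub_cancel] at this
  · have := (isFredholmPair_shift_iff k n (n - 1).toNat).1
    rw [Int.toNat_of_nonneg (by omega), sub_sub_cancel] at this
    exact this (isFredholmPair_one k)

/-- **Rank one Riemann–Roch on the projective line**: `chi (k[X], X⁻ⁿ O_∞) = 1 - n`. -/
theorem chi_polyPart_inftyPart (n : ℤ) : chi (polyPart k) (inftyPart k n) = 1 - n := by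
  rcases le_total n 1 with h | h
  · have := chi_shift k 1 (1 - n).toNat (isFredholmPair_one k)
    rw [Int.toNat_of_nonneg (by omega), sub_sub_cancel, chi_one] at this
    rw [this]; ring
  · have := chi_shift k n (n - 1).toNat (isFredholmPair_polyPart_inftyPart k n)
    rw [Int.toNat_of_nonneg (by omega), sub_sub_cancel, chi_one] at this
    linarith

theorem polyPart_sup_inftyPart_of_le {n : ℤ} (h : n ≤ 1) : polyPart k ⊔ inftyPart k n = ⊤ := by
  rw [eq_top_iff, ← polyPart_sup_inftyPart_one k]
  exact sup_le_sup_left (inftyPart_anti k h) _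

theorem polyPart_inf_inftyPart_of_le {n : ℤ} (h : 1 ≤ n) : polyPart k ⊓ inftyPart k n = ⊥ := by
  rw [eq_bot_iff, ← polyPart_inf_inftyPart_one k]
  exact inf_le_inf_left _ (inftyPart_anti k h)

theorem finrank_polyPart_inf_inftyPart (n : ℤ) :
    finrank k ↥(polyPart k ⊓ inftyPart k n) = (1 - n).toNat := by
  rcases le_total n 1 with h | h
  · have hchi := chi_polyPart_inftyPart k n
    unfold chi at hchi
    have h0 : finrank k (RatFunc k ⧸ (polyPart k ⊔ inftyPart k n)) = 0 := by
      rw [polyPart_sup_inftyPart_of_le k h]; exact finrank_zero_of_subsingleton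
    rw [h0] at hchi
    omega
  · rw [polyPart_inf_inftyPart_of_le k h, finrank_bot]
    omega

theorem finrank_quot_polyPart_sup_inftyPart (n : ℤ) :
    finrank k (RatFunc k ⧸ (polyPart k ⊔ inftyPart k n)) = (n - 1).toNat := by
  rcases le_total n 1 with h | h
  · rw [polyPart_sup_inftyPart_of_le k h, finrank_zero_of_subsingleton]
    omega
  · have hchi := chi_polyPart_inftyPart k n
    unfold chi at hchi
    rw [polyPart_inf_inftyPart_of_le k h, finrank_bot] at hchi
    omega

/-! ### Lattices attached to a basis of a `k(X)`-vector space -/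

section Lattice

variable {k}
variable {ι : Type*} [Fintype ι] {V : Type*} [AddCommGroup V] [Module (RatFunc k) V]
  [Module k V] [IsScalarTower k (RatFunc k) V]

/-- Coordinates with respect to `w`, as a `k`-linear equivalence. -/
noncomputable def coordEquiv (w : Basis ι (RatFunc k) V) : V ≃ₗ[k] (ι → RatFunc k) :=
  w.equivFun.restrictScalars k

omit [DecidableEq (RatFunc k)] in
@[simp]
theorem coordEquiv_apply (w : Basis ι (RatFunc k) V) (v : V) (i : ι) :
    coordEquiv w v i = w.repr v i := rfl

/-- The `k[X]`-lattice spanned by the basis `w`, as a `k`-subspace. -/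
noncomputable def polyLattice (w : Basis ι (RatFunc k) V) : Submodule k V :=
  (Submodule.pi Set.univ fun _ : ι => polyPart k).comap
    (coordEquiv w : V →ₗ[k] (ι → RatFunc k))

/-- The `O_∞`-lattice spanned by `X ^ (-(d i)) • w i`, as a `k`-subspace. -/
noncomputable def inftyLattice (w : Basis ι (RatFunc k) V) (d : ι → ℤ) : Submodule k V :=
  (Submodule.pi Set.univ fun i : ι => inftyPart k (d i)).comap
    (coordEquiv w : V →ₗ[k] (ι → RatFunc k))

omit [DecidableEq (RatFunc k)] in
theorem mem_polyLattice {w : Basis ι (RatFunc k) V} {v : V} :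
    v ∈ polyLattice w ↔ ∀ i, w.repr v i ∈ (algebraMap k[X] (RatFunc k)).range := by
  unfold polyLattice
  rw [Submodule.mem_comap, Submodule.mem_pi]
  exact ⟨fun h i => h i (Set.mem_univ i), fun h i _ => h i⟩

theorem mem_inftyLattice {w : Basis ι (RatFunc k) V} {d : ι → ℤ} {v : V} :
    v ∈ inftyLattice w d ↔ ∀ i, RatFunc.inftyValuation k (w.repr v i) ≤ exp (-(d i)) := by
  unfold inftyLattice
  rw [Submodule.mem_comap, Submodule.mem_pi]
  exact ⟨fun h i => h i (Set.mem_univ i), fun h i _ => h i⟩

/-- The pair (`k[X]`-lattice of `w`, `O_∞`-lattice of `X ^ (-d) w`) is Fredholm. -/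
theorem isFredholmPair_lattice (w : Basis ι (RatFunc k) V) (d : ι → ℤ) :
    IsFredholmPair (polyLattice w) (inftyLattice w d) :=
  (isFredholmPair_comap_equiv (coordEquiv w)).2
    (isFredholmPair_pi fun i => isFredholmPair_polyPart_inftyPart k (d i))

/-- Riemann–Roch for the split bundle `⊕ O(-d i)` on the projective line. -/
theorem chi_lattice (w : Basis ι (RatFunc k) V) (d : ι → ℤ) :
    chi (polyLattice w) (inftyLattice w d) = ∑ i, (1 - d i) := by
  unfold polyLattice inftyLattice
  rw [chi_comap_equiv, chi_pi fun i => isFredholmPair_polyPart_inftyPart k (d i)]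
  exact Finset.sum_congr rfl fun i _ => chi_polyPart_inftyPart k (d i)

/-- `dim (A ⊓ B) = ∑ (1 - d i)⁺` for `A = ⊕ k[X] w i`, `B = ⊕ X^(-d i) O_∞ w i`. -/
theorem finrank_inf_lattice (w : Basis ι (RatFunc k) V) (d : ι → ℤ) :
    finrank k ↥(polyLattice w ⊓ inftyLattice w d) = ∑ i, (1 - d i).toNat := by
  unfold polyLattice inftyLattice
  rw [Submodule.comap_equiv_eq_map_symm, Submodule.comap_equiv_eq_map_symm,
    LinearEquiv.finrank_eq (infMapEquiv (coordEquiv w).symm _ _),
    finrank_pi_inf_pi fun i => (isFredholmPair_polyPart_inftyPart k (d i)).inf]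
  exact Finset.sum_congr rfl fun i _ => finrank_polyPart_inf_inftyPart k (d i)

/-- `dim V / (A + B) = ∑ (d i - 1)⁺` for `A = ⊕ k[X] w i`, `B = ⊕ X^(-d i) O_∞ w i`. -/
theorem finrank_quot_sup_lattice (w : Basis ι (RatFunc k) V) (d : ι → ℤ) :
    finrank k (V ⧸ (polyLattice w ⊔ inftyLattice w d)) = ∑ i, (d i - 1).toNat := by
  unfold polyLattice inftyLattice
  rw [Submodule.comap_equiv_eq_map_symm, Submodule.comap_equiv_eq_map_symm,
    LinearEquiv.finrank_eq (quotSupMapEquiv (coordEquiv w).symm _ _),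
    finrank_quot_pi_sup_pi fun i => (isFredholmPair_polyPart_inftyPart k (d i)).sup]
  exact Finset.sum_congr rfl fun i _ => finrank_quot_polyPart_sup_inftyPart k (d i)

/-- General index identity for two pairs of lattices `(A, B) ≤ (A', B')` given by bases `w`, `w'`
and exponents `d`, `d'`: `dim A'/A + dim B'/B = ∑ d i - ∑ d' i`. -/
theorem index_lattice (w w' : Basis ι (RatFunc k) V) (d d' : ι → ℤ)
    (hA : polyLattice w ≤ polyLattice w') (hB : inftyLattice w d ≤ inftyLattice w' d') :
    FiniteDimensional k (↥(polyLattice w') ⧸ (polyLattice w).submoduleOf (polyLattice w')) ∧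
    FiniteDimensional k (↥(inftyLattice w' d') ⧸
      (inftyLattice w d).submoduleOf (inftyLattice w' d')) ∧
    (finrank k (↥(polyLattice w') ⧸ (polyLattice w).submoduleOf (polyLattice w')) : ℤ)
      + (finrank k (↥(inftyLattice w' d') ⧸
          (inftyLattice w d).submoduleOf (inftyLattice w' d')) : ℤ)
      = ∑ i, d i - ∑ i, d' i := by
  obtain ⟨h1, h2, h3⟩ := index_add' hA hB (isFredholmPair_lattice w d)
    (isFredholmPair_lattice w' d')
  refine ⟨h1, h2, ?_⟩
  rw [chi_lattice, chi_lattice] at h3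
  simp only [Finset.sum_sub_distrib] at h3
  linarith

/-- **Dedekind–Weber index identity.** If the `k[X]`-lattice of `w` is contained in that of `w'`
and the `O_∞`-lattice `⊕ X^(-d i) O_∞ w i` in `⊕ X^(d i) O_∞ w' i`, then both quotients are
finite-dimensional over `k` and their dimensions add up to `2 ∑ d i`. -/
theorem two_sum_eq (w w' : Basis ι (RatFunc k) V) (d : ι → ℤ)
    (hA : polyLattice w ≤ polyLattice w')
    (hB : inftyLattice w d ≤ inftyLattice w' (fun i => -(d i))) :
    FiniteDimensional k (↥(polyLattice w') ⧸ (polyLattice w).submoduleOf (polyLattice w')) ∧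
    FiniteDimensional k (↥(inftyLattice w' fun i => -(d i)) ⧸
      (inftyLattice w d).submoduleOf (inftyLattice w' fun i => -(d i))) ∧
    (finrank k (↥(polyLattice w') ⧸ (polyLattice w).submoduleOf (polyLattice w')) : ℤ)
      + (finrank k (↥(inftyLattice w' fun i => -(d i)) ⧸
          (inftyLattice w d).submoduleOf (inftyLattice w' fun i => -(d i))) : ℤ)
      = 2 * ∑ i, d i := by
  obtain ⟨h1, h2, h3⟩ := index_add' hA hB (isFredholmPair_lattice w d)
    (isFredholmPair_lattice w' fun i => -(d i))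
  refine ⟨h1, h2, ?_⟩
  rw [chi_lattice, chi_lattice] at h3
  simp only [Finset.sum_sub_distrib, Finset.sum_neg_distrib] at h3
  rw [Finset.mul_sum]
  have : ∑ i, 2 * d i = 2 * ∑ i, d i := by rw [Finset.mul_sum]
  linarith

end Lattice

end Fermat.Agent.S20.LatticeChiRatFunc
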