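import Mathlib
import Fermat.Agent.S24.DiffOrderCore

/-!
# S20 / R5.b : tools on Laurent series over an arbitrary field

* `rot ζ` : the rotation `X ↦ ζ X` (`a_k ↦ ζ ^ k a_k`), a `K`-algebra automorphism;
* `pw m hm` : the substitution `X ↦ X ^ m`, a `K`-algebra endomorphism;
* `sieve e he` : keep the exponents divisible by `e`, written in the variable `X ^ e`;
* `sum_rot` : `∑_{i < e} rot (ζ ^ i) f = e • pw e (sieve e f)` for a primitive `e`-th root `ζ`;
* derivative rules and the residue of a logarithmic derivative.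
-/

set_option autoImplicit false

open HahnSeries

namespace Fermat.Agent.S20.LaurentTools

open Fermat.Agent.S24.DiffOrder

variable {K : Type*} [Field K]

/-! ### Generalities -/

theorem algebraMap_eq_C (c : K) : algebraMap K (LaurentSeries K) c = HahnSeries.C c :=
  algebraMap_laurent_eq_C c

theorem coeff_derivative (f : LaurentSeries K) (n : ℤ) :
    (LaurentSeries.derivative K f).coeff n = ((n : K) + 1) * f.coeff (n + 1) :=
  coeff_lsD f n

/-- Coefficient of a product of Hahn series, computed over arbitrary partially well-ordered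
supersets of the two supports. -/
theorem coeff_mul_of_subset {x y : LaurentSeries K} {s t : Set ℤ} (hs : s.IsPWO) (ht : t.IsPWO)
    (hxs : x.support ⊆ s) (hyt : y.support ⊆ t) (a : ℤ) :
    (x * y).coeff a
      = ∑ ij ∈ Finset.antidiagonal hs ht a, x.coeff ij.1 * y.coeff ij.2 := by
  rw [HahnSeries.coeff_mul]
  refine Finset.sum_subset (fun ij hij => ?_) (fun ij hij hnot => ?_)
  · rw [Finset.mem_antidiagonal] at hij ⊢
    exact ⟨hxs hij.1, hyt hij.2.1, hij.2.2⟩
  · rw [Finset.mem_antidiagonal] at hij hnot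
    by_cases h1 : ij.1 ∈ x.support
    · by_cases h2 : ij.2 ∈ y.support
      · exact absurd ⟨h1, h2, hij.2.2⟩ hnot
      · rw [HahnSeries.mem_support, not_not] at h2
        rw [h2, mul_zero]
    · rw [HahnSeries.mem_support, not_not] at h1
      rw [h1, zero_mul]

/-! ### The rotation `X ↦ ζ X` -/

/-- The underlying function of `rot`: multiply the `k`-th coefficient by `ζ ^ k`. -/
noncomputable def rotFun (ζ : Kˣ) (f : LaurentSeries K) : LaurentSeries K :=
  HahnSeries.ofSuppBddBelow (fun k : ℤ => ((ζ ^ k : Kˣ) : K) * f.coeff k) (by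
    refine ⟨f.order, fun k hk => ?_⟩
    by_contra hlt
    rw [not_le] at hlt
    apply hk
    show ((ζ ^ k : Kˣ) : K) * f.coeff k = 0
    rw [HahnSeries.coeff_eq_zero_of_lt_order hlt, mul_zero])

theorem coeff_rotFun (ζ : Kˣ) (f : LaurentSeries K) (k : ℤ) :
    (rotFun ζ f).coeff k = ((ζ ^ k : Kˣ) : K) * f.coeff k := rfl

theorem support_rotFun (ζ : Kˣ) (f : LaurentSeries K) : (rotFun ζ f).support = f.support := by
  ext k
  simp only [HahnSeries.mem_support, coeff_rotFun, ne_eq, mul_eq_zero, Units.ne_zero, false_or]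

theorem rotFun_mul (ζ : Kˣ) (f g : LaurentSeries K) :
    rotFun ζ (f * g) = rotFun ζ f * rotFun ζ g := by
  ext k
  rw [coeff_rotFun, HahnSeries.coeff_mul,
    coeff_mul_of_subset f.isPWO_support g.isPWO_support (support_rotFun ζ f).le
      (support_rotFun ζ g).le, Finset.mul_sum]
  refine Finset.sum_congr rfl (fun ij hij => ?_)
  rw [Finset.mem_antidiagonal] at hij
  rw [coeff_rotFun, coeff_rotFun, ← hij.2.2, zpow_add, Units.val_mul]
  ring

theorem rotFun_add (ζ : Kˣ) (f g : LaurentSeries K) :
    rotFun ζ (f + g) = rotFun ζ f + rotFun ζ g := by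
  ext k
  simp only [coeff_rotFun, HahnSeries.coeff_add, mul_add]

theorem rotFun_rotFun (ζ ξ : Kˣ) (f : LaurentSeries K) :
    rotFun ζ (rotFun ξ f) = rotFun (ζ * ξ) f := by
  ext k
  simp only [coeff_rotFun, mul_zpow, Units.val_mul, mul_assoc]

theorem rotFun_one_left (f : LaurentSeries K) : rotFun 1 f = f := by
  ext k
  simp [coeff_rotFun]

theorem rotFun_single (ζ : Kˣ) (n : ℤ) (c : K) :
    rotFun ζ (single n c) = single n (((ζ ^ n : Kˣ) : K) * c) := by
  ext k
  rw [coeff_rotFun, HahnSeries.coeff_single, HahnSeries.coeff_single]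
  split_ifs with h
  · subst h; rfl
  · simp

theorem rotFun_C (ζ : Kˣ) (c : K) : rotFun ζ (HahnSeries.C c) = HahnSeries.C c := by
  rw [HahnSeries.C_apply, rotFun_single]
  simp

/-- The rotation `X ↦ ζ X` of Laurent series: `a_k ↦ ζ ^ k a_k`. -/
noncomputable def rot (ζ : Kˣ) : LaurentSeries K ≃ₐ[K] LaurentSeries K :=
  AlgEquiv.ofRingEquiv
    (f := { toFun := rotFun ζ
            invFun := rotFun ζ⁻¹
            left_inv := fun f => by rw [rotFun_rotFun, inv_mul_cancel, rotFun_one_left]
            right_inv := fun f => by rw [rotFun_rotFun, mul_inv_cancel, rotFun_one_left]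
            map_mul' := rotFun_mul ζ
            map_add' := rotFun_add ζ })
    (fun c => by
      show rotFun ζ (algebraMap K (LaurentSeries K) c) = algebraMap K (LaurentSeries K) c
      rw [algebraMap_eq_C]
      exact rotFun_C ζ c)

theorem rot_apply (ζ : Kˣ) (f : LaurentSeries K) : rot ζ f = rotFun ζ f := rfl

theorem coeff_rot (ζ : Kˣ) (f : LaurentSeries K) (k : ℤ) :
    (rot ζ f).coeff k = ((ζ ^ k : Kˣ) : K) * f.coeff k := rfl

theorem coeff_rot' (ζ : Kˣ) (f : LaurentSeries K) (k : ℤ) :
    (rot ζ f).coeff k = (ζ : K) ^ k * f.coeff k := by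
  rw [coeff_rot, Units.val_zpow_eq_zpow_val]

theorem support_rot (ζ : Kˣ) (f : LaurentSeries K) : (rot ζ f).support = f.support :=
  support_rotFun ζ f

theorem rot_eq_zero_iff (ζ : Kˣ) (f : LaurentSeries K) : rot ζ f = 0 ↔ f = 0 :=
  (rot ζ).map_eq_zero_iff

theorem order_rot (ζ : Kˣ) (f : LaurentSeries K) : (rot ζ f).order = f.order := by
  by_cases hf : f = 0
  · subst hf; simp
  · have hf' : rot ζ f ≠ 0 := fun h => hf ((rot_eq_zero_iff ζ f).1 h)
    rw [HahnSeries.order_of_ne hf, HahnSeries.order_of_ne hf']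
    congr 1
    exact support_rot ζ f

theorem rot_single (ζ : Kˣ) (n : ℤ) (c : K) :
    rot ζ (single n c) = single n (((ζ ^ n : Kˣ) : K) * c) := rotFun_single ζ n c

theorem rot_C (ζ : Kˣ) (c : K) : rot ζ (HahnSeries.C c) = HahnSeries.C c := rotFun_C ζ c

theorem rot_rot (ζ ξ : Kˣ) (f : LaurentSeries K) : rot ζ (rot ξ f) = rot (ζ * ξ) f :=
  rotFun_rotFun ζ ξ f

theorem rot_one (f : LaurentSeries K) : rot (1 : Kˣ) f = f := rotFun_one_left f

/-! ### The substitution `X ↦ X ^ m` -/

/-- Multiplication by `m` on `ℤ`, as an additive map. -/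
def mulHom (m : ℕ) : ℤ →+ ℤ := AddMonoidHom.mulLeft (m : ℤ)

theorem mulHom_apply (m : ℕ) (k : ℤ) : mulHom m k = (m : ℤ) * k := rfl

theorem mulHom_injective (m : ℕ) (hm : 0 < m) : Function.Injective (mulHom m) := by
  intro a b h
  have hm' : (m : ℤ) ≠ 0 := by exact_mod_cast hm.ne'
  exact mul_left_cancel₀ hm' h

theorem mulHom_le_iff (m : ℕ) (hm : 0 < m) (a b : ℤ) : mulHom m a ≤ mulHom m b ↔ a ≤ b := by
  have hm' : (0 : ℤ) < m := by exact_mod_cast hm
  exact mul_le_mul_iff_right₀ hm'

/-- The substitution `X ↦ X ^ m` on Laurent series. -/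
noncomputable def pw (m : ℕ) (hm : 0 < m) : LaurentSeries K →ₐ[K] LaurentSeries K :=
  { HahnSeries.embDomainRingHom (mulHom m) (mulHom_injective m hm) (mulHom_le_iff m hm) with
    commutes' := fun c => by
      rw [algebraMap_eq_C]
      exact HahnSeries.embDomainRingHom_C }

theorem pw_apply (m : ℕ) (hm : 0 < m) (f : LaurentSeries K) :
    pw m hm f = HahnSeries.embDomain
      ⟨⟨mulHom m, mulHom_injective m hm⟩, mulHom_le_iff m hm _ _⟩ f := rfl

theorem coeff_pw_mul (m : ℕ) (hm : 0 < m) (f : LaurentSeries K) (k : ℤ) :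
    (pw m hm f).coeff ((m : ℤ) * k) = f.coeff k := by
  rw [pw_apply]
  exact HahnSeries.embDomain_mk_coeff (f := mulHom m) (mulHom_injective m hm)
    (mulHom_le_iff m hm) (a := k)

theorem coeff_pw (m : ℕ) (hm : 0 < m) (f : LaurentSeries K) (k : ℤ) :
    (pw m hm f).coeff k = if (m : ℤ) ∣ k then f.coeff (k / m) else 0 := by
  split_ifs with h
  · obtain ⟨a, rfl⟩ := h
    have hm' : (m : ℤ) ≠ 0 := by exact_mod_cast hm.ne'
    rw [coeff_pw_mul, Int.mul_ediv_cancel_left _ hm']
  · rw [pw_apply]
    apply HahnSeries.embDomain_of_notMem_range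
    rintro ⟨a, rfl⟩
    exact h ⟨a, rfl⟩

theorem pw_single (m : ℕ) (hm : 0 < m) (n : ℤ) (c : K) :
    pw m hm (single n c) = single ((m : ℤ) * n) c := by
  rw [pw_apply, HahnSeries.embDomain_single]
  rfl

theorem pw_C (m : ℕ) (hm : 0 < m) (c : K) : pw m hm (HahnSeries.C c) = HahnSeries.C c := by
  rw [HahnSeries.C_apply, pw_single, mul_zero]

theorem pw_injective (m : ℕ) (hm : 0 < m) : Function.Injective (pw (K := K) m hm) := by
  intro f g h
  rw [pw_apply, pw_apply] at h
  exact HahnSeries.embDomain_injective h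

theorem pw_eq_zero_iff (m : ℕ) (hm : 0 < m) (f : LaurentSeries K) : pw m hm f = 0 ↔ f = 0 := by
  constructor
  · intro h
    exact pw_injective m hm (by rw [h, map_zero])
  · rintro rfl
    exact map_zero _

theorem order_pw (m : ℕ) (hm : 0 < m) (f : LaurentSeries K) :
    (pw m hm f).order = (m : ℤ) * f.order := by
  by_cases hf : f = 0
  · subst hf; simp
  have hm' : (0 : ℤ) < m := by exact_mod_cast hm
  have hpf : pw m hm f ≠ 0 := fun h => hf ((pw_eq_zero_iff m hm f).1 h)
  apply le_antisymm
  · apply HahnSeries.order_le_of_coeff_ne_zero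
    rw [coeff_pw_mul]
    exact fun h0 => hf (HahnSeries.coeff_order_eq_zero.1 h0)
  · by_contra hlt
    rw [not_le] at hlt
    have h1 : (pw m hm f).coeff (pw m hm f).order ≠ 0 :=
      fun h0 => hpf (HahnSeries.coeff_order_eq_zero.1 h0)
    apply h1
    rw [coeff_pw]
    split_ifs with hd
    · obtain ⟨a, ha⟩ := hd
      rw [ha, Int.mul_ediv_cancel_left _ hm'.ne']
      apply HahnSeries.coeff_eq_zero_of_lt_order
      rw [ha] at hlt
      exact lt_of_mul_lt_mul_left hlt hm'.le
    · rfl

/-! ### The sieve -/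

/-- Keep the coefficients whose exponent is divisible by `e`, in the variable `X ^ e`:
`(sieve e f).coeff k = f.coeff (e * k)`. -/
noncomputable def sieve (e : ℕ) (he : 0 < e) : LaurentSeries K →ₗ[K] LaurentSeries K where
  toFun f := HahnSeries.ofSuppBddBelow (fun k : ℤ => f.coeff ((e : ℤ) * k)) (by
    refine ⟨f.order / (e : ℤ), fun k hk => ?_⟩
    have he' : (0 : ℤ) < e := by exact_mod_cast he
    by_contra hlt
    rw [not_le] at hlt
    apply hk
    show f.coeff ((e : ℤ) * k) = 0
    apply HahnSeries.coeff_eq_zero_of_lt_order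
    have h1 : k + 1 ≤ f.order / (e : ℤ) := hlt
    have h2 : (k + 1) * (e : ℤ) ≤ f.order := (Int.le_ediv_iff_mul_le he').1 h1
    nlinarith)
  map_add' f g := by
    ext k
    simp only [HahnSeries.ofSuppBddBelow, HahnSeries.coeff_add]
  map_smul' c f := by
    ext k
    simp only [HahnSeries.ofSuppBddBelow, HahnSeries.coeff_smul, RingHom.id_apply]

theorem coeff_sieve (e : ℕ) (he : 0 < e) (f : LaurentSeries K) (k : ℤ) :
    (sieve e he f).coeff k = f.coeff ((e : ℤ) * k) := rfl

/-- Averaging over the rotations by the `e`-th roots of unity. -/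
theorem sum_rot (e : ℕ) (he : 0 < e) (ζ : Kˣ) (hζ : IsPrimitiveRoot ζ e) (f : LaurentSeries K) :
    ∑ i ∈ Finset.range e, rot (ζ ^ i) f = (e : K) • pw e he (sieve e he f) := by
  ext k
  rw [HahnSeries.coeff_sum, HahnSeries.coeff_smul, coeff_pw, smul_eq_mul]
  have hterm : ∀ i ∈ Finset.range e,
      (rot (ζ ^ i) f).coeff k = (((ζ ^ k : Kˣ) : K)) ^ i * f.coeff k := by
    intro i _
    rw [coeff_rot]
    congr 1
    rw [← Units.val_pow_eq_pow_val]
    congr 1
    rw [← zpow_natCast, ← zpow_natCast, ← zpow_mul, ← zpow_mul, mul_comm]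
  rw [Finset.sum_congr rfl hterm, ← Finset.sum_mul]
  split_ifs with hd
  · have h1 : ζ ^ k = 1 := (hζ.zpow_eq_one_iff_dvd k).2 hd
    rw [h1, coeff_sieve, Int.mul_ediv_cancel' hd]
    simp
  · have h1 : ζ ^ k ≠ 1 := fun h => hd ((hζ.zpow_eq_one_iff_dvd k).1 h)
    have h2 : ((ζ ^ k : Kˣ) : K) ≠ 1 := fun h => h1 (Units.ext h)
    have h3 : ((ζ ^ k : Kˣ) : K) ^ e = 1 := by
      rw [← Units.val_pow_eq_pow_val, ← zpow_natCast, ← zpow_mul, mul_comm, zpow_mul,
        zpow_natCast, hζ.pow_eq_one]
      simp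
    have h4 : (((ζ ^ k : Kˣ) : K) - 1) * ∑ i ∈ Finset.range e, ((ζ ^ k : Kˣ) : K) ^ i = 0 := by
      rw [mul_geom_sum, h3, sub_self]
    rcases mul_eq_zero.1 h4 with h5 | h5
    · exact absurd (sub_eq_zero.1 h5) h2
    · rw [h5, zero_mul, mul_zero]

/-! ### Derivative rules -/

theorem coeff_derivative_neg_one (f : LaurentSeries K) :
    (LaurentSeries.derivative K f).coeff (-1) = 0 := by
  rw [coeff_derivative]
  simp

theorem derivative_rot (ζ : Kˣ) (f : LaurentSeries K) :
    LaurentSeries.derivative K (rot ζ f) = (ζ : K) • rot ζ (LaurentSeries.derivative K f) := by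
  ext n
  rw [coeff_derivative, HahnSeries.coeff_smul, coeff_rot, coeff_rot, coeff_derivative,
    zpow_add_one, Units.val_mul, smul_eq_mul]
  ring

theorem derivative_pw (m : ℕ) (hm : 0 < m) (f : LaurentSeries K) :
    LaurentSeries.derivative K (pw m hm f) =
      single ((m : ℤ) - 1) (m : K) * pw m hm (LaurentSeries.derivative K f) := by
  have hm' : (m : ℤ) ≠ 0 := by exact_mod_cast hm.ne'
  ext n
  rw [coeff_derivative, HahnSeries.coeff_single_mul, coeff_pw, coeff_pw]
  have hiff : (m : ℤ) ∣ n - ((m : ℤ) - 1) ↔ (m : ℤ) ∣ n + 1 := by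
    have : n - ((m : ℤ) - 1) = n + 1 - m := by ring
    rw [this]
    exact (dvd_sub_self_right)
  by_cases hd : (m : ℤ) ∣ n + 1
  · rw [if_pos hd, if_pos (hiff.2 hd)]
    obtain ⟨q, hq⟩ := hd
    have h1 : n - ((m : ℤ) - 1) = (m : ℤ) * (q - 1) := by
      have : n = (m : ℤ) * q - 1 := by omega
      rw [this]; ring
    rw [hq, h1, Int.mul_ediv_cancel_left _ hm', Int.mul_ediv_cancel_left _ hm',
      coeff_derivative, sub_add_cancel]
    have h2 : ((n : K) + 1) = (m : K) * (q : K) := by
      have : ((n + 1 : ℤ) : K) = (((m : ℤ) * q : ℤ) : K) := by rw [hq]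
      push_cast at this
      exact this
    rw [h2]
    push_cast
    ring
  · rw [if_neg hd, if_neg (fun h => hd (hiff.1 h))]
    simp

/-! ### The residue of a logarithmic derivative -/

theorem coeff_dlog [CharZero K] (f : LaurentSeries K) (hf : f ≠ 0) :
    (f⁻¹ * LaurentSeries.derivative K f).coeff (-1) = ((f.order : ℤ) : K) := by
  set a := f.order with ha
  set P := f.powerSeriesPart with hP
  have hfP : f = single a (1 : K) * (P : LaurentSeries K) := eq_single_mul_powerSeriesPart f
  have hP0 : PowerSeries.constantCoeff P ≠ 0 := by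
    rw [hP, ← PowerSeries.coeff_zero_eq_constantCoeff_apply,
      LaurentSeries.powerSeriesPart_coeff]
    simp only [Nat.cast_zero, add_zero]
    exact fun h0 => hf (HahnSeries.coeff_order_eq_zero.1 h0)
  have hPinv : P * P⁻¹ = 1 := PowerSeries.mul_inv_cancel P hP0
  have hfinv : f⁻¹ = single (-a) (1 : K) * ((P⁻¹ : PowerSeries K) : LaurentSeries K) := by
    apply inv_eq_of_mul_eq_one_right
    rw [hfP]
    calc single a (1 : K) * (P : LaurentSeries K)
          * (single (-a) (1 : K) * ((P⁻¹ : PowerSeries K) : LaurentSeries K))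
        = (single a (1 : K) * single (-a) (1 : K))
          * ((P : LaurentSeries K) * ((P⁻¹ : PowerSeries K) : LaurentSeries K)) := by ring
      _ = 1 := by
          rw [HahnSeries.single_mul_single, ← PowerSeries.coe_mul, hPinv]
          simp
  have hder : LaurentSeries.derivative K f =
      HahnSeries.C (a : K) * (single (a - 1) (1 : K) * (P : LaurentSeries K)) +
        single a (1 : K) * ((PowerSeries.derivative K P : PowerSeries K) : LaurentSeries K) := by
    have := lsD_single_mul a (P : LaurentSeries K)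
    rw [lsD_coe, ← hfP] at this
    exact this
  have hprod : f⁻¹ * LaurentSeries.derivative K f =
      HahnSeries.C (a : K) * single (-1) (1 : K) +
        ((P⁻¹ * PowerSeries.derivative K P : PowerSeries K) : LaurentSeries K) := by
    rw [hfinv, hder, PowerSeries.coe_mul]
    have e1 : (single (-a) (1 : K) : LaurentSeries K) * single (a - 1) 1 = single (-1) 1 := by
      rw [HahnSeries.single_mul_single, mul_one]
      have h : -a + (a - 1) = -1 := by ring
      rw [h]
    have e2 : (single (-a) (1 : K) : LaurentSeries K) * single a 1 = 1 := by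
      rw [HahnSeries.single_mul_single]; simp
    have e3 : ((P⁻¹ : PowerSeries K) : LaurentSeries K) * (P : LaurentSeries K) = 1 := by
      rw [← PowerSeries.coe_mul, mul_comm, hPinv]; simp
    calc single (-a) (1 : K) * ((P⁻¹ : PowerSeries K) : LaurentSeries K) *
          (HahnSeries.C (a : K) * (single (a - 1) (1 : K) * (P : LaurentSeries K)) +
            single a (1 : K) * ((PowerSeries.derivative K P : PowerSeries K) : LaurentSeries K))
        = HahnSeries.C (a : K) * ((single (-a) (1 : K) * single (a - 1) 1) *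
            (((P⁻¹ : PowerSeries K) : LaurentSeries K) * (P : LaurentSeries K))) +
          (single (-a) (1 : K) * single a 1) *
            (((P⁻¹ : PowerSeries K) : LaurentSeries K) *
              ((PowerSeries.derivative K P : PowerSeries K) : LaurentSeries K)) := by ring
      _ = _ := by rw [e1, e2, e3, mul_one, one_mul]
  rw [hprod, HahnSeries.coeff_add, HahnSeries.C_mul_eq_smul, HahnSeries.coeff_smul,
    HahnSeries.coeff_single_same, PowerSeries.coeff_coe, if_pos (by norm_num)]
  simp

end Fermat.Agent.S20.LaurentTools
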