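import Mathlib
import Fermat.Agent.S20.Lower
import Fermat.Agent.S20.DWFinal
import Fermat.Agent.S24.BlockBFinal
import Fermat.Agent.S21.FromLower

/-!
# S20 / S21 from the dictionary alone, Dedekind–Weber variant (small import closure)

Same statements as `LowerOfDict`, but the Riemann–Roch input `(★)` is taken from the
Dedekind–Weber line (`DWFinal.star`): no residues, adeles or Weil differentials are imported.
-/

set_option autoImplicit false

open AlgebraicCurve KaehlerDifferential IntermediateField Module ModularCurve

namespace Fermat.Agent.S20.LowerOfDictDW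

open Fermat.Agent.S24 Fermat.Agent.S20.Lower

/-- `(★)` for the function field of `X₀(N)`, from the Dedekind–Weber line. -/
theorem star_FBar (N : ℕ) [NeZero N] : RegularGenus.Star Kbar (FBar N) := by
  have hB : ModularRamificationData N := BlockBFinal.modularRamificationData N
  have hF : IsFunctionField1 Kbar (FBar N) := ⟨jBar N, hB.transcendental, hB.finite⟩
  have hZ : PrincipalDegreeCore.ZerosTheorem Kbar (FBar N) := ZerosBackup.zerosTheorem
  haveI : HasCanonicalDivisor (K := Kbar) (F := FBar N) :=
    CanonicalDiv.hasCanonicalDivisor_FBar N hB hZ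
  exact DWFinal.star hF hZ

/-- The lower bound `(L)` from the dictionary. -/
theorem genusFormula_le_finrank_cuspForm (N : ℕ) [NeZero N] (hdict : DictLower N) :
    genusFormula N ≤ (Module.finrank ℂ (CuspForm (CongruenceSubgroup.Gamma0 N) 2) : ℚ) :=
  Lower.genusFormula_le_finrank_cuspForm N (BlockBFinal.modularRamificationData N)
    (star_FBar N) hdict

/-- **S20** from the dictionary. -/
theorem s20_of_dict (N : ℕ) [NeZero N] (hdict : DictLower N) :
    (Module.finrank ℂ (CuspForm (CongruenceSubgroup.Gamma0 N) 2) : ℚ)
      = ModularCurve.genusFormula N :=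
  Fermat.Agent.S21.FromLower.s20_of_lower N (genusFormula_le_finrank_cuspForm N hdict)

/-- **S21** from the dictionary. -/
theorem s21_of_dict (N : ℕ) [NeZero N] (hdict : DictLower N) :
    Function.Injective (ModularCurve.periodHomPair N)
      ∧ LinearMap.range (ModularCurve.periodHomPair N)
          = ModularCurve.Period.parabolicHoms ℂ (CongruenceSubgroup.Gamma0 N) ℂ :=
  Fermat.Agent.S21.FromLower.s21_of_lower N (genusFormula_le_finrank_cuspForm N hdict)

end Fermat.Agent.S20.LowerOfDictDW
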