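import Mathlib
import Fermat.Agent.S20.RR.Defs
import Fermat.Agent.S24.Exchange

/-!
# S20, piece R2 / row RR-B: Riemann's inequality under the standing hypotheses `Hyp K F`

Same content as `Fermat.Agent.S20.Riemann`, but with the hypotheses bundled in the structure
`Fermat.Agent.S20.RR.Hyp K F` of the RR block (no `IsAlgClosed` needed).  We work with the
Prelude's `riemannRochSpace D` (`L(D)`), and prove

* `finrank_L_add_single_le` : `l(D + v) ≤ l(D) + 1`;
* `L_eq_bot_of_degree_neg` : `L(D) = 0` if `deg D < 0`;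
* `finiteDimensional_L`, `finrank_L_le` : `l(D) ≤ deg D + 1` for `deg D ≥ 0`;
* `defect_mono` : `D ≤ D' → deg D - l(D) ≤ deg D' - l(D')`;
* `finrank_L_shift` : `l(D + div h) = l(D)`;
* `riemann_inequality` : `∃ c, ∀ D, deg D + 1 - c ≤ l(D)`;
* `exists_genus` : the minimal such `c` is attained for all large divisors.
-/

set_option autoImplicit false

open AlgebraicCurve

namespace Fermat.Agent.S20.RiemannHyp

open Fermat.Agent.S24 Fermat.Agent.S20.RR

variable {K F : Type*} [Field K] [Field F] [Algebra K F]

/-! ## Principal divisors from `Hyp` -/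

theorem exists_divisor_eq_ord (hy : Hyp K F) (f : F) (hf : f ≠ 0) :
    ∃ D : Divisor K F, ∀ v : Place K F, D v = v.ord f :=
  ⟨hy.div f, fun v => hy.div_apply hf v⟩

theorem degree_eq_zero_of_forall_eq_ord (hy : Hyp K F) (f : F) (hf : f ≠ 0) (D : Divisor K F)
    (hD : ∀ v : Place K F, D v = v.ord f) : Divisor.degree D = 0 := by
  have : D = hy.div f := by
    ext v
    rw [hD v, hy.div_apply hf v]
  rw [this]
  exact hy.degree_div f

/-! ## Basic facts on `L(D)` -/

theorem L_mono {D D' : Divisor K F} (h : D ≤ D') :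
    riemannRochSpace D ≤ riemannRochSpace D' := by
  intro f hf
  rw [mem_riemannRochSpace_iff] at hf ⊢
  intro v
  rcases hf v with h0 | h1
  · exact Or.inl h0
  · right
    have := Finsupp.le_def.mp h v
    omega

theorem add_single_apply_self (D : Divisor K F) (v : Place K F) :
    (D + Finsupp.single v 1 : Divisor K F) v = D v + 1 := by
  simp

theorem add_single_apply_of_ne (D : Divisor K F) {v w : Place K F} (h : w ≠ v) :
    (D + Finsupp.single v 1 : Divisor K F) w = D w := by
  simp [h.symm]

theorem le_add_single (D : Divisor K F) (v : Place K F) : D ≤ D + Finsupp.single v 1 := by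
  rw [Finsupp.le_def]
  intro w
  by_cases h : w = v
  · subst h
    rw [add_single_apply_self]
    omega
  · rw [add_single_apply_of_ne D h]

section AlgClosed


/-- `L(D)` has codimension at most one in `L(D + v)`. -/
theorem L_add_single_le_sup (hy : Hyp K F) (D : Divisor K F) (v : Place K F)
    (f0 : F) (hf0 : f0 ∈ riemannRochSpace (D + Finsupp.single v 1))
    (hf0' : f0 ∉ riemannRochSpace D) :
    riemannRochSpace (D + Finsupp.single v 1) ≤ riemannRochSpace D ⊔ Submodule.span K {f0} := by
  have hne : f0 ≠ 0 := fun h => hf0' (h ▸ Submodule.zero_mem _)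
  -- `ord_v f0 = -D v - 1`
  have hord0 : v.ord f0 = -D v - 1 := by
    have h1 := mem_riemannRochSpace_iff.mp hf0
    rw [mem_riemannRochSpace_iff] at hf0'
    obtain ⟨w, hw⟩ := not_forall.mp hf0'
    rw [not_or, not_le] at hw
    by_cases hwv : w = v
    · subst hwv
      have h2 := (h1 w).resolve_left hne
      rw [add_single_apply_self] at h2
      omega
    · have h2 := (h1 w).resolve_left hne
      rw [add_single_apply_of_ne D hwv] at h2
      omega
  intro f hf
  by_cases hf00 : f = 0
  · rw [hf00]; exact Submodule.zero_mem _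
  have hfv : -(D v + 1) ≤ v.ord f := by
    have := (mem_riemannRochSpace_iff.mp hf v).resolve_left hf00
    rwa [add_single_apply_self] at this
  set q : F := f * f0⁻¹ with hq
  have hq0 : q ≠ 0 := mul_ne_zero hf00 (inv_ne_zero hne)
  have hqord : 0 ≤ v.ord q := by
    rw [hq, v.ord_mul hf00 (inv_ne_zero hne), v.ord_inv]
    omega
  obtain ⟨c, hc⟩ := hy.res v q hq0 hqord
  have hfq : f = q * f0 := by
    rw [hq, mul_assoc, inv_mul_cancel₀ hne, mul_one]
  have hmem_span : c • f0 ∈ Submodule.span K {f0} :=
    Submodule.smul_mem _ c (Submodule.mem_span_singleton_self f0)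
  rcases hc with hc | hc
  · -- `f = c • f0`
    have : f = c • f0 := by
      rw [hfq, hc, Algebra.smul_def]
    rw [this]
    exact Submodule.mem_sup_right hmem_span
  · -- `g = f - c • f0 ∈ L(D)`
    have hg : f - c • f0 ∈ riemannRochSpace D := by
      have hg' : f - c • f0 ∈ riemannRochSpace (D + Finsupp.single v 1) :=
        Submodule.sub_mem _ hf (Submodule.smul_mem _ c hf0)
      rw [mem_riemannRochSpace_iff] at hg' ⊢
      intro w
      by_cases hg0 : f - c • f0 = 0
      · exact Or.inl hg0
      right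
      by_cases hwv : w = v
      · subst hwv
        have hfac : f - c • f0 = f0 * (q - algebraMap K F c) := by
          rw [Algebra.smul_def, hfq]; ring
        have hqc : q - algebraMap K F c ≠ 0 := by
          intro h0
          rw [hfac, h0, mul_zero] at hg0
          exact hg0 rfl
        rw [hfac, w.ord_mul hne hqc, hord0]
        omega
      · have := (hg' w).resolve_left hg0
        rwa [add_single_apply_of_ne D hwv] at this
    have : f = (f - c • f0) + c • f0 := by ring
    rw [this]
    exact Submodule.add_mem_sup hg hmem_span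

/-- `l(D + v) ≤ l(D) + 1`. -/
theorem finrank_L_add_single_le (hy : Hyp K F) (D : Divisor K F) (v : Place K F)
    [FiniteDimensional K (riemannRochSpace D)] :
    FiniteDimensional K (riemannRochSpace (D + Finsupp.single v 1)) ∧
      Module.finrank K (riemannRochSpace (D + Finsupp.single v 1)) ≤
        Module.finrank K (riemannRochSpace D) + 1 := by
  by_cases h : riemannRochSpace (D + Finsupp.single v 1) ≤ riemannRochSpace D
  · have heq : riemannRochSpace (D + Finsupp.single v 1) = riemannRochSpace D :=
      le_antisymm h (L_mono (le_add_single D v))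
    rw [heq]
    exact ⟨inferInstance, Nat.le_succ _⟩
  · obtain ⟨f0, hf0, hf0'⟩ := SetLike.not_le_iff_exists.mp h
    have hle := L_add_single_le_sup hy D v f0 hf0 hf0'
    have : FiniteDimensional K ↥(riemannRochSpace D ⊔ Submodule.span K {f0}) := inferInstance
    refine ⟨Submodule.finiteDimensional_of_le hle, ?_⟩
    calc Module.finrank K (riemannRochSpace (D + Finsupp.single v 1))
        ≤ Module.finrank K ↥(riemannRochSpace D ⊔ Submodule.span K {f0}) :=
          Submodule.finrank_mono hle
      _ ≤ Module.finrank K (riemannRochSpace D) + Module.finrank K (Submodule.span K {f0}) :=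
          Submodule.finrank_add_le_finrank_add_finrank _ _
      _ ≤ Module.finrank K (riemannRochSpace D) + 1 := by
          gcongr
          exact (finrank_span_le_card _).trans (by simp)

/-! ## Effective divisors and induction -/

/-- The divisor attached to an `ℕ`-valued finitely supported function. -/
noncomputable def eff : (Place K F →₀ ℕ) →+ Divisor K F :=
  Finsupp.mapRange.addMonoidHom (Nat.castAddMonoidHom ℤ)

theorem eff_apply (E : Place K F →₀ ℕ) (v : Place K F) : eff E v = (E v : ℤ) := by
  simp [eff]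

theorem eff_single (v : Place K F) (n : ℕ) :
    eff (Finsupp.single v n) = (Finsupp.single v (n : ℤ) : Divisor K F) := by
  simp [eff]

/-- Every pointwise nonnegative divisor is `eff E`. -/
theorem exists_eff_eq (E : Divisor K F) (h : ∀ v, 0 ≤ E v) : ∃ E' : Place K F →₀ ℕ, eff E' = E := by
  refine ⟨E.mapRange Int.toNat (by simp), ?_⟩
  ext v
  rw [eff_apply, Finsupp.mapRange_apply, Int.toNat_of_nonneg (h v)]

theorem exists_eff_of_le {D D' : Divisor K F} (h : D ≤ D') :
    ∃ E : Place K F →₀ ℕ, D' = D + eff E := by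
  obtain ⟨E, hE⟩ := exists_eff_eq (D' - D) (fun v => by
    have := Finsupp.le_def.mp h v
    simp only [Finsupp.coe_sub, Pi.sub_apply]
    omega)
  exact ⟨E, by rw [hE]; abel⟩

theorem degree_add_single (hy : Hyp K F) (D : Divisor K F) (v : Place K F) :
    Divisor.degree (D + Finsupp.single v 1) = Divisor.degree D + 1 := by
  rw [map_add, Divisor.degree_single, hy.deg_one v]
  simp

/-- Key induction: adding an effective divisor preserves finite-dimensionality and does not
decrease `deg - l`. -/
theorem step_eff (hy : Hyp K F) (E : Place K F →₀ ℕ) :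
    ∀ D : Divisor K F, FiniteDimensional K (riemannRochSpace D) →
      FiniteDimensional K (riemannRochSpace (D + eff E)) ∧
        Divisor.degree D - (Module.finrank K (riemannRochSpace D) : ℤ) ≤
          Divisor.degree (D + eff E) - (Module.finrank K (riemannRochSpace (D + eff E)) : ℤ) := by
  induction E using Finsupp.induction_linear with
  | zero =>
    intro D h
    rw [map_zero, add_zero]
    exact ⟨h, le_refl _⟩
  | add f g hf hg =>
    intro D h
    obtain ⟨h1, h2⟩ := hf D h
    obtain ⟨h3, h4⟩ := hg (D + eff f) h1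
    rw [map_add, ← add_assoc]
    exact ⟨h3, h2.trans h4⟩
  | single v n =>
    induction n with
    | zero =>
      intro D h
      rw [Finsupp.single_zero, map_zero, add_zero]
      exact ⟨h, le_refl _⟩
    | succ n ih =>
      intro D h
      obtain ⟨h1, h2⟩ := ih D h
      have hs : (Finsupp.single v (n + 1) : Place K F →₀ ℕ) =
          Finsupp.single v n + Finsupp.single v 1 := by
        rw [← Finsupp.single_add]
      rw [hs, map_add, ← add_assoc, eff_single v 1, Nat.cast_one]
      have := h1
      obtain ⟨h3, h4⟩ := finrank_L_add_single_le hy (D + eff (Finsupp.single v n)) v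
      refine ⟨h3, ?_⟩
      rw [degree_add_single hy]
      omega

theorem degree_nonneg_of_nonneg (E : Divisor K F) (h : ∀ v, 0 ≤ E v) :
    0 ≤ Divisor.degree E := by
  simp only [Divisor.degree, Finsupp.liftAddHom_apply, AddMonoidHom.coe_mulRight]
  exact Finsupp.sum_nonneg fun v _ => mul_nonneg (h v) (Int.natCast_nonneg _)

theorem degree_mono {D D' : Divisor K F} (h : D ≤ D') :
    Divisor.degree D ≤ Divisor.degree D' := by
  have h1 : 0 ≤ Divisor.degree (D' - D) := degree_nonneg_of_nonneg _ (fun v => by
    have := Finsupp.le_def.mp h v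
    simp only [Finsupp.coe_sub, Pi.sub_apply]
    omega)
  rw [map_sub] at h1
  omega

/-- `L(D) = 0` if `deg D < 0`. -/
theorem L_eq_bot_of_degree_neg (hy : Hyp K F)
    (D : Divisor K F) (h : Divisor.degree D < 0) : riemannRochSpace D = ⊥ := by
  rw [eq_bot_iff]
  intro f hf
  rw [Submodule.mem_bot]
  by_contra hf0
  obtain ⟨H, hH⟩ := exists_divisor_eq_ord hy f hf0
  have hH0 : Divisor.degree H = 0 := degree_eq_zero_of_forall_eq_ord hy f hf0 H hH
  have h1 : 0 ≤ Divisor.degree (D + H) := degree_nonneg_of_nonneg _ (fun v => by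
    have := (mem_riemannRochSpace_iff.mp hf v).resolve_left hf0
    rw [Finsupp.add_apply, hH v]
    omega)
  rw [map_add, hH0] at h1
  omega

/-- There is at least one place. -/
theorem exists_place (hy : Hyp K F) :
    Nonempty (Place K F) := by
  obtain ⟨x, hx, hfin⟩ := hy.ff
  have hsum := hy.zeros x hx
  by_contra hne
  rw [not_nonempty_iff] at hne
  have h0 : ∑ᶠ v ∈ {v : Place K F | 0 < v.ord x}, v.ord x = 0 := by
    rw [finsum_mem_def]
    exact finsum_of_isEmpty _
  rw [h0] at hsum
  have := hfin
  have : 0 < Module.finrank (IntermediateField.adjoin K ({x} : Set F)) F := Module.finrank_pos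
  omega

/-- `L(D)` is finite-dimensional. -/
theorem finiteDimensional_L (hy : Hyp K F)
    (D : Divisor K F) : FiniteDimensional K (riemannRochSpace D) := by
  obtain ⟨v0⟩ := exists_place hy
  -- `D0 = -v0` has negative degree
  set D0 : Divisor K F := -Finsupp.single v0 1 with hD0
  have hdeg0 : Divisor.degree D0 < 0 := by
    rw [hD0, map_neg, Divisor.degree_single, hy.deg_one v0]
    simp
  have hfd0 : FiniteDimensional K (riemannRochSpace D0) := by
    rw [L_eq_bot_of_degree_neg hy D0 hdeg0]
    infer_instance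
  -- an effective divisor `E` with `D ≤ D0 + E`
  obtain ⟨P, hP⟩ := exists_eff_eq (D.mapRange (fun k => max k 0) (by simp) : Divisor K F)
    (fun v => by rw [Finsupp.mapRange_apply]; exact le_max_right _ _)
  have hle : D ≤ D0 + eff (P + Finsupp.single v0 1) := by
    rw [map_add, eff_single, hP, hD0, Finsupp.le_def]
    intro v
    simp only [Nat.cast_one, Finsupp.coe_add, Finsupp.coe_neg, Pi.add_apply, Pi.neg_apply,
      Finsupp.mapRange_apply]
    have := le_max_left (D v) 0
    omega
  obtain ⟨h1, _⟩ := step_eff hy (P + Finsupp.single v0 1) D0 hfd0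
  have := h1
  exact Submodule.finiteDimensional_of_le (L_mono hle)

/-- `D ≤ D'` implies `deg D - l(D) ≤ deg D' - l(D')`. -/
theorem defect_mono (hy : Hyp K F) {D D' : Divisor K F}
    (h : D ≤ D') :
    Divisor.degree D - (Module.finrank K (riemannRochSpace D) : ℤ) ≤
      Divisor.degree D' - (Module.finrank K (riemannRochSpace D') : ℤ) := by
  obtain ⟨E, rfl⟩ := exists_eff_of_le h
  exact (step_eff hy E D (finiteDimensional_L hy D)).2

/-- `l(D) ≤ deg D + 1` if `deg D ≥ 0`. -/
theorem finrank_L_le (hy : Hyp K F) (D : Divisor K F)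
    (h : 0 ≤ Divisor.degree D) :
    (Module.finrank K (riemannRochSpace D) : ℤ) ≤ Divisor.degree D + 1 := by
  obtain ⟨v0⟩ := exists_place hy
  -- `D' = D - (deg D + 1) v0 ≤ D` has degree `-1`
  set D' : Divisor K F := D - Finsupp.single v0 (Divisor.degree D + 1) with hD'
  have hdeg' : Divisor.degree D' = -1 := by
    rw [hD', map_sub, Divisor.degree_single, hy.deg_one v0]
    simp
  have hle : D' ≤ D := by
    rw [hD', Finsupp.le_def]
    intro v
    have h0 : 0 ≤ (Finsupp.single v0 (Divisor.degree D + 1) : Divisor K F) v := by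
      classical
      rw [Finsupp.single_apply]
      split_ifs <;> omega
    simp only [Finsupp.coe_sub, Pi.sub_apply]
    omega
  have h1 := defect_mono hy hle
  rw [hdeg', L_eq_bot_of_degree_neg hy D' (by omega)] at h1
  simp only [finrank_bot, Nat.cast_zero, sub_zero] at h1
  omega

/-! ## Shifting by a principal divisor -/

theorem mul_mem_L_iff {D H : Divisor K F} {h : F} (hh : h ≠ 0) (hH : ∀ v, H v = v.ord h)
    (f : F) : f * h ∈ riemannRochSpace D ↔ f ∈ riemannRochSpace (D + H) := by
  rw [mem_riemannRochSpace_iff, mem_riemannRochSpace_iff]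
  refine forall_congr' fun v => ?_
  by_cases hf : f = 0
  · simp [hf]
  · rw [or_iff_right (mul_ne_zero hf hh), or_iff_right hf, v.ord_mul hf hh, Finsupp.add_apply,
      hH v]
    constructor <;> intro h1 <;> omega

theorem finrank_L_shift_le (hy : Hyp K F)
    {D H : Divisor K F} {h : F} (hh : h ≠ 0) (hH : ∀ v, H v = v.ord h) :
    Module.finrank K (riemannRochSpace (D + H)) ≤ Module.finrank K (riemannRochSpace D) := by
  have := finiteDimensional_L hy D
  let φ : riemannRochSpace (D + H) →ₗ[K] riemannRochSpace D :=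
    (LinearMap.mulRight K h).restrict (fun f hf => (mul_mem_L_iff hh hH f).mpr hf)
  refine LinearMap.finrank_le_finrank_of_injective (f := φ) ?_
  intro a b hab
  have h1 : (a : F) * h = (b : F) * h := congrArg Subtype.val hab
  exact Subtype.ext (mul_right_cancel₀ hh h1)

/-- `l(D + div h) = l(D)`. -/
theorem finrank_L_shift (hy : Hyp K F)
    (D H : Divisor K F) (h : F) (hh : h ≠ 0) (hH : ∀ v, H v = v.ord h) :
    Module.finrank K (riemannRochSpace (D + H)) = Module.finrank K (riemannRochSpace D) := by
  apply le_antisymm (finrank_L_shift_le hy hh hH)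
  have h1 := finrank_L_shift_le hy (D := D + H) (H := -H) (h := h⁻¹) (inv_ne_zero hh)
    (fun v => by rw [Finsupp.neg_apply, hH v, v.ord_inv])
  rwa [add_neg_cancel_right] at h1

/-! ## Pole divisors -/

/-- The pole divisor of a nonzero function. -/
theorem exists_poleDivisor (hy : Hyp K F) (h : F)
    (hh : h ≠ 0) : ∃ P : Divisor K F, ∀ v, P v = max 0 (-(v.ord h)) := by
  obtain ⟨H, hH⟩ := exists_divisor_eq_ord hy h hh
  refine ⟨H.mapRange (fun k => max 0 (-k)) (by simp), fun v => ?_⟩
  rw [Finsupp.mapRange_apply, hH v]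

/-- The pole divisor of a transcendental `x` has degree `[F : K(x)]`. -/
theorem degree_poleDivisor (hy : Hyp K F) {x : F}
    (hx : Transcendental K x) (B : Divisor K F) (hB : ∀ v, B v = max 0 (-(v.ord x))) :
    Divisor.degree B = (Module.finrank (IntermediateField.adjoin K ({x} : Set F)) F : ℤ) := by
  have hx' : Transcendental K x⁻¹ := Exchange.transcendental_inv hx
  have hsum := hy.zeros x⁻¹ hx'
  rw [Exchange.finrank_adjoin_inv] at hsum
  rw [hy.degree_eq_finsum B, ← hsum, finsum_mem_def]
  refine finsum_congr fun v => ?_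
  rw [hB v, Set.indicator_apply]
  simp only [Set.mem_ofPred_eq, Place.ord_inv]
  split_ifs with h
  · rw [max_eq_right (by omega)]
  · rw [max_eq_left (by omega)]

/-! ## The counting argument -/

theorem linearIndependent_pow_of_transcendental {A : Type*} [CommRing A] [Algebra K A] {y : A}
    (hy : Transcendental K y) : LinearIndependent K (fun i : ℕ => y ^ i) := by
  have h1 := (Polynomial.basisMonomials K).linearIndependent.map'
    (Polynomial.aeval y).toLinearMap
    (LinearMap.ker_eq_bot.mpr (transcendental_iff_injective.mp hy))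
  have h2 : ((Polynomial.aeval y).toLinearMap ∘ ⇑(Polynomial.basisMonomials K)) =
      fun i : ℕ => y ^ i := by
    funext i
    simp [Polynomial.coe_basisMonomials]
  rwa [h2] at h1

theorem pow_mul_mem_L {x u : F} (hx0 : x ≠ 0) (hu : u ≠ 0) {B C : Divisor K F}
    (hB : ∀ v, B v = max 0 (-(v.ord x))) (hC : ∀ v, -(v.ord u) ≤ C v) {i l : ℕ} (hil : i ≤ l) :
    x ^ i * u ∈ riemannRochSpace (l • B + C) := by
  rw [mem_riemannRochSpace_iff]
  intro v
  right
  have hpow0 : x ^ i ≠ 0 := pow_ne_zero _ hx0
  have hordpow : v.ord (x ^ i) = (i : ℤ) * v.ord x := by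
    rw [← zpow_natCast, v.ord_zpow]
  rw [v.ord_mul hpow0 hu, hordpow]
  have h1 : (l • B + C) v = (l : ℤ) * B v + C v := by
    rw [Finsupp.add_apply, Finsupp.smul_apply, nsmul_eq_mul]
  have h3 := hC v
  have h4 : 0 ≤ B v := by rw [hB v]; exact le_max_left _ _
  have h5 : -(v.ord x) ≤ B v := by rw [hB v]; exact le_max_right _ _
  have h6 : (i : ℤ) ≤ (l : ℤ) := by exact_mod_cast hil
  have h7 : (i : ℤ) * (-(v.ord x)) ≤ (i : ℤ) * B v :=
    mul_le_mul_of_nonneg_left h5 (Int.natCast_nonneg _)
  have h8 : (i : ℤ) * B v ≤ (l : ℤ) * B v := mul_le_mul_of_nonneg_right h6 h4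
  rw [h1]
  linarith

/-- The linear-algebra core: if `F` has a basis `b` over an intermediate field `E` containing a
transcendental `x`, then the `x ^ i * b j` (`i ≤ l`) are `K`-linearly independent. -/
theorem card_le_finrank_of_basis {x : F} (hx : Transcendental K x) (E : IntermediateField K F)
    (hxE : x ∈ E) {n : ℕ} (b : Module.Basis (Fin n) E F) (l : ℕ) (S : Submodule K F)
    [FiniteDimensional K S] (hS : ∀ i : ℕ, i ≤ l → ∀ j : Fin n, x ^ i * b j ∈ S) :
    n * (l + 1) ≤ Module.finrank K S := by
  classical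
  let xE : E := ⟨x, hxE⟩
  have hxE' : Transcendental K xE := by
    rw [← transcendental_algebraMap_iff (FaithfulSMul.algebraMap_injective E F)]
    exact hx
  have hpow : LinearIndependent K (fun i : Fin (l + 1) => xE ^ (i : ℕ)) :=
    (linearIndependent_pow_of_transcendental hxE').comp (fun i : Fin (l + 1) => (i : ℕ))
      Fin.val_injective
  have hli : LinearIndependent K
      (fun p : Fin (l + 1) × Fin n => (xE ^ (p.1 : ℕ)) • b p.2) := by
    have := linearIndependent_smul (R := K) (S := E) (A := F) hpow b.linearIndependent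
    exact this
  have hspan : Submodule.span K
      (Set.range fun p : Fin (l + 1) × Fin n => (xE ^ (p.1 : ℕ)) • b p.2) ≤ S := by
    refine Submodule.span_le.mpr ?_
    rintro _ ⟨⟨i, j⟩, rfl⟩
    have hsm : (xE ^ (i : ℕ)) • b j = x ^ (i : ℕ) * b j := by
      rw [Algebra.smul_def]
      rfl
    simp only [SetLike.mem_coe]
    rw [hsm]
    exact hS i (by have := i.2; omega) j
  calc n * (l + 1) = Fintype.card (Fin (l + 1) × Fin n) := by
        simp [mul_comm]
    _ = Module.finrank K (Submodule.span K
          (Set.range fun p : Fin (l + 1) × Fin n => (xE ^ (p.1 : ℕ)) • b p.2)) :=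
        (finrank_span_eq_card hli).symm
    _ ≤ _ := Submodule.finrank_mono hspan

theorem exists_lower_bound (hy : Hyp K F) {x : F}
    (hx : Transcendental K x)
    [hfin : FiniteDimensional (IntermediateField.adjoin K ({x} : Set F)) F]
    (B : Divisor K F) (hB : ∀ v, B v = max 0 (-(v.ord x))) :
    ∃ C : Divisor K F, (∀ v, 0 ≤ C v) ∧ ∀ l : ℕ,
      Module.finrank (IntermediateField.adjoin K ({x} : Set F)) F * (l + 1) ≤
        Module.finrank K (riemannRochSpace (l • B + C)) := by
  classical
  have hx0 : x ≠ 0 := by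
    rintro rfl
    exact hx (isAlgebraic_zero)
  let b := Module.finBasis (IntermediateField.adjoin K ({x} : Set F)) F
  have hC : ∀ j, ∃ P : Divisor K F, ∀ v, P v = max 0 (-(v.ord (b j))) :=
    fun j => exists_poleDivisor hy (b j) (b.ne_zero j)
  choose Cj hCj using hC
  have hCnn : ∀ j v, 0 ≤ Cj j v := fun j v => by rw [hCj j v]; exact le_max_left _ _
  refine ⟨∑ j, Cj j, ?_, ?_⟩
  · intro v
    rw [Finsupp.finsetSum_apply]
    exact Finset.sum_nonneg (fun j _ => hCnn j v)
  intro l
  have := finiteDimensional_L hy (l • B + ∑ j, Cj j)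
  refine card_le_finrank_of_basis hx _ (IntermediateField.mem_adjoin_simple_self K x) b l _ ?_
  intro i hil j
  refine pow_mul_mem_L hx0 (b.ne_zero j) hB (fun v => ?_) hil
  have h2 : Cj j v ≤ ∑ j', Cj j' v :=
    Finset.single_le_sum (fun j' _ => hCnn j' v) (Finset.mem_univ j)
  have h3 : -(v.ord (b j)) ≤ Cj j v := by rw [hCj j v]; exact le_max_right _ _
  rw [Finsupp.finsetSum_apply]
  omega

/-! ## Riemann's inequality -/

/-- **Riemann's inequality**: there is a constant `c` with `deg D + 1 - c ≤ l(D)` for all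
divisors `D`. -/
theorem riemann_inequality (hy : Hyp K F) :
    ∃ c : ℤ, ∀ D : Divisor K F,
      Divisor.degree D + 1 - c ≤ (Module.finrank K (riemannRochSpace D) : ℤ) := by
  obtain ⟨x, hx, hfin⟩ := hy.ff
  have hx0 : x ≠ 0 := by
    rintro rfl
    exact hx (isAlgebraic_zero)
  obtain ⟨B, hB⟩ := exists_poleDivisor hy x hx0
  have hdegB := degree_poleDivisor hy hx B hB
  obtain ⟨C, hC0, hC⟩ := exists_lower_bound hy hx B hB
  have hn : 0 < Module.finrank (IntermediateField.adjoin K ({x} : Set F)) F := Module.finrank_pos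
  set n : ℕ := Module.finrank (IntermediateField.adjoin K ({x} : Set F)) F with hn_def
  have hBnn : (0 : Divisor K F) ≤ B := by
    rw [Finsupp.le_def]
    intro v
    rw [hB v]
    exact le_max_left _ _
  have hCnn : (0 : Divisor K F) ≤ C := by
    rw [Finsupp.le_def]
    intro v
    exact hC0 v
  -- Step A: the multiples of `B`
  have hA : ∀ l : ℕ, Divisor.degree (l • B) -
      (Module.finrank K (riemannRochSpace (l • B)) : ℤ) ≤ Divisor.degree C - n := by
    intro l
    have h1 := defect_mono hy (D := l • B) (D' := l • B + C) (le_add_of_nonneg_right hCnn)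
    have h2 : ((n * (l + 1) : ℕ) : ℤ) ≤
        (Module.finrank K (riemannRochSpace (l • B + C)) : ℤ) := by
      exact_mod_cast hC l
    rw [map_add, map_nsmul, hdegB] at h1
    rw [map_nsmul, hdegB]
    push_cast at h1 h2 ⊢
    simp only [nsmul_eq_mul] at h1 ⊢
    nlinarith
  refine ⟨Divisor.degree C - n + 1, fun A => ?_⟩
  -- `A1 ≥ A` effective
  obtain ⟨P, hP⟩ := exists_eff_eq (A.mapRange (fun k => max k 0) (by simp) : Divisor K F)
    (fun v => by rw [Finsupp.mapRange_apply]; exact le_max_right _ _)
  set A1 : Divisor K F := eff P with hA1_def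
  have hA1 : A ≤ A1 := by
    rw [hP, Finsupp.le_def]
    intro v
    rw [Finsupp.mapRange_apply]
    exact le_max_left _ _
  have hA1nn : (0 : Divisor K F) ≤ A1 := by
    rw [hP, Finsupp.le_def]
    intro v
    rw [Finsupp.mapRange_apply]
    exact le_max_right _ _
  -- choose `l`
  set l : ℕ := (Divisor.degree C - n + Divisor.degree A1 + 1).toNat with hl_def
  have hl1 : Divisor.degree C - n + Divisor.degree A1 + 1 ≤ (l : ℤ) := Int.self_le_toNat _
  have hl2 : (l : ℤ) ≤ (l : ℤ) * n := by
    have : (1 : ℤ) ≤ n := by exact_mod_cast hn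
    nlinarith [Int.natCast_nonneg l]
  -- `l(lB - A1) > 0`
  have h3 := defect_mono hy (D := l • B - A1) (D' := l • B) (sub_le_self _ hA1nn)
  have h3' := hA l
  rw [map_sub, map_nsmul, hdegB, nsmul_eq_mul] at h3
  rw [map_nsmul, hdegB, nsmul_eq_mul] at h3'
  have h4 : 0 < Module.finrank K (riemannRochSpace (l • B - A1)) := by
    have : (0 : ℤ) < (Module.finrank K (riemannRochSpace (l • B - A1)) : ℤ) := by linarith
    exact_mod_cast this
  have hfd := finiteDimensional_L hy (l • B - A1)
  obtain ⟨z, hz⟩ := Module.finrank_pos_iff_exists_ne_zero.mp h4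
  have hz0 : (z : F) ≠ 0 := fun h => hz (Subtype.ext h)
  obtain ⟨Z, hZdiv⟩ := exists_divisor_eq_ord hy (z : F) hz0
  have hZ0 : Divisor.degree Z = 0 := degree_eq_zero_of_forall_eq_ord hy (z : F) hz0 Z hZdiv
  -- `D = A1 - Z ≤ l B`
  have hD_le : A1 + -Z ≤ l • B := by
    rw [Finsupp.le_def]
    intro v
    have := (mem_riemannRochSpace_iff.mp z.2 v).resolve_left hz0
    rw [Finsupp.sub_apply] at this
    rw [Finsupp.add_apply, Finsupp.neg_apply, hZdiv v]
    omega
  have h5 := defect_mono hy hD_le
  have h6 : Module.finrank K (riemannRochSpace (A1 + -Z)) ≤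
      Module.finrank K (riemannRochSpace A1) :=
    finrank_L_shift_le hy (D := A1) (H := -Z) (h := (z : F)⁻¹) (inv_ne_zero hz0)
      (fun v => by rw [Finsupp.neg_apply, hZdiv v, v.ord_inv])
  have h6' : (Module.finrank K (riemannRochSpace (A1 + -Z)) : ℤ) ≤
      (Module.finrank K (riemannRochSpace A1) : ℤ) := by exact_mod_cast h6
  have h7 := defect_mono hy hA1
  rw [map_add, map_neg, hZ0, neg_zero, add_zero, map_nsmul, hdegB, nsmul_eq_mul] at h5
  linarith

/-- The genus in the sense of Riemann: the least constant in Riemann's inequality; it is attained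
by every sufficiently large divisor. -/
theorem exists_genus (hy : Hyp K F) :
    ∃ g : ℕ, (∀ D : Divisor K F,
        Divisor.degree D + 1 - g ≤ (Module.finrank K (riemannRochSpace D) : ℤ)) ∧
      ∃ D0 : Divisor K F, ∀ D : Divisor K F, D0 ≤ D →
        (Module.finrank K (riemannRochSpace D) : ℤ) = Divisor.degree D + 1 - g := by
  obtain ⟨c, hc⟩ := riemann_inequality hy
  -- the set of values `deg D + 1 - l(D)`
  let P : ℤ → Prop := fun k => ∃ D : Divisor K F,
    k = Divisor.degree D + 1 - (Module.finrank K (riemannRochSpace D) : ℤ)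
  have hbdd : ∃ b : ℤ, ∀ k, P k → k ≤ b := ⟨c, by
    rintro k ⟨D, rfl⟩
    have := hc D
    omega⟩
  obtain ⟨v0⟩ := exists_place hy
  have hdeg0 : Divisor.degree (-Finsupp.single v0 1 : Divisor K F) = -1 := by
    rw [map_neg, Divisor.degree_single, hy.deg_one v0]
    simp
  have hP0 : P 0 := ⟨-Finsupp.single v0 1, by
    rw [hdeg0, L_eq_bot_of_degree_neg hy _ (by rw [hdeg0]; omega)]
    simp⟩
  obtain ⟨g, ⟨D0, hD0⟩, hmax⟩ := Int.exists_greatest_of_bdd hbdd ⟨0, hP0⟩
  have hg0 : 0 ≤ g := hmax 0 hP0
  obtain ⟨g', rfl⟩ := Int.eq_ofNat_of_zero_le hg0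
  refine ⟨g', fun D => ?_, D0, fun D hD => ?_⟩
  · have := hmax _ ⟨D, rfl⟩
    omega
  · have h1 := hmax _ ⟨D, rfl⟩
    have h2 := defect_mono hy hD
    omega

/-! ## The statements of row RR-B (lemma row 96), in terms of `ell` -/

theorem finite_L (hy : Hyp K F) (D : Divisor K F) : Module.Finite K (riemannRochSpace D) :=
  finiteDimensional_L hy D

/-- `D ≤ E` implies `ℓ(D) ≤ ℓ(E)` and `ℓ(E) - ℓ(D) ≤ deg E - deg D`. -/
theorem ell_le_of_le (hy : Hyp K F) {D E : Divisor K F} (hDE : D ≤ E) :
    ell D ≤ ell E ∧ (ell E : ℤ) - ell D ≤ Divisor.degree E - Divisor.degree D := by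
  have := finiteDimensional_L hy E
  refine ⟨Submodule.finrank_mono (L_mono hDE), ?_⟩
  have h1 := defect_mono hy hDE
  unfold ell
  omega

theorem ell_le_degree_add_one (hy : Hyp K F) {D : Divisor K F} (hD : 0 ≤ Divisor.degree D) :
    (ell D : ℤ) ≤ Divisor.degree D + 1 :=
  finrank_L_le hy D hD

theorem ell_eq_zero_of_degree_neg (hy : Hyp K F) {D : Divisor K F}
    (hD : Divisor.degree D < 0) : ell D = 0 := by
  unfold ell
  rw [L_eq_bot_of_degree_neg hy D hD]
  simp

theorem ell_add_div (hy : Hyp K F) (D : Divisor K F) {f : F} (hf : f ≠ 0) :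
    ell (D + hy.div f) = ell D :=
  finrank_L_shift hy D (hy.div f) f hf (fun v => hy.div_apply hf v)

theorem exists_bound (hy : Hyp K F) :
    ∃ γ : ℤ, ∀ D : Divisor K F, Divisor.degree D - ell D ≤ γ := by
  obtain ⟨c, hc⟩ := riemann_inequality hy
  refine ⟨c - 1, fun D => ?_⟩
  have := hc D
  unfold ell
  omega

theorem exists_genus_attained (hy : Hyp K F) :
    ∃ g : ℕ, (∀ D : Divisor K F, Divisor.degree D + 1 - g ≤ ell D) ∧
      ∃ D₀ : Divisor K F, (ell D₀ : ℤ) = Divisor.degree D₀ + 1 - g := by
  obtain ⟨g, hg, D0, hD0⟩ := exists_genus hy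
  exact ⟨g, hg, D0, hD0 D0 le_rfl⟩

theorem ell_eq_of_le (hy : Hyp K F) {g : ℕ}
    (hg : ∀ D : Divisor K F, Divisor.degree D + 1 - g ≤ ell D) {D₀ D : Divisor K F}
    (h0 : (ell D₀ : ℤ) = Divisor.degree D₀ + 1 - g) (hD : D₀ ≤ D) :
    (ell D : ℤ) = Divisor.degree D + 1 - g := by
  have h1 := hg D
  have h2 := defect_mono hy hD
  unfold ell at *
  omega

end AlgClosed

end Fermat.Agent.S20.RiemannHyp
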