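import Mathlib
import Fermat.Prelude.Def_AlgebraicCurve_Repartitions
import Fermat.Agent.S20.KaehlerWeil

/-!
# S20 / R6 (continued): duality for a Weil differential with a divisor

Let `φ` be a nonzero `K`-linear functional on the repartitions of `F / K` which kills the
principal repartitions and has a divisor `W` (`φ` kills `A(D)` iff `D ≤ W`).  Assume that the
functionals of this kind form an `F`-space of dimension at most one (`WeilOneDim`, Stichtenoth
1.5.9) and the weak Riemann–Roch theorem (`ℓ(D) - i(D) = deg D + 1 - g`).  Then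

* `i(D) = ℓ(W - D)` for every divisor `D`  (`finrank_H1_eq`);
* `ℓ(W) = g` and `deg W = 2g - 2`  (`weilDivisorTheorem`),

i.e. the hypothesis `WeilDivisorTheorem K F` of `KaehlerWeil.lean`.
-/

set_option autoImplicit false

open AlgebraicCurve

namespace Fermat.Agent.S20.WeilDuality

open Fermat.Agent.S20.KaehlerWeil

variable {K F : Type*} [Field K] [Field F] [Algebra K F]

/-- A functional on repartitions is a *Weil differential* if it kills the principal
repartitions and `A(D)` for some divisor `D`. -/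
def IsWeil (φ : ↥(repartitions K F) →ₗ[K] K) : Prop :=
  (∀ r ∈ principalRepartitions K F, φ r = 0) ∧
    ∃ D : Divisor K F, ∀ r ∈ repartitionsOf D, φ r = 0

/-- `f • φ := (α ↦ φ (f • α))`. -/
noncomputable def smulWeil (f : F) (φ : ↥(repartitions K F) →ₗ[K] K) :
    ↥(repartitions K F) →ₗ[K] K :=
  φ ∘ₗ (LinearMap.lsmul F ↥(repartitions K F) f).restrictScalars K

@[simp]
theorem smulWeil_apply (f : F) (φ : ↥(repartitions K F) →ₗ[K] K) (α : ↥(repartitions K F)) :
    smulWeil f φ α = φ (f • α) := rfl

variable (K F) in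
/-- The Weil differentials form an `F`-space of dimension at most one. -/
def WeilOneDim : Prop :=
  ∀ φ ψ : ↥(repartitions K F) →ₗ[K] K, IsWeil φ → IsWeil ψ → φ ≠ 0 →
    ∃ f : F, ψ = smulWeil f φ

theorem coe_smul_apply (f : F) (α : ↥(repartitions K F)) (v : Place K F) :
    ((f • α : ↥(repartitions K F)) : Place K F → F) v = f * (α : Place K F → F) v := by
  simp

theorem smul_mem_principal (f : F) {α : ↥(repartitions K F)}
    (hα : α ∈ principalRepartitions K F) : f • α ∈ principalRepartitions K F := by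
  obtain ⟨g, hg⟩ := mem_principalRepartitions_iff.mp hα
  refine mem_principalRepartitions_iff.mpr ⟨f * g, ?_⟩
  funext v
  rw [coe_smul_apply, hg]

theorem smulWeil_add (f g : F) (φ : ↥(repartitions K F) →ₗ[K] K) :
    smulWeil (f + g) φ = smulWeil f φ + smulWeil g φ := by
  ext α
  simp [add_smul]

theorem smulWeil_smul (c : K) (f : F) (φ : ↥(repartitions K F) →ₗ[K] K) :
    smulWeil (c • f) φ = c • smulWeil f φ := by
  ext α
  simp [smul_assoc]

/-- If `φ ≠ 0` then `f ↦ f • φ` is injective. -/
theorem eq_zero_of_smulWeil_eq_zero {φ : ↥(repartitions K F) →ₗ[K] K} (hφ : φ ≠ 0) {f : F}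
    (h : smulWeil f φ = 0) : f = 0 := by
  by_contra hf
  apply hφ
  ext α
  have := LinearMap.congr_fun h (f⁻¹ • α)
  rw [smulWeil_apply, smul_smul, mul_inv_cancel₀ hf, one_smul] at this
  simpa using this

section Main

variable (hfin : ∀ f : F, f ≠ 0 → {v : Place K F | v.ord f ≠ 0}.Finite)

/-- The divisor of a nonzero function. -/
noncomputable def divOf (f : F) (hf : f ≠ 0) : Divisor K F :=
  Finsupp.ofSupportFinite (fun v => v.ord f) (hfin f hf)

theorem divOf_apply (f : F) (hf : f ≠ 0) (v : Place K F) : divOf hfin f hf v = v.ord f := rfl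

variable {φ : ↥(repartitions K F) →ₗ[K] K} {W : Divisor K F}

include hfin

omit hfin in
/-- For `f ∈ L(W - D)` the functional `f • φ` kills `A(D)`. -/
theorem smulWeil_kills_of_mem (hW : IsWeilDivisor φ W) {D : Divisor K F} {f : F}
    (hf : f ∈ riemannRochSpace (W - D)) :
    ∀ α ∈ repartitionsOf D, smulWeil f φ α = 0 := by
  intro α hα
  rw [smulWeil_apply]
  refine (hW W).mpr le_rfl _ ?_
  rw [mem_repartitionsOf_iff]
  intro v
  rw [coe_smul_apply]
  rcases eq_or_ne f 0 with h0 | h0
  · left; rw [h0, zero_mul]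
  rcases eq_or_ne ((α : Place K F → F) v) 0 with h1 | h1
  · left; rw [h1, mul_zero]
  right
  rw [v.ord_mul h0 h1]
  have h2 := ((mem_riemannRochSpace_iff.mp hf) v).resolve_left h0
  have h3 := ((mem_repartitionsOf_iff.mp hα) v).resolve_left h1
  rw [Finsupp.sub_apply] at h2
  omega

/-- If `f • φ` (with `f ≠ 0`) kills `A(D)` then `f ∈ L(W - D)`. -/
theorem mem_of_smulWeil_kills (hW : IsWeilDivisor φ W) {D : Divisor K F} {f : F} (hf : f ≠ 0)
    (hkill : ∀ α ∈ repartitionsOf D, smulWeil f φ α = 0) :
    f ∈ riemannRochSpace (W - D) := by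
  have hle : D - divOf hfin f hf ≤ W := by
    refine (hW _).mp fun β hβ => ?_
    have hα : f⁻¹ • β ∈ repartitionsOf D := by
      rw [mem_repartitionsOf_iff]
      intro v
      rw [coe_smul_apply]
      rcases eq_or_ne ((β : Place K F → F) v) 0 with h1 | h1
      · left; rw [h1, mul_zero]
      right
      rw [v.ord_mul (inv_ne_zero hf) h1, v.ord_inv]
      have h3 := ((mem_repartitionsOf_iff.mp hβ) v).resolve_left h1
      rw [Finsupp.sub_apply, divOf_apply] at h3
      omega
    have := hkill _ hα
    rwa [smulWeil_apply, smul_smul, mul_inv_cancel₀ hf, one_smul] at this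
  rw [mem_riemannRochSpace_iff]
  intro v
  right
  have := Finsupp.le_def.mp hle v
  rw [Finsupp.sub_apply, divOf_apply] at this
  rw [Finsupp.sub_apply]
  omega

omit hfin in
theorem isWeil_of_isWeilDivisor (hP : ∀ r ∈ principalRepartitions K F, φ r = 0)
    (hW : IsWeilDivisor φ W) : IsWeil φ :=
  ⟨hP, W, (hW W).mpr le_rfl⟩

omit hfin in
theorem smulWeil_kills_principal (hP : ∀ r ∈ principalRepartitions K F, φ r = 0) (f : F) :
    ∀ r ∈ principalRepartitions K F, smulWeil f φ r = 0 := fun r hr => by
  rw [smulWeil_apply]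
  exact hP _ (smul_mem_principal f hr)

omit hfin in
/-- The map `f ↦ f • φ` from `L(W - D)` to the annihilator of `A(D) + F`. -/
noncomputable def toAnnihilator (hP : ∀ r ∈ principalRepartitions K F, φ r = 0)
    (hW : IsWeilDivisor φ W) (D : Divisor K F) :
    ↥(riemannRochSpace (W - D)) →ₗ[K]
      ↥(repartitionsOf D ⊔ principalRepartitions K F).dualAnnihilator where
  toFun f := ⟨smulWeil (f : F) φ, by
    rw [Submodule.mem_dualAnnihilator]
    intro w hw
    obtain ⟨a, ha, p, hp, rfl⟩ := Submodule.mem_sup.mp hw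
    rw [map_add, smulWeil_kills_of_mem hW f.2 a ha, smulWeil_kills_principal hP _ p hp,
      add_zero]⟩
  map_add' f g := by
    apply Subtype.ext
    show smulWeil ((f + g : ↥(riemannRochSpace (W - D))) : F) φ = _
    rw [Submodule.coe_add, smulWeil_add]
    rfl
  map_smul' c f := by
    apply Subtype.ext
    show smulWeil ((c • f : ↥(riemannRochSpace (W - D))) : F) φ = _
    rw [Submodule.coe_smul, smulWeil_smul]
    rfl

theorem toAnnihilator_bijective (hdim : WeilOneDim K F) (hφ : φ ≠ 0)
    (hP : ∀ r ∈ principalRepartitions K F, φ r = 0) (hW : IsWeilDivisor φ W)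
    (D : Divisor K F) : Function.Bijective (toAnnihilator hP hW D) := by
  constructor
  · intro f g hfg
    have h1 : smulWeil (f : F) φ = smulWeil (g : F) φ := congrArg Subtype.val hfg
    have h2 : smulWeil ((f : F) - (g : F)) φ = 0 := by
      rw [sub_eq_add_neg, smulWeil_add, h1, ← smulWeil_add, add_neg_cancel]
      ext α
      simp
    exact Subtype.ext (sub_eq_zero.mp (eq_zero_of_smulWeil_eq_zero hφ h2))
  · rintro ⟨ψ, hψ⟩
    rw [Submodule.mem_dualAnnihilator] at hψ
    have hψD : ∀ α ∈ repartitionsOf D, ψ α = 0 := fun α hα =>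
      hψ α (Submodule.mem_sup_left hα)
    have hψP : ∀ α ∈ principalRepartitions K F, ψ α = 0 := fun α hα =>
      hψ α (Submodule.mem_sup_right hα)
    obtain ⟨f, hf⟩ := hdim φ ψ (isWeil_of_isWeilDivisor hP hW) ⟨hψP, D, hψD⟩ hφ
    rcases eq_or_ne f 0 with h0 | h0
    · refine ⟨0, Subtype.ext ?_⟩
      show smulWeil ((0 : ↥(riemannRochSpace (W - D))) : F) φ = ψ
      rw [hf, h0]
      rfl
    · refine ⟨⟨f, mem_of_smulWeil_kills hfin hW h0 (hf ▸ hψD)⟩, Subtype.ext ?_⟩
      exact hf.symm

/-- **Duality**: `i(D) = ℓ(W - D)`. -/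
theorem finrank_H1_eq (hdim : WeilOneDim K F) (hφ : φ ≠ 0)
    (hP : ∀ r ∈ principalRepartitions K F, φ r = 0) (hW : IsWeilDivisor φ W)
    (D : Divisor K F) :
    Module.finrank K (H1 D) = Module.finrank K ↥(riemannRochSpace (W - D)) := by
  rw [← Subspace.dual_finrank_eq,
    (Submodule.dualQuotEquivDualAnnihilator
      (repartitionsOf D ⊔ principalRepartitions K F)).finrank_eq]
  exact ((LinearEquiv.ofBijective _ (toAnnihilator_bijective hfin hdim hφ hP hW D)).finrank_eq).symm

/-- The hypothesis `WeilDivisorTheorem` of `KaehlerWeil.lean`, from weak Riemann–Roch,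
`ℓ(0) = 1` and one-dimensionality of the Weil differentials. -/
theorem weilDivisorTheorem (hdim : WeilOneDim K F)
    (hrr : ∀ D : Divisor K F,
      (Module.finrank K ↥(riemannRochSpace D) : ℤ) - (Module.finrank K (H1 D) : ℤ) =
        Divisor.degree D + 1 - (genusFF K F : ℤ))
    (hell0 : Module.finrank K ↥(riemannRochSpace (0 : Divisor K F)) = 1) :
    WeilDivisorTheorem K F := by
  intro φ W hφ hP hW
  have h0 := hrr 0
  have hWW := hrr W
  rw [finrank_H1_eq hfin hdim hφ hP hW 0, sub_zero, hell0, map_zero] at h0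
  rw [finrank_H1_eq hfin hdim hφ hP hW W, sub_self, hell0] at hWW
  constructor
  · push_cast at h0 ⊢
    linarith
  · push_cast at h0 hWW
    linarith

end Main

end Fermat.Agent.S20.WeilDuality
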