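import Mathlib
import Fermat.Agent.S20.KaehlerWeil
import Fermat.Agent.S20.WeilDuality
import Fermat.Agent.S20.RRWeak
import Fermat.Agent.S20.RR.Defs
import Fermat.Agent.S20.RR.LSpace
import Fermat.Agent.S20.RR.WeilDim
import Fermat.Agent.S20.RR.HypOfS24

/-!
# S20, Riemann–Roch block: final assembly

For `K` algebraically closed of characteristic zero and `F / K` a function field of one
variable (with `HasCanonicalDivisor`), the space of regular differentials has dimension
`genus K F`, **given only**

* residue data `R : KaehlerWeil.ResidueData K F` (local residues + residue theorem), and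
* finite-dimensionality of `H¹(0) = A / (A(0) + F)`.

Everything else (weak Riemann–Roch, `ℓ(0) = 1`, one-dimensionality of Weil differentials,
duality, comparison of Kähler and Weil differentials) is discharged here from the landed files
`RRWeak`, `RR.LSpace`, `RR.WeilDim`, `WeilDuality`, `KaehlerWeil`, `RR.HypOfS24`.
-/

set_option autoImplicit false

open AlgebraicCurve KaehlerDifferential

namespace Fermat.Agent.S20.RRFinal

open Fermat.Agent.S24 Fermat.Agent.S20 Fermat.Agent.S20.RR

variable {K F : Type*} [Field K] [Field F] [Algebra K F]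

/-- Weak Riemann–Roch in the shape used by `WeilDim` and `WeilDuality`, from `Hyp K F` and
finite-dimensionality of `H¹(0)`. -/
theorem weak_rr (h : Hyp K F) (hH1 : Module.Finite K (H1 (0 : Divisor K F))) (D : Divisor K F) :
    Module.Finite K (H1 D) ∧
      (Module.finrank K ↥(riemannRochSpace D) : ℤ) - (Module.finrank K (H1 D) : ℤ) =
        Divisor.degree D + 1 - (genusFF K F : ℤ) := by
  have hres : RRWeak.ResidueIsBase K F := fun v f hf hord => h.res v f hf hord
  have hdeg : RRWeak.DegOne K F := h.deg_one
  have hconst : RRWeak.ConstantsAreBase K F := fun f hf => by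
    obtain ⟨c, hc⟩ := LSpace.eq_algebraMap_of_ord_nonneg h hf
    exact ⟨c, hc.symm⟩
  have := RRWeak.weak_riemannRoch hres hdeg hconst hH1 D
  exact ⟨this.2.1, this.2.2⟩

/-- One-dimensionality of the Weil differentials, in the shape of `WeilDuality`. -/
theorem weilOneDim (h : Hyp K F) (hH1 : Module.Finite K (H1 (0 : Divisor K F))) :
    WeilDuality.WeilOneDim K F := by
  intro φ ψ hφ hψ hne
  have conv : ∀ {lam : ↥(repartitions K F) →ₗ[K] K}, WeilDuality.IsWeil lam → WeilDim.IsWeil lam := by
    intro lam hl
    refine ⟨fun f => hl.1 _ ?_, hl.2⟩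
    exact mem_principalRepartitions_iff.mpr ⟨f, rfl⟩
  obtain ⟨f, hf⟩ := WeilDim.exists_smul_eq h
    (fun D => (weak_rr h hH1 D).2) (fun D => (weak_rr h hH1 D).1)
    (fun D hD => LSpace.ell_eq_zero_of_degree_neg h hD) (conv hφ) (conv hψ) hne
  refine ⟨f, ?_⟩
  rw [hf]
  ext α
  rfl

/-- The hypothesis `WeilDivisorTheorem` of `KaehlerWeil`. -/
theorem weilDivisorTheorem (h : Hyp K F) (hH1 : Module.Finite K (H1 (0 : Divisor K F))) :
    KaehlerWeil.WeilDivisorTheorem K F :=
  WeilDuality.weilDivisorTheorem h.fin (weilOneDim h hH1) (fun D => (weak_rr h hH1 D).2)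
    (LSpace.ell_zero h)

variable [IsAlgClosed K] [CharZero K] (hF : IsFunctionField1 K F)
  [HasCanonicalDivisor (K := K) (F := F)]

/-- **Final export of the Riemann–Roch block.**  The space of regular differentials has
dimension `genus K F`. -/
theorem finrank_regularDifferentials_eq_genus (R : KaehlerWeil.ResidueData K F)
    (hH1 : Module.Finite K (H1 (0 : Divisor K F))) :
    Module.finrank K ↥(KaehlerWeil.regularDifferentials hF) = genus K F := by
  have h : Hyp K F := HypOfS24.hyp hF
  have := LSpace.nonempty_place h
  exact KaehlerWeil.finrank_regularDifferentials_eq_genus hF R h.fin (weilDivisorTheorem h hH1)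

include hF in
/-- `genus K F = genusFF K F` (the two definitions of the genus in the Prelude agree). -/
theorem genus_eq_genusFF (R : KaehlerWeil.ResidueData K F)
    (hH1 : Module.Finite K (H1 (0 : Divisor K F))) : genus K F = genusFF K F := by
  have h : Hyp K F := HypOfS24.hyp hF
  have := LSpace.nonempty_place h
  exact KaehlerWeil.genus_eq_genusFF hF R h.fin (weilDivisorTheorem h hH1)

end Fermat.Agent.S20.RRFinal
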