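import Mathlib
import Fermat.Agent.S20.KaehlerWeil
import Fermat.Agent.S20.WeilDiffExport
import Fermat.Agent.S20.RR.ResLocal
import Fermat.Agent.S20.RR.ResidueThm
import Fermat.Agent.S20.RR.HypOfS24

/-!
# S20, block RR: final assembly (line R1–R6), modulo the residue theorem only

`K` algebraically closed of characteristic zero, `F / K` a function field of one variable.
With the chart residues `RR.res h v` of `RR/Defs.lean` (local calculus: `RR/ResLocal.lean`) and
the **residue theorem** as the single remaining hypothesis

  `hthm : ∀ η : Ω[F⁄K], ∑ᶠ v : Place K F, RR.res h v η = 0`,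

we instantiate the interface `KaehlerWeil.ResidueData K F`, and combine it with
`WeilDiffExport.weilDivisorTheorem` (R2 + R3 + R4) and `KaehlerWeil` (R6) to get the final
export of the Riemann–Roch block:

* `finrank_regularDifferentials_eq_genus` : `dim_K {ω | ∀ v, 0 ≤ ord_v ω} = genus K F`;
* `genus_eq_genusFF`, `degree_canonicalDivisorOf`.
-/

set_option autoImplicit false

open AlgebraicCurve KaehlerDifferential IntermediateField

namespace Fermat.Agent.S20.RRFinalRes

open Fermat.Agent.S24 Fermat.Agent.S20.RR

variable {K F : Type*} [Field K] [Field F] [Algebra K F] [IsAlgClosed K] [CharZero K]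

/-- `f dg` is regular at `v` when `f` and `g` are. -/
theorem ordDifferential_smul_D_nonneg_of_mem (h : Hyp K F) (v : Place K F) (f g : F)
    (hf : f ∈ v.toValuationSubring) (hg : g ∈ v.toValuationSubring) :
    0 ≤ v.ordDifferential (f • D K F g) := by
  by_cases hgc : g ∈ Set.range (algebraMap K F)
  · obtain ⟨a, rfl⟩ := hgc
    rw [Derivation.map_algebraMap, smul_zero]
    exact ResidueThm.ordDifferential_zero_nonneg h v
  · have hgt : Transcendental K g := (Exchange.transcendental_iff_not_mem_range g).mpr hgc
    have hg0 : g ≠ 0 := fun h0 => hgc ⟨0, by rw [h0, map_zero]⟩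
    have hvg : 0 ≤ v.ord g := (mem_valuationSubring_iff v g hg0).mp hg
    have hvf : 0 ≤ v.ord f := by
      rcases eq_or_ne f 0 with rfl | hf0
      · simp
      · exact (mem_valuationSubring_iff v f hf0).mp hf
    exact ResidueThm.ordDifferential_smul_D_nonneg h hgt f v hvg hvf

/-- The residue interface of `KaehlerWeil.lean`, from the chart residues and the residue
theorem. -/
noncomputable def residueData (h : Hyp K F)
    (hthm : ∀ η : Ω[F⁄K], ∑ᶠ v : Place K F, RR.res h v η = 0) :
    KaehlerWeil.ResidueData K F where
  res := fun v => ResLocal.resLin h v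
  res_eq_zero_of_mem := fun v f g hf hg => by
    rw [ResLocal.resLin_apply]
    exact ResLocal.res_eq_zero_of_ord_nonneg h v
      (ordDifferential_smul_D_nonneg_of_mem h v f g hf hg)
  res_dlog := fun v π hπ => by
    have hπ0 : π ≠ 0 := by
      rintro rfl
      simp at hπ
    rw [ResLocal.resLin_apply, ResLocal.res_dlog h v hπ0, hπ]
    simp
  finsum_res := fun η => by
    simpa only [ResLocal.resLin_apply] using hthm η

section Final

variable (hF : IsFunctionField1 K F) [HasCanonicalDivisor (K := K) (F := F)]
  (hthm : ∀ η : Ω[F⁄K], ∑ᶠ v : Place K F, RR.res (HypOfS24.hyp hF) v η = 0)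

include hthm

/-- **Riemann–Roch block, final export** (modulo the residue theorem): the space of regular
differentials has dimension `genus K F`. -/
theorem finrank_regularDifferentials_eq_genus :
    Module.finrank K ↥(KaehlerWeil.regularDifferentials hF) = genus K F := by
  have hZ : PrincipalDegreeCore.ZerosTheorem K F := ZerosBackup.zerosTheorem
  have := Riemann.exists_place hF hZ
  exact KaehlerWeil.finrank_regularDifferentials_eq_genus hF
    (residueData (HypOfS24.hyp hF) hthm) (HypOfS24.hyp hF).fin
    (WeilDiffExport.weilDivisorTheorem hF hZ)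

theorem finrank_regularDifferentials_eq_genusFF :
    Module.finrank K ↥(KaehlerWeil.regularDifferentials hF) = genusFF K F := by
  have hZ : PrincipalDegreeCore.ZerosTheorem K F := ZerosBackup.zerosTheorem
  have := Riemann.exists_place hF hZ
  exact KaehlerWeil.finrank_regularDifferentials_eq_genusFF hF
    (residueData (HypOfS24.hyp hF) hthm) (HypOfS24.hyp hF).fin
    (WeilDiffExport.weilDivisorTheorem hF hZ)

theorem genus_eq_genusFF : genus K F = genusFF K F := by
  have hZ : PrincipalDegreeCore.ZerosTheorem K F := ZerosBackup.zerosTheorem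
  have := Riemann.exists_place hF hZ
  exact KaehlerWeil.genus_eq_genusFF hF
    (residueData (HypOfS24.hyp hF) hthm) (HypOfS24.hyp hF).fin
    (WeilDiffExport.weilDivisorTheorem hF hZ)

theorem degree_canonicalDivisorOf {ω : Ω[F⁄K]} (hω : ω ≠ 0) :
    Divisor.degree (canonicalDivisorOf hω) = 2 * (genusFF K F : ℤ) - 2 := by
  have hZ : PrincipalDegreeCore.ZerosTheorem K F := ZerosBackup.zerosTheorem
  have := Riemann.exists_place hF hZ
  exact KaehlerWeil.degree_canonicalDivisorOf hF
    (residueData (HypOfS24.hyp hF) hthm) (HypOfS24.hyp hF).fin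
    (WeilDiffExport.weilDivisorTheorem hF hZ) hω

end Final

end Fermat.Agent.S20.RRFinalRes
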