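import Fermat.Agent.S20.RR.ResidueThm
import Fermat.Agent.S20.RR.LocalTrace
import Fermat.Agent.S20.RatFuncResidueShapes
import Fermat.Agent.S20.ResidueDataOf
import Fermat.Agent.S20.Lower
import Fermat.Agent.S24.BlockBFinal
import Fermat.Agent.S21.FromLower

/-!
# S20, block RR: the residue theorem, `(★)`, and the lower bound from the dictionary alone

Final glue of the Riemann–Roch block (owner: helper32).

* `residue_theorem h η : ∑ᶠ v, RR.res h v η = 0` for every `h : RR.Hyp K F`
  (rows D3 = `RatFuncResidueShapes`, D4 = `RR.LocalTrace`, D5 = `RR.ResidueThm`);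
* `star hF : RegularGenus.Star K F` for every function field of one variable with a canonical
  divisor, and `star_FBar N : Star Kbar (FBar N)`;
* `genusFormula_le_finrank_cuspForm N hdict`, `s20_of_dict`, `s21_of_dict`: the statements of
  S20 and S21 from the single remaining input `hdict : Lower.DictLower N`.
-/

set_option autoImplicit false

open AlgebraicCurve KaehlerDifferential IntermediateField Module ModularCurve

namespace Fermat.Agent.S20.RRStar

open Fermat.Agent.S24 Fermat.Agent.S20 Fermat.Agent.S20.RR Fermat.Agent.S20.RatFuncResidue

section Generic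

variable {K F : Type*} [Field K] [Field F] [Algebra K F] [IsAlgClosed K] [CharZero K]

/-- **The residue theorem**: the sum of the residues of a differential is zero. -/
theorem residue_theorem (h : Hyp K F) (η : Ω[F⁄K]) : ∑ᶠ v : Place K F, RR.res h v η = 0 := by
  obtain ⟨x, hx, hfd⟩ := h.ff
  have : FiniteDimensional K⟮x⟯ F := hfd
  exact ResidueThm.residue_theorem_of_trace h hx (iotaAt hx) (iotaInf hx)
    (fun r => sum_res_eq hx r)
    (fun a f => LocalTrace.sum_res_zerosOver_of h x hx a (iotaAt hx a) (iotaAt_gen hx a) f)
    (fun f => LocalTrace.sum_res_polesOf_of h x hx (iotaInf hx) (iotaInf_gen hx) f) η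

/-- The residue theorem for the residues of `ResidueLocal.lean`. -/
theorem residue_theorem' (hF : IsFunctionField1 K F) (ω : Ω[F⁄K]) :
    ∑ᶠ v : Place K F, Residue.res hF v ω = 0 :=
  ResidueDataOf.residue_theorem_of_rr hF (fun h η => residue_theorem h η) ω

/-- The residue data of line W, unconditionally. -/
noncomputable def residueData (hF : IsFunctionField1 K F) : KaehlerWeil.ResidueData K F :=
  ResidueDataOf.residueDataOf hF (residue_theorem' hF)

/-- **`(★)`**, the output of the Riemann–Roch block, unconditionally. -/
theorem star (hF : IsFunctionField1 K F) [HasCanonicalDivisor (K := K) (F := F)] :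
    RegularGenus.Star K F :=
  ResidueDataOf.star_of_residue_theorem hF (residue_theorem' hF)

end Generic

section Modular

variable (N : ℕ) [NeZero N]

/-- `(★)` for the function field of `X₀(N)` over `ℚ̄`. -/
theorem star_FBar : RegularGenus.Star Kbar (FBar N) := by
  have hB : ModularRamificationData N := BlockBFinal.modularRamificationData N
  have hF : IsFunctionField1 Kbar (FBar N) := ⟨jBar N, hB.transcendental, hB.finite⟩
  have hZ : PrincipalDegreeCore.ZerosTheorem Kbar (FBar N) := ZerosBackup.zerosTheorem
  have : HasCanonicalDivisor (K := Kbar) (F := FBar N) :=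
    CanonicalDiv.hasCanonicalDivisor_FBar N hB hZ
  exact star hF

/-- The lower bound `(L)` from the dictionary alone. -/
theorem genusFormula_le_finrank_cuspForm (hdict : Lower.DictLower N) :
    genusFormula N ≤ (Module.finrank ℂ (CuspForm (CongruenceSubgroup.Gamma0 N) 2) : ℚ) :=
  Lower.genusFormula_le_finrank_cuspForm N (BlockBFinal.modularRamificationData N)
    (star_FBar N) hdict

/-- The statement of **S20** from the dictionary alone. -/
theorem s20_of_dict (hdict : Lower.DictLower N) :
    (Module.finrank ℂ (CuspForm (CongruenceSubgroup.Gamma0 N) 2) : ℚ) = genusFormula N :=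
  Fermat.Agent.S21.FromLower.s20_of_lower N (genusFormula_le_finrank_cuspForm N hdict)

/-- The statement of **S21** from the dictionary alone. -/
theorem s21_of_dict (hdict : Lower.DictLower N) :
    Function.Injective (periodHomPair N)
      ∧ LinearMap.range (periodHomPair N)
        = ModularCurve.Period.parabolicHoms ℂ (CongruenceSubgroup.Gamma0 N) ℂ :=
  Fermat.Agent.S21.FromLower.s21_of_lower N (genusFormula_le_finrank_cuspForm N hdict)

end Modular

end Fermat.Agent.S20.RRStar
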