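import Mathlib

/-!
# S20 / R5.ratfunc : the residue theorem on `K(x)`

For `g : RatFunc K` we expand `g` at a finite point `a : K` (`x = a + t`) and at infinity
(`x = 1/t`) as Laurent series in `t`, define the residues of the differential `g dx`,

* `resAt a g  = ` coefficient of `t⁻¹` of `g (a + t)`,
* `resInf g   = - ` coefficient of `t` of `g (1/t)`   (since `dx = - t⁻² dt`),

and prove by partial fractions that over an algebraically closed field the sum of all residues
vanishes.
-/

set_option autoImplicit false

open Polynomial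

namespace Fermat.Agent.S20.RatFuncResidue

variable {K : Type*} [Field K]

/-- The variable `t` of `K((t))`. -/
noncomputable def tt (K : Type*) [Field K] : LaurentSeries K :=
  HahnSeries.single (1 : ℤ) (1 : K)

theorem tt_ne_zero : tt K ≠ 0 := by
  simp [tt]

theorem aeval_tt (p : K[X]) :
    aeval (tt K) p = HahnSeries.ofPowerSeries ℤ K (p : PowerSeries K) := by
  have : (aeval (tt K)).toRingHom
      = (HahnSeries.ofPowerSeries ℤ K).comp (Polynomial.coeToPowerSeries.ringHom) := by
    apply Polynomial.ringHom_ext
    · intro a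
      simp [LaurentSeries.algebraMap_apply]
    · simp [tt]
  exact DFunLike.congr_fun this p

theorem transcendental_tt : Transcendental K (tt K) := by
  rw [transcendental_iff_injective]
  intro p q h
  rw [aeval_tt, aeval_tt] at h
  exact Polynomial.coe_injective K (HahnSeries.ofPowerSeries_injective h)

theorem transcendental_C_add_tt (a : K) :
    Transcendental K (HahnSeries.C a + tt K : LaurentSeries K) := by
  have := transcendental_tt (K := K)
  rw [← LaurentSeries.algebraMap_apply]
  intro h
  apply this
  have h2 : IsAlgebraic K ((algebraMap K (LaurentSeries K) a + tt K) - algebraMap K (LaurentSeries K) a) :=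
    h.sub (isAlgebraic_algebraMap a)
  simpa using h2

theorem transcendental_tt_inv : Transcendental K ((tt K)⁻¹ : LaurentSeries K) := by
  intro h
  exact transcendental_tt (IsAlgebraic.inv_iff.mp h)

/-- The `K`-algebra embedding `RatFunc K → L` sending `X` to a transcendental element `s`. -/
noncomputable def liftTrans {L : Type*} [Field L] [Algebra K L] (s : L)
    (hs : Transcendental K s) : RatFunc K →ₐ[K] L :=
  RatFunc.liftAlgHom (Polynomial.aeval s)
    (nonZeroDivisors_le_comap_nonZeroDivisors_of_injective _ (transcendental_iff_injective.mp hs))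

theorem liftTrans_algebraMap {L : Type*} [Field L] [Algebra K L] (s : L)
    (hs : Transcendental K s) (p : K[X]) :
    liftTrans s hs (algebraMap K[X] (RatFunc K) p) = Polynomial.aeval s p := by
  have := RatFunc.liftAlgHom_apply_div (φ := Polynomial.aeval s)
    (hφ := nonZeroDivisors_le_comap_nonZeroDivisors_of_injective _
      (transcendental_iff_injective.mp hs)) p 1
  simpa [liftTrans] using this

theorem liftTrans_X {L : Type*} [Field L] [Algebra K L] (s : L)
    (hs : Transcendental K s) : liftTrans s hs RatFunc.X = s := by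
  rw [← RatFunc.algebraMap_X, liftTrans_algebraMap, Polynomial.aeval_X]

theorem liftTrans_unique {L : Type*} [Field L] [Algebra K L] (s : L)
    (hs : Transcendental K s) (τ : RatFunc K →ₐ[K] L) (h : τ RatFunc.X = s) :
    τ = liftTrans s hs := by
  have hp : ∀ p : K[X], τ (algebraMap K[X] (RatFunc K) p) = Polynomial.aeval s p := by
    intro p
    have : (τ.comp (IsScalarTower.toAlgHom K K[X] (RatFunc K))) = Polynomial.aeval s := by
      apply Polynomial.algHom_ext
      simp [h, RatFunc.algebraMap_X]
    exact DFunLike.congr_fun this p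
  ext g
  rw [← RatFunc.num_div_denom g, map_div₀, map_div₀, hp, hp, liftTrans_algebraMap,
    liftTrans_algebraMap]

/-- Expansion of a rational function at `x = a`, in the variable `t = x - a`. -/
noncomputable def expandAt (a : K) : RatFunc K →ₐ[K] LaurentSeries K :=
  liftTrans (HahnSeries.C a + tt K) (transcendental_C_add_tt a)

/-- Expansion of a rational function at `x = ∞`, in the variable `t = 1/x`. -/
noncomputable def expandInf : RatFunc K →ₐ[K] LaurentSeries K :=
  liftTrans ((tt K)⁻¹) transcendental_tt_inv

@[simp] theorem expandAt_X (a : K) : expandAt a RatFunc.X = HahnSeries.C a + tt K :=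
  liftTrans_X _ _

@[simp] theorem expandInf_X : expandInf (K := K) RatFunc.X = (tt K)⁻¹ :=
  liftTrans_X _ _

theorem expandAt_unique (a : K) (τ : RatFunc K →ₐ[K] LaurentSeries K)
    (h : τ RatFunc.X = HahnSeries.C a + tt K) : τ = expandAt a :=
  liftTrans_unique _ _ τ h

theorem expandInf_unique (τ : RatFunc K →ₐ[K] LaurentSeries K)
    (h : τ RatFunc.X = (tt K)⁻¹) : τ = expandInf :=
  liftTrans_unique _ _ τ h

/-- Residue of `g dx` at `x = a`. -/
noncomputable def resAt (a : K) (g : RatFunc K) : K := (expandAt a g).coeff (-1)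

/-- Residue of `g dx` at `x = ∞`. -/
noncomputable def resInf (g : RatFunc K) : K := -(expandInf g).coeff 1


/-! ### Basic computations -/

theorem resAt_add (a : K) (g h : RatFunc K) : resAt a (g + h) = resAt a g + resAt a h := by
  simp [resAt]

theorem resInf_add (g h : RatFunc K) : resInf (g + h) = resInf g + resInf h := by
  simp [resInf]; ring

theorem resAt_zero (a : K) : resAt a (0 : RatFunc K) = 0 := by simp [resAt]

theorem resInf_zero : resInf (0 : RatFunc K) = 0 := by simp [resInf]

/-- the coercion of a power series has no coefficient in negative degree -/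
theorem coeff_neg_one_ofPowerSeries (u : PowerSeries K) :
    (HahnSeries.ofPowerSeries ℤ K u).coeff (-1) = 0 := by
  rw [PowerSeries.coeff_coe]; simp

theorem expandAt_algebraMap (a : K) (p : K[X]) :
    expandAt a (algebraMap K[X] (RatFunc K) p)
      = HahnSeries.ofPowerSeries ℤ K ((p.comp (X + C a) : K[X]) : PowerSeries K) := by
  rw [expandAt, liftTrans_algebraMap, ← aeval_tt, Polynomial.aeval_comp]
  congr 1
  simp [LaurentSeries.algebraMap_apply, add_comm]

theorem expandInf_algebraMap (p : K[X]) :
    expandInf (algebraMap K[X] (RatFunc K) p) = Polynomial.aeval ((tt K)⁻¹) p := by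
  rw [expandInf, liftTrans_algebraMap]

theorem resAt_algebraMap (a : K) (p : K[X]) : resAt a (algebraMap K[X] (RatFunc K) p) = 0 := by
  rw [resAt, expandAt_algebraMap, coeff_neg_one_ofPowerSeries]

theorem tt_inv_pow (n : ℕ) : ((tt K)⁻¹) ^ n = HahnSeries.single (-(n : ℤ)) (1 : K) := by
  rw [tt, HahnSeries.inv_single, HahnSeries.single_pow]
  simp

theorem resInf_algebraMap (p : K[X]) : resInf (algebraMap K[X] (RatFunc K) p) = 0 := by
  rw [resInf, expandInf_algebraMap, neg_eq_zero]
  induction p using Polynomial.induction_on' with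
  | add p q hp hq => rw [map_add, HahnSeries.coeff_add, hp, hq, add_zero]
  | monomial n c =>
    rw [Polynomial.aeval_monomial, LaurentSeries.algebraMap_apply, tt_inv_pow,
      HahnSeries.C_mul_eq_smul, HahnSeries.coeff_smul, HahnSeries.coeff_single]
    have : (1 : ℤ) ≠ -(n : ℤ) := by omega
    simp [this]


/-- The constant `c` as a rational function. -/
noncomputable abbrev cst (c : K) : RatFunc K := algebraMap K[X] (RatFunc K) (C c)

/-- `x - a` as a rational function. -/
noncomputable abbrev lin (a : K) : RatFunc K := algebraMap K[X] (RatFunc K) (X - C a)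

theorem expandAt_cst (b c : K) : expandAt b (cst c) = HahnSeries.C c := by
  rw [cst, expandAt, liftTrans_algebraMap, Polynomial.aeval_C, LaurentSeries.algebraMap_apply]

theorem expandInf_cst (c : K) : expandInf (cst c) = HahnSeries.C c := by
  rw [cst, expandInf, liftTrans_algebraMap, Polynomial.aeval_C, LaurentSeries.algebraMap_apply]

theorem expandAt_lin (b a : K) : expandAt b (lin a) = HahnSeries.C (b - a) + tt K := by
  rw [lin, expandAt, liftTrans_algebraMap]
  simp [LaurentSeries.algebraMap_apply]
  ring

theorem expandInf_lin (a : K) : expandInf (lin a) = (tt K)⁻¹ - HahnSeries.C a := by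
  rw [lin, expandInf, liftTrans_algebraMap]
  simp [LaurentSeries.algebraMap_apply]

/-- inverse of the coercion of an invertible power series -/
theorem inv_ofPowerSeries (u : PowerSeries K) (hu : PowerSeries.constantCoeff u ≠ 0) :
    (HahnSeries.ofPowerSeries ℤ K u)⁻¹ = HahnSeries.ofPowerSeries ℤ K u⁻¹ := by
  apply inv_eq_of_mul_eq_one_right
  rw [← map_mul, PowerSeries.mul_inv_cancel u hu, map_one]

theorem resAt_basic_self (a c : K) (j : ℕ) :
    resAt a (cst c * ((lin a)⁻¹) ^ (j + 1)) = if j = 0 then c else 0 := by
  rw [resAt, map_mul, map_pow, map_inv₀, expandAt_cst, expandAt_lin, sub_self, map_zero, zero_add,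
    tt_inv_pow, HahnSeries.C_mul_eq_smul, HahnSeries.coeff_smul, HahnSeries.coeff_single]
  by_cases hj : j = 0
  · subst hj; simp
  · simp [hj]

theorem resAt_basic_ne {a b : K} (hab : b ≠ a) (c : K) (j : ℕ) :
    resAt b (cst c * ((lin a)⁻¹) ^ (j + 1)) = 0 := by
  have hu : PowerSeries.constantCoeff (PowerSeries.C (b - a) + PowerSeries.X : PowerSeries K) ≠ 0 := by
    simp [sub_ne_zero.mpr hab]
  have h1 : HahnSeries.C (b - a) + tt K
      = HahnSeries.ofPowerSeries ℤ K (PowerSeries.C (b - a) + PowerSeries.X) := by
    simp [tt]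
  rw [resAt, map_mul, map_pow, map_inv₀, expandAt_cst, expandAt_lin, h1, inv_ofPowerSeries _ hu,
    ← HahnSeries.ofPowerSeries_C, ← map_pow, ← map_mul, coeff_neg_one_ofPowerSeries]

theorem expandInf_lin_inv (a : K) :
    (expandInf (lin a))⁻¹
      = HahnSeries.ofPowerSeries ℤ K (PowerSeries.X * (1 - PowerSeries.C a * PowerSeries.X)⁻¹) := by
  have hu : PowerSeries.constantCoeff (1 - PowerSeries.C a * PowerSeries.X : PowerSeries K) ≠ 0 := by
    simp
  apply inv_eq_of_mul_eq_one_right
  rw [expandInf_lin, map_mul, ← inv_ofPowerSeries _ hu]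
  have ht : HahnSeries.ofPowerSeries ℤ K (PowerSeries.X) = tt K := by simp [tt]
  have h2 : HahnSeries.ofPowerSeries ℤ K (1 - PowerSeries.C a * PowerSeries.X)
      = 1 - HahnSeries.C a * tt K := by
    simp [tt]
  rw [ht, h2]
  have hne : (1 - HahnSeries.C a * tt K : LaurentSeries K) ≠ 0 := by
    rw [← h2]
    intro h0
    apply hu
    have := HahnSeries.ofPowerSeries_injective (Γ := ℤ) (R := K)
      (h0.trans (map_zero (HahnSeries.ofPowerSeries ℤ K)).symm)
    rw [this, map_zero]
  have hne' : (1 - tt K * HahnSeries.C a : LaurentSeries K) ≠ 0 := by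
    rwa [mul_comm] at hne
  have htt := tt_ne_zero (K := K)
  field_simp

theorem resInf_basic (a c : K) (j : ℕ) :
    resInf (cst c * ((lin a)⁻¹) ^ (j + 1)) = if j = 0 then -c else 0 := by
  rw [resInf, map_mul, map_pow, map_inv₀, expandInf_cst, expandInf_lin_inv,
    ← HahnSeries.ofPowerSeries_C, ← map_pow, ← map_mul]
  have h1 : ((1 : ℕ) : ℤ) = 1 := rfl
  rw [← h1, HahnSeries.ofPowerSeries_apply_coeff, mul_pow, ← mul_assoc,
    mul_comm (PowerSeries.C c) _, mul_assoc, PowerSeries.coeff_X_pow_mul']
  by_cases hj : j = 0
  · subst hj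
    simp
  · have : ¬ (j + 1 ≤ 1) := by omega
    simp [hj, this]


/-! ### The residue theorem -/

/-- The statement of the residue theorem for one rational function. -/
def Good (g : RatFunc K) : Prop :=
  (Function.support fun a => resAt a g).Finite ∧ (∑ᶠ a, resAt a g) + resInf g = 0

theorem good_zero : Good (0 : RatFunc K) := by
  refine ⟨?_, ?_⟩
  · simp [resAt_zero, Function.support]
  · simp [resAt_zero, resInf_zero]

theorem good_add {g h : RatFunc K} (hg : Good g) (hh : Good h) : Good (g + h) := by
  obtain ⟨hg1, hg2⟩ := hg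
  obtain ⟨hh1, hh2⟩ := hh
  refine ⟨?_, ?_⟩
  · refine (hg1.union hh1).subset ?_
    intro a ha
    simp only [Function.mem_support, resAt_add] at ha
    by_contra hcon
    simp only [Set.mem_union, Function.mem_support, not_or, not_not] at hcon
    exact ha (by rw [hcon.1, hcon.2, add_zero])
  · have : (∑ᶠ a, resAt a (g + h)) = (∑ᶠ a, resAt a g) + ∑ᶠ a, resAt a h := by
      simp_rw [resAt_add]
      exact finsum_add_distrib hg1 hh1
    rw [this, resInf_add]
    linear_combination hg2 + hh2

theorem good_sum {ι : Type*} (s : Finset ι) (f : ι → RatFunc K) (h : ∀ i ∈ s, Good (f i)) :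
    Good (∑ i ∈ s, f i) := by
  classical
  induction s using Finset.induction_on with
  | empty => simpa using good_zero
  | insert i s hi ih =>
    rw [Finset.sum_insert hi]
    exact good_add (h i (Finset.mem_insert_self i s))
      (ih fun j hj => h j (Finset.mem_insert_of_mem hj))

theorem good_algebraMap (p : K[X]) : Good (algebraMap K[X] (RatFunc K) p) := by
  refine ⟨?_, ?_⟩
  · simp [resAt_algebraMap, Function.support]
  · simp [resAt_algebraMap, resInf_algebraMap]

theorem good_basic (a c : K) (j : ℕ) : Good (cst c * ((lin a)⁻¹) ^ (j + 1)) := by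
  have hne : ∀ b : K, b ≠ a → resAt b (cst c * ((lin a)⁻¹) ^ (j + 1)) = 0 :=
    fun b hb => resAt_basic_ne hb c j
  refine ⟨?_, ?_⟩
  · refine (Set.finite_singleton a).subset ?_
    intro b hb
    by_contra hcon
    exact hb (hne b hcon)
  · rw [finsum_eq_single _ a hne, resAt_basic_self, resInf_basic]
    split_ifs <;> simp

theorem lin_ne_zero (a : K) : lin a ≠ 0 := by
  rw [lin, Ne, map_eq_zero_iff _ (IsFractionRing.injective K[X] (RatFunc K))]
  exact X_sub_C_ne_zero a

/-- **Residue theorem on `K(x)`**, with the finiteness statement. -/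
theorem good [IsAlgClosed K] (g : RatFunc K) : Good g := by
  classical
  obtain ⟨d, hd⟩ : ∃ d, d = g.denom := ⟨_, rfl⟩
  have hmonic : d.Monic := hd ▸ g.monic_denom
  have hsplit : d.Splits := IsAlgClosed.splits d
  have hd_eq : d = ∏ a ∈ d.roots.toFinset, (X - C a) ^ d.roots.count a := by
    conv_lhs => rw [hsplit.eq_prod_roots, hmonic.leadingCoeff, C_1, one_mul,
      Finset.prod_multiset_map_count]
  obtain ⟨q, r, hr, hdecomp⟩ :=
    Polynomial.mul_prod_pow_inverse_eq_quo_add_sum_rem_mul_pow_inverse (K := RatFunc K)
      (s := d.roots.toFinset) g.num (g := fun a => X - C a)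
      (fun a _ => monic_X_sub_C a)
      ((pairwise_coprime_X_sub_C (s := fun a : K => a) Function.injective_id).set_pairwise _)
      (fun a => d.roots.count a) (gi := fun a => (lin a)⁻¹)
      (fun a _ => inv_mul_cancel₀ (lin_ne_zero a))
  have hg : g = algebraMap K[X] (RatFunc K) g.num *
      ∏ a ∈ d.roots.toFinset, ((lin a)⁻¹) ^ d.roots.count a := by
    conv_lhs => rw [← RatFunc.num_div_denom g, ← hd, div_eq_mul_inv]
    congr 1
    conv_lhs => rw [hd_eq]
    rw [map_prod, ← Finset.prod_inv_distrib]
    refine Finset.prod_congr rfl fun a _ => ?_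
    rw [map_pow, inv_pow]
  rw [hg, hdecomp]
  refine good_add (good_algebraMap q) (good_sum _ _ fun a ha => good_sum _ _ fun j _ => ?_)
  have hdeg : (r a j).degree ≤ 0 := by
    have := hr a ha j
    rw [degree_X_sub_C] at this
    exact Nat.WithBot.lt_one_iff_le_zero.mp this
  rw [eq_C_of_degree_le_zero hdeg]
  exact good_basic a _ j

theorem finite_support_resAt [IsAlgClosed K] (g : RatFunc K) :
    (Function.support fun a => resAt a g).Finite := (good g).1

/-- **Residue theorem on `K(x)`**: the sum of the residues of `g dx` at all points of the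
projective line vanishes. -/
theorem finsum_resAt_add_resInf [IsAlgClosed K] (g : RatFunc K) :
    (∑ᶠ a, resAt a g) + resInf g = 0 := (good g).2


/-! ### Transfer to a simple transcendental extension `K⟮x⟯` -/

section Transfer

open IntermediateField

variable {F : Type*} [Field F] [Algebra K F]

/-- **Residue theorem on `K⟮x⟯`** for `x` transcendental: given expansion homs `τ a` at every
finite point (`x ↦ a + t`) and `τinf` at infinity (`x ↦ 1/t`), the residues of `g dx`
(coefficient of `t⁻¹` of `τ a g`, resp. minus the coefficient of `t` of `τinf g`) have finite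
support and sum to zero. -/
theorem residue_sum_adjoin [IsAlgClosed K] (x : F) (hx : Transcendental K x)
    (τ : K → (K⟮x⟯ →ₐ[K] LaurentSeries K))
    (hτ : ∀ a, τ a (AdjoinSimple.gen K x) = HahnSeries.C a + tt K)
    (τinf : K⟮x⟯ →ₐ[K] LaurentSeries K) (hinf : τinf (AdjoinSimple.gen K x) = (tt K)⁻¹)
    (g : K⟮x⟯) :
    (Function.support fun a => (τ a g).coeff (-1)).Finite ∧
      (∑ᶠ a, (τ a g).coeff (-1)) - (τinf g).coeff 1 = 0 := by
  set e := RatFunc.algEquivOfTranscendental x hx with he
  have hX : e RatFunc.X = AdjoinSimple.gen K x := Subtype.ext (by simp [he])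
  have h1 : ∀ a, (τ a).comp e.toAlgHom = expandAt a := by
    intro a
    apply expandAt_unique
    show τ a (e RatFunc.X) = _
    rw [hX, hτ]
  have h2 : τinf.comp e.toAlgHom = expandInf := by
    apply expandInf_unique
    show τinf (e RatFunc.X) = _
    rw [hX, hinf]
  have h3 : ∀ a, (τ a g).coeff (-1) = resAt a (e.symm g) := by
    intro a
    rw [resAt, ← h1]
    simp
  have h4 : (τinf g).coeff 1 = - resInf (e.symm g) := by
    rw [resInf, ← h2]
    simp
  simp_rw [h3, h4]
  refine ⟨finite_support_resAt _, ?_⟩
  rw [sub_neg_eq_add]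
  exact finsum_resAt_add_resInf _

end Transfer

end Fermat.Agent.S20.RatFuncResidue
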