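/-
S20 Riemann–Roch wave, block R5.e: the residue theorem on `RatFunc K`
(sum of the residues of `g dx` at the finite points equals minus the residue at infinity),
proved by partial fractions / induction on the degree of the denominator.
-/
import Mathlib

namespace Fermat.Agent.S20.ResidueRatFunc

open HahnSeries

variable {K : Type*} [Field K]

theorem algebraMap_eq_C (r : K) : algebraMap K (LaurentSeries K) r = HahnSeries.C r := by
  rw [HahnSeries.algebraMap_apply']
  simp

/-- Expansion of a polynomial at `x = a`. -/
theorem aeval_shift (a : K) (p : Polynomial K) :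
    Polynomial.aeval (HahnSeries.C a + single (1 : ℤ) (1 : K)) p =
      HahnSeries.ofPowerSeries ℤ K ((p.comp (Polynomial.X + Polynomial.C a) : Polynomial K) :
        PowerSeries K) := by
  induction p using Polynomial.induction_on' with
  | add p q hp hq => rw [map_add, hp, hq, Polynomial.add_comp, Polynomial.coe_add, map_add]
  | monomial n c =>
    simp only [Polynomial.aeval_monomial, Polynomial.monomial_comp, Polynomial.coe_mul,
      Polynomial.coe_pow, Polynomial.coe_add, Polynomial.coe_C, Polynomial.coe_X, map_mul, map_pow,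
      map_add, ofPowerSeries_C, ofPowerSeries_X, algebraMap_eq_C, add_comm]

theorem aeval_shift_injective (a : K) :
    Function.Injective (Polynomial.aeval (R := K) (HahnSeries.C a + single (1 : ℤ) (1 : K))) := by
  intro p q h
  rw [aeval_shift, aeval_shift] at h
  have h1 := Polynomial.coe_injective K (HahnSeries.ofPowerSeries_injective h)
  have h2 : (Polynomial.algEquivAevalXAddC a) p = (Polynomial.algEquivAevalXAddC a) q := by
    simpa [Polynomial.algEquivAevalXAddC, Polynomial.aeval_def, Polynomial.comp] using h1
  exact (Polynomial.algEquivAevalXAddC a).injective h2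

/-- Expansion of a rational function at `x = a`. -/
noncomputable def expAt (a : K) : RatFunc K →ₐ[K] LaurentSeries K :=
  RatFunc.liftAlgHom (Polynomial.aeval (HahnSeries.C a + single (1 : ℤ) (1 : K)))
    (nonZeroDivisors_le_comap_nonZeroDivisors_of_injective _ (aeval_shift_injective a))

theorem expAt_algebraMap (a : K) (p : Polynomial K) :
    expAt a (algebraMap (Polynomial K) (RatFunc K) p) =
      Polynomial.aeval (HahnSeries.C a + single (1 : ℤ) (1 : K)) p := by
  have := RatFunc.liftAlgHom_apply_div (Polynomial.aeval (HahnSeries.C a + single (1 : ℤ) (1 : K)))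
    (nonZeroDivisors_le_comap_nonZeroDivisors_of_injective _ (aeval_shift_injective a)) p 1
  simpa [expAt] using this

theorem expAt_X (a : K) : expAt a RatFunc.X = C a + single (1 : ℤ) (1 : K) := by
  rw [← RatFunc.algebraMap_X, expAt_algebraMap, Polynomial.aeval_X]

/-- Away from the zeros of the denominator, the expansion is a power series. -/
theorem expAt_div_eq_powerSeries (b : K) (p q : Polynomial K) (hq : q.eval b ≠ 0) :
    ∃ f : PowerSeries K,
      expAt b (algebraMap (Polynomial K) (RatFunc K) p / algebraMap (Polynomial K) (RatFunc K) q) =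
        HahnSeries.ofPowerSeries ℤ K f := by
  set P : PowerSeries K := ((p.comp (Polynomial.X + Polynomial.C b) : Polynomial K) :
        PowerSeries K) with hP
  set Q : PowerSeries K := ((q.comp (Polynomial.X + Polynomial.C b) : Polynomial K) :
        PowerSeries K) with hQ
  have hQ0 : PowerSeries.constantCoeff Q ≠ 0 := by
    rw [hQ, ← PowerSeries.coeff_zero_eq_constantCoeff_apply, Polynomial.coeff_coe,
      Polynomial.coeff_zero_eq_eval_zero, Polynomial.eval_comp]
    simpa using hq
  refine ⟨P * Q⁻¹, ?_⟩
  rw [map_div₀, expAt_algebraMap, expAt_algebraMap, aeval_shift, aeval_shift, ← hP, ← hQ,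
    map_mul, div_eq_mul_inv]
  congr 1
  symm
  apply eq_inv_of_mul_eq_one_left
  rw [← map_mul, PowerSeries.inv_mul_cancel _ hQ0, map_one]

theorem coeff_neg_one_ofPowerSeries (f : PowerSeries K) :
    (HahnSeries.ofPowerSeries ℤ K f).coeff (-1) = 0 := by
  rw [PowerSeries.coeff_coe, if_pos (by norm_num)]

theorem res_eq_zero_of_eval_ne_zero (b : K) (p q : Polynomial K) (hq : q.eval b ≠ 0) :
    (expAt b (algebraMap (Polynomial K) (RatFunc K) p /
      algebraMap (Polynomial K) (RatFunc K) q)).coeff (-1) = 0 := by
  obtain ⟨f, hf⟩ := expAt_div_eq_powerSeries b p q hq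
  rw [hf, coeff_neg_one_ofPowerSeries]

theorem finite_res_support (g : RatFunc K) : {a : K | (expAt a g).coeff (-1) ≠ 0}.Finite := by
  have hg : g.denom ≠ 0 := RatFunc.denom_ne_zero g
  refine Set.Finite.subset (Polynomial.finite_setOfPred_isRoot hg) ?_
  intro a ha
  simp only [Set.mem_ofPred_eq] at ha
  simp only [Set.mem_ofPred_eq, Polynomial.IsRoot.def]
  by_contra h
  apply ha
  rw [← RatFunc.num_div_denom g]
  exact res_eq_zero_of_eval_ne_zero a _ _ h

theorem coeff_aeval_inf (p : Polynomial K) (z : ℤ) :
    (Polynomial.aeval (single (-1 : ℤ) (1 : K)) p).coeff z =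
      if z ≤ 0 then p.coeff z.natAbs else 0 := by
  induction p using Polynomial.induction_on' with
  | add p q hp hq =>
    rw [map_add, coeff_add, hp, hq, Polynomial.coeff_add]
    split_ifs <;> simp
  | monomial n c =>
    have hn : n • (-1 : ℤ) = -(n : ℤ) := by simp
    rw [Polynomial.aeval_monomial, algebraMap_eq_C, single_pow, one_pow, C_mul_eq_smul,
      coeff_smul, coeff_single, Polynomial.coeff_monomial, hn]
    by_cases h : z = -(n : ℤ)
    · have h1 : z ≤ 0 := by omega
      have h2 : n = z.natAbs := by omega
      rw [if_pos h, if_pos h1, if_pos h2, smul_eq_mul, mul_one]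
    · rw [if_neg h, smul_zero]
      by_cases h1 : z ≤ 0
      · have h2 : n ≠ z.natAbs := by omega
        rw [if_pos h1, if_neg h2]
      · rw [if_neg h1]

theorem aeval_inf_injective :
    Function.Injective (Polynomial.aeval (R := K) (single (-1 : ℤ) (1 : K))) := by
  intro p q h
  ext n
  have := congrArg (fun f => f.coeff (-(n : ℤ))) h
  simpa [coeff_aeval_inf] using this

/-- Expansion of a rational function at `x = ∞` in the parameter `1/x`. -/
noncomputable def expInf : RatFunc K →ₐ[K] LaurentSeries K :=
  RatFunc.liftAlgHom (Polynomial.aeval (single (-1 : ℤ) (1 : K)))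
    (nonZeroDivisors_le_comap_nonZeroDivisors_of_injective _ aeval_inf_injective)

theorem expInf_algebraMap (p : Polynomial K) :
    expInf (algebraMap (Polynomial K) (RatFunc K) p) =
      Polynomial.aeval (single (-1 : ℤ) (1 : K)) p := by
  have := RatFunc.liftAlgHom_apply_div (Polynomial.aeval (single (-1 : ℤ) (1 : K)))
    (nonZeroDivisors_le_comap_nonZeroDivisors_of_injective _ aeval_inf_injective) p 1
  simpa [expInf] using this

theorem expInf_X : expInf (RatFunc.X : RatFunc K) = single (-1 : ℤ) (1 : K) := by
  rw [← RatFunc.algebraMap_X, expInf_algebraMap, Polynomial.aeval_X]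


/-! ### The residue theorem -/

/-- The statement of the residue theorem for a single rational function. -/
def ResThm (g : RatFunc K) : Prop :=
  ∑ᶠ a : K, (expAt a g).coeff (-1) = (expInf g).coeff 1

theorem resThm_add {g h : RatFunc K} (hg : ResThm g) (hh : ResThm h) : ResThm (g + h) := by
  unfold ResThm at *
  simp only [map_add, coeff_add]
  rw [finsum_add_distrib (finite_res_support g) (finite_res_support h), hg, hh]

theorem expAt_C (a c : K) : expAt a (RatFunc.C c) = HahnSeries.C c := by
  rw [← RatFunc.algebraMap_C, expAt_algebraMap, Polynomial.aeval_C, algebraMap_eq_C]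

theorem expInf_C (c : K) : expInf (RatFunc.C c) = HahnSeries.C c := by
  rw [← RatFunc.algebraMap_C, expInf_algebraMap, Polynomial.aeval_C, algebraMap_eq_C]

theorem resThm_C_mul (c : K) {g : RatFunc K} (hg : ResThm g) : ResThm (RatFunc.C c * g) := by
  unfold ResThm at *
  simp only [map_mul, expAt_C, expInf_C, C_mul_eq_smul, coeff_smul, smul_eq_mul]
  rw [← mul_finsum, hg]

theorem resThm_algebraMap (p : Polynomial K) :
    ResThm (algebraMap (Polynomial K) (RatFunc K) p) := by
  unfold ResThm
  have h : ∀ a : K, (expAt a (algebraMap (Polynomial K) (RatFunc K) p)).coeff (-1) = 0 := by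
    intro a
    rw [expAt_algebraMap, aeval_shift, coeff_neg_one_ofPowerSeries]
  simp only [h, finsum_zero]
  rw [expInf_algebraMap, coeff_aeval_inf, if_neg (by norm_num)]


theorem expAt_X_sub_C (a : K) :
    expAt a (algebraMap (Polynomial K) (RatFunc K) (Polynomial.X - Polynomial.C a)) =
      single (1 : ℤ) (1 : K) := by
  rw [expAt_algebraMap, map_sub, Polynomial.aeval_X, Polynomial.aeval_C, algebraMap_eq_C,
    add_sub_cancel_left]

theorem expInf_X_sub_C (a : K) :
    expInf (algebraMap (Polynomial K) (RatFunc K) (Polynomial.X - Polynomial.C a)) =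
      single (-1 : ℤ) (1 : K) *
        HahnSeries.ofPowerSeries ℤ K (1 - PowerSeries.C a * PowerSeries.X) := by
  rw [expInf_algebraMap, map_sub, Polynomial.aeval_X, Polynomial.aeval_C, algebraMap_eq_C,
    map_sub (ofPowerSeries ℤ K), map_one (ofPowerSeries ℤ K), map_mul (ofPowerSeries ℤ K),
    ofPowerSeries_C, ofPowerSeries_X, mul_sub, mul_one, mul_left_comm, single_mul_single]
  simp

theorem expInf_inv_pow (a : K) (k : ℕ) :
    expInf ((algebraMap (Polynomial K) (RatFunc K) ((Polynomial.X - Polynomial.C a) ^ k))⁻¹) =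
      single (k : ℤ) (1 : K) *
        HahnSeries.ofPowerSeries ℤ K ((1 - PowerSeries.C a * PowerSeries.X)⁻¹ ^ k) := by
  set W : PowerSeries K := 1 - PowerSeries.C a * PowerSeries.X with hW
  have hW0 : PowerSeries.constantCoeff W ≠ 0 := by simp [hW]
  rw [map_inv₀]
  have key : (single (k : ℤ) (1 : K) * HahnSeries.ofPowerSeries ℤ K (W⁻¹ ^ k)) *
      expInf (algebraMap (Polynomial K) (RatFunc K) ((Polynomial.X - Polynomial.C a) ^ k)) = 1 := by
    simp only [map_pow]
    rw [expInf_X_sub_C, ← hW]
    have h1 : single (k : ℤ) (1 : K) = single (1 : ℤ) (1 : K) ^ k := by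
      rw [single_pow, one_pow]; simp
    rw [h1, ← mul_pow, ← mul_pow, mul_mul_mul_comm, single_mul_single, ← map_mul,
      PowerSeries.inv_mul_cancel _ hW0]
    simp
  exact (eq_inv_of_mul_eq_one_left key).symm

/-- The residue theorem for `(X - a)^(-k)`, `k ≥ 1`. -/
theorem resThm_inv_pow (a : K) (k : ℕ) (hk : 0 < k) :
    ResThm ((algebraMap (Polynomial K) (RatFunc K) ((Polynomial.X - Polynomial.C a) ^ k))⁻¹) := by
  unfold ResThm
  -- the left-hand side
  have hL : ∑ᶠ b : K, (expAt b ((algebraMap (Polynomial K) (RatFunc K)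
      ((Polynomial.X - Polynomial.C a) ^ k))⁻¹)).coeff (-1) = if k = 1 then 1 else 0 := by
    rw [finsum_eq_single _ a]
    · rw [map_inv₀, map_pow, map_pow, expAt_X_sub_C, single_pow, one_pow, inv_single, inv_one,
        coeff_single]
      have : ((-1 : ℤ) = -(k • (1 : ℤ))) ↔ k = 1 := by
        simp only [nsmul_eq_mul, mul_one, neg_inj]
        omega
      simp only [this]
    · intro b hb
      have := res_eq_zero_of_eval_ne_zero b 1 ((Polynomial.X - Polynomial.C a) ^ k)
        (by simp [sub_ne_zero.mpr hb])
      rwa [map_one, one_div] at this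
  rw [hL, expInf_inv_pow]
  have h1 : (1 : ℤ) = (1 - (k : ℤ)) + k := by ring
  rw [h1, coeff_single_mul_add, one_mul, PowerSeries.coeff_coe]
  by_cases hk1 : k = 1
  · subst hk1
    simp [PowerSeries.constantCoeff_inv]
  · rw [if_neg hk1, if_pos (by omega)]

/-- One partial-fraction step, as an identity in `RatFunc K`. -/
theorem partial_fraction_step (a c : K) (m : ℕ) (p q q1 p2 : Polynomial K) (hq1 : q1 ≠ 0)
    (hq : q = (Polynomial.X - Polynomial.C a) ^ (m + 1) * q1)
    (hp : p - Polynomial.C c * q1 = (Polynomial.X - Polynomial.C a) * p2) :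
    algebraMap (Polynomial K) (RatFunc K) p / algebraMap (Polynomial K) (RatFunc K) q =
      RatFunc.C c * (algebraMap (Polynomial K) (RatFunc K)
        ((Polynomial.X - Polynomial.C a) ^ (m + 1)))⁻¹ +
      algebraMap (Polynomial K) (RatFunc K) p2 /
        algebraMap (Polynomial K) (RatFunc K) ((Polynomial.X - Polynomial.C a) ^ m * q1) := by
  have ht : algebraMap (Polynomial K) (RatFunc K) (Polynomial.X - Polynomial.C a) ≠ 0 :=
    RatFunc.algebraMap_ne_zero (Polynomial.X_sub_C_ne_zero a)
  have hQ1 : algebraMap (Polynomial K) (RatFunc K) q1 ≠ 0 := RatFunc.algebraMap_ne_zero hq1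
  have hp' : p = Polynomial.C c * q1 + (Polynomial.X - Polynomial.C a) * p2 := by
    rw [← hp]; ring
  rw [hq, hp']
  simp only [map_mul, map_add, map_pow, RatFunc.algebraMap_C]
  field_simp
  ring

theorem resThm_div [IsAlgClosed K] : ∀ (n : ℕ) (p q : Polynomial K), q ≠ 0 → q.natDegree = n →
    ResThm (algebraMap (Polynomial K) (RatFunc K) p / algebraMap (Polynomial K) (RatFunc K) q) := by
  intro n
  induction n using Nat.strong_induction_on with
  | _ n ih =>
    intro p q hq0 hqn
    by_cases hn : n = 0
    · -- constant denominator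
      subst hn
      obtain ⟨c, hc⟩ : ∃ c : K, q = Polynomial.C c :=
        ⟨q.coeff 0, Polynomial.eq_C_of_natDegree_eq_zero hqn⟩
      have hc0 : c ≠ 0 := by
        rintro rfl
        exact hq0 (by simpa using hc)
      have : algebraMap (Polynomial K) (RatFunc K) p / algebraMap (Polynomial K) (RatFunc K) q =
          algebraMap (Polynomial K) (RatFunc K) (Polynomial.C c⁻¹ * p) := by
        rw [hc, map_mul, RatFunc.algebraMap_C, RatFunc.algebraMap_C, map_inv₀, div_eq_inv_mul]
      rw [this]
      exact resThm_algebraMap _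
    · -- a root of the denominator
      have hdeg : q.degree ≠ 0 := by
        rw [Polynomial.degree_eq_natDegree hq0, hqn]
        exact_mod_cast hn
      obtain ⟨a, ha⟩ := IsAlgClosed.exists_root q hdeg
      obtain ⟨q1, hq, hndvd⟩ := Polynomial.exists_eq_pow_rootMultiplicity_mul_and_not_dvd q hq0 a
      have hk : 0 < Polynomial.rootMultiplicity a q :=
        (Polynomial.rootMultiplicity_pos hq0).mpr ha
      obtain ⟨m, hm⟩ := Nat.exists_eq_succ_of_ne_zero hk.ne'
      rw [hm] at hq
      have hq1a : q1.eval a ≠ 0 := by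
        intro h
        exact hndvd (Polynomial.dvd_iff_isRoot.mpr h)
      have hq1 : q1 ≠ 0 := by
        rintro rfl
        simp at hq1a
      set c : K := p.eval a / q1.eval a with hc
      have hroot : (p - Polynomial.C c * q1).IsRoot a := by
        simp only [Polynomial.IsRoot.def, Polynomial.eval_sub, Polynomial.eval_mul,
          Polynomial.eval_C, hc]
        field_simp
        ring
      obtain ⟨p2, hp2⟩ := Polynomial.dvd_iff_isRoot.mpr hroot
      rw [partial_fraction_step a c m p q q1 p2 hq1 hq hp2]
      refine resThm_add (resThm_C_mul c (resThm_inv_pow a (m + 1) (Nat.succ_pos m))) ?_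
      have hX : (Polynomial.X - Polynomial.C a) ^ m ≠ 0 :=
        pow_ne_zero _ (Polynomial.X_sub_C_ne_zero a)
      refine ih _ ?_ p2 _ (mul_ne_zero hX hq1) rfl
      rw [← hqn, hq, Polynomial.natDegree_mul hX hq1,
        Polynomial.natDegree_mul (pow_ne_zero _ (Polynomial.X_sub_C_ne_zero a)) hq1,
        Polynomial.natDegree_pow, Polynomial.natDegree_pow, Polynomial.natDegree_X_sub_C]
      omega

theorem ratFunc_residue_theorem [IsAlgClosed K] (g : RatFunc K) :
    ∑ᶠ a : K, (expAt a g).coeff (-1) = (expInf g).coeff 1 := by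
  have := resThm_div g.denom.natDegree g.num g.denom (RatFunc.denom_ne_zero g) rfl
  rwa [RatFunc.num_div_denom] at this

end Fermat.Agent.S20.ResidueRatFunc
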