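import Fermat.Agent.S20.TateResidue
import Fermat.Agent.S20.RRWeak
import Fermat.Agent.S24.PlaceDeg
import Fermat.Agent.S24.OrdBasic

/-!
# Local residues on a function field and the residue theorem, via Tate's abstract residues

`K` a field, `F / K` a function field in the Prelude's language (`AlgebraicCurve.Place`,
`repartitions`, `repartitionsOf`, `principalRepartitions`, `H1`).  Hypotheses (all theorems of
S24 Part A / the weak Riemann–Roch block for `K` algebraically closed):

* `hres : ResidueIsBase K F` (every residue field is `K`),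
* `hfin` : every nonzero function has finitely many zeros and poles,
* `Module.Finite K (H1 0)` and `Module.Finite K (riemannRochSpace 0)` for the global theorem.

No Laurent expansions, completions, traces to `K(x)` or partial fractions are used.
-/

set_option autoImplicit false

namespace Fermat.Agent.S20.ResidueThm

open AlgebraicCurve KaehlerDifferential Module
open Fermat.Agent.S20.TateTrace Fermat.Agent.S20.TateClasses Fermat.Agent.S20.TateResidue
open Fermat.Agent.S20.RRWeak Fermat.Agent.S24

variable {K F : Type*} [Field K] [Field F] [Algebra K F]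

/-! ### The valuation ring as a `K`-subspace -/

/-- `O_v` as a `K`-subspace of `F`. -/
def OV (v : Place K F) : Submodule K F where
  carrier := {f | f ∈ v.toValuationSubring}
  add_mem' := fun ha hb => v.toValuationSubring.add_mem _ _ ha hb
  zero_mem' := v.toValuationSubring.zero_mem
  smul_mem' := fun c f hf => by
    show c • f ∈ v.toValuationSubring
    rw [Algebra.smul_def]
    exact v.toValuationSubring.mul_mem _ _ (v.algebraMap_mem' c) hf

theorem mem_OV {v : Place K F} {f : F} : f ∈ OV v ↔ f ∈ v.toValuationSubring := Iff.rfl

theorem mem_OV_iff_adic {v : Place K F} {f : F} : f ∈ OV v ↔ v.adicValuation f ≤ 1 := by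
  constructor
  · exact fun h => v.adicValuation_le_one_of_mem h
  · intro h
    rcases v.adicValuation_le_one_iff.mp h with rfl | h0
    · exact (OV v).zero_mem
    · by_cases hf : f = 0
      · rw [hf]; exact (OV v).zero_mem
      · exact (mem_valuationSubring_iff_ord_nonneg v hf).mpr h0

theorem mem_OV_iff_ord {v : Place K F} {f : F} : f ∈ OV v ↔ f = 0 ∨ 0 ≤ v.ord f := by
  rw [mem_OV_iff_adic, v.adicValuation_le_one_iff]

/-! ### Components of repartitions -/

/-- evaluation of a repartition at `v`. -/
def comp (v : Place K F) : ↥(repartitions K F) →ₗ[K] F where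
  toFun α := (α : Place K F → F) v
  map_add' _ _ := rfl
  map_smul' _ _ := rfl

theorem comp_apply (v : Place K F) (α : ↥(repartitions K F)) :
    comp v α = (α : Place K F → F) v := rfl

theorem comp_smul (v : Place K F) (f : F) (α : ↥(repartitions K F)) :
    comp v (f • α) = f * comp v α := rfl

theorem ext_comp {α β : ↥(repartitions K F)} (h : ∀ v, comp v α = comp v β) : α = β :=
  Subtype.ext (funext h)

/-- the repartition supported at `v`, as a linear map. -/
noncomputable def single (v : Place K F) : F →ₗ[K] ↥(repartitions K F) where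
  toFun x := singleRep v x
  map_add' x y := by
    apply ext_comp
    intro w
    by_cases h : w = v
    · subst h
      show ((singleRep w (x + y) : ↥(repartitions K F)) : Place K F → F) w
        = ((singleRep w x : ↥(repartitions K F)) : Place K F → F) w
          + ((singleRep w y : ↥(repartitions K F)) : Place K F → F) w
      rw [singleRep_apply_same, singleRep_apply_same, singleRep_apply_same]
    · show ((singleRep v (x + y) : ↥(repartitions K F)) : Place K F → F) w
        = ((singleRep v x : ↥(repartitions K F)) : Place K F → F) w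
          + ((singleRep v y : ↥(repartitions K F)) : Place K F → F) w
      rw [singleRep_apply_ne h, singleRep_apply_ne h, singleRep_apply_ne h, add_zero]
  map_smul' c x := by
    apply ext_comp
    intro w
    by_cases h : w = v
    · subst h
      show ((singleRep w (c • x) : ↥(repartitions K F)) : Place K F → F) w
        = c • ((singleRep w x : ↥(repartitions K F)) : Place K F → F) w
      rw [singleRep_apply_same, singleRep_apply_same]
    · show ((singleRep v (c • x) : ↥(repartitions K F)) : Place K F → F) w
        = c • ((singleRep v x : ↥(repartitions K F)) : Place K F → F) w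
      rw [singleRep_apply_ne h, singleRep_apply_ne h, smul_zero]

theorem comp_single_same (v : Place K F) (x : F) : comp v (single v x) = x :=
  singleRep_apply_same v x

theorem comp_single_ne {v w : Place K F} (h : w ≠ v) (x : F) : comp w (single v x) = 0 :=
  singleRep_apply_ne h x

/-- `A(0)`, the integral repartitions. -/
abbrev A0 (K F : Type*) [Field K] [Field F] [Algebra K F] : Submodule K ↥(repartitions K F) :=
  repartitionsOf (0 : Divisor K F)

theorem mem_A0_iff {α : ↥(repartitions K F)} : α ∈ A0 K F ↔ ∀ v, comp v α ∈ OV v := by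
  show (∀ v : Place K F, v.adicValuation ((α : Place K F → F) v)
    ≤ WithZero.exp ((0 : Divisor K F) v)) ↔ _
  refine forall_congr' fun v => ?_
  rw [mem_OV_iff_adic, Finsupp.zero_apply, WithZero.exp_zero]
  rfl

theorem single_mem_A0 {v : Place K F} {x : F} (hx : x ∈ OV v) : single v x ∈ A0 K F := by
  rw [mem_A0_iff]
  intro w
  by_cases h : w = v
  · subst h; rw [comp_single_same]; exact hx
  · rw [comp_single_ne h]; exact (OV w).zero_mem

/-! ### Commensurability of the `A(D)` and stability -/

theorem comm_repartitionsOf_step (hres : ResidueIsBase K F) (D : Divisor K F) (v : Place K F) :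
    Comm (repartitionsOf D) (repartitionsOf (D + Finsupp.single v 1)) := by
  refine ⟨NMB.of_le (repartitionsOf_le_add_single D v), ?_⟩
  obtain ⟨e, -, -, hgen⟩ := exists_step_generator hres D v
  refine ⟨K ∙ e, inferInstance, fun α hα => ?_⟩
  obtain ⟨c, hc⟩ := hgen α hα
  have : α = (α - c • e) + c • e := by abel
  rw [this]
  exact Submodule.add_mem_sup hc (Submodule.smul_mem _ c (Submodule.mem_span_singleton_self e))

theorem comm_repartitionsOf (hres : ResidueIsBase K F) (D D' : Divisor K F) :
    Comm (repartitionsOf D) (repartitionsOf D') := by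
  have h := induction_single
    (P := fun E : Divisor K F => Comm (repartitionsOf E) (repartitionsOf D'))
    (fun E v => ⟨fun h => (comm_repartitionsOf_step hres E v).symm.trans h,
      fun h => (comm_repartitionsOf_step hres E v).trans h⟩)
    (D0 := D') (Comm.refl (repartitionsOf D')) D
  exact h

theorem stable_A0 (hres : ResidueIsBase K F)
    (hfin : ∀ f : F, f ≠ 0 → {v : Place K F | v.ord f ≠ 0}.Finite) :
    Stable F (A0 K F) := by
  intro f
  rcases eq_or_ne f 0 with rfl | hf
  · have : (mu (0 : F) : End K ↥(repartitions K F)) = 0 := map_zero _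
    rw [this]
    exact InE.zero
  · set Df : Divisor K F := Finsupp.ofSupportFinite (fun v => v.ord f) (hfin f hf) with hDf
    have hDf_apply : ∀ v, Df v = v.ord f := fun v => rfl
    have hle : (A0 K F).map (mu f : End K ↥(repartitions K F)) ≤ repartitionsOf (-Df) := by
      rintro _ ⟨α, hα, rfl⟩
      rw [mem_repartitionsOf_iff]
      intro v
      have hαv := (mem_A0_iff.mp hα v)
      rw [mem_OV_iff_ord] at hαv
      show f * comp v α = 0 ∨ -(-Df) v ≤ v.ord (f * comp v α)
      rcases hαv with h0 | h0
      · left; rw [h0, mul_zero]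
      · by_cases hz : comp v α = 0
        · left; rw [hz, mul_zero]
        · right
          rw [v.ord_mul hf hz, Finsupp.neg_apply, neg_neg, hDf_apply]
          omega
    exact (NMB.of_le hle).trans (comm_repartitionsOf hres _ _).1

theorem stable_OV (hres : ResidueIsBase K F)
    (hfin : ∀ f : F, f ≠ 0 → {v : Place K F | v.ord f ≠ 0}.Finite) (v : Place K F) :
    Stable F (OV v) := by
  intro f
  obtain ⟨W, hW, hle⟩ := stable_A0 hres hfin f
  refine ⟨W.map (comp v), inferInstance, ?_⟩
  rintro _ ⟨a, ha, rfl⟩
  have h1 : (mu f : End K ↥(repartitions K F)) (single v a) ∈ A0 K F ⊔ W :=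
    hle ⟨single v a, single_mem_A0 ha, rfl⟩
  obtain ⟨β, hβ, w, hw, hsum⟩ := Submodule.mem_sup.mp h1
  have h2 : (mu f : End K F) a = comp v β + comp v w := by
    rw [← map_add, hsum]
    show f • a = comp v (f • single v a)
    rw [comp_smul, comp_single_same]
    rfl
  rw [h2]
  exact Submodule.add_mem_sup (mem_A0_iff.mp hβ v) ⟨w, hw, rfl⟩

theorem stable_principal : Stable F (principalRepartitions K F) := by
  intro f
  refine NMB.of_le ?_
  rintro _ ⟨α, hα, rfl⟩
  obtain ⟨g, rfl⟩ := mem_principalRepartitions_iff_constRep.mp hα
  rw [mem_principalRepartitions_iff_constRep]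
  exact ⟨f * g, rfl⟩

/-! ### The local residue -/

/-- **The local residue at `v`** (Tate). -/
noncomputable def res (hres : ResidueIsBase K F)
    (hfin : ∀ f : F, f ≠ 0 → {v : Place K F | v.ord f ≠ 0}.Finite) (v : Place K F) :
    Ω[F⁄K] →ₗ[K] K :=
  TateResidue.res (OV v) (stable_OV hres hfin v)

variable (hres : ResidueIsBase K F)
  (hfin : ∀ f : F, f ≠ 0 → {v : Place K F | v.ord f ≠ 0}.Finite)

/-- `f dg` has no residue at `v` if `f` and `g` are regular at `v`. -/
theorem res_eq_zero_of_mem (v : Place K F) {f g : F} (hf : f ∈ v.toValuationSubring)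
    (hg : g ∈ v.toValuationSubring) : res hres hfin v (f • D K F g) = 0 :=
  res_eq_zero_of_stable _ (fun a ha => v.toValuationSubring.mul_mem _ _ hf ha)
    (fun a ha => v.toValuationSubring.mul_mem _ _ hg ha)

/-- `res_v (dπ / π) = 1` for a uniformizer `π`. -/
theorem res_dlog (v : Place K F) {π : F} (hπ : v.ord π = 1) :
    res hres hfin v (π⁻¹ • D K F π) = 1 := by
  have hπ0 : π ≠ 0 := by
    rintro rfl
    rw [v.ord_zero] at hπ
    exact zero_ne_one hπ
  have hπmem : π ∈ v.toValuationSubring :=
    (mem_valuationSubring_iff_ord_nonneg v hπ0).mpr (by omega)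
  have key := res_inv_smul_D (A := OV v) (stable_OV hres hfin v) (Units.mk0 π hπ0) (K ∙ (1 : F))
    (fun a ha => v.toValuationSubring.mul_mem _ _ hπmem ha) ?_ ?_ ?_
  · rw [finrank_span_singleton (one_ne_zero : (1 : F) ≠ 0)] at key
    have e : ((↑(Units.mk0 π hπ0)⁻¹ : Fˣ) : F) = π⁻¹ := by simp
    rw [e] at key
    simpa [res] using key
  · -- disjointness
    intro a ha hC
    obtain ⟨c, hc⟩ := Submodule.mem_span_singleton.mp hC
    show π • a = 0
    by_contra hne
    have ha0 : a ≠ 0 := fun h => hne (by rw [h, smul_zero])
    have hc0 : c ≠ 0 := fun h => hne (by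
      have : π • a = c • (1 : F) := hc.symm
      rw [this, h, zero_smul])
    have h1 : v.ord (π • a) = 1 + v.ord a := by
      rw [smul_eq_mul, v.ord_mul hπ0 ha0, hπ]
    have h2 : v.ord (π • a) = 0 := by
      have : π • a = algebraMap K F c := by
        have : π • a = c • (1 : F) := hc.symm
        rw [this, Algebra.smul_def, mul_one]
      rw [this]
      exact Fermat.Agent.S24.OrdBasic.ord_algebraMap v hc0
    have h3 : 0 ≤ v.ord a := (mem_valuationSubring_iff_ord_nonneg v ha0).mp ha
    omega
  · -- decomposition `O_v = π O_v + K`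
    intro a ha
    by_cases ha0 : a = 0
    · exact ⟨0, (OV v).zero_mem, 0, Submodule.zero_mem _, by rw [ha0]; simp⟩
    have hord : 0 ≤ v.ord a := (mem_valuationSubring_iff_ord_nonneg v ha0).mp ha
    obtain ⟨c, hc | hc⟩ := hres v a ha0 hord
    · refine ⟨0, (OV v).zero_mem, a, ?_, by simp⟩
      rw [hc, Algebra.algebraMap_eq_smul_one]
      exact Submodule.smul_mem _ c (Submodule.mem_span_singleton_self _)
    · have hne : a - algebraMap K F c ≠ 0 := by
        intro h
        rw [h, v.ord_zero] at hc
        exact lt_irrefl _ hc
      refine ⟨π⁻¹ * (a - algebraMap K F c), ?_, algebraMap K F c, ?_, ?_⟩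
      · apply (mem_valuationSubring_iff_ord_nonneg v (mul_ne_zero (inv_ne_zero hπ0) hne)).mpr
        rw [v.ord_mul (inv_ne_zero hπ0) hne, v.ord_inv, hπ]
        omega
      · rw [Algebra.algebraMap_eq_smul_one]
        exact Submodule.smul_mem _ c (Submodule.mem_span_singleton_self _)
      · show a = π • (π⁻¹ * (a - algebraMap K F c)) + algebraMap K F c
        rw [smul_eq_mul, ← mul_assoc, mul_inv_cancel₀ hπ0, one_mul]
        ring
  · -- `K ≤ O_v`
    rw [Submodule.span_singleton_le_iff_mem]
    exact v.toValuationSubring.one_mem


/-! ### The commutator is nilpotent at good places -/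

omit hres hfin in
/-- For an honest projection `π` onto `A` and `f`, `g` preserving `A`, the commutator
`[π f, g]` has square zero. -/
theorem comm_comm_eq_zero {V : Type*} [AddCommGroup V] [Module K V] [Module F V]
    [IsScalarTower K F V] {A : Submodule K V} {π : End K V} (hπ : LinearMap.IsProj A π)
    {f g : F} (hf : ∀ a ∈ A, f • a ∈ A) (hg : ∀ a ∈ A, g • a ∈ A) (x : V) :
    (π * mu f * mu g - mu g * (π * mu f) : End K V)
      ((π * mu f * mu g - mu g * (π * mu f) : End K V) x) = 0 := by
  set θ : End K V := π * mu f * mu g - mu g * (π * mu f) with hθ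
  have h1 : ∀ x, θ x ∈ A := by
    intro x
    rw [hθ]
    simp only [LinearMap.sub_apply, Module.End.mul_apply, mu_apply]
    exact A.sub_mem (hπ.map_mem _) (hg _ (hπ.map_mem _))
  have h2 : ∀ a ∈ A, θ a = 0 := by
    intro a ha
    rw [hθ]
    simp only [LinearMap.sub_apply, Module.End.mul_apply, mu_apply]
    rw [hπ.map_id _ (hf _ (hg a ha)), hπ.map_id _ (hf a ha), smul_comm, sub_self]
  exact h2 _ (h1 x)

/-! ### The global residue on repartitions -/

omit hres hfin in
theorem proj_OV_mem (v : Place K F) (x : F) : v.adicValuation (proj (OV v) x) ≤ 1 :=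
  mem_OV_iff_adic.mp ((proj_isProj (OV v)).map_mem x)

/-- the componentwise projection onto `A(0)`. -/
noncomputable def bigProj (K F : Type*) [Field K] [Field F] [Algebra K F] :
    End K ↥(repartitions K F) where
  toFun α := ⟨fun v => proj (OV v) (comp v α), mem_repartitions_of_finite (by
    convert Set.finite_empty
    ext v
    simp only [Set.mem_ofPred_eq, Set.mem_empty_iff_false, iff_false, not_not]
    exact proj_OV_mem v _)⟩
  map_add' α β := by
    apply ext_comp
    intro v
    show proj (OV v) (comp v (α + β)) = proj (OV v) (comp v α) + proj (OV v) (comp v β)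
    rw [map_add, map_add]
  map_smul' c α := by
    apply ext_comp
    intro v
    show proj (OV v) (comp v (c • α)) = c • proj (OV v) (comp v α)
    rw [map_smul, map_smul]

omit hres hfin in
theorem comp_bigProj (v : Place K F) (α : ↥(repartitions K F)) :
    comp v (bigProj K F α) = proj (OV v) (comp v α) := rfl

omit hres hfin in
theorem bigProj_isProj : LinearMap.IsProj (A0 K F) (bigProj K F) := by
  constructor
  · intro α
    rw [mem_A0_iff]
    intro v
    rw [comp_bigProj]
    exact (proj_isProj (OV v)).map_mem _
  · intro α hα
    apply ext_comp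
    intro v
    rw [comp_bigProj]
    exact (proj_isProj (OV v)).map_id _ (mem_A0_iff.mp hα v)

/-- the local commutator at `v`. -/
noncomputable def thetaLoc (v : Place K F) (f g : F) : End K F :=
  proj (OV v) * mu f * mu g - mu g * (proj (OV v) * mu f)

/-- the global commutator. -/
noncomputable def thetaGlob (f g : F) : End K ↥(repartitions K F) :=
  bigProj K F * mu f * mu g - mu g * (bigProj K F * mu f)

omit hres hfin in
theorem comp_thetaGlob (v : Place K F) (f g : F) (α : ↥(repartitions K F)) :
    comp v (thetaGlob f g α) = thetaLoc v f g (comp v α) := by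
  unfold thetaGlob thetaLoc
  simp only [LinearMap.sub_apply, Module.End.mul_apply, mu_apply, map_sub, comp_smul,
    comp_bigProj, smul_eq_mul]

/-- the projection of repartitions to the `v`-component. -/
noncomputable def eComp (v : Place K F) : End K ↥(repartitions K F) := single v ∘ₗ comp v

omit hres hfin in
theorem eComp_inE (v : Place K F) : InE (A0 K F) (eComp v) := by
  refine NMB.of_le ?_
  rintro _ ⟨α, hα, rfl⟩
  exact single_mem_A0 (mem_A0_iff.mp hα v)

omit hres hfin in
theorem thetaGlob_mul_eComp (v : Place K F) (f g : F) :
    thetaGlob f g * eComp v = single v ∘ₗ thetaLoc v f g ∘ₗ comp v := by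
  apply LinearMap.ext
  intro α
  apply ext_comp
  intro w
  rw [Module.End.mul_apply, comp_thetaGlob]
  show thetaLoc w f g (comp w (single v (comp v α)))
    = comp w (single v (thetaLoc v f g (comp v α)))
  by_cases h : w = v
  · subst h
    rw [comp_single_same, comp_single_same]
  · rw [comp_single_ne h, comp_single_ne h, map_zero]

include hres hfin in
theorem thetaLoc_inE0 (v : Place K F) (f g : F) : InE0 (OV v) (thetaLoc v f g) :=
  comm_inE0 (proj_isQProj (OV v)) (stable_OV hres hfin v f) (stable_OV hres hfin v g)
    (mu_comm f g)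

include hres hfin in
theorem thetaGlob_inE0 (f g : F) : InE0 (A0 K F) (thetaGlob f g) :=
  comm_inE0 (isQProj_of_isProj (Comm.refl _) bigProj_isProj) (stable_A0 hres hfin f)
    (stable_A0 hres hfin g) (mu_comm f g)

theorem res_smul_D_eq_ftrace (v : Place K F) (f g : F) :
    res hres hfin v (f • D K F g) = ftrace (thetaLoc v f g) := by
  unfold res
  rw [res_smul_D]
  rfl

theorem ftrace_thetaGlob_mul_eComp (v : Place K F) (f g : F) :
    ftrace (thetaGlob f g * eComp v) = res hres hfin v (f • D K F g) := by
  rw [thetaGlob_mul_eComp, res_smul_D_eq_ftrace]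
  exact (ftrace_conj_retract (single v) (comp v) (comp_single_same v) (thetaLoc v f g)
    (thetaLoc_inE0 hres hfin v f g).isFinitePotent).2

/-- **Sum formula**: the global Tate residue with respect to `A(0)` is the sum of the local
residues over any finite set of places containing the poles of `f` and `g`. -/
theorem ftrace_thetaGlob_eq_sum (f g : F) (S : Finset (Place K F))
    (hS : ∀ v ∉ S, f ∈ v.toValuationSubring ∧ g ∈ v.toValuationSubring) :
    ftrace (thetaGlob f g) = ∑ v ∈ S, res hres hfin v (f • D K F g) := by
  classical
  set θ := thetaGlob (K := K) f g with hθ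
  have hθE : InE0 (A0 K F) θ := thetaGlob_inE0 hres hfin f g
  have hsumE : ∀ v ∈ S, InE0 (A0 K F) (θ * eComp v) := fun v _ => hθE.mul_right (eComp_inE v)
  set N : End K ↥(repartitions K F) := θ - ∑ v ∈ S, θ * eComp v with hN
  have hNE : InE0 (A0 K F) N := hθE.sub (InE0.sum S _ hsumE)
  -- components of `N`
  have hcompN : ∀ (w : Place K F) (α : ↥(repartitions K F)),
      comp w (N α) = if w ∈ S then 0 else thetaLoc w f g (comp w α) := by
    intro w α
    rw [hN, LinearMap.sub_apply, map_sub, LinearMap.sum_apply, map_sum, comp_thetaGlob]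
    have : ∀ v ∈ S, comp w ((θ * eComp v) α)
        = if w = v then thetaLoc w f g (comp w α) else 0 := by
      intro v _
      rw [hθ, thetaGlob_mul_eComp]
      show comp w (single v (thetaLoc v f g (comp v α))) = _
      by_cases h : w = v
      · subst h; rw [comp_single_same, if_pos rfl]
      · rw [comp_single_ne h, if_neg h]
    rw [Finset.sum_congr rfl this, Finset.sum_ite_eq]
    by_cases hw : w ∈ S
    · rw [if_pos hw, if_pos hw, sub_self]
    · rw [if_neg hw, if_neg hw, sub_zero]
  -- `N` has square zero
  have hN2 : N ^ 2 = 0 := by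
    apply LinearMap.ext
    intro α
    apply ext_comp
    intro w
    rw [pow_two, Module.End.mul_apply, hcompN, LinearMap.zero_apply, map_zero]
    by_cases hw : w ∈ S
    · rw [if_pos hw]
    · rw [if_neg hw, hcompN, if_neg hw]
      obtain ⟨hf, hg⟩ := hS w hw
      exact comm_comm_eq_zero (proj_isProj (OV w))
        (fun a ha => w.toValuationSubring.mul_mem _ _ hf ha)
        (fun a ha => w.toValuationSubring.mul_mem _ _ hg ha) _
  have hdecomp : θ = N + ∑ v ∈ S, θ * eComp v := by rw [hN]; abel
  rw [hdecomp, ftrace_add_E0 hNE (InE0.sum S _ hsumE), ftrace_eq_zero_of_pow_eq_zero hN2,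
    zero_add, ftrace_sum_E0 S _ hsumE]
  exact Finset.sum_congr rfl fun v _ => ftrace_thetaGlob_mul_eComp hres hfin v f g


/-! ### The residue theorem -/

omit hres hfin in
theorem nmb_top_of_finite_quotient {V : Type*} [AddCommGroup V] [Module K V] (P : Submodule K V)
    [Module.Finite K (V ⧸ P)] : NMB ⊤ P := by
  obtain ⟨C, hC⟩ := Submodule.exists_isCompl P
  have hfinC : FiniteDimensional K C :=
    LinearEquiv.finiteDimensional (Submodule.quotientEquivOfIsCompl P C hC)
  exact ⟨C, hfinC, by rw [codisjoint_iff.mp hC.codisjoint]⟩

/-- the constant repartition, as a `K`-linear map. -/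
noncomputable def constL (K F : Type*) [Field K] [Field F] [Algebra K F] :
    F →ₗ[K] ↥(repartitions K F) where
  toFun g := constRep g
  map_add' g h := map_add (algebraMap F ↥(repartitions K F)) g h
  map_smul' c g := constRep_smul c g

omit hres hfin in
theorem finiteDimensional_A0_inf_principal
    [Module.Finite K ↥(riemannRochSpace (0 : Divisor K F))] :
    FiniteDimensional K ↥(A0 K F ⊓ principalRepartitions K F) := by
  have hle : A0 K F ⊓ principalRepartitions K F
      ≤ (riemannRochSpace (0 : Divisor K F)).map (constL K F) := by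
    rintro α ⟨hαA, hαB⟩
    obtain ⟨g, rfl⟩ := mem_principalRepartitions_iff_constRep.mp hαB
    exact ⟨g, constRep_mem_repartitionsOf_iff.mp hαA, rfl⟩
  exact Submodule.finiteDimensional_of_le hle

include hres hfin in
/-- The global Tate residue with respect to `A(0)` vanishes on `Ω[F⁄K]`. -/
theorem ftrace_thetaGlob_eq_zero [Module.Finite K (H1 (0 : Divisor K F))]
    [Module.Finite K ↥(riemannRochSpace (0 : Divisor K F))] (f g : F) :
    ftrace (thetaGlob (K := K) f g) = 0 := by
  have hsup : NMB ⊤ (A0 K F ⊔ principalRepartitions K F) :=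
    nmb_top_of_finite_quotient (A0 K F ⊔ principalRepartitions K F)
  have hinf := finiteDimensional_A0_inf_principal (K := K) (F := F)
  have hsum := res_add_res_eq_zero (stable_A0 hres hfin) (stable_principal (K := K) (F := F))
    hsup hinf
  have h1 := LinearMap.congr_fun hsum (f • D K F g)
  rw [LinearMap.add_apply, LinearMap.zero_apply] at h1
  have h2 : TateResidue.res (principalRepartitions K F) (stable_principal (K := K) (F := F))
      (f • D K F g) = 0 := by
    apply res_eq_zero_of_stable
    · intro α hα
      obtain ⟨x, rfl⟩ := mem_principalRepartitions_iff_constRep.mp hα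
      exact mem_principalRepartitions_iff_constRep.mpr ⟨f * x, rfl⟩
    · intro α hα
      obtain ⟨x, rfl⟩ := mem_principalRepartitions_iff_constRep.mp hα
      exact mem_principalRepartitions_iff_constRep.mpr ⟨g * x, rfl⟩
  rw [h2, add_zero, res_smul_D_eq (stable_A0 hres hfin) (Comm.refl _)
    (isQProj_of_isProj (Comm.refl _) bigProj_isProj)] at h1
  exact h1

omit hres hfin in
theorem finite_not_mem (hfin : ∀ f : F, f ≠ 0 → {v : Place K F | v.ord f ≠ 0}.Finite) (f : F) :
    {v : Place K F | f ∉ v.toValuationSubring}.Finite := by
  rcases eq_or_ne f 0 with rfl | hf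
  · convert Set.finite_empty
    ext v
    simp only [Set.mem_ofPred_eq, Set.mem_empty_iff_false, iff_false, not_not]
    exact v.toValuationSubring.zero_mem
  · refine (hfin f hf).subset fun v hv => ?_
    intro h0
    apply hv
    exact (mem_valuationSubring_iff_ord_nonneg v hf).mpr (by rw [h0])

/-- The residue theorem for `f dg`. -/
theorem finsum_res_smul_D [Module.Finite K (H1 (0 : Divisor K F))]
    [Module.Finite K ↥(riemannRochSpace (0 : Divisor K F))] (f g : F) :
    (Function.support fun v => res hres hfin v (f • D K F g)).Finite ∧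
      ∑ᶠ v, res hres hfin v (f • D K F g) = 0 := by
  classical
  set S : Finset (Place K F) := ((finite_not_mem hfin f).union (finite_not_mem hfin g)).toFinset
    with hSdef
  have hS : ∀ v ∉ S, f ∈ v.toValuationSubring ∧ g ∈ v.toValuationSubring := by
    intro v hv
    rw [hSdef, Set.Finite.mem_toFinset, Set.mem_union, not_or] at hv
    exact ⟨not_not.mp hv.1, not_not.mp hv.2⟩
  have hsupp : (Function.support fun v => res hres hfin v (f • D K F g)) ⊆ ↑S := by
    intro v hv
    by_contra hvS
    obtain ⟨hf, hg⟩ := hS v hvS
    exact hv (res_eq_zero_of_mem hres hfin v hf hg)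
  refine ⟨S.finite_toSet.subset hsupp, ?_⟩
  rw [finsum_eq_sum_of_support_subset _ hsupp, ← ftrace_thetaGlob_eq_sum hres hfin f g S hS]
  exact ftrace_thetaGlob_eq_zero hres hfin f g

/-- **The residue theorem**: the local residues of a differential have finite support and sum
to zero. -/
theorem finsum_res [Module.Finite K (H1 (0 : Divisor K F))]
    [Module.Finite K ↥(riemannRochSpace (0 : Divisor K F))] (ω : Ω[F⁄K]) :
    (Function.support fun v => res hres hfin v ω).Finite ∧ ∑ᶠ v, res hres hfin v ω = 0 := by
  have hω : ω ∈ Submodule.span K {ω : Ω[F⁄K] | ∃ f g : F, ω = f • D K F g} := by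
    rw [span_smul_D_eq_top]; trivial
  induction hω using Submodule.span_induction with
  | mem x hx =>
    obtain ⟨f, g, rfl⟩ := hx
    exact finsum_res_smul_D hres hfin f g
  | zero =>
    constructor
    · convert Set.finite_empty
      ext v
      simp
    · simp
  | add x y _ _ hx hy =>
    constructor
    · refine (hx.1.union hy.1).subset fun v hv => ?_
      by_contra hcon
      rw [Set.mem_union, not_or, Function.mem_support, Function.mem_support, not_not,
        not_not] at hcon
      apply hv
      show res hres hfin v (x + y) = 0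
      rw [map_add, hcon.1, hcon.2, add_zero]
    · have : (fun v => res hres hfin v (x + y))
          = fun v => res hres hfin v x + res hres hfin v y := by
        funext v; rw [map_add]
      rw [this, finsum_add_distrib hx.1 hy.1, hx.2, hy.2, add_zero]
  | smul c x _ hx =>
    constructor
    · refine hx.1.subset fun v hv => ?_
      intro h0
      apply hv
      show res hres hfin v (c • x) = 0
      have h0' : res hres hfin v x = 0 := h0
      rw [map_smul, h0', smul_zero]
    · have : (fun v => res hres hfin v (c • x)) = fun v => c • res hres hfin v x := by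
        funext v; rw [map_smul]
      rw [this, ← smul_finsum' c hx.1, hx.2, smul_zero]

end Fermat.Agent.S20.ResidueThm
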