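/-
Tate's residue (J. Tate, "Residues of differentials on curves", 1968) in "block form":
we fix an idempotent `p` of `End_K V` (a projector onto the subspace `A = range p`) and work with
finite-rank traces only.
-/
import Mathlib
import Fermat.Agent.S20.FiniteRankTrace

set_option autoImplicit false
set_option linter.unusedSectionVars false

namespace Fermat.Agent.S20.TateBlock

open Fermat.Agent.S20.FiniteRankTrace

variable {K : Type*} [Field K] {V : Type*} [AddCommGroup V] [Module K V]

/-- finite rank for elements of the endomorphism ring. -/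
abbrev FR (θ : Module.End K V) : Prop := IsFiniteRank (K := K) (θ : V →ₗ[K] V)

theorem FR.mul_left {θ : Module.End K V} (h : FR θ) (φ : Module.End K V) : FR (φ * θ) :=
  isFiniteRank_comp_left h φ

theorem FR.mul_right {θ : Module.End K V} (h : FR θ) (φ : Module.End K V) : FR (θ * φ) :=
  isFiniteRank_comp_right h φ

theorem FR.add {θ₁ θ₂ : Module.End K V} (h₁ : FR θ₁) (h₂ : FR θ₂) : FR (θ₁ + θ₂) :=
  isFiniteRank_add h₁ h₂

theorem FR.sub {θ₁ θ₂ : Module.End K V} (h₁ : FR θ₁) (h₂ : FR θ₂) : FR (θ₁ - θ₂) :=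
  isFiniteRank_sub h₁ h₂

theorem FR.neg {θ : Module.End K V} (h : FR θ) : FR (-θ) := isFiniteRank_neg h

theorem FR.smul {θ : Module.End K V} (h : FR θ) (c : K) : FR (c • θ) := isFiniteRank_smul h c

theorem FR.zero : FR (0 : Module.End K V) := isFiniteRank_zero

theorem tr_mul_comm (X Y : Module.End K V) (hX : FR X) : trfr (X * Y) = trfr (Y * X) :=
  trfr_comm X Y hX

theorem tr_mul_comm' (X Y : Module.End K V) (hY : FR Y) : trfr (X * Y) = trfr (Y * X) :=
  trfr_comm' X Y hY

/-- `φ ∈ E`: `φ A ≺ A` for `A = range p`. -/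
def InE (p φ : Module.End K V) : Prop := FR ((1 - p) * φ * p)

/-- `θ ∈ E₀`: `θ V ≺ A` and `θ A ≺ 0`. -/
def InE0 (p θ : Module.End K V) : Prop := FR (θ * p) ∧ FR ((1 - p) * θ)

/-- Tate's trace on `E₀` (for the fixed projector `p`). -/
noncomputable def Tr0 (p θ : Module.End K V) : K := trfr (θ * p) + trfr ((1 - p) * θ)

section basic

variable {p : Module.End K V}

theorem InE.one (hp : p * p = p) : InE p (1 : Module.End K V) := by
  unfold InE
  have : (1 - p) * 1 * p = 0 := by rw [mul_one, sub_mul, one_mul, hp, sub_self]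
  rw [this]; exact FR.zero

theorem InE.of_fr {φ : Module.End K V} (h : FR φ) : InE p φ := by
  unfold InE
  exact (h.mul_left _).mul_right _

theorem InE.add {φ ψ : Module.End K V} (h₁ : InE p φ) (h₂ : InE p ψ) : InE p (φ + ψ) := by
  unfold InE at *
  have : (1 - p) * (φ + ψ) * p = (1 - p) * φ * p + (1 - p) * ψ * p := by noncomm_ring
  rw [this]; exact h₁.add h₂

theorem InE.sub {φ ψ : Module.End K V} (h₁ : InE p φ) (h₂ : InE p ψ) : InE p (φ - ψ) := by
  unfold InE at *
  have : (1 - p) * (φ - ψ) * p = (1 - p) * φ * p - (1 - p) * ψ * p := by noncomm_ring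
  rw [this]; exact h₁.sub h₂

theorem InE.smul {φ : Module.End K V} (h : InE p φ) (c : K) : InE p (c • φ) := by
  unfold InE at *
  have : (1 - p) * (c • φ) * p = c • ((1 - p) * φ * p) := by
    rw [mul_smul_comm, smul_mul_assoc]
  rw [this]; exact h.smul c

theorem InE.zero : InE p (0 : Module.End K V) := by
  unfold InE; simpa using (FR.zero (K := K) (V := V))

theorem InE.mul {φ ψ : Module.End K V} (h₁ : InE p φ) (h₂ : InE p ψ) : InE p (φ * ψ) := by
  unfold InE at *
  have : (1 - p) * (φ * ψ) * p
      = ((1 - p) * φ * p) * (ψ * p) + ((1 - p) * φ) * ((1 - p) * ψ * p) := by noncomm_ring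
  rw [this]
  exact (h₁.mul_right _).add (h₂.mul_left _)

theorem InE0.add {θ₁ θ₂ : Module.End K V} (h₁ : InE0 p θ₁) (h₂ : InE0 p θ₂) :
    InE0 p (θ₁ + θ₂) := by
  unfold InE0 at *
  rw [add_mul, mul_add]
  exact ⟨h₁.1.add h₂.1, h₁.2.add h₂.2⟩

theorem InE0.sub {θ₁ θ₂ : Module.End K V} (h₁ : InE0 p θ₁) (h₂ : InE0 p θ₂) :
    InE0 p (θ₁ - θ₂) := by
  unfold InE0 at *
  rw [sub_mul, mul_sub]
  exact ⟨h₁.1.sub h₂.1, h₁.2.sub h₂.2⟩

theorem InE0.smul {θ : Module.End K V} (h : InE0 p θ) (c : K) : InE0 p (c • θ) := by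
  unfold InE0 at *
  rw [smul_mul_assoc, mul_smul_comm]
  exact ⟨h.1.smul c, h.2.smul c⟩

theorem InE0.mul_right {θ φ : Module.End K V} (h : InE0 p θ) (hφ : InE p φ) :
    InE0 p (θ * φ) := by
  unfold InE0 InE at *
  constructor
  · have : θ * φ * p = (θ * p) * (φ * p) + θ * ((1 - p) * φ * p) := by noncomm_ring
    rw [this]
    exact (h.1.mul_right _).add (hφ.mul_left _)
  · rw [← mul_assoc]
    exact h.2.mul_right _

theorem InE0.mul_left {θ φ : Module.End K V} (h : InE0 p θ) (hφ : InE p φ) :
    InE0 p (φ * θ) := by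
  unfold InE0 InE at *
  constructor
  · rw [mul_assoc]
    exact h.1.mul_left _
  · have : (1 - p) * (φ * θ) = ((1 - p) * φ * p) * θ + ((1 - p) * φ) * ((1 - p) * θ) := by
      noncomm_ring
    rw [this]
    exact (hφ.mul_right _).add (h.2.mul_left _)

theorem Tr0_add {θ₁ θ₂ : Module.End K V} (h₁ : InE0 p θ₁) (h₂ : InE0 p θ₂) :
    Tr0 p (θ₁ + θ₂) = Tr0 p θ₁ + Tr0 p θ₂ := by
  unfold Tr0
  rw [add_mul, mul_add, trfr_add h₁.1 h₂.1, trfr_add h₁.2 h₂.2]
  ring

theorem Tr0_sub {θ₁ θ₂ : Module.End K V} (h₁ : InE0 p θ₁) (h₂ : InE0 p θ₂) :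
    Tr0 p (θ₁ - θ₂) = Tr0 p θ₁ - Tr0 p θ₂ := by
  unfold Tr0
  rw [sub_mul, mul_sub, trfr_sub h₁.1 h₂.1, trfr_sub h₁.2 h₂.2]
  ring

theorem Tr0_smul {θ : Module.End K V} (h : InE0 p θ) (c : K) :
    Tr0 p (c • θ) = c * Tr0 p θ := by
  unfold Tr0
  rw [smul_mul_assoc, mul_smul_comm, trfr_smul c _ h.1, trfr_smul c _ h.2]
  ring

theorem Tr0_zero : Tr0 p (0 : Module.End K V) = 0 := by
  unfold Tr0
  simp [trfr_zero]

/-- For finite rank operators, Tate's trace is the finite-rank trace (needs `p` idempotent only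
through `p + (1 - p) = 1`). -/
theorem Tr0_eq_trfr {θ : Module.End K V} (h : FR θ) : Tr0 p θ = trfr θ := by
  unfold Tr0
  rw [tr_mul_comm θ p h, ← trfr_add (h.mul_left _) (h.mul_left _), ← add_mul]
  simp

/-- The key commutation property: `Tr0 (θ φ) = Tr0 (φ θ)` for `θ ∈ E₀`, `φ ∈ E`. -/
theorem Tr0_comm (hp : p * p = p) {θ φ : Module.End K V} (h : InE0 p θ) (hφ : InE p φ) :
    Tr0 p (θ * φ) = Tr0 p (φ * θ) := by
  unfold InE0 InE at *
  obtain ⟨h1, h2⟩ := h
  unfold Tr0
  have hpq : p * (1 - p) = 0 := by rw [mul_sub, mul_one, hp, sub_self]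
  -- first expansion
  have a1 : θ * φ * p = (θ * p) * (φ * p) + θ * ((1 - p) * φ * p) := by noncomm_ring
  have a2 : (1 - p) * (θ * φ) = ((1 - p) * θ * p) * φ + ((1 - p) * θ) * ((1 - p) * φ) := by
    noncomm_ring
  have b1 : φ * θ * p = (φ * p) * (θ * p) + φ * ((1 - p) * θ * p) := by noncomm_ring
  have b2 : (1 - p) * (φ * θ) = ((1 - p) * φ * p) * θ + ((1 - p) * φ) * ((1 - p) * θ) := by
    noncomm_ring
  have h2p : FR ((1 - p) * θ * p) := h2.mul_right _
  rw [a1, a2, b1, b2,
    trfr_add (h1.mul_right _) (hφ.mul_left _),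
    trfr_add (h2p.mul_right _) (h2.mul_right _),
    trfr_add (h1.mul_left _) (h2p.mul_left _),
    trfr_add (hφ.mul_right _) (h2.mul_left _),
    tr_mul_comm (θ * p) (φ * p) h1,
    tr_mul_comm' θ ((1 - p) * φ * p) hφ,
    tr_mul_comm ((1 - p) * θ * p) φ h2p,
    tr_mul_comm ((1 - p) * θ) ((1 - p) * φ) h2]
  ring

end basic

section residue

variable {p : Module.End K V}

/-- The commutator `[p f, g] = p f g - g p f`. -/
def comm (p f g : Module.End K V) : Module.End K V := p * f * g - g * p * f

theorem comm_eq {f g : Module.End K V} (hfg : Commute f g) :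
    comm p f g = p * g * (1 - p) * f - (1 - p) * g * p * f := by
  unfold comm
  have : p * f * g = p * g * f := by rw [mul_assoc, hfg.eq, ← mul_assoc]
  rw [this]
  noncomm_ring

theorem inE0_comm (hp : p * p = p) {f g : Module.End K V} (hfg : Commute f g) (hf : InE p f)
    (hg : InE p g) : InE0 p (comm p f g) := by
  rw [comm_eq hfg]
  have hqp : (1 - p) * p = 0 := by rw [sub_mul, one_mul, hp, sub_self]
  unfold InE0 InE at *
  constructor
  · have : (p * g * (1 - p) * f - (1 - p) * g * p * f) * p
        = p * g * ((1 - p) * f * p) - ((1 - p) * g * p) * (f * p) := by noncomm_ring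
    rw [this]
    exact (hf.mul_left _).sub (hg.mul_right _)
  · have : (1 - p) * (p * g * (1 - p) * f - (1 - p) * g * p * f)
        = ((1 - p) * p) * (g * (1 - p) * f) - (1 - p) * (((1 - p) * g * p) * f) := by
      noncomm_ring
    rw [this, hqp, zero_mul, zero_sub]
    exact ((hg.mul_right _).mul_left _).neg

/-- Tate's residue pairing `res(f dg)` for commuting `f, g ∈ E`. -/
noncomputable def resPair (p f g : Module.End K V) : K := Tr0 p (comm p f g)

theorem comm_add_left (f₁ f₂ g : Module.End K V) :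
    comm p (f₁ + f₂) g = comm p f₁ g + comm p f₂ g := by
  unfold comm; noncomm_ring

theorem comm_add_right (f g₁ g₂ : Module.End K V) :
    comm p f (g₁ + g₂) = comm p f g₁ + comm p f g₂ := by
  unfold comm; noncomm_ring

theorem comm_smul_left (c : K) (f g : Module.End K V) :
    comm p (c • f) g = c • comm p f g := by
  unfold comm
  rw [mul_smul_comm, smul_mul_assoc, mul_smul_comm, smul_sub]

theorem comm_smul_right (c : K) (f g : Module.End K V) :
    comm p f (c • g) = c • comm p f g := by
  unfold comm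
  rw [mul_smul_comm, smul_mul_assoc, smul_mul_assoc, smul_sub]

theorem resPair_add_left (hp : p * p = p) {f₁ f₂ g : Module.End K V} (h₁ : Commute f₁ g)
    (h₂ : Commute f₂ g) (hf₁ : InE p f₁) (hf₂ : InE p f₂) (hg : InE p g) :
    resPair p (f₁ + f₂) g = resPair p f₁ g + resPair p f₂ g := by
  unfold resPair
  rw [comm_add_left, Tr0_add (inE0_comm hp h₁ hf₁ hg) (inE0_comm hp h₂ hf₂ hg)]

theorem resPair_add_right (hp : p * p = p) {f g₁ g₂ : Module.End K V} (h₁ : Commute f g₁)
    (h₂ : Commute f g₂) (hf : InE p f) (hg₁ : InE p g₁) (hg₂ : InE p g₂) :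
    resPair p f (g₁ + g₂) = resPair p f g₁ + resPair p f g₂ := by
  unfold resPair
  rw [comm_add_right, Tr0_add (inE0_comm hp h₁ hf hg₁) (inE0_comm hp h₂ hf hg₂)]

theorem resPair_smul_left (hp : p * p = p) (c : K) {f g : Module.End K V} (h : Commute f g)
    (hf : InE p f) (hg : InE p g) :
    resPair p (c • f) g = c * resPair p f g := by
  unfold resPair
  rw [comm_smul_left, Tr0_smul (inE0_comm hp h hf hg)]

theorem resPair_smul_right (hp : p * p = p) (c : K) {f g : Module.End K V} (h : Commute f g)
    (hf : InE p f) (hg : InE p g) :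
    resPair p f (c • g) = c * resPair p f g := by
  unfold resPair
  rw [comm_smul_right, Tr0_smul (inE0_comm hp h hf hg)]

/-- `ρ = h p - p h ∈ E₀` for `h ∈ E`. -/
theorem inE0_swap (hp : p * p = p) {h : Module.End K V} (hh : InE p h) :
    InE0 p (h * p - p * h) := by
  have hqp : (1 - p) * p = 0 := by rw [sub_mul, one_mul, hp, sub_self]
  unfold InE0 InE at *
  constructor
  · have : (h * p - p * h) * p = (1 - p) * h * p := by
      have e : h * p * p = h * p := by rw [mul_assoc, hp]
      rw [sub_mul, e]; noncomm_ring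
    rw [this]; exact hh
  · have : (1 - p) * (h * p - p * h) = (1 - p) * h * p := by
      have e : (1 - p) * (p * h) = 0 := by rw [← mul_assoc, hqp, zero_mul]
      rw [mul_sub, e, sub_zero, mul_assoc]
    rw [this]; exact hh

/-- **Leibniz rule** `res(f d(gh)) = res(fg dh) + res(fh dg)`. -/
theorem resPair_mul_right (hp : p * p = p) {f g h : Module.End K V} (hfg : Commute f g)
    (hfh : Commute f h) (hgh : Commute g h) (hf : InE p f) (hg : InE p g) (hh : InE p h) :
    resPair p f (g * h) = resPair p (f * g) h + resPair p (f * h) g := by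
  unfold resPair
  -- `[p f, g h] = [p (f g), h] + [p (f h), g] + [(h p - p h) f, g]`
  have key : comm p f (g * h) = comm p (f * g) h + comm p (f * h) g
      + ((h * p - p * h) * f * g - g * ((h * p - p * h) * f)) := by
    unfold comm
    have e1 : p * (f * h) * g = p * h * f * g := by
      rw [hfh.eq]; noncomm_ring
    have e2 : g * p * (f * h) = g * p * h * f := by
      rw [hfh.eq]; noncomm_ring
    rw [e1, e2]
    noncomm_ring
  have hρ : InE0 p (h * p - p * h) := inE0_swap hp hh
  have hρf : InE0 p ((h * p - p * h) * f) := hρ.mul_right hf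
  have h1 : InE0 p (comm p (f * g) h) :=
    inE0_comm hp ((hfh.mul_left hgh : Commute (f * g) h)) (hf.mul hg) hh
  have h2 : InE0 p (comm p (f * h) g) :=
    inE0_comm hp ((hfg.mul_left hgh.symm : Commute (f * h) g)) (hf.mul hh) hg
  have h3a : InE0 p ((h * p - p * h) * f * g) := hρf.mul_right hg
  have h3b : InE0 p (g * ((h * p - p * h) * f)) := hρf.mul_left hg
  rw [key, Tr0_add (h1.add h2) (h3a.sub h3b), Tr0_add h1 h2, Tr0_sub h3a h3b,
    Tr0_comm hp hρf hg, sub_self, add_zero]

/-- (R1): if `f` and `g` both preserve `A = range p` then `res(f dg) = 0`. -/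
theorem resPair_eq_zero_of_stable (hp : p * p = p) {f g : Module.End K V} (hfg : Commute f g)
    (hf : (1 - p) * f * p = 0) (hg : (1 - p) * g * p = 0) : resPair p f g = 0 := by
  have hqp : (1 - p) * p = 0 := by rw [sub_mul, one_mul, hp, sub_self]
  unfold resPair Tr0
  rw [comm_eq hfg]
  have e1 : (p * g * (1 - p) * f - (1 - p) * g * p * f) * p = 0 := by
    have : (p * g * (1 - p) * f - (1 - p) * g * p * f) * p
        = p * g * ((1 - p) * f * p) - ((1 - p) * g * p) * (f * p) := by noncomm_ring
    rw [this, hf, hg]; simp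
  have e2 : (1 - p) * (p * g * (1 - p) * f - (1 - p) * g * p * f) = 0 := by
    have : (1 - p) * (p * g * (1 - p) * f - (1 - p) * g * p * f)
        = ((1 - p) * p) * (g * (1 - p) * f) - (1 - p) * (((1 - p) * g * p) * f) := by
      noncomm_ring
    rw [this, hqp, hg]; simp
  rw [e1, e2, trfr_zero, add_zero]

/-- componentwise vanishing used in the adelic computation. -/
theorem comm_mul_p_eq_zero_of_stable {f g : Module.End K V} (hfg : Commute f g)
    (hf : (1 - p) * f * p = 0) (hg : (1 - p) * g * p = 0) : comm p f g * p = 0 := by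
  rw [comm_eq hfg]
  have : (p * g * (1 - p) * f - (1 - p) * g * p * f) * p
      = p * g * ((1 - p) * f * p) - ((1 - p) * g * p) * (f * p) := by noncomm_ring
  rw [this, hf, hg]; simp

theorem q_mul_comm_eq_zero_of_stable (hp : p * p = p) {f g : Module.End K V} (hfg : Commute f g)
    (hg : (1 - p) * g * p = 0) : (1 - p) * comm p f g = 0 := by
  have hqp : (1 - p) * p = 0 := by rw [sub_mul, one_mul, hp, sub_self]
  rw [comm_eq hfg]
  have : (1 - p) * (p * g * (1 - p) * f - (1 - p) * g * p * f)
      = ((1 - p) * p) * (g * (1 - p) * f) - (1 - p) * (((1 - p) * g * p) * f) := by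
    noncomm_ring
  rw [this, hqp, hg]; simp

end residue

section independence

variable {p p' : Module.End K V}

/-- Two projectors with the same range: `p' p = p`, `p p' = p'`. -/
structure SameRange (p p' : Module.End K V) : Prop where
  left : p' * p = p
  right : p * p' = p'

theorem SameRange.symm (h : SameRange p p') : SameRange p' p := ⟨h.right, h.left⟩

theorem SameRange.idem (h : SameRange p p') : p * p = p := by
  calc p * p = p * (p' * p) := by rw [h.left]
    _ = (p * p') * p := by rw [mul_assoc]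
    _ = p := by rw [h.right, h.left]

theorem SameRange.p_mul_delta (h : SameRange p p') : p * (p' - p) = p' - p := by
  rw [mul_sub, h.right, h.idem]

theorem SameRange.delta_mul_p (h : SameRange p p') : (p' - p) * p = 0 := by
  rw [sub_mul, h.left, h.idem, sub_self]

theorem SameRange.delta_mul_q (h : SameRange p p') : (p' - p) * (1 - p) = p' - p := by
  rw [mul_sub, mul_one, h.delta_mul_p, sub_zero]

theorem SameRange.q_mul_delta (h : SameRange p p') : (1 - p) * (p' - p) = 0 := by
  rw [sub_mul, one_mul, h.p_mul_delta, sub_self]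

theorem InE.of_sameRange (h : SameRange p p') {φ : Module.End K V} (hφ : InE p φ) :
    InE p' φ := by
  unfold InE at *
  set δ := p' - p with hδ
  have e1 : p' = p + δ := by rw [hδ]; abel
  have hpd : p * δ = δ := h.p_mul_delta
  have hdq : δ * (1 - p) = δ := h.delta_mul_q
  have key : (1 - p') * φ * p' = (1 - p) * φ * p + ((1 - p) * φ * p) * δ
      - δ * ((1 - p) * φ * p) - δ * ((1 - p) * φ * p) * δ := by
    have a1 : ((1 - p) * φ * p) * δ = (1 - p) * φ * δ := by rw [mul_assoc, hpd]
    have a2 : δ * ((1 - p) * φ * p) = δ * φ * p := by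
      rw [← mul_assoc, ← mul_assoc, hdq]
    have a3 : δ * ((1 - p) * φ * p) * δ = δ * φ * δ := by
      rw [a2, mul_assoc, hpd]
    rw [a3, a1, a2, e1]
    noncomm_ring
  rw [key]
  exact (((hφ.add (hφ.mul_right _)).sub (hφ.mul_left _))).sub ((hφ.mul_left _).mul_right _)

theorem InE0.of_sameRange (h : SameRange p p') {θ : Module.End K V} (hθ : InE0 p θ) :
    InE0 p' θ := by
  unfold InE0 at *
  set δ := p' - p with hδ
  have e1 : p' = p + δ := by rw [hδ]; abel
  have hpd : p * δ = δ := h.p_mul_delta
  have hdq : δ * (1 - p) = δ := h.delta_mul_q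
  constructor
  · have : θ * p' = θ * p + (θ * p) * δ := by
      rw [mul_assoc, hpd, e1, mul_add]
    rw [this]
    exact hθ.1.add (hθ.1.mul_right _)
  · have : (1 - p') * θ = (1 - p) * θ - δ * ((1 - p) * θ) := by
      rw [← mul_assoc, hdq, e1]; noncomm_ring
    rw [this]
    exact hθ.2.sub (hθ.2.mul_left _)

theorem Tr0_of_sameRange (h : SameRange p p') {θ : Module.End K V} (hθ : InE0 p θ) :
    Tr0 p' θ = Tr0 p θ := by
  unfold InE0 at hθ
  unfold Tr0
  set δ := p' - p with hδ
  have e1 : p' = p + δ := by rw [hδ]; abel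
  have hpd : p * δ = δ := h.p_mul_delta
  have hdq : δ * (1 - p) = δ := h.delta_mul_q
  have a1 : θ * p' = θ * p + (θ * p) * δ := by
    rw [mul_assoc, hpd, e1, mul_add]
  have a2 : (1 - p') * θ = (1 - p) * θ - δ * ((1 - p) * θ) := by
    rw [← mul_assoc, hdq, e1]; noncomm_ring
  have hqθp : FR ((1 - p) * θ * p) := hθ.2.mul_right _
  rw [a1, a2, trfr_add hθ.1 (hθ.1.mul_right _), trfr_sub hθ.2 (hθ.2.mul_left _)]
  -- the two correction terms agree
  have c1 : trfr ((θ * p) * δ) = trfr (δ * ((1 - p) * θ * p)) := by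
    rw [tr_mul_comm (θ * p) δ hθ.1]
    congr 1
    rw [← mul_assoc, ← mul_assoc, ← mul_assoc, hdq]
  have c2 : trfr (δ * ((1 - p) * θ)) = trfr (δ * ((1 - p) * θ * p)) := by
    rw [tr_mul_comm' δ ((1 - p) * θ) hθ.2]
    have : (1 - p) * θ * δ = ((1 - p) * θ * p) * δ := by rw [mul_assoc ((1 - p) * θ) p δ, hpd]
    rw [this, tr_mul_comm ((1 - p) * θ * p) δ hqθp]
  rw [c1, c2]
  ring

/-- The residue pairing does not depend on the choice of the projector onto `A`. -/
theorem resPair_of_sameRange (h : SameRange p p') {f g : Module.End K V} (hfg : Commute f g)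
    (hf : InE p f) (hg : InE p g) : resPair p' f g = resPair p f g := by
  unfold resPair
  have hp := h.idem
  set δ := p' - p with hδ
  have e1 : p' = p + δ := by rw [hδ]; abel
  have hpd : p * δ = δ := h.p_mul_delta
  have hdq : δ * (1 - p) = δ := h.delta_mul_q
  have hqd : (1 - p) * δ = 0 := h.q_mul_delta
  have hδf : InE0 p (δ * f) := by
    unfold InE0 InE at *
    constructor
    · have : δ * f * p = δ * ((1 - p) * f * p) := by
        rw [← mul_assoc, ← mul_assoc, hdq]
      rw [this]; exact hf.mul_left _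
    · rw [← mul_assoc, hqd, zero_mul]; exact FR.zero
  have key : comm p' f g = comm p f g + ((δ * f) * g - g * (δ * f)) := by
    unfold comm; rw [e1]; noncomm_ring
  have h0 : InE0 p (comm p f g) := inE0_comm hp hfg hf hg
  have h1 : InE0 p ((δ * f) * g) := hδf.mul_right hg
  have h2 : InE0 p (g * (δ * f)) := hδf.mul_left hg
  have hmem : InE0 p (comm p' f g) := by rw [key]; exact h0.add (h1.sub h2)
  rw [Tr0_of_sameRange h hmem, key, Tr0_add h0 (h1.sub h2), Tr0_sub h1 h2, Tr0_comm hp hδf hg,
    sub_self, add_zero]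

end independence

section dlog

variable {p : Module.End K V}

/-- (R3) `res(g⁻¹ dg) = dim A / gA` when `g A ⊆ A`: here in the form
`res(g⁻¹ dg) = rank of the idempotent (1 - g p g⁻¹) p`. -/
theorem resPair_inv (hp : p * p = p) {g gi : Module.End K V} (h1 : g * gi = 1) (h2 : gi * g = 1)
    (hg : (1 - p) * g * p = 0) (hgi : InE p gi) :
    resPair p gi g
      = (Module.finrank K (LinearMap.range ((1 - g * p * gi) * p : Module.End K V)) : K) := by
  unfold resPair Tr0 comm
  set p' := g * p * gi with hp'
  have hqp' : (1 - p) * p' = 0 := by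
    rw [hp', ← mul_assoc, ← mul_assoc, hg, zero_mul]
  have hpp' : p * p' = p' := by
    have : p * p' = p' - (1 - p) * p' := by noncomm_ring
    rw [this, hqp', sub_zero]
  have hp'p' : p' * p' = p' := by
    rw [hp']
    calc g * p * gi * (g * p * gi) = g * p * (gi * g) * p * gi := by noncomm_ring
      _ = g * (p * p) * gi := by rw [h2]; noncomm_ring
      _ = g * p * gi := by rw [hp]
  have e0 : p * gi * g - g * p * gi = p - p' := by
    rw [mul_assoc, h2, mul_one]
  have e1 : (p - p') * p = (1 - p') * p := by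
    rw [sub_mul, sub_mul, one_mul, hp]
  have e2 : (1 - p) * (p - p') = 0 := by
    rw [mul_sub, hqp', sub_zero, sub_mul, one_mul, hp, sub_self]
  rw [e0, e1, e2, trfr_zero, add_zero]
  have hfr : FR ((1 - p') * p) := by
    have : (1 - p') * p = g * ((1 - p) * gi * p) := by
      rw [hp']
      calc (1 - g * p * gi) * p = (g * gi - g * p * gi) * p := by rw [h1]
        _ = g * ((1 - p) * gi * p) := by noncomm_ring
    rw [this]
    exact hgi.mul_left _
  have hidem : ((1 - p') * p) * ((1 - p') * p) = (1 - p') * p := by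
    calc ((1 - p') * p) * ((1 - p') * p) = (1 - p') * (p * p - p * p' * p) := by noncomm_ring
      _ = (1 - p') * p - ((1 - p') * p') * p := by rw [hp, hpp']; noncomm_ring
      _ = (1 - p') * p := by
        have hz : (1 - p') * p' = 0 := by rw [sub_mul, one_mul, hp'p', sub_self]
        rw [hz, zero_mul, sub_zero]
  exact trfr_of_isIdempotentElem _ hfr hidem

end dlog

section complement

variable {pA pB : Module.End K V}

/-- **Complement lemma**: if `A ⊕ B ≈ V` up to finite dimension (`pA + pB - 1` has finite rank)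
and `f, g` almost preserve both `A` and `B`, then `res_A(f dg) + res_B(f dg) = 0`. -/
theorem resPair_add_eq_zero (hρ : FR (pA + pB - 1)) {f g : Module.End K V} (hfg : Commute f g)
    (hgA : InE pA g) (hgB : InE pB g) :
    resPair pA f g + resPair pB f g = 0 := by
  set ρ := pA + pB - 1 with hρdef
  have eB : pB = (1 - pA) + ρ := by rw [hρdef]; abel
  have eA : pA = (1 - pB) + ρ := by rw [hρdef]; abel
  -- `pA φ (1 - pA)` has finite rank for `φ ∈ E(pB)`
  have auxA : ∀ φ : Module.End K V, InE pB φ → FR (pA * φ * (1 - pA)) := by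
    intro φ hφ
    unfold InE at hφ
    have : pA * φ * (1 - pA) = (1 - pB) * φ * pB + ρ * φ * (1 - pA) - (1 - pB) * φ * ρ := by
      have e : (1 - pA) = pB - ρ := by rw [hρdef]; abel
      rw [e]
      conv_lhs => rw [eA]
      noncomm_ring
    rw [this]
    exact (hφ.add ((hρ.mul_right _).mul_right _)).sub (hρ.mul_left _)
  have auxB : ∀ φ : Module.End K V, InE pA φ → FR (pB * φ * (1 - pB)) := by
    intro φ hφ
    unfold InE at hφ
    have : pB * φ * (1 - pB) = (1 - pA) * φ * pA + ρ * φ * (1 - pB) - (1 - pA) * φ * ρ := by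
      have e : (1 - pB) = pA - ρ := by rw [hρdef]; abel
      rw [e]
      conv_lhs => rw [eB]
      noncomm_ring
    rw [this]
    exact (hφ.add ((hρ.mul_right _).mul_right _)).sub (hρ.mul_left _)
  have frA : FR (comm pA f g) := by
    rw [comm_eq hfg]
    unfold InE at hgA
    exact ((auxA g hgB).mul_right _).sub (hgA.mul_right _)
  have frB : FR (comm pB f g) := by
    rw [comm_eq hfg]
    unfold InE at hgB
    exact ((auxB g hgA).mul_right _).sub (hgB.mul_right _)
  unfold resPair
  rw [Tr0_eq_trfr frA, Tr0_eq_trfr frB, ← trfr_add frA frB]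
  have key : comm pA f g + comm pB f g = (ρ * f) * g - g * (ρ * f) := by
    unfold comm
    have : f * g = g * f := hfg.eq
    calc pA * f * g - g * pA * f + (pB * f * g - g * pB * f)
        = (pA + pB) * f * g - g * (pA + pB) * f := by noncomm_ring
      _ = (1 + ρ) * f * g - g * (1 + ρ) * f := by rw [hρdef]; congr 2 <;> abel_nf
      _ = (f * g - g * f) + (ρ * f * g - g * (ρ * f)) := by noncomm_ring
      _ = ρ * f * g - g * (ρ * f) := by rw [this, sub_self, zero_add]
  rw [key, trfr_sub ((hρ.mul_right _).mul_right _) ((hρ.mul_right _).mul_left _),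
    tr_mul_comm (ρ * f) g (hρ.mul_right _), sub_self]

end complement

section bundled

open KaehlerDifferential

/-- `Hom_K(K', K)` with `K'` acting through the argument: `(a • l) f = l (a * f)`. -/
def CoDual (K K' : Type*) [Field K] [CommRing K'] [Algebra K K'] : Type _ := K' →ₗ[K] K

variable {K' : Type*} [CommRing K'] [Algebra K K']

noncomputable instance : AddCommGroup (CoDual K K') := inferInstanceAs (AddCommGroup (K' →ₗ[K] K))

noncomputable instance : Module K (CoDual K K') := inferInstanceAs (Module K (K' →ₗ[K] K))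

/-- view an element of `CoDual` as a linear map. -/
def CoDual.toLin (l : CoDual K K') : K' →ₗ[K] K := l

/-- build an element of `CoDual` from a linear map. -/
def CoDual.ofLin (l : K' →ₗ[K] K) : CoDual K K' := l

@[simp] theorem CoDual.toLin_ofLin (l : K' →ₗ[K] K) : (CoDual.ofLin l).toLin = l := rfl

@[simp] theorem CoDual.toLin_add (l₁ l₂ : CoDual K K') :
    (l₁ + l₂).toLin = l₁.toLin + l₂.toLin := rfl

@[simp] theorem CoDual.toLin_zero : (0 : CoDual K K').toLin = 0 := rfl

@[simp] theorem CoDual.toLin_smul (c : K) (l : CoDual K K') : (c • l).toLin = c • l.toLin := rfl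

@[ext] theorem CoDual.ext {l₁ l₂ : CoDual K K'} (h : ∀ f, l₁.toLin f = l₂.toLin f) : l₁ = l₂ :=
  LinearMap.ext h

noncomputable instance : Module K' (CoDual K K') where
  smul a l := CoDual.ofLin (l.toLin ∘ₗ LinearMap.mulLeft K a)
  one_smul l := by
    apply CoDual.ext; intro f
    show l.toLin (1 * f) = l.toLin f
    rw [one_mul]
  mul_smul a b l := by
    apply CoDual.ext; intro f
    show l.toLin ((a * b) * f) = l.toLin (b * (a * f))
    congr 1; ring
  smul_zero a := by
    apply CoDual.ext; intro f; rfl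
  smul_add a l₁ l₂ := by
    apply CoDual.ext; intro f; rfl
  add_smul a b l := by
    apply CoDual.ext; intro f
    show l.toLin ((a + b) * f) = l.toLin (a * f) + l.toLin (b * f)
    rw [add_mul, map_add]
  zero_smul l := by
    apply CoDual.ext; intro f
    show l.toLin (0 * f) = 0
    rw [zero_mul, map_zero]

theorem CoDual.smul_apply (a : K') (l : CoDual K K') (f : K') :
    (a • l).toLin f = l.toLin (a * f) := rfl

instance : IsScalarTower K K' (CoDual K K') where
  smul_assoc c a l := by
    apply CoDual.ext; intro f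
    show l.toLin ((c • a) * f) = c • l.toLin (a * f)
    rw [smul_mul_assoc, map_smul]

variable [Module K' V] [IsScalarTower K K' V]

/-- multiplication by `f : K'` as a `K`-endomorphism of `V`. -/
noncomputable def mulEnd (f : K') : Module.End K V :=
  { toFun := fun x => f • x
    map_add' := smul_add f
    map_smul' := fun c x => smul_comm f c x }

theorem mulEnd_apply (f : K') (x : V) : mulEnd (K := K) f x = f • x := rfl

theorem mulEnd_mul (f g : K') : mulEnd (K := K) (V := V) (f * g) = mulEnd f * mulEnd g := by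
  ext x; simp [mulEnd_apply, mul_smul]

theorem mulEnd_add (f g : K') : mulEnd (K := K) (V := V) (f + g) = mulEnd f + mulEnd g := by
  ext x; simp [mulEnd_apply, add_smul]

theorem mulEnd_smul (c : K) (f : K') : mulEnd (K := K) (V := V) (c • f) = c • mulEnd f := by
  ext x; simp [mulEnd_apply]

theorem mulEnd_one : mulEnd (K := K) (V := V) (1 : K') = 1 := by
  ext x; simp [mulEnd_apply]

theorem mulEnd_commute (f g : K') : Commute (mulEnd (K := K) (V := V) f) (mulEnd g) := by
  unfold Commute SemiconjBy
  rw [← mulEnd_mul, ← mulEnd_mul, mul_comm]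

variable (K') in
/-- `A = range p` is almost stable under all multiplications by elements of `K'`. -/
def AlmostStable (p : Module.End K V) : Prop := ∀ f : K', InE p (mulEnd (K := K) (V := V) f)

variable {p : Module.End K V}

/-- The pairing `g ↦ (f ↦ res(f dg))` as a linear map into `CoDual`. -/
noncomputable def pairing (hp : p * p = p) (hE : AlmostStable K' p) : K' →ₗ[K] CoDual K K' where
  toFun g := CoDual.ofLin
    { toFun := fun f => resPair p (mulEnd f) (mulEnd g)
      map_add' := fun f₁ f₂ => by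
        rw [mulEnd_add]
        exact resPair_add_left hp (mulEnd_commute f₁ g) (mulEnd_commute f₂ g) (hE f₁) (hE f₂)
          (hE g)
      map_smul' := fun c f => by
        rw [mulEnd_smul]
        exact resPair_smul_left hp c (mulEnd_commute f g) (hE f) (hE g) }
  map_add' g₁ g₂ := by
    apply CoDual.ext; intro f
    show resPair p (mulEnd f) (mulEnd (g₁ + g₂))
      = resPair p (mulEnd f) (mulEnd g₁) + resPair p (mulEnd f) (mulEnd g₂)
    rw [mulEnd_add]
    exact resPair_add_right hp (mulEnd_commute f g₁) (mulEnd_commute f g₂) (hE f) (hE g₁) (hE g₂)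
  map_smul' c g := by
    apply CoDual.ext; intro f
    show resPair p (mulEnd f) (mulEnd (c • g)) = c • resPair p (mulEnd f) (mulEnd g)
    rw [mulEnd_smul]
    exact resPair_smul_right hp c (mulEnd_commute f g) (hE f) (hE g)

theorem pairing_apply (hp : p * p = p) (hE : AlmostStable K' p) (g f : K') :
    (pairing hp hE g).toLin f = resPair p (mulEnd f) (mulEnd g) := rfl

/-- Tate's derivation `K' → Hom_K(K', K)`. -/
noncomputable def tateDeriv (hp : p * p = p) (hE : AlmostStable K' p) :
    Derivation K K' (CoDual K K') :=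
  Derivation.mk' (pairing hp hE) (by
    intro g h
    apply CoDual.ext; intro f
    rw [CoDual.toLin_add, LinearMap.add_apply, CoDual.smul_apply, CoDual.smul_apply,
      pairing_apply, pairing_apply, pairing_apply, mulEnd_mul, mulEnd_mul, mulEnd_mul]
    have := resPair_mul_right hp (mulEnd_commute f g) (mulEnd_commute f h) (mulEnd_commute g h)
      (hE f) (hE g) (hE h)
    rw [this, (mulEnd_commute g f).eq, (mulEnd_commute h f).eq])

/-- **Tate's residue** as a `K`-linear functional on Kähler differentials. -/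
noncomputable def tateRes (hp : p * p = p) (hE : AlmostStable K' p) : Ω[K'⁄K] →ₗ[K] K where
  toFun ω := ((tateDeriv hp hE).liftKaehlerDifferential ω).toLin 1
  map_add' ω₁ ω₂ := by rw [map_add]; rfl
  map_smul' c ω := by
    rw [LinearMap.map_smul_of_tower]; rfl

theorem tateRes_smul_D (hp : p * p = p) (hE : AlmostStable K' p) (f g : K') :
    tateRes hp hE (f • D K K' g) = resPair p (mulEnd f) (mulEnd g) := by
  show ((tateDeriv hp hE).liftKaehlerDifferential (f • D K K' g)).toLin 1 = _
  rw [map_smul, Derivation.liftKaehlerDifferential_comp_D, CoDual.smul_apply, mul_one]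
  rfl

theorem tateRes_D (hp : p * p = p) (hE : AlmostStable K' p) (g : K') :
    tateRes hp hE (D K K' g) = 0 := by
  have h := tateRes_smul_D hp hE 1 g
  rw [one_smul] at h
  rw [h, mulEnd_one]
  have h1 : (1 - p) * (1 : Module.End K V) * p = 0 := by
    rw [mul_one, sub_mul, one_mul, hp, sub_self]
  unfold resPair comm Tr0
  have e : p * 1 * mulEnd g - mulEnd g * p * 1 = p * mulEnd g - mulEnd g * p := by
    rw [mul_one, mul_one]
  rw [e]
  have hg := hE g
  unfold InE at hg
  -- `Tr0 (p g - g p) = trfr((pg - gp)p) + trfr(q(pg - gp))`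
  have e1 : (p * mulEnd g - mulEnd g * p) * p = -((1 - p) * mulEnd g * p) := by
    have : mulEnd g * p * p = mulEnd g * p := by rw [mul_assoc, hp]
    rw [sub_mul, this]; noncomm_ring
  have e2 : (1 - p) * (p * mulEnd g - mulEnd g * p) = -((1 - p) * mulEnd g * p) := by
    have hqp : (1 - p) * p = 0 := by rw [sub_mul, one_mul, hp, sub_self]
    have : (1 - p) * (p * mulEnd g) = 0 := by rw [← mul_assoc, hqp, zero_mul]
    rw [mul_sub, this, zero_sub, mul_assoc]
  rw [e1, e2, trfr_neg _ hg]
  -- trfr (q g p) = trfr (p q g) = 0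
  have : trfr ((1 - p) * mulEnd g * p) = 0 := by
    have hpq : p * (1 - p) = 0 := by rw [mul_sub, mul_one, hp, sub_self]
    have e3 : (1 - p) * mulEnd g * p = ((1 - p) * mulEnd g * p) * p := by
      rw [mul_assoc _ p p, hp]
    rw [e3, tr_mul_comm ((1 - p) * mulEnd g * p) p hg, ← mul_assoc, ← mul_assoc, hpq, zero_mul,
      zero_mul, trfr_zero]
  rw [this]; simp

end bundled

end Fermat.Agent.S20.TateBlock
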