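import Fermat.Agent.S20.TateTrace

/-!
# Tate: the classes E, E₁, E₂, E₀ attached to a subspace

`V` a `K`-vector space, `A ≤ V` a subspace, `K'` a commutative `K`-algebra acting on `V` such that
`f • A` is "not much bigger" than `A` for every `f : K'`.  We construct the `K`-linear map
`res A hA : Ω[K'⁄K] →ₗ[K] K` of Tate (1968) and prove its basic properties.
-/

set_option autoImplicit false

namespace Fermat.Agent.S20.TateClasses

open Module LinearMap Fermat.Agent.S20.TateTrace

variable {K V : Type*} [Field K] [AddCommGroup V] [Module K V]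

/-! ### "Not much bigger" -/

/-- `NMB A B` (`A ≺ B` in Tate's paper): `A ≤ B + W` for some finite-dimensional `W`. -/
def NMB (A B : Submodule K V) : Prop :=
  ∃ W : Submodule K V, FiniteDimensional K W ∧ A ≤ B ⊔ W

theorem NMB.of_le {A B : Submodule K V} (h : A ≤ B) : NMB A B :=
  ⟨⊥, inferInstance, by simpa using h⟩

theorem NMB.refl (A : Submodule K V) : NMB A A := NMB.of_le le_rfl

theorem NMB.trans {A B C : Submodule K V} (h : NMB A B) (h' : NMB B C) : NMB A C := by
  obtain ⟨W, hW, hAB⟩ := h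
  obtain ⟨W', hW', hBC⟩ := h'
  refine ⟨W' ⊔ W, inferInstance, hAB.trans ?_⟩
  rw [← sup_assoc]
  exact sup_le_sup_right hBC W

theorem NMB.mono_left {A A' B : Submodule K V} (h : A' ≤ A) (h' : NMB A B) : NMB A' B :=
  (NMB.of_le h).trans h'

theorem NMB.sup {A B C : Submodule K V} (h : NMB A C) (h' : NMB B C) : NMB (A ⊔ B) C := by
  obtain ⟨W, hW, hAC⟩ := h
  obtain ⟨W', hW', hBC⟩ := h'
  refine ⟨W ⊔ W', inferInstance, sup_le (hAC.trans ?_) (hBC.trans ?_)⟩
  · exact sup_le_sup_left le_sup_left C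
  · exact sup_le_sup_left le_sup_right C

theorem NMB.map {A B : Submodule K V} {V' : Type*} [AddCommGroup V'] [Module K V']
    (θ : V →ₗ[K] V') (h : NMB A B) : NMB (A.map θ) (B.map θ) := by
  obtain ⟨W, hW, hAB⟩ := h
  refine ⟨W.map θ, inferInstance, ?_⟩
  rw [← Submodule.map_sup]
  exact Submodule.map_mono hAB

theorem NMB.of_finiteDimensional (A B : Submodule K V) [FiniteDimensional K A] : NMB A B :=
  ⟨A, inferInstance, le_sup_right⟩

theorem nmb_bot_iff {A : Submodule K V} : NMB A ⊥ ↔ FiniteDimensional K A := by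
  constructor
  · rintro ⟨W, hW, h⟩
    rw [bot_sup_eq] at h
    exact Submodule.finiteDimensional_of_le h
  · intro h
    exact NMB.of_finiteDimensional A ⊥

/-- `A` and `A'` are commensurable. -/
def Comm (A A' : Submodule K V) : Prop := NMB A A' ∧ NMB A' A

theorem Comm.refl (A : Submodule K V) : Comm A A := ⟨NMB.refl A, NMB.refl A⟩

theorem Comm.symm {A A' : Submodule K V} (h : Comm A A') : Comm A' A := ⟨h.2, h.1⟩

theorem Comm.trans {A A' A'' : Submodule K V} (h : Comm A A') (h' : Comm A' A'') :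
    Comm A A'' := ⟨h.1.trans h'.1, h'.2.trans h.2⟩

/-! ### The classes `E`, `E₁`, `E₂`, `E₀` -/

/-- `θ A ≺ A`. -/
def InE (A : Submodule K V) (θ : End K V) : Prop := NMB (A.map θ) A

/-- `θ V ≺ A`. -/
def InE1 (A : Submodule K V) (θ : End K V) : Prop := NMB (LinearMap.range θ) A

/-- `θ A ≺ 0`. -/
def InE2 (A : Submodule K V) (θ : End K V) : Prop := FiniteDimensional K (A.map θ)

/-- `E₀ = E₁ ∩ E₂`. -/
def InE0 (A : Submodule K V) (θ : End K V) : Prop := InE1 A θ ∧ InE2 A θ

variable {A : Submodule K V}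

theorem InE1.inE {θ : End K V} (h : InE1 A θ) : InE A θ :=
  NMB.mono_left (by rw [← Submodule.map_top]; exact Submodule.map_mono le_top) h

theorem InE2.inE {θ : End K V} (h : InE2 A θ) : InE A θ := by
  haveI : FiniteDimensional K (A.map θ) := h
  exact NMB.of_finiteDimensional _ _

theorem InE0.inE {θ : End K V} (h : InE0 A θ) : InE A θ := h.1.inE

theorem InE.one : InE A (1 : End K V) := by
  unfold InE
  rw [Module.End.one_eq_id, Submodule.map_id]
  exact NMB.refl A

theorem InE.zero : InE A (0 : End K V) := by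
  unfold InE
  refine NMB.of_le ?_
  rintro _ ⟨x, _, rfl⟩
  simp

theorem map_mul_eq (θ φ : End K V) (B : Submodule K V) :
    B.map (θ * φ) = (B.map φ).map θ := by
  rw [Module.End.mul_eq_comp, Submodule.map_comp]

theorem InE.mul {θ φ : End K V} (h : InE A θ) (h' : InE A φ) : InE A (θ * φ) := by
  unfold InE at *
  rw [map_mul_eq]
  obtain ⟨W, hW, hφ⟩ := h'
  have : ((A.map φ).map θ) ≤ A.map θ ⊔ W.map θ := by
    rw [← Submodule.map_sup]; exact Submodule.map_mono hφ
  exact NMB.mono_left this (NMB.sup h (NMB.of_finiteDimensional _ _))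

theorem map_add_le (θ φ : End K V) (B : Submodule K V) :
    B.map (θ + φ) ≤ B.map θ ⊔ B.map φ := by
  rintro _ ⟨x, hx, rfl⟩
  rw [LinearMap.add_apply]
  exact Submodule.add_mem_sup (Submodule.mem_map_of_mem hx) (Submodule.mem_map_of_mem hx)

theorem map_smul_le (c : K) (θ : End K V) (B : Submodule K V) :
    B.map (c • θ) ≤ B.map θ := by
  rintro _ ⟨x, hx, rfl⟩
  rw [LinearMap.smul_apply]
  exact Submodule.smul_mem _ c (Submodule.mem_map_of_mem hx)

theorem range_add_le (θ φ : End K V) :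
    LinearMap.range (θ + φ) ≤ LinearMap.range θ ⊔ LinearMap.range φ := by
  rintro _ ⟨x, rfl⟩
  rw [LinearMap.add_apply]
  exact Submodule.add_mem_sup ⟨x, rfl⟩ ⟨x, rfl⟩

theorem range_smul_le (c : K) (θ : End K V) :
    LinearMap.range (c • θ) ≤ LinearMap.range θ := by
  rintro _ ⟨x, rfl⟩
  rw [LinearMap.smul_apply]
  exact Submodule.smul_mem _ c ⟨x, rfl⟩

theorem InE.add {θ φ : End K V} (h : InE A θ) (h' : InE A φ) : InE A (θ + φ) :=
  NMB.mono_left (map_add_le θ φ A) (NMB.sup h h')

theorem InE.smul {θ : End K V} (c : K) (h : InE A θ) : InE A (c • θ) :=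
  NMB.mono_left (map_smul_le c θ A) h

theorem InE.neg {θ : End K V} (h : InE A θ) : InE A (-θ) := by
  have := h.smul (-1 : K)
  rwa [neg_one_smul] at this

theorem InE.sub {θ φ : End K V} (h : InE A θ) (h' : InE A φ) : InE A (θ - φ) := by
  rw [sub_eq_add_neg]; exact h.add h'.neg

theorem InE1.add {θ φ : End K V} (h : InE1 A θ) (h' : InE1 A φ) : InE1 A (θ + φ) :=
  NMB.mono_left (range_add_le θ φ) (NMB.sup h h')

theorem InE1.smul {θ : End K V} (c : K) (h : InE1 A θ) : InE1 A (c • θ) :=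
  NMB.mono_left (range_smul_le c θ) h

theorem InE1.neg {θ : End K V} (h : InE1 A θ) : InE1 A (-θ) := by
  have := h.smul (-1 : K)
  rwa [neg_one_smul] at this

theorem InE1.sub {θ φ : End K V} (h : InE1 A θ) (h' : InE1 A φ) : InE1 A (θ - φ) := by
  rw [sub_eq_add_neg]; exact h.add h'.neg

theorem InE1.zero : InE1 A (0 : End K V) := by
  unfold InE1
  refine NMB.of_le ?_
  rintro _ ⟨x, rfl⟩
  simp

/-- `E₁` is a right ideal of `End V`. -/
theorem InE1.mul_right {θ : End K V} (h : InE1 A θ) (φ : End K V) : InE1 A (θ * φ) := by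
  refine NMB.mono_left ?_ h
  rintro _ ⟨x, rfl⟩
  exact ⟨φ x, rfl⟩

/-- `E₁` is a left ideal of `E`. -/
theorem InE1.mul_left {θ φ : End K V} (h : InE1 A θ) (h' : InE A φ) : InE1 A (φ * θ) := by
  unfold InE1 at *
  have e : LinearMap.range (φ * θ) = (LinearMap.range θ).map φ := by
    rw [Module.End.mul_eq_comp, LinearMap.range_comp]
  rw [e]
  obtain ⟨W, hW, hθ⟩ := h
  have : (LinearMap.range θ).map φ ≤ A.map φ ⊔ W.map φ := by
    rw [← Submodule.map_sup]; exact Submodule.map_mono hθ
  exact NMB.mono_left this (NMB.sup h' (NMB.of_finiteDimensional _ _))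

theorem InE2.add {θ φ : End K V} (h : InE2 A θ) (h' : InE2 A φ) : InE2 A (θ + φ) := by
  unfold InE2 at *
  exact Submodule.finiteDimensional_of_le (map_add_le θ φ A)

theorem InE2.smul {θ : End K V} (c : K) (h : InE2 A θ) : InE2 A (c • θ) := by
  unfold InE2 at *
  exact Submodule.finiteDimensional_of_le (map_smul_le c θ A)

theorem InE2.neg {θ : End K V} (h : InE2 A θ) : InE2 A (-θ) := by
  have := h.smul (-1 : K)
  rwa [neg_one_smul] at this

theorem InE2.sub {θ φ : End K V} (h : InE2 A θ) (h' : InE2 A φ) : InE2 A (θ - φ) := by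
  rw [sub_eq_add_neg]; exact h.add h'.neg

theorem InE2.zero : InE2 A (0 : End K V) := by
  unfold InE2
  have : A.map (0 : End K V) ≤ ⊥ := by
    rintro _ ⟨x, _, rfl⟩
    simp
  exact Submodule.finiteDimensional_of_le this

/-- `E₂` is a left ideal of `End V`. -/
theorem InE2.mul_left {θ : End K V} (h : InE2 A θ) (φ : End K V) : InE2 A (φ * θ) := by
  unfold InE2 at *
  rw [map_mul_eq]
  infer_instance

/-- `E₂` is a right ideal of `E`. -/
theorem InE2.mul_right {θ φ : End K V} (h : InE2 A θ) (h' : InE A φ) : InE2 A (θ * φ) := by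
  unfold InE2 at *
  rw [map_mul_eq]
  obtain ⟨W, hW, hφ⟩ := h'
  have : ((A.map φ).map θ) ≤ A.map θ ⊔ W.map θ := by
    rw [← Submodule.map_sup]; exact Submodule.map_mono hφ
  exact Submodule.finiteDimensional_of_le this

theorem InE0.add {θ φ : End K V} (h : InE0 A θ) (h' : InE0 A φ) : InE0 A (θ + φ) :=
  ⟨h.1.add h'.1, h.2.add h'.2⟩

theorem InE0.smul {θ : End K V} (c : K) (h : InE0 A θ) : InE0 A (c • θ) :=
  ⟨h.1.smul c, h.2.smul c⟩

theorem InE0.neg {θ : End K V} (h : InE0 A θ) : InE0 A (-θ) := ⟨h.1.neg, h.2.neg⟩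

theorem InE0.sub {θ φ : End K V} (h : InE0 A θ) (h' : InE0 A φ) : InE0 A (θ - φ) :=
  ⟨h.1.sub h'.1, h.2.sub h'.2⟩

theorem InE0.zero : InE0 A (0 : End K V) := ⟨InE1.zero, InE2.zero⟩

theorem InE0.mul_right {θ φ : End K V} (h : InE0 A θ) (h' : InE A φ) : InE0 A (θ * φ) :=
  ⟨h.1.mul_right φ, h.2.mul_right h'⟩

theorem InE0.mul_left {θ φ : End K V} (h : InE0 A θ) (h' : InE A φ) : InE0 A (φ * θ) :=
  ⟨h.1.mul_left h', h.2.mul_left φ⟩

/-- The product of an element of `E₂` with an element of `E₁` has finite rank. -/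
theorem finiteDimensional_range_mul {θ φ : End K V} (h : InE2 A θ) (h' : InE1 A φ) :
    FiniteDimensional K (LinearMap.range (θ * φ)) := by
  have e : LinearMap.range (θ * φ) = (LinearMap.range φ).map θ := by
    rw [Module.End.mul_eq_comp, LinearMap.range_comp]
  rw [e]
  obtain ⟨W, hW, hφ⟩ := h'
  have hle : (LinearMap.range φ).map θ ≤ A.map θ ⊔ W.map θ := by
    rw [← Submodule.map_sup]; exact Submodule.map_mono hφ
  haveI : FiniteDimensional K (A.map θ) := h
  exact Submodule.finiteDimensional_of_le hle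

theorem InE0.isFinitePotent {θ : End K V} (h : InE0 A θ) : IsFinitePotent θ :=
  isFinitePotent_of_finiteDimensional_range_sq (finiteDimensional_range_mul h.2 h.1)

/-- The trace is additive on `E₀`. -/
theorem ftrace_add_E0 {θ φ : End K V} (h : InE0 A θ) (h' : InE0 A φ) :
    ftrace (θ + φ) = ftrace θ + ftrace φ :=
  ftrace_add (finiteDimensional_range_mul h.2 h.1) (finiteDimensional_range_mul h.2 h'.1)
    (finiteDimensional_range_mul h'.2 h.1) (finiteDimensional_range_mul h'.2 h'.1)

theorem ftrace_smul_E0 {θ : End K V} (c : K) (h : InE0 A θ) :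
    ftrace (c • θ) = c * ftrace θ :=
  ftrace_smul_of_isFinitePotent h.isFinitePotent c

theorem ftrace_neg_E0 {θ : End K V} (h : InE0 A θ) : ftrace (-θ) = - ftrace θ :=
  ftrace_neg_of_isFinitePotent h.isFinitePotent

theorem ftrace_sub_E0 {θ φ : End K V} (h : InE0 A θ) (h' : InE0 A φ) :
    ftrace (θ - φ) = ftrace θ - ftrace φ := by
  rw [sub_eq_add_neg, ftrace_add_E0 h h'.neg, ftrace_neg_E0 h', sub_eq_add_neg]

theorem InE0.sum {ι : Type*} (s : Finset ι) (θ : ι → End K V) (h : ∀ i ∈ s, InE0 A (θ i)) :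
    InE0 A (∑ i ∈ s, θ i) := by
  classical
  induction s using Finset.induction_on with
  | empty => simpa using InE0.zero
  | insert a s ha ih =>
    rw [Finset.sum_insert ha]
    exact (h a (Finset.mem_insert_self a s)).add
      (ih (fun i hi => h i (Finset.mem_insert_of_mem hi)))

theorem ftrace_sum_E0 {ι : Type*} (s : Finset ι) (θ : ι → End K V)
    (h : ∀ i ∈ s, InE0 A (θ i)) : ftrace (∑ i ∈ s, θ i) = ∑ i ∈ s, ftrace (θ i) := by
  classical
  induction s using Finset.induction_on with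
  | empty => simp
  | insert a s ha ih =>
    rw [Finset.sum_insert ha, Finset.sum_insert ha,
      ftrace_add_E0 (h a (Finset.mem_insert_self a s))
        (InE0.sum s θ (fun i hi => h i (Finset.mem_insert_of_mem hi))),
      ih (fun i hi => h i (Finset.mem_insert_of_mem hi))]

/-- `Tr (e g) = Tr (g e)` for `e ∈ E₀`, `g ∈ E`. -/
theorem ftrace_mul_comm_E0 {e g : End K V} (he : InE0 A e) (hg : InE A g) :
    ftrace (e * g) = ftrace (g * e) := by
  have := (ftrace_comp_comm (φ := e) (ψ := g) (he.mul_right hg).isFinitePotent).2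
  exact this.symm

/-- (C1) `Tr [e, g] = 0` for `e ∈ E₀`, `g ∈ E`. -/
theorem ftrace_comm_eq_zero {e g : End K V} (he : InE0 A e) (hg : InE A g) :
    ftrace (e * g - g * e) = 0 := by
  rw [ftrace_sub_E0 (he.mul_right hg) (he.mul_left hg), ftrace_mul_comm_E0 he hg, sub_self]

/-! ### Invariance of the classes under commensurability -/

theorem InE1.congr {A' : Submodule K V} (h : Comm A A') {θ : End K V} (hθ : InE1 A θ) :
    InE1 A' θ := NMB.trans hθ h.1

theorem InE2.congr {A' : Submodule K V} (h : Comm A A') {θ : End K V} (hθ : InE2 A θ) :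
    InE2 A' θ := by
  unfold InE2 at *
  obtain ⟨W, hW, hA'⟩ := h.2
  have : A'.map θ ≤ A.map θ ⊔ W.map θ := by
    rw [← Submodule.map_sup]; exact Submodule.map_mono hA'
  exact Submodule.finiteDimensional_of_le this

theorem InE.congr {A' : Submodule K V} (h : Comm A A') {θ : End K V} (hθ : InE A θ) :
    InE A' θ := by
  unfold InE at *
  obtain ⟨W, hW, hA'⟩ := h.2
  have : A'.map θ ≤ A.map θ ⊔ W.map θ := by
    rw [← Submodule.map_sup]; exact Submodule.map_mono hA'
  exact NMB.mono_left this ((NMB.sup hθ (NMB.of_finiteDimensional _ _)).trans h.1)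

theorem InE0.congr {A' : Submodule K V} (h : Comm A A') {θ : End K V} (hθ : InE0 A θ) :
    InE0 A' θ := ⟨hθ.1.congr h, hθ.2.congr h⟩

end Fermat.Agent.S20.TateClasses
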