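/-
Tate's local residue at a place `v` of a function field `F / K` whose residue field is `K`:
`V = F`, `A = O_v`, `K' = F`.
-/
import Mathlib
import Fermat.Prelude.Def_AlgebraicCurve_Repartitions
import Fermat.Agent.S24.Expansion
import Fermat.Agent.S20.TateBlock

set_option autoImplicit false
set_option linter.unusedSectionVars false

open AlgebraicCurve KaehlerDifferential

namespace Fermat.Agent.S20.TateLocal

open Fermat.Agent.S20.FiniteRankTrace Fermat.Agent.S20.TateBlock

variable {K F : Type*} [Field K] [Field F] [Algebra K F]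

/-- "residue field of `v` is `K`": the hypothesis shape of `S24.Expansion` / `RR.Hyp.res`. -/
def ResK (v : Place K F) : Prop :=
  ∀ f : F, f ≠ 0 → 0 ≤ v.ord f →
    ∃ c : K, f = algebraMap K F c ∨ 0 < v.ord (f - algebraMap K F c)

/-- `O_v` as a `K`-subspace of `F`. -/
def ringSub (v : Place K F) : Submodule K F where
  carrier := (v.toValuationSubring : Set F)
  zero_mem' := v.toValuationSubring.zero_mem
  add_mem' := fun ha hb => v.toValuationSubring.add_mem _ _ ha hb
  smul_mem' := fun c x hx => by
    show c • x ∈ v.toValuationSubring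
    rw [Algebra.smul_def]
    exact v.toValuationSubring.mul_mem _ _ (v.algebraMap_mem' c) hx

theorem mem_ringSub (v : Place K F) (x : F) : x ∈ ringSub v ↔ x ∈ v.toValuationSubring := Iff.rfl

/-! ### projectors onto a subspace -/

section proj

variable {V : Type*} [AddCommGroup V] [Module K V]

theorem exists_proj (P : Submodule K V) :
    ∃ p : Module.End K V, p * p = p ∧ (∀ x, p x ∈ P) ∧ ∀ x ∈ P, p x = x := by
  obtain ⟨Q, hQ⟩ := Submodule.exists_isCompl P
  refine ⟨P.projection Q hQ, (Submodule.isIdempotentElem_projection hQ).eq, ?_, ?_⟩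
  · intro x
    exact Submodule.projection_apply_mem hQ x
  · intro x hx
    exact Submodule.projection_apply_of_mem_left hQ hx

/-- a chosen projector onto `P`. -/
noncomputable def projOnto (P : Submodule K V) : Module.End K V := (exists_proj P).choose

theorem projOnto_idem (P : Submodule K V) : projOnto P * projOnto P = projOnto P :=
  (exists_proj P).choose_spec.1

theorem projOnto_mem (P : Submodule K V) (x : V) : projOnto P x ∈ P :=
  (exists_proj P).choose_spec.2.1 x

theorem projOnto_apply_of_mem (P : Submodule K V) {x : V} (hx : x ∈ P) : projOnto P x = x :=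
  (exists_proj P).choose_spec.2.2 x hx

/-- two projectors onto the same subspace have the `SameRange` relation. -/
theorem sameRange_of (P : Submodule K V) {p p' : Module.End K V}
    (h1 : ∀ x, p x ∈ P) (h2 : ∀ x ∈ P, p x = x) (h1' : ∀ x, p' x ∈ P) (h2' : ∀ x ∈ P, p' x = x) :
    SameRange p p' := by
  constructor
  · ext x
    rw [Module.End.mul_apply]
    exact h2' _ (h1 x)
  · ext x
    rw [Module.End.mul_apply]
    exact h2 _ (h1' x)

end proj

/-! ### the local situation -/

variable (v : Place K F)

/-- the chosen projector onto `O_v`. -/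
noncomputable def pv : Module.End K F := projOnto (ringSub v)

theorem pv_idem : pv v * pv v = pv v := projOnto_idem _

theorem pv_mem (x : F) : pv v x ∈ v.toValuationSubring :=
  (mem_ringSub v _).mp (projOnto_mem (ringSub v) x)

theorem pv_apply_of_mem {x : F} (hx : x ∈ v.toValuationSubring) : pv v x = x :=
  projOnto_apply_of_mem (ringSub v) ((mem_ringSub v x).mpr hx)

theorem one_sub_pv_apply_of_mem {x : F} (hx : x ∈ v.toValuationSubring) :
    (1 - pv v) x = 0 := by
  rw [LinearMap.sub_apply, Module.End.one_apply, pv_apply_of_mem v hx, sub_self]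

theorem mulEnd_apply' (f x : F) : (mulEnd (K := K) (V := F) f) x = f * x := rfl

/-- multiplication by an element of `O_v` preserves `O_v`. -/
theorem stable_of_mem {f : F} (hf : f ∈ v.toValuationSubring) :
    (1 - pv v) * mulEnd (K := K) (V := F) f * pv v = 0 := by
  ext x
  rw [Module.End.mul_apply, Module.End.mul_apply, mulEnd_apply']
  exact one_sub_pv_apply_of_mem v (mul_mem hf (pv_mem v x))

variable {v}

/-- Decomposition of an element with a pole of order at most `n`. -/
theorem exists_polar_decomp (hres : ResK v) {π : F} (hπ : v.ord π = 1) :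
    ∀ (n : ℕ) (x : F), (x = 0 ∨ -(n : ℤ) ≤ v.ord x) →
      ∃ (c : Fin n → K) (y : F), y ∈ v.toValuationSubring ∧
        x = (∑ i : Fin n, c i • (π⁻¹) ^ ((i : ℕ) + 1)) + y := by
  have hπ0 : π ≠ 0 := by
    rintro rfl
    simp at hπ
  intro n
  induction n with
  | zero =>
    intro x hx
    refine ⟨fun _ => 0, x, ?_, by simp⟩
    rcases hx with rfl | hx
    · exact zero_mem _
    · exact Fermat.Agent.S24.Expansion.mem_of_ord_nonneg v (by simpa using hx)
  | succ n ih =>
    intro x hx
    rcases eq_or_ne x 0 with rfl | hx0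
    · exact ⟨fun _ => 0, 0, zero_mem _, by simp⟩
    have hx' : -((n : ℤ) + 1) ≤ v.ord x := by
      rcases hx with h | h
      · exact absurd h hx0
      · simpa using h
    -- `w = π^(n+1) x` is integral
    set w := π ^ (n + 1) * x with hw
    have hw0 : w ≠ 0 := mul_ne_zero (pow_ne_zero _ hπ0) hx0
    have hordw : v.ord w = (n : ℤ) + 1 + v.ord x := by
      rw [hw, v.ord_mul (pow_ne_zero _ hπ0) hx0]
      have : v.ord (π ^ (n + 1)) = ((n + 1 : ℕ) : ℤ) * v.ord π := by
        have := v.ord_zpow π ((n + 1 : ℕ) : ℤ)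
        rwa [zpow_natCast] at this
      rw [this, hπ]; push_cast; ring
    have hw_nonneg : 0 ≤ v.ord w := by rw [hordw]; linarith
    obtain ⟨c, hc⟩ := hres w hw0 hw_nonneg
    -- `x = c π^-(n+1) + x'` with `ord x' ≥ -n`
    set x' := x - c • (π⁻¹) ^ (n + 1) with hx'def
    have hx'ord : x' = 0 ∨ -(n : ℤ) ≤ v.ord x' := by
      rcases hc with hc | hc
      · left
        rw [hx'def, Algebra.smul_def, ← hc, hw, inv_pow]
        field_simp
        ring
      · rcases eq_or_ne x' 0 with h0 | h0
        · exact Or.inl h0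
        right
        have e : w - algebraMap K F c = π ^ (n + 1) * x' := by
          rw [hx'def, hw, Algebra.smul_def, inv_pow]
          field_simp
        have hne : w - algebraMap K F c ≠ 0 := by
          rw [e]; exact mul_ne_zero (pow_ne_zero _ hπ0) h0
        rw [e, v.ord_mul (pow_ne_zero _ hπ0) h0] at hc
        have : v.ord (π ^ (n + 1)) = ((n + 1 : ℕ) : ℤ) * v.ord π := by
          have := v.ord_zpow π ((n + 1 : ℕ) : ℤ)
          rwa [zpow_natCast] at this
        rw [this, hπ] at hc
        push_cast at hc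
        linarith
    obtain ⟨c', y, hy, hxy⟩ := ih x' hx'ord
    refine ⟨Fin.snoc c' c, y, hy, ?_⟩
    rw [Fin.sum_univ_castSucc]
    simp only [Fin.snoc_castSucc, Fin.snoc_last, Fin.val_castSucc, Fin.val_last]
    have : x = x' + c • (π⁻¹) ^ (n + 1) := by rw [hx'def]; ring
    rw [this, hxy]
    ring

/-- `O_v` is almost stable under all multiplications. -/
theorem almostStable_pv (hres : ResK v) : AlmostStable (K := K) (V := F) F (pv v) := by
  obtain ⟨π, hπ⟩ : ∃ π : F, v.ord π = 1 := by
    obtain ⟨π, hπ, -⟩ := Fermat.Agent.S24.exists_uniformizer_dCoord v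
    exact ⟨π, hπ⟩
  intro f
  unfold InE
  rcases eq_or_ne f 0 with rfl | hf
  · have : mulEnd (K := K) (V := F) (0 : F) = 0 := by
      ext x; simp [mulEnd_apply']
    rw [this, mul_zero, zero_mul]
    exact FR.zero
  -- `n = max 0 (-ord f)`
  set n : ℕ := (-(v.ord f)).toNat with hn
  set S : Submodule K F :=
    Submodule.span K (Set.range fun i : Fin n => (1 - pv v) ((π⁻¹) ^ ((i : ℕ) + 1))) with hS
  have hSfin : FiniteDimensional K S := by
    rw [hS]
    exact FiniteDimensional.span_of_finite K (Set.finite_range _)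
  refine isFiniteRank_of_range_le (S := S) ?_
  rintro _ ⟨x, rfl⟩
  rw [Module.End.mul_apply, Module.End.mul_apply, mulEnd_apply']
  set a := pv v x with ha
  have ha_mem : a ∈ v.toValuationSubring := pv_mem v x
  have hfa : f * a = 0 ∨ -(n : ℤ) ≤ v.ord (f * a) := by
    rcases eq_or_ne a 0 with h0 | h0
    · left; rw [h0, mul_zero]
    · right
      rw [v.ord_mul hf h0]
      have h1 := Fermat.Agent.S24.Expansion.ord_nonneg_of_mem v ha_mem h0
      have h2 : -(n : ℤ) ≤ v.ord f := by
        rw [hn]
        have := Int.self_le_toNat (-(v.ord f))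
        linarith
      linarith
  obtain ⟨c, y, hy, hxy⟩ := exists_polar_decomp hres hπ n (f * a) hfa
  rw [hxy, map_add, one_sub_pv_apply_of_mem v hy, add_zero, map_sum]
  refine Submodule.sum_mem _ fun i _ => ?_
  rw [map_smul]
  exact Submodule.smul_mem _ _ (Submodule.subset_span ⟨i, rfl⟩)

/-- **Tate's local residue** at `v`. -/
noncomputable def tres (hres : ResK v) : Ω[F⁄K] →ₗ[K] K :=
  tateRes (K' := F) (pv_idem v) (almostStable_pv hres)

theorem tres_smul_D (hres : ResK v) (f g : F) :
    tres hres (f • D K F g) = resPair (pv v) (mulEnd f) (mulEnd g) :=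
  tateRes_smul_D _ _ f g

/-- (R1) no residue for `f dg` with `f`, `g` regular at `v`. -/
theorem tres_eq_zero_of_mem (hres : ResK v) {f g : F} (hf : f ∈ v.toValuationSubring)
    (hg : g ∈ v.toValuationSubring) : tres hres (f • D K F g) = 0 := by
  rw [tres_smul_D]
  exact resPair_eq_zero_of_stable (pv_idem v) (mulEnd_commute f g) (stable_of_mem v hf)
    (stable_of_mem v hg)

/-- (R3) `res (dπ / π) = 1`. -/
theorem tres_dlog (hres : ResK v) {π : F} (hπ : v.ord π = 1) :
    tres hres (π⁻¹ • D K F π) = 1 := by
  have hπ0 : π ≠ 0 := by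
    rintro rfl
    simp at hπ
  have hπmem : π ∈ v.toValuationSubring :=
    Fermat.Agent.S24.Expansion.mem_of_ord_nonneg v (by rw [hπ]; norm_num)
  rw [tres_smul_D]
  have h1 : mulEnd (K := K) (V := F) π * mulEnd π⁻¹ = 1 := by
    rw [← mulEnd_mul, mul_inv_cancel₀ hπ0, mulEnd_one]
  have h2 : mulEnd (K := K) (V := F) π⁻¹ * mulEnd π = 1 := by
    rw [← mulEnd_mul, inv_mul_cancel₀ hπ0, mulEnd_one]
  rw [resPair_inv (pv_idem v) h1 h2 (stable_of_mem v hπmem) (almostStable_pv hres π⁻¹)]
  -- the range of the idempotent is the line spanned by `w = 1 - π p(π⁻¹)`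
  set e : Module.End K F := (1 - mulEnd π * pv v * mulEnd π⁻¹) * pv v with he
  set w : F := 1 - π * pv v π⁻¹ with hw
  have hw0 : w ≠ 0 := by
    intro h0
    have h3 : π * pv v π⁻¹ = 1 := by
      have := sub_eq_zero.mp h0
      exact this.symm
    have h4 : pv v π⁻¹ = π⁻¹ := by
      have : pv v π⁻¹ = π⁻¹ * (π * pv v π⁻¹) := by
        rw [← mul_assoc, inv_mul_cancel₀ hπ0, one_mul]
      rw [this, h3, mul_one]
    have h5 : π⁻¹ ∈ v.toValuationSubring := h4 ▸ pv_mem v π⁻¹
    have h6 := Fermat.Agent.S24.Expansion.ord_nonneg_of_mem v h5 (inv_ne_zero hπ0)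
    rw [v.ord_inv, hπ] at h6
    norm_num at h6
  have hrange : LinearMap.range e = Submodule.span K {w} := by
    apply le_antisymm
    · rintro _ ⟨x, rfl⟩
      rw [he, Module.End.mul_apply]
      set a := pv v x with ha
      have ha_mem : a ∈ v.toValuationSubring := pv_mem v x
      -- `a = c + π z`
      have hdecomp : ∃ (c : K) (z : F), z ∈ v.toValuationSubring ∧ a = algebraMap K F c + π * z := by
        rcases eq_or_ne a 0 with h0 | h0
        · exact ⟨0, 0, zero_mem _, by simp [h0]⟩
        obtain ⟨c, hc | hc⟩ := hres a h0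
          (Fermat.Agent.S24.Expansion.ord_nonneg_of_mem v ha_mem h0)
        · exact ⟨c, 0, zero_mem _, by simp [hc]⟩
        · refine ⟨c, π⁻¹ * (a - algebraMap K F c), ?_, by field_simp; ring⟩
          rcases eq_or_ne (a - algebraMap K F c) 0 with h1 | h1
          · rw [h1, mul_zero]; exact zero_mem _
          apply Fermat.Agent.S24.Expansion.mem_of_ord_nonneg
          rw [v.ord_mul (inv_ne_zero hπ0) h1, v.ord_inv, hπ]
          linarith
      obtain ⟨c, z, hz, haz⟩ := hdecomp
      have : (1 - mulEnd (K := K) (V := F) π * pv v * mulEnd π⁻¹ : Module.End K F) a = c • w := by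
        rw [LinearMap.sub_apply, Module.End.one_apply, Module.End.mul_apply, Module.End.mul_apply,
          mulEnd_apply', mulEnd_apply', haz]
        have e1 : π⁻¹ * (algebraMap K F c + π * z) = c • π⁻¹ + z := by
          rw [Algebra.smul_def]; field_simp
        rw [e1, map_add, map_smul, pv_apply_of_mem v hz, hw, Algebra.smul_def, Algebra.smul_def]
        ring
      rw [this]
      exact Submodule.smul_mem _ _ (Submodule.subset_span rfl)
    · rw [Submodule.span_singleton_le_iff_mem]
      refine ⟨1, ?_⟩
      rw [he, Module.End.mul_apply, pv_apply_of_mem v (one_mem _), LinearMap.sub_apply,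
        Module.End.one_apply, Module.End.mul_apply, Module.End.mul_apply, mulEnd_apply',
        mulEnd_apply', mul_one]
  rw [hrange, finrank_span_singleton hw0]
  simp

end Fermat.Agent.S20.TateLocal
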