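/-
Tate's proof of the residue theorem `∑_v res_v ω = 0` for a function field `F / K`,
with the Prelude's repartitions (adeles) `V = repartitions K F`, `A = repartitionsOf 0`,
`B = principalRepartitions K F`.
-/
import Mathlib
import Fermat.Prelude.Def_AlgebraicCurve_Repartitions
import Fermat.Agent.S24.Expansion
import Fermat.Agent.S20.TateBlock
import Fermat.Agent.S20.TateLocal

set_option autoImplicit false
set_option linter.unusedSectionVars false

open AlgebraicCurve KaehlerDifferential

namespace Fermat.Agent.S20.TateGlobal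

open Fermat.Agent.S20.FiniteRankTrace Fermat.Agent.S20.TateBlock Fermat.Agent.S20.TateLocal

/-! ### Special projectors for a pair of subspaces with `A ⊓ B` and `V / (A ⊔ B)` finite -/

section special

variable {K : Type*} [Field K] {V : Type*} [AddCommGroup V] [Module K V]

theorem exists_special_projectors (A B : Submodule K V) [FiniteDimensional K ↥(A ⊓ B)]
    [FiniteDimensional K (V ⧸ (A ⊔ B))] :
    ∃ pA pB : Module.End K V,
      (pA * pA = pA ∧ (∀ x, pA x ∈ A) ∧ ∀ x ∈ A, pA x = x) ∧
      (pB * pB = pB ∧ (∀ x, pB x ∈ B) ∧ ∀ x ∈ B, pB x = x) ∧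
      FR (pA + pB - 1) := by
  classical
  obtain ⟨q, hq⟩ := Submodule.exists_isCompl (A ⊓ B)
  obtain ⟨Z, hZ⟩ := Submodule.exists_isCompl (A ⊔ B)
  set A' := A ⊓ q with hA'
  set B' := B ⊓ q with hB'
  have hZfin : FiniteDimensional K Z :=
    LinearEquiv.finiteDimensional (Submodule.quotientEquivOfIsCompl (A ⊔ B) Z hZ)
  -- decompositions
  have hA_dec : ∀ a ∈ A, ∃ i ∈ A ⊓ B, ∃ a' ∈ A', a = i + a' := by
    intro a ha
    have : a ∈ (A ⊓ B) ⊔ q := by rw [hq.sup_eq_top]; trivial
    obtain ⟨i, hi, y, hy, rfl⟩ := Submodule.mem_sup.mp this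
    refine ⟨i, hi, y, ⟨?_, hy⟩, rfl⟩
    have : y = (i + y) - i := by abel
    rw [this]
    exact A.sub_mem ha hi.1
  have hB_dec : ∀ b ∈ B, ∃ i ∈ A ⊓ B, ∃ b' ∈ B', b = i + b' := by
    intro b hb
    have : b ∈ (A ⊓ B) ⊔ q := by rw [hq.sup_eq_top]; trivial
    obtain ⟨i, hi, y, hy, rfl⟩ := Submodule.mem_sup.mp this
    refine ⟨i, hi, y, ⟨?_, hy⟩, rfl⟩
    have : y = (i + y) - i := by abel
    rw [this]
    exact B.sub_mem hb hi.2
  have hAB' : A ⊓ B' = ⊥ := by
    rw [eq_bot_iff]
    rintro x ⟨hxA, hxB, hxq⟩
    have : x ∈ (A ⊓ B) ⊓ q := ⟨⟨hxA, hxB⟩, hxq⟩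
    rw [hq.inf_eq_bot] at this
    exact this
  have hBA' : B ⊓ A' = ⊥ := by
    rw [eq_bot_iff]
    rintro x ⟨hxB, hxA, hxq⟩
    have : x ∈ (A ⊓ B) ⊓ q := ⟨⟨hxA, hxB⟩, hxq⟩
    rw [hq.inf_eq_bot] at this
    exact this
  -- `IsCompl A (B' ⊔ Z)`
  have cA : IsCompl A (B' ⊔ Z) := by
    constructor
    · rw [disjoint_iff, eq_bot_iff]
      rintro x ⟨hxA, hx⟩
      obtain ⟨b', hb', z, hz, rfl⟩ := Submodule.mem_sup.mp hx
      have hzAB : z ∈ A ⊔ B := by
        have : z = (b' + z) - b' := by abel
        rw [this]
        exact Submodule.sub_mem _ (Submodule.mem_sup_left hxA) (Submodule.mem_sup_right hb'.1)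
      have hz0 : z = 0 := by
        have : z ∈ (A ⊔ B) ⊓ Z := ⟨hzAB, hz⟩
        rw [hZ.inf_eq_bot] at this
        exact this
      subst hz0
      rw [add_zero] at hxA ⊢
      have : b' ∈ A ⊓ B' := ⟨hxA, hb'⟩
      rw [hAB'] at this
      exact this
    · rw [codisjoint_iff, eq_top_iff]
      intro x _
      have : x ∈ (A ⊔ B) ⊔ Z := by rw [hZ.sup_eq_top]; trivial
      obtain ⟨s, hs, z, hz, rfl⟩ := Submodule.mem_sup.mp this
      obtain ⟨a, ha, b, hb, rfl⟩ := Submodule.mem_sup.mp hs
      obtain ⟨i, hi, b', hb', rfl⟩ := hB_dec b hb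
      have e : a + (i + b') + z = (a + i) + (b' + z) := by abel
      rw [e]
      exact Submodule.add_mem_sup (A.add_mem ha hi.1)
        (Submodule.add_mem_sup hb' hz)
  have cB : IsCompl B (A' ⊔ Z) := by
    constructor
    · rw [disjoint_iff, eq_bot_iff]
      rintro x ⟨hxB, hx⟩
      obtain ⟨a', ha', z, hz, rfl⟩ := Submodule.mem_sup.mp hx
      have hzAB : z ∈ A ⊔ B := by
        have : z = (a' + z) - a' := by abel
        rw [this]
        exact Submodule.sub_mem _ (Submodule.mem_sup_right hxB) (Submodule.mem_sup_left ha'.1)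
      have hz0 : z = 0 := by
        have : z ∈ (A ⊔ B) ⊓ Z := ⟨hzAB, hz⟩
        rw [hZ.inf_eq_bot] at this
        exact this
      subst hz0
      rw [add_zero] at hxB ⊢
      have : a' ∈ B ⊓ A' := ⟨hxB, ha'⟩
      rw [hBA'] at this
      exact this
    · rw [codisjoint_iff, eq_top_iff]
      intro x _
      have : x ∈ (A ⊔ B) ⊔ Z := by rw [hZ.sup_eq_top]; trivial
      obtain ⟨s, hs, z, hz, rfl⟩ := Submodule.mem_sup.mp this
      obtain ⟨a, ha, b, hb, rfl⟩ := Submodule.mem_sup.mp hs
      obtain ⟨i, hi, a', ha', rfl⟩ := hA_dec a ha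
      have e : (i + a') + b + z = (i + b) + (a' + z) := by abel
      rw [e]
      exact Submodule.add_mem_sup (B.add_mem hi.2 hb)
        (Submodule.add_mem_sup ha' hz)
  refine ⟨A.projection _ cA, B.projection _ cB,
    ⟨(Submodule.isIdempotentElem_projection cA).eq, fun x => Submodule.projection_apply_mem cA x,
      fun x hx => Submodule.projection_apply_of_mem_left cA hx⟩,
    ⟨(Submodule.isIdempotentElem_projection cB).eq, fun x => Submodule.projection_apply_mem cB x,
      fun x hx => Submodule.projection_apply_of_mem_left cB hx⟩, ?_⟩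
  -- the range of `pA + pB - 1` lies in `(A ⊓ B) ⊔ Z`
  have hfin : FiniteDimensional K ↥((A ⊓ B) ⊔ Z) := inferInstance
  refine isFiniteRank_of_range_le (S := (A ⊓ B) ⊔ Z) ?_
  rintro _ ⟨x, rfl⟩
  have : x ∈ A ⊔ (B' ⊔ Z) := by rw [cA.sup_eq_top]; trivial
  obtain ⟨a, ha, y, hy, rfl⟩ := Submodule.mem_sup.mp this
  obtain ⟨b', hb', z, hz, rfl⟩ := Submodule.mem_sup.mp hy
  obtain ⟨i, hi, a', ha', rfl⟩ := hA_dec a ha
  have hbz : b' + z ∈ B' ⊔ Z := Submodule.add_mem_sup hb' hz
  have h1 : A.projection _ cA (i + a' + (b' + z)) = i + a' := by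
    rw [map_add, Submodule.projection_apply_of_mem_left cA ha]
    have : A.projection _ cA (b' + z) = 0 :=
      (Submodule.projection_apply_eq_zero_iff cA).mpr hbz
    rw [this, add_zero]
  have h2 : B.projection _ cB (i + a' + (b' + z)) = i + b' := by
    have e : i + a' + (b' + z) = (i + b') + (a' + z) := by abel
    rw [e, map_add, Submodule.projection_apply_of_mem_left cB (B.add_mem hi.2 hb'.1)]
    have : B.projection _ cB (a' + z) = 0 :=
      (Submodule.projection_apply_eq_zero_iff cB).mpr (Submodule.add_mem_sup ha' hz)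
    rw [this, add_zero]
  show (A.projection _ cA + B.projection _ cB - 1) (i + a' + (b' + z)) ∈ _
  rw [LinearMap.sub_apply, LinearMap.add_apply, h1, h2, Module.End.one_apply]
  have e : i + a' + (i + b') - (i + a' + (b' + z)) = i + (-z) := by abel
  rw [e]
  exact Submodule.add_mem_sup hi (Z.neg_mem hz)

end special

/-! ### The adelic situation -/

section global

variable {K F : Type*} [Field K] [Field F] [Algebra K F]

/-- evaluation of a repartition at a place. -/
def ev (v : Place K F) : ↥(repartitions K F) →ₗ[K] F where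
  toFun r := (r : Place K F → F) v
  map_add' _ _ := rfl
  map_smul' _ _ := rfl

theorem ev_apply (v : Place K F) (r : ↥(repartitions K F)) :
    ev v r = (r : Place K F → F) v := rfl

open Classical in
/-- the repartition supported at the single place `v`. -/
noncomputable def single (v : Place K F) : F →ₗ[K] ↥(repartitions K F) where
  toFun x := ⟨Pi.single v x, mem_repartitions_of_finite (by
    refine (Set.finite_singleton v).subset ?_
    intro w hw
    by_contra hne
    have hne' : w ≠ v := hne
    apply hw
    rw [Pi.single_eq_of_ne hne']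
    simp)⟩
  map_add' x y := by
    apply Subtype.ext
    exact Pi.single_add (f := fun _ : Place K F => F) v x y
  map_smul' c x := by
    apply Subtype.ext
    exact Pi.single_smul (f := fun _ : Place K F => F) v c x

theorem ev_single_same (v : Place K F) (x : F) : ev v (single v x) = x := by
  classical
  exact Pi.single_eq_same (M := fun _ : Place K F => F) v x

theorem ev_single_of_ne {v w : Place K F} (h : w ≠ v) (x : F) : ev w (single v x) = 0 := by
  classical
  exact Pi.single_eq_of_ne (M := fun _ : Place K F => F) h x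

theorem ext_ev {r s : ↥(repartitions K F)} (h : ∀ v, ev v r = ev v s) : r = s :=
  Subtype.ext (funext h)

theorem isFiniteRank_sum' {V : Type*} [AddCommGroup V] [Module K V] {ι : Type*} (s : Finset ι)
    (θ : ι → (V →ₗ[K] V)) (h : ∀ i ∈ s, IsFiniteRank (K := K) (θ i)) :
    IsFiniteRank (K := K) (∑ i ∈ s, θ i) := by
  classical
  induction s using Finset.induction_on with
  | empty => simpa using (isFiniteRank_zero (K := K) (V := V) (W := V))
  | insert a s ha ih =>
    rw [Finset.sum_insert ha]
    exact isFiniteRank_add (h a (by simp)) (ih fun i hi => h i (by simp [hi]))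

/-- an endomorphism of the repartitions acting componentwise through `t v`. -/
def IsCw (T : Module.End K ↥(repartitions K F)) (t : Place K F → Module.End K F) : Prop :=
  ∀ r v, ev v (T r) = t v (ev v r)

theorem IsCw.one : IsCw (K := K) (F := F) 1 (fun _ => 1) := fun _ _ => rfl

theorem IsCw.mul {T₁ T₂ : Module.End K ↥(repartitions K F)} {t₁ t₂ : Place K F → Module.End K F}
    (h₁ : IsCw T₁ t₁) (h₂ : IsCw T₂ t₂) : IsCw (T₁ * T₂) (fun v => t₁ v * t₂ v) := by
  intro r v
  rw [Module.End.mul_apply, h₁, h₂]; rfl

theorem IsCw.add {T₁ T₂ : Module.End K ↥(repartitions K F)} {t₁ t₂ : Place K F → Module.End K F}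
    (h₁ : IsCw T₁ t₁) (h₂ : IsCw T₂ t₂) : IsCw (T₁ + T₂) (fun v => t₁ v + t₂ v) := by
  intro r v
  rw [LinearMap.add_apply, map_add, h₁, h₂]; rfl

theorem IsCw.sub {T₁ T₂ : Module.End K ↥(repartitions K F)} {t₁ t₂ : Place K F → Module.End K F}
    (h₁ : IsCw T₁ t₁) (h₂ : IsCw T₂ t₂) : IsCw (T₁ - T₂) (fun v => t₁ v - t₂ v) := by
  intro r v
  rw [LinearMap.sub_apply, map_sub, h₁, h₂]; rfl

/-- **Componentwise finite-rank operators**: finite rank, and the trace is the sum of the local
traces. -/
theorem IsCw.fr_and_trfr {T : Module.End K ↥(repartitions K F)} {t : Place K F → Module.End K F}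
    (h : IsCw T t) (S : Finset (Place K F)) (h0 : ∀ v ∉ S, t v = 0) (hfr : ∀ v ∈ S, FR (t v)) :
    FR T ∧ trfr T = ∑ v ∈ S, trfr (t v) := by
  classical
  have key : T = ∑ v ∈ S, (single v ∘ₗ (t v ∘ₗ ev v)) := by
    refine LinearMap.ext fun r => ext_ev fun w => ?_
    rw [h, LinearMap.sum_apply, map_sum]
    by_cases hw : w ∈ S
    · rw [Finset.sum_eq_single w]
      · simp only [LinearMap.coe_comp, Function.comp_apply]
        rw [ev_single_same]
      · intro v _ hvw
        simp only [LinearMap.coe_comp, Function.comp_apply]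
        exact ev_single_of_ne (Ne.symm hvw) _
      · intro hw'; exact absurd hw hw'
    · rw [h0 w hw, LinearMap.zero_apply]
      symm
      apply Finset.sum_eq_zero
      intro v hv
      simp only [LinearMap.coe_comp, Function.comp_apply]
      refine ev_single_of_ne (fun e => hw ?_) _
      rw [e]; exact hv
  have hfr' : ∀ v ∈ S, IsFiniteRank (K := K) (single v ∘ₗ (t v ∘ₗ ev v)) := by
    intro v hv
    exact isFiniteRank_comp_left (isFiniteRank_comp_right (hfr v hv) _) _
  constructor
  · rw [key]
    exact isFiniteRank_sum' S _ hfr'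
  · rw [key, trfr_sum S _ hfr']
    refine Finset.sum_congr rfl fun v hv => ?_
    rw [trfr_comm' (single v) (t v ∘ₗ ev v) (isFiniteRank_comp_right (hfr v hv) _)]
    congr 1
    ext x
    simp only [LinearMap.coe_comp, Function.comp_apply]
    rw [ev_single_same]

/-- the componentwise projector onto `A(0) = ∏ O_v ∩ repartitions`. -/
noncomputable def bigP : Module.End K ↥(repartitions K F) where
  toFun r := ⟨fun v => pv v (ev v r), mem_repartitions_of_finite (by
    convert Set.finite_empty
    ext v
    simp only [Set.mem_ofPred_eq, Set.mem_empty_iff_false, iff_false, not_not]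
    exact v.adicValuation_le_one_of_mem (pv_mem v _))⟩
  map_add' r s := by
    apply Subtype.ext
    funext v
    show pv v (ev v (r + s)) = pv v (ev v r) + pv v (ev v s)
    rw [map_add, map_add]
  map_smul' c r := by
    apply Subtype.ext
    funext v
    show pv v (ev v (c • r)) = c • pv v (ev v r)
    rw [map_smul, map_smul]

theorem isCw_bigP : IsCw (K := K) (F := F) bigP (fun v => pv v) := fun _ _ => rfl

theorem bigP_idem : (bigP : Module.End K ↥(repartitions K F)) * bigP = bigP := by
  refine LinearMap.ext fun r => ext_ev fun v => ?_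
  rw [Module.End.mul_apply, isCw_bigP, isCw_bigP]
  have := LinearMap.congr_fun (pv_idem v) (ev v r)
  rwa [Module.End.mul_apply] at this

/-- multiplication by `f` on repartitions acts componentwise. -/
theorem isCw_mulEnd (f : F) :
    IsCw (K := K) (F := F) (mulEnd (K := K) (V := ↥(repartitions K F)) f)
      (fun _ => mulEnd (K := K) (V := F) f) := fun _ _ => rfl

theorem mem_repartitionsOf_zero_iff (r : ↥(repartitions K F)) :
    r ∈ repartitionsOf (0 : Divisor K F) ↔ ∀ v, ev v r ∈ v.toValuationSubring := by
  rw [mem_repartitionsOf_iff]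
  refine forall_congr' fun v => ?_
  constructor
  · rintro (h | h)
    · rw [ev_apply, h]; exact zero_mem _
    · apply Fermat.Agent.S24.Expansion.mem_of_ord_nonneg
      rw [ev_apply]
      simpa using h
  · intro h
    by_cases h0 : (r : Place K F → F) v = 0
    · exact Or.inl h0
    · right
      have := Fermat.Agent.S24.Expansion.ord_nonneg_of_mem v h h0
      rw [ev_apply] at this
      simpa using this

theorem bigP_mem (r : ↥(repartitions K F)) : bigP r ∈ repartitionsOf (0 : Divisor K F) := by
  rw [mem_repartitionsOf_zero_iff]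
  intro v
  rw [isCw_bigP]
  exact pv_mem v _

theorem bigP_apply_of_mem {r : ↥(repartitions K F)} (hr : r ∈ repartitionsOf (0 : Divisor K F)) :
    bigP r = r := by
  rw [mem_repartitionsOf_zero_iff] at hr
  refine ext_ev fun v => ?_
  rw [isCw_bigP]
  exact pv_apply_of_mem v (hr v)

/-- the finite set of places where `f` or `g` is not integral. -/
theorem finite_bad (hfin : ∀ f : F, f ≠ 0 → {v : Place K F | v.ord f ≠ 0}.Finite) (f g : F) :
    {v : Place K F | f ∉ v.toValuationSubring ∨ g ∉ v.toValuationSubring}.Finite := by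
  have aux : ∀ h : F, {v : Place K F | h ∉ v.toValuationSubring}.Finite := by
    intro h
    rcases eq_or_ne h 0 with rfl | h0
    · convert Set.finite_empty
      ext v
      simp
    · refine (hfin h h0).subset fun v hv => ?_
      intro h1
      apply hv
      apply Fermat.Agent.S24.Expansion.mem_of_ord_nonneg
      rw [h1]
  exact ((aux f).union (aux g)).subset fun v hv => hv

variable (hres : ∀ v : Place K F, ResK v)
  (hfin : ∀ f : F, f ≠ 0 → {v : Place K F | v.ord f ≠ 0}.Finite)

include hres hfin in
/-- `A(0)` is almost stable under multiplication by functions. -/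
theorem almostStable_bigP :
    AlmostStable (K := K) (V := ↥(repartitions K F)) F (bigP : Module.End K ↥(repartitions K F)) := by
  intro f
  unfold InE
  set S := (finite_bad hfin f f).toFinset with hS
  have hcw : IsCw ((1 - bigP) * mulEnd (K := K) (V := ↥(repartitions K F)) f * bigP)
      (fun v => (1 - pv v) * mulEnd (K := K) (V := F) f * pv v) :=
    ((IsCw.one.sub isCw_bigP).mul (isCw_mulEnd f)).mul isCw_bigP
  refine (hcw.fr_and_trfr S ?_ ?_).1
  · intro v hv
    have : f ∈ v.toValuationSubring := by
      by_contra h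
      apply hv
      rw [hS, Set.Finite.mem_toFinset]
      exact Or.inl h
    exact stable_of_mem v this
  · intro v _
    exact almostStable_pv (hres v) f

include hres hfin in
/-- **The adelic residue is the sum of the local residues.** -/
theorem resPair_bigP_eq_sum (f g : F) :
    resPair (bigP : Module.End K ↥(repartitions K F)) (mulEnd f) (mulEnd g)
      = ∑ v ∈ (finite_bad hfin f g).toFinset,
          resPair (pv v) (mulEnd (K := K) (V := F) f) (mulEnd g) := by
  set S := (finite_bad hfin f g).toFinset with hS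
  have hgood : ∀ v ∉ S, f ∈ v.toValuationSubring ∧ g ∈ v.toValuationSubring := by
    intro v hv
    rw [hS, Set.Finite.mem_toFinset] at hv
    simp only [Set.mem_ofPred_eq, not_or, not_not] at hv
    exact hv
  have hcomm : IsCw (TateBlock.comm bigP (mulEnd (K := K) (V := ↥(repartitions K F)) f) (mulEnd g))
      (fun v => TateBlock.comm (pv v) (mulEnd (K := K) (V := F) f) (mulEnd g)) := by
    unfold TateBlock.comm
    exact ((isCw_bigP.mul (isCw_mulEnd f)).mul (isCw_mulEnd g)).sub
      (((isCw_mulEnd g).mul isCw_bigP).mul (isCw_mulEnd f))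
  have h1 := (hcomm.mul isCw_bigP).fr_and_trfr S
    (fun v hv => comm_mul_p_eq_zero_of_stable (mulEnd_commute f g)
      (stable_of_mem v (hgood v hv).1) (stable_of_mem v (hgood v hv).2))
    (fun v _ => (inE0_comm (pv_idem v) (mulEnd_commute f g) (almostStable_pv (hres v) f)
      (almostStable_pv (hres v) g)).1)
  have h2 := ((IsCw.one.sub isCw_bigP).mul hcomm).fr_and_trfr S
    (fun v hv => q_mul_comm_eq_zero_of_stable (pv_idem v) (mulEnd_commute f g)
      (stable_of_mem v (hgood v hv).2))
    (fun v _ => (inE0_comm (pv_idem v) (mulEnd_commute f g) (almostStable_pv (hres v) f)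
      (almostStable_pv (hres v) g)).2)
  unfold resPair Tr0
  rw [h1.2, h2.2, ← Finset.sum_add_distrib]

include hres hfin in
/-- **The adelic residue vanishes** (complement lemma with `B = F`). -/
theorem resPair_bigP_eq_zero
    [FiniteDimensional K
      ↥(repartitionsOf (0 : Divisor K F) ⊓ principalRepartitions K F)]
    [FiniteDimensional K
      (↥(repartitions K F) ⧸ (repartitionsOf (0 : Divisor K F) ⊔ principalRepartitions K F))]
    (f g : F) :
    resPair (bigP : Module.End K ↥(repartitions K F)) (mulEnd f) (mulEnd g) = 0 := by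
  obtain ⟨pA, pB, ⟨_, hA2, hA3⟩, ⟨hB1, hB2, hB3⟩, hρ⟩ :=
    exists_special_projectors (repartitionsOf (0 : Divisor K F)) (principalRepartitions K F)
  have hsr : SameRange (bigP : Module.End K ↥(repartitions K F)) pA :=
    sameRange_of (repartitionsOf (0 : Divisor K F)) bigP_mem (fun x hx => bigP_apply_of_mem hx)
      hA2 hA3
  have hgA : InE pA (mulEnd (K := K) (V := ↥(repartitions K F)) g) :=
    InE.of_sameRange hsr (almostStable_bigP hres hfin g)
  have hstab : ∀ h : F, (1 - pB) * mulEnd (K := K) (V := ↥(repartitions K F)) h * pB = 0 := by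
    intro h
    refine LinearMap.ext fun r => ?_
    rw [Module.End.mul_apply, Module.End.mul_apply, LinearMap.sub_apply, Module.End.one_apply,
      LinearMap.zero_apply]
    have hmem : mulEnd (K := K) (V := ↥(repartitions K F)) h (pB r)
        ∈ principalRepartitions K F := by
      obtain ⟨x, hx⟩ := mem_principalRepartitions_iff.mp (hB2 r)
      rw [mem_principalRepartitions_iff]
      refine ⟨h * x, ?_⟩
      funext v
      show h * ((pB r : ↥(repartitions K F)) : Place K F → F) v = h * x
      rw [hx]
    rw [hB3 _ hmem, sub_self]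
  have hgB : InE pB (mulEnd (K := K) (V := ↥(repartitions K F)) g) := by
    unfold InE
    rw [hstab g]
    exact FR.zero
  have hB0 : resPair pB (mulEnd (K := K) (V := ↥(repartitions K F)) f) (mulEnd g) = 0 :=
    resPair_eq_zero_of_stable hB1 (mulEnd_commute f g) (hstab f) (hstab g)
  have hsum := resPair_add_eq_zero hρ (mulEnd_commute (K := K) (V := ↥(repartitions K F)) f g)
    hgA hgB
  rw [hB0, add_zero] at hsum
  rw [← resPair_of_sameRange hsr (mulEnd_commute f g) (almostStable_bigP hres hfin f)
    (almostStable_bigP hres hfin g)]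
  exact hsum

include hfin in
/-- the local residues of `f dg` vanish outside the finite set of poles of `f`, `g`. -/
theorem support_tres_smul_D_subset (f g : F) :
    (Function.support fun v : Place K F => tres (hres v) (f • D K F g))
      ⊆ ((finite_bad hfin f g).toFinset : Set (Place K F)) := by
  intro v hv
  rw [Function.mem_support] at hv
  rw [Finset.mem_coe, Set.Finite.mem_toFinset]
  by_contra h
  simp only [Set.mem_ofPred_eq, not_or, not_not] at h
  exact hv (tres_eq_zero_of_mem (hres v) h.1 h.2)

include hfin in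
/-- **Residue theorem for `f dg`.** -/
theorem finsum_tres_smul_D
    [FiniteDimensional K
      ↥(repartitionsOf (0 : Divisor K F) ⊓ principalRepartitions K F)]
    [FiniteDimensional K
      (↥(repartitions K F) ⧸ (repartitionsOf (0 : Divisor K F) ⊔ principalRepartitions K F))]
    (f g : F) : ∑ᶠ v : Place K F, tres (hres v) (f • D K F g) = 0 := by
  rw [finsum_eq_sum_of_support_subset _ (support_tres_smul_D_subset hres hfin f g)]
  have := resPair_bigP_eq_sum hres hfin f g
  rw [resPair_bigP_eq_zero hres hfin f g] at this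
  rw [this]
  exact Finset.sum_congr rfl fun v _ => tres_smul_D (hres v) f g

/-- every Kähler differential is a finite sum `∑ f_i dg_i`. -/
theorem exists_repr (ω : Ω[F⁄K]) :
    ∃ (n : ℕ) (f g : Fin n → F), ω = ∑ i, f i • D K F (g i) := by
  have hω : ω ∈ Submodule.span F (Set.range (D K F)) := by
    rw [KaehlerDifferential.span_range_derivation]; trivial
  obtain ⟨n, f, g, rfl⟩ := Submodule.mem_span_set'.mp hω
  choose g' hg' using fun i => (g i).2
  exact ⟨n, f, g', by simp [hg']⟩

include hfin in
theorem finite_support_tres (ω : Ω[F⁄K]) :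
    (Function.support fun v : Place K F => tres (hres v) ω).Finite := by
  classical
  obtain ⟨n, f, g, rfl⟩ := exists_repr ω
  refine (Set.finite_iUnion fun i : Fin n =>
    ((finite_bad hfin (f i) (g i)).toFinset.finite_toSet)).subset ?_
  intro v hv
  rw [Function.mem_support, map_sum] at hv
  obtain ⟨i, _, hi⟩ := Finset.exists_ne_zero_of_sum_ne_zero hv
  exact Set.mem_iUnion.mpr ⟨i, support_tres_smul_D_subset hres hfin (f i) (g i) hi⟩

include hfin in
/-- **The residue theorem** (Tate's proof). -/
theorem finsum_tres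
    [FiniteDimensional K
      ↥(repartitionsOf (0 : Divisor K F) ⊓ principalRepartitions K F)]
    [FiniteDimensional K
      (↥(repartitions K F) ⧸ (repartitionsOf (0 : Divisor K F) ⊔ principalRepartitions K F))]
    (ω : Ω[F⁄K]) : ∑ᶠ v : Place K F, tres (hres v) ω = 0 := by
  classical
  obtain ⟨n, f, g, rfl⟩ := exists_repr ω
  have h1 : (fun v : Place K F => tres (hres v) (∑ i, f i • D K F (g i)))
      = fun v => ∑ i, tres (hres v) (f i • D K F (g i)) := by
    funext v; rw [map_sum]
  rw [h1, finsum_sum_comm]
  · exact Finset.sum_eq_zero fun i _ => finsum_tres_smul_D hres hfin (f i) (g i)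
  · intro i _
    exact (finite_bad hfin (f i) (g i)).toFinset.finite_toSet.subset
      (support_tres_smul_D_subset hres hfin (f i) (g i))

end global

end Fermat.Agent.S20.TateGlobal
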