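import Fermat.Agent.S20.TateClasses

/-!
# Tate's abstract residue

`V` a `K`-vector space, `A ≤ V` a subspace, `K'` a commutative `K`-algebra acting on `V` such that
`f • A` is "not much bigger" than `A` for every `f : K'`.  We construct the `K`-linear map
`res A hA : Ω[K'⁄K] →ₗ[K] K` of Tate (1968) and prove its basic properties.
-/

set_option autoImplicit false

namespace Fermat.Agent.S20.TateResidue

open Module LinearMap Fermat.Agent.S20.TateTrace Fermat.Agent.S20.TateClasses

variable {K V : Type*} [Field K] [AddCommGroup V] [Module K V]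

/-! ### Quasi-projections -/

/-- A quasi-projection onto (the commensurability class of) `A`. -/
structure IsQProj (A : Submodule K V) (π : End K V) : Prop where
  e1 : InE1 A π
  e2 : InE2 A (1 - π)

theorem IsQProj.congr {A A' : Submodule K V} (h : Comm A A') {π : End K V}
    (hπ : IsQProj A π) : IsQProj A' π :=
  ⟨hπ.e1.congr h, hπ.e2.congr h⟩

theorem isQProj_of_isProj {A P : Submodule K V} (hPA : Comm P A) {π : End K V}
    (h : LinearMap.IsProj P π) : IsQProj A π := by
  refine IsQProj.congr hPA ⟨?_, ?_⟩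
  · exact NMB.of_le (by rintro _ ⟨x, rfl⟩; exact h.map_mem x)
  · unfold InE2
    have hle : P.map (1 - π) ≤ ⊥ := by
      rintro _ ⟨x, hx, rfl⟩
      simp [h.map_id x hx]
    exact Submodule.finiteDimensional_of_le hle

theorem exists_isProj (P : Submodule K V) : ∃ π : End K V, LinearMap.IsProj P π := by
  obtain ⟨Q, hQ⟩ := Submodule.exists_isCompl P
  refine ⟨P.projection Q hQ, ⟨fun x => Submodule.projection_apply_mem hQ x, fun x hx => ?_⟩⟩
  rw [Submodule.projection_apply, Submodule.projectionOnto_apply_of_mem_left hQ hx]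

/-! ### The pairing -/

/-- `Tr [π f, g]`. -/
noncomputable def rr (π f g : End K V) : K := ftrace (π * f * g - g * (π * f))

variable {A : Submodule K V}

theorem comm_inE0 {π f g : End K V} (hπ : IsQProj A π) (hf : InE A f) (hg : InE A g)
    (hfg : f * g = g * f) : InE0 A (π * f * g - g * (π * f)) := by
  constructor
  · exact ((hπ.e1.mul_right f).mul_right g).sub ((hπ.e1.mul_right f).mul_left hg)
  · have h0 : f * g - g * f = 0 := sub_eq_zero.mpr hfg
    have e : π * f * g - g * (π * f) = -((1 - π) * f * g - g * ((1 - π) * f)) := by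
      calc π * f * g - g * (π * f)
          = -((1 - π) * f * g - g * ((1 - π) * f)) + (f * g - g * f) := by noncomm_ring
        _ = _ := by rw [h0, add_zero]
    rw [e]
    exact (((hπ.e2.mul_right hf).mul_right hg).sub ((hπ.e2.mul_right hf).mul_left g)).neg

theorem rr_add_left {π f f' g : End K V} (hπ : IsQProj A π) (hf : InE A f) (hf' : InE A f')
    (hg : InE A g) (hfg : f * g = g * f) (hf'g : f' * g = g * f') :
    rr π (f + f') g = rr π f g + rr π f' g := by
  unfold rr
  rw [← ftrace_add_E0 (comm_inE0 hπ hf hg hfg) (comm_inE0 hπ hf' hg hf'g)]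
  congr 1
  noncomm_ring

theorem rr_smul_left {π f g : End K V} (c : K) (hπ : IsQProj A π) (hf : InE A f)
    (hg : InE A g) (hfg : f * g = g * f) :
    rr π (c • f) g = c * rr π f g := by
  unfold rr
  rw [← ftrace_smul_E0 c (comm_inE0 hπ hf hg hfg)]
  congr 1
  simp only [mul_smul_comm, smul_mul_assoc, smul_sub]

theorem rr_add_right {π f g g' : End K V} (hπ : IsQProj A π) (hf : InE A f) (hg : InE A g)
    (hg' : InE A g') (hfg : f * g = g * f) (hfg' : f * g' = g' * f) :
    rr π f (g + g') = rr π f g + rr π f g' := by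
  unfold rr
  rw [← ftrace_add_E0 (comm_inE0 hπ hf hg hfg) (comm_inE0 hπ hf hg' hfg')]
  congr 1
  noncomm_ring

theorem rr_smul_right {π f g : End K V} (c : K) (hπ : IsQProj A π) (hf : InE A f)
    (hg : InE A g) (hfg : f * g = g * f) :
    rr π f (c • g) = c * rr π f g := by
  unfold rr
  rw [← ftrace_smul_E0 c (comm_inE0 hπ hf hg hfg)]
  congr 1
  simp only [mul_smul_comm, smul_mul_assoc, smul_sub]

theorem comm_qproj_inE0 {π h : End K V} (hπ : IsQProj A π) (hh : InE A h) :
    InE0 A (h * π - π * h) := by
  constructor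
  · exact (hπ.e1.mul_left hh).sub (hπ.e1.mul_right h)
  · have e : h * π - π * h = -(h * (1 - π) - (1 - π) * h) := by noncomm_ring
    rw [e]
    exact ((hπ.e2.mul_left h).sub (hπ.e2.mul_right hh)).neg

/-- The Leibniz rule for the pairing. -/
theorem rr_leibniz {π f g h : End K V} (hπ : IsQProj A π) (hf : InE A f) (hg : InE A g)
    (hh : InE A h) (hfg : f * g = g * f) (hfh : f * h = h * f) (hgh : g * h = h * g) :
    rr π f (g * h) = rr π (f * g) h + rr π (f * h) g := by
  have hfgh : f * (g * h) = g * h * f := by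
    rw [← mul_assoc, hfg, mul_assoc, hfh, ← mul_assoc]
  have hfg_h : f * g * h = h * (f * g) := by
    rw [mul_assoc, hgh, ← mul_assoc, hfh, mul_assoc]
  have hfh_g : f * h * g = g * (f * h) := by
    rw [mul_assoc, ← hgh, ← mul_assoc, hfg, mul_assoc]
  have hX := comm_inE0 hπ hf (hg.mul hh) hfgh
  have hY := comm_inE0 hπ (hf.mul hg) hh hfg_h
  have hZ := comm_inE0 hπ (hf.mul hh) hg hfh_g
  have he : InE0 A ((h * π - π * h) * f) := (comm_qproj_inE0 hπ hh).mul_right hf
  have hC := ftrace_comm_eq_zero he hg
  have hC0 : InE0 A ((h * π - π * h) * f * g - g * ((h * π - π * h) * f)) :=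
    (he.mul_right hg).sub (he.mul_left hg)
  have key : π * f * (g * h) - g * h * (π * f)
      = (π * (f * g) * h - h * (π * (f * g))) + (π * (f * h) * g - g * (π * (f * h)))
        + ((h * π - π * h) * f * g - g * ((h * π - π * h) * f)) := by
    rw [hfh]
    noncomm_ring
  unfold rr
  rw [key, ftrace_add_E0 (hY.add hZ) hC0, ftrace_add_E0 hY hZ, hC, add_zero]

/-- The pairing does not depend on the quasi-projection. -/
theorem rr_eq_of_isQProj {π π' f g : End K V} (hπ : IsQProj A π) (hπ' : IsQProj A π')
    (hf : InE A f) (hg : InE A g) (hfg : f * g = g * f) : rr π f g = rr π' f g := by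
  have h0 : InE0 A (π - π') := by
    refine ⟨hπ.e1.sub hπ'.e1, ?_⟩
    have e : π - π' = (1 - π') - (1 - π) := by noncomm_ring
    rw [e]
    exact hπ'.e2.sub hπ.e2
  have he : InE0 A ((π - π') * f) := h0.mul_right hf
  have hC := ftrace_comm_eq_zero he hg
  have key : (π * f * g - g * (π * f)) - (π' * f * g - g * (π' * f))
      = (π - π') * f * g - g * ((π - π') * f) := by noncomm_ring
  unfold rr
  rw [← sub_eq_zero, ← ftrace_sub_E0 (comm_inE0 hπ hf hg hfg) (comm_inE0 hπ' hf hg hfg), key, hC]


/-! ### The module `K' →ₗ[K] K` with `K'` acting by precomposition -/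

/-- `K' →ₗ[K] K`, with `K'` acting through the argument: `(h • φ) f = φ (h * f)`. -/
def PreDual (K K' : Type*) [Field K] [CommRing K'] [Algebra K K'] : Type _ := K' →ₗ[K] K

namespace PreDual

variable {K' : Type*} [CommRing K'] [Algebra K K']

instance : AddCommGroup (PreDual K K') := inferInstanceAs (AddCommGroup (K' →ₗ[K] K))

instance : Module K (PreDual K K') := inferInstanceAs (Module K (K' →ₗ[K] K))

/-- the underlying linear form -/
def toLin (φ : PreDual K K') : K' →ₗ[K] K := φ

/-- constructor -/
def ofLin (φ : K' →ₗ[K] K) : PreDual K K' := φ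

@[simp] theorem toLin_ofLin (φ : K' →ₗ[K] K) : toLin (ofLin φ) = φ := rfl

@[simp] theorem toLin_add (φ ψ : PreDual K K') : toLin (φ + ψ) = toLin φ + toLin ψ := rfl

@[simp] theorem toLin_zero : toLin (0 : PreDual K K') = 0 := rfl

@[simp] theorem toLin_smul (c : K) (φ : PreDual K K') : toLin (c • φ) = c • toLin φ := rfl

@[ext] theorem ext {φ ψ : PreDual K K'} (h : ∀ f, toLin φ f = toLin ψ f) : φ = ψ :=
  LinearMap.ext h

instance : SMul K' (PreDual K K') where
  smul h φ := ofLin (toLin φ ∘ₗ LinearMap.mulLeft K h)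

@[simp] theorem toLin_smul' (h : K') (φ : PreDual K K') (f : K') :
    toLin (h • φ) f = toLin φ (h * f) := rfl

instance : Module K' (PreDual K K') where
  one_smul φ := by ext f; simp
  mul_smul a b φ := by ext f; simp [mul_assoc, mul_comm a b]
  smul_zero a := by ext f; simp
  smul_add a φ ψ := by ext f; simp
  add_smul a b φ := by ext f; simp [add_mul]
  zero_smul φ := by ext f; simp

instance : IsScalarTower K K' (PreDual K K') where
  smul_assoc c h φ := by
    ext f
    simp [smul_mul_assoc]

end PreDual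

/-! ### The residue -/

section Residue

variable {K' : Type*} [CommRing K'] [Algebra K K'] [Module K' V] [IsScalarTower K K' V]

/-- multiplication by `f : K'` as a `K`-endomorphism of `V`. -/
noncomputable abbrev mu (f : K') : End K V := Algebra.lsmul K K V f

theorem mu_apply (f : K') (x : V) : (mu f : End K V) x = f • x := rfl

theorem mu_add (f g : K') : (mu (f + g) : End K V) = mu f + mu g := map_add _ _ _

theorem mu_smul (c : K) (f : K') : (mu (c • f) : End K V) = c • mu f := map_smul _ _ _

theorem mu_mul (f g : K') : (mu (f * g) : End K V) = mu f * mu g := map_mul _ _ _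

theorem mu_one : (mu (1 : K') : End K V) = 1 := map_one _

theorem mu_comm (f g : K') : (mu f : End K V) * mu g = mu g * mu f := by
  rw [← mu_mul, ← mu_mul, mul_comm]

/-- The standing hypothesis: every `f : K'` maps `A` into something not much bigger. -/
def Stable (K' : Type*) [CommRing K'] [Algebra K K'] [Module K' V] [IsScalarTower K K' V]
    (A : Submodule K V) : Prop :=
  ∀ f : K', InE A (mu f : End K V)

theorem Stable.congr {A' : Submodule K V} (h : Comm A A') (hA : Stable K' A) : Stable K' A' :=
  fun f => (hA f).congr h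

/-- a chosen honest projection onto `A`. -/
noncomputable def proj (A : Submodule K V) : End K V := (exists_isProj A).choose

theorem proj_isProj (A : Submodule K V) : LinearMap.IsProj A (proj A) :=
  (exists_isProj A).choose_spec

theorem proj_isQProj (A : Submodule K V) : IsQProj A (proj A) :=
  isQProj_of_isProj (Comm.refl A) (proj_isProj A)

/-- the residue pairing `(f, g) ↦ res (f dg)`. -/
noncomputable def resForm (A : Submodule K V) (f g : K') : K :=
  rr (proj A) (mu f : End K V) (mu g)

/-- the residue pairing can be computed with any quasi-projection onto any subspace commensurable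
with `A`. -/
theorem resForm_eq {A' : Submodule K V} (hA : Stable K' A) (hAA' : Comm A A') {π : End K V}
    (hπ : IsQProj A' π) (f g : K') :
    resForm A f g = rr π (mu f : End K V) (mu g) :=
  rr_eq_of_isQProj (proj_isQProj A) (hπ.congr hAA'.symm) (hA f) (hA g) (mu_comm f g)

/-- The derivation `g ↦ (f ↦ res (f dg))` with values in `PreDual K K'`. -/
noncomputable def resDeriv (A : Submodule K V) (hA : Stable K' A) :
    Derivation K K' (PreDual K K') where
  toFun g := PreDual.ofLin
    { toFun := fun f => resForm A f g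
      map_add' := fun f f' => by
        unfold resForm
        rw [mu_add]
        exact rr_add_left (proj_isQProj A) (hA f) (hA f') (hA g) (mu_comm f g) (mu_comm f' g)
      map_smul' := fun c f => by
        unfold resForm
        rw [mu_smul]
        exact rr_smul_left c (proj_isQProj A) (hA f) (hA g) (mu_comm f g) }
  map_add' g g' := by
    ext f
    show resForm A f (g + g') = resForm A f g + resForm A f g'
    unfold resForm
    rw [mu_add]
    exact rr_add_right (proj_isQProj A) (hA f) (hA g) (hA g') (mu_comm f g) (mu_comm f g')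
  map_smul' c g := by
    ext f
    show resForm A f (c • g) = c * resForm A f g
    unfold resForm
    rw [mu_smul]
    exact rr_smul_right c (proj_isQProj A) (hA f) (hA g) (mu_comm f g)
  map_one_eq_zero' := by
    ext f
    show resForm A f 1 = 0
    unfold resForm rr
    rw [mu_one, mul_one, one_mul, sub_self, ftrace_zero]
  leibniz' g h := by
    ext f
    show resForm A f (g * h) = resForm A (g * f) h + resForm A (h * f) g
    unfold resForm
    rw [mu_mul, mul_comm g f, mul_comm h f, mu_mul, mu_mul]
    exact rr_leibniz (proj_isQProj A) (hA f) (hA g) (hA h) (mu_comm f g) (mu_comm f h)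
      (mu_comm g h)

theorem resDeriv_apply (A : Submodule K V) (hA : Stable K' A) (f g : K') :
    PreDual.toLin (resDeriv A hA g) f = resForm A f g := rfl

/-- **Tate's residue** `res^V_A : Ω[K'⁄K] →ₗ[K] K`. -/
noncomputable def res (A : Submodule K V) (hA : Stable K' A) : Ω[K'⁄K] →ₗ[K] K :=
  (LinearMap.applyₗ (1 : K') : (K' →ₗ[K] K) →ₗ[K] K) ∘ₗ
    ((resDeriv A hA).liftKaehlerDifferential.restrictScalars K : Ω[K'⁄K] →ₗ[K] PreDual K K')

theorem res_smul_D (A : Submodule K V) (hA : Stable K' A) (f g : K') :
    res A hA (f • KaehlerDifferential.D K K' g) = resForm A f g := by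
  show PreDual.toLin ((resDeriv A hA).liftKaehlerDifferential
    (f • KaehlerDifferential.D K K' g)) 1 = _
  rw [map_smul, Derivation.liftKaehlerDifferential_comp_D, PreDual.toLin_smul', mul_one,
    resDeriv_apply]

theorem res_D (A : Submodule K V) (hA : Stable K' A) (g : K') :
    res A hA (KaehlerDifferential.D K K' g) = resForm A 1 g := by
  rw [← res_smul_D, one_smul]

/-- The `K`-span of the `f • D g` is everything. -/
theorem span_smul_D_eq_top :
    Submodule.span K {ω : Ω[K'⁄K] | ∃ f g : K', ω = f • KaehlerDifferential.D K K' g} = ⊤ := by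
  rw [eq_top_iff]
  intro ω hωtop
  clear hωtop
  have hω : ω ∈ Submodule.span K' (Set.range (KaehlerDifferential.D K K')) := by
    rw [KaehlerDifferential.span_range_derivation]; trivial
  have key : ∀ h : K', h • ω ∈
      Submodule.span K {ω : Ω[K'⁄K] | ∃ f g : K', ω = f • KaehlerDifferential.D K K' g} := by
    induction hω using Submodule.span_induction with
    | mem x hx =>
      obtain ⟨g, rfl⟩ := hx
      intro h
      exact Submodule.subset_span ⟨h, g, rfl⟩
    | zero => intro h; simp
    | add x y _ _ hx hy => intro h; rw [smul_add]; exact Submodule.add_mem _ (hx h) (hy h)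
    | smul a x _ hx => intro h; rw [smul_smul]; exact hx (h * a)
  simpa using key 1

/-- Two `K`-linear forms on `Ω[K'⁄K]` agreeing on all `f • D g` are equal. -/
theorem ext_smul_D {L L' : Ω[K'⁄K] →ₗ[K] K}
    (h : ∀ f g : K', L (f • KaehlerDifferential.D K K' g) = L' (f • KaehlerDifferential.D K K' g)) :
    L = L' := by
  apply LinearMap.ext_on_range (v := fun p : K' × K' => p.1 • KaehlerDifferential.D K K' p.2)
  · rw [eq_top_iff, ← span_smul_D_eq_top]
    apply Submodule.span_mono
    rintro _ ⟨f, g, rfl⟩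
    exact ⟨(f, g), rfl⟩
  · rintro ⟨f, g⟩
    exact h f g


/-! ### Properties of the residue -/

theorem isProj_projection {P Q : Submodule K V} (h : IsCompl P Q) :
    LinearMap.IsProj P (P.projection Q h) :=
  ⟨fun x => Submodule.projection_apply_mem h x, fun x hx => by
    rw [Submodule.projection_apply, Submodule.projectionOnto_apply_of_mem_left h hx]⟩

/-- The residue only depends on the commensurability class of `A`. -/
theorem res_congr {A' : Submodule K V} (h : Comm A A') (hA : Stable K' A)
    (hA' : Stable K' A') : res A hA = res A' hA' := by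
  apply ext_smul_D
  intro f g
  rw [res_smul_D, res_smul_D, resForm_eq hA h (proj_isQProj A')]
  rfl

/-- the residue can be computed with any quasi-projection for any commensurable subspace. -/
theorem res_smul_D_eq {A' : Submodule K V} (hA : Stable K' A) (hAA' : Comm A A')
    {π : End K V} (hπ : IsQProj A' π) (f g : K') :
    res A hA (f • KaehlerDifferential.D K K' g)
      = ftrace (π * mu f * mu g - mu g * (π * mu f)) := by
  rw [res_smul_D, resForm_eq hA hAA' hπ]
  rfl

/-- (R1) if `f` and `g` both preserve `A`, then `res (f dg) = 0`. -/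
theorem res_eq_zero_of_stable (hA : Stable K' A) {f g : K'} (hf : ∀ a ∈ A, f • a ∈ A)
    (hg : ∀ a ∈ A, g • a ∈ A) : res A hA (f • KaehlerDifferential.D K K' g) = 0 := by
  rw [res_smul_D]
  unfold resForm rr
  have hπ := proj_isProj A
  set π := proj A
  set θ : End K V := π * mu f * mu g - mu g * (π * mu f) with hθ
  have h1 : ∀ x, θ x ∈ A := by
    intro x
    rw [hθ]
    simp only [LinearMap.sub_apply, Module.End.mul_apply, mu_apply]
    exact A.sub_mem (hπ.map_mem _) (hg _ (hπ.map_mem _))
  have h2 : ∀ a ∈ A, θ a = 0 := by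
    intro a ha
    rw [hθ]
    simp only [LinearMap.sub_apply, Module.End.mul_apply, mu_apply]
    rw [hπ.map_id _ (hf _ (hg a ha)), hπ.map_id _ (hf a ha), smul_comm, sub_self]
  apply ftrace_eq_zero_of_pow_eq_zero (m := 2)
  ext x
  rw [pow_two, Module.End.mul_apply, h2 _ (h1 x)]
  rfl

/-- (R3) `res (g⁻¹ dg) = dim (A / gA)` when `gA ≤ A`; here `C` is a complement of `gA` in `A`. -/
theorem res_inv_smul_D (hA : Stable K' A) (g : K'ˣ) (C : Submodule K V) [FiniteDimensional K C]
    (hgA : ∀ a ∈ A, (g : K') • a ∈ A)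
    (hdisj : ∀ a ∈ A, (g : K') • a ∈ C → (g : K') • a = 0)
    (hsup : ∀ a ∈ A, ∃ a' ∈ A, ∃ c ∈ C, a = (g : K') • a' + c) (hCA : C ≤ A) :
    res A hA ((↑g⁻¹ : K') • KaehlerDifferential.D K K' (g : K')) = (finrank K C : K) := by
  classical
  -- the subspace `g⁻¹ C`
  set G : Submodule K V := C.map (mu (↑g⁻¹ : K') : End K V) with hG
  have hginv : ∀ x : V, (g : K') • ((↑g⁻¹ : K') • x) = x := fun x => by
    rw [smul_smul, Units.mul_inv, one_smul]
  have hinvg : ∀ x : V, (↑g⁻¹ : K') • ((g : K') • x) = x := fun x => by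
    rw [smul_smul, Units.inv_mul, one_smul]
  have hAG : Disjoint A G := by
    rw [Submodule.disjoint_def]
    rintro x hxA ⟨c, hc, rfl⟩
    have h1 : (g : K') • ((mu (↑g⁻¹ : K') : End K V) c) = c := hginv c
    have h2 := hdisj _ hxA (by rw [h1]; exact hc)
    rw [h1] at h2
    rw [h2, map_zero]
  obtain ⟨B', hB'⟩ := Submodule.exists_isCompl (A ⊔ G)
  have hcompl : IsCompl A (G ⊔ B') := by
    constructor
    · rw [Submodule.disjoint_def]
      intro x hxA hxB
      obtain ⟨y, hy, b, hb, rfl⟩ := Submodule.mem_sup.mp hxB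
      have hb0 : b = 0 := by
        have hmem : b ∈ A ⊔ G := by
          have : b = (y + b) - y := by abel
          rw [this]
          exact Submodule.sub_mem _ (Submodule.mem_sup_left hxA) (Submodule.mem_sup_right hy)
        exact (Submodule.disjoint_def.mp hB'.disjoint) b hmem hb
      rw [hb0, add_zero] at hxA ⊢
      exact (Submodule.disjoint_def.mp hAG) y hxA hy
    · rw [codisjoint_iff, ← sup_assoc]
      exact codisjoint_iff.mp hB'.codisjoint
  set π : End K V := A.projection (G ⊔ B') hcompl with hπdef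
  have hπ : LinearMap.IsProj A π := isProj_projection hcompl
  have hπG : ∀ c ∈ C, π ((↑g⁻¹ : K') • c) = 0 := by
    intro c hc
    apply Submodule.projection_apply_of_mem_right
    exact Submodule.mem_sup_left ⟨c, hc, rfl⟩
  rw [res_smul_D_eq hA (Comm.refl A) (isQProj_of_isProj (Comm.refl A) hπ)]
  set θ : End K V := π * mu (↑g⁻¹ : K') * mu (g : K') - mu (g : K') * (π * mu (↑g⁻¹ : K'))
    with hθ
  have hθx : ∀ x, θ x = π x - (g : K') • π ((↑g⁻¹ : K') • x) := by
    intro x
    rw [hθ]
    simp only [LinearMap.sub_apply, Module.End.mul_apply, mu_apply]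
    rw [hinvg]
  have hθC : ∀ c ∈ C, θ c = c := by
    intro c hc
    rw [hθx, hπ.map_id c (hCA hc), hπG c hc, smul_zero, sub_zero]
  have hθA : ∀ a ∈ A, θ a ∈ C := by
    intro a ha
    obtain ⟨a', ha', c, hc, rfl⟩ := hsup a ha
    rw [map_add, hθC c hc]
    have : θ ((g : K') • a') = 0 := by
      rw [hθx, hπ.map_id _ (hgA a' ha'), hinvg, hπ.map_id _ ha', sub_self]
    rw [this, zero_add]
    exact hc
  have hθV : ∀ x, θ x ∈ A := by
    intro x
    rw [hθx]
    exact A.sub_mem (hπ.map_mem _) (hgA _ (hπ.map_mem _))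
  have hW : IsWitness θ C :=
    isWitness_of_sq (fun w hw => by rw [hθC w hw]; exact hw) (fun x => hθA _ (hθV x))
  rw [hW.ftrace_eq_trace]
  have : θ.restrict hW.stable = LinearMap.id := by
    ext x
    exact hθC x x.2
  rw [this, LinearMap.trace_id]

/-- If `P ⊔ W = ⊤`-ish, a complement of `P` is finite-dimensional. -/
theorem finiteDimensional_of_isCompl_of_nmb {P C : Submodule K V} (h : IsCompl P C)
    (hP : NMB ⊤ P) : FiniteDimensional K C := by
  obtain ⟨W, hW, hle⟩ := hP
  have hsub : C ≤ W.map (C.projection P h.symm) := by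
    intro c hc
    have hc' : c ∈ P ⊔ W := hle Submodule.mem_top
    obtain ⟨p, hp, w, hw, rfl⟩ := Submodule.mem_sup.mp hc'
    refine ⟨w, hw, ?_⟩
    have h1 : C.projection P h.symm (p + w) = p + w := by
      rw [Submodule.projection_apply, Submodule.projectionOnto_apply_of_mem_left h.symm hc]
    rw [map_add, Submodule.projection_apply_of_mem_right h.symm hp, zero_add] at h1
    exact h1
  exact Submodule.finiteDimensional_of_le hsub


/-- **Complement lemma** (replaces Tate's (R4)): if `A + B` has finite codimension and `A ∩ B` is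
finite-dimensional, then `res_A + res_B = 0`. -/
theorem res_add_res_eq_zero {B : Submodule K V} (hA : Stable K' A) (hB : Stable K' B)
    (hsup : NMB ⊤ (A ⊔ B)) (hinf : FiniteDimensional K ↥(A ⊓ B)) :
    res A hA + res B hB = 0 := by
  classical
  obtain ⟨Q, hQ⟩ := Submodule.exists_isCompl (A ⊓ B)
  set A' : Submodule K V := A ⊓ Q with hA'
  have hA_le : A ≤ A' ⊔ (A ⊓ B) := by
    intro a ha
    have hatop : a ∈ (A ⊓ B) ⊔ Q := by
      rw [codisjoint_iff.mp hQ.codisjoint]; exact Submodule.mem_top
    obtain ⟨u, hu, q, hq, rfl⟩ := Submodule.mem_sup.mp hatop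
    have hqA : q ∈ A := by
      have : q = (u + q) - u := by abel
      rw [this]
      exact A.sub_mem ha hu.1
    rw [add_comm]
    exact Submodule.add_mem_sup ⟨hqA, hq⟩ hu
  have hcommA : Comm A A' := ⟨⟨A ⊓ B, hinf, hA_le⟩, NMB.of_le inf_le_left⟩
  have hA'B : ∀ x, x ∈ A' → x ∈ B → x = 0 := by
    intro x hx hxB
    exact (Submodule.disjoint_def.mp hQ.disjoint) x ⟨hx.1, hxB⟩ hx.2
  have hAB_le : A ⊔ B ≤ A' ⊔ B :=
    sup_le (hA_le.trans (sup_le_sup_left inf_le_right A')) le_sup_right
  have hsup' : NMB ⊤ (A' ⊔ B) := hsup.trans (NMB.of_le hAB_le)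
  obtain ⟨C, hC⟩ := Submodule.exists_isCompl (A' ⊔ B)
  haveI hCfin : FiniteDimensional K C := finiteDimensional_of_isCompl_of_nmb hC hsup'
  have hcompl : IsCompl A' (B ⊔ C) := by
    constructor
    · rw [Submodule.disjoint_def]
      intro x hxA hxBC
      obtain ⟨b, hb, c, hc, rfl⟩ := Submodule.mem_sup.mp hxBC
      have hc0 : c = 0 := by
        have hmem : c ∈ A' ⊔ B := by
          have : c = (b + c) - b := by abel
          rw [this]
          exact Submodule.sub_mem _ (Submodule.mem_sup_left hxA) (Submodule.mem_sup_right hb)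
        exact (Submodule.disjoint_def.mp hC.disjoint) c hmem hc
      rw [hc0, add_zero] at hxA ⊢
      exact hA'B b hxA hb
    · rw [codisjoint_iff, ← sup_assoc]
      exact codisjoint_iff.mp hC.codisjoint
  have hcommB : Comm B (B ⊔ C) := ⟨NMB.of_le le_sup_left, ⟨C, hCfin, le_rfl⟩⟩
  set π : End K V := A'.projection (B ⊔ C) hcompl with hπdef
  have hπ : LinearMap.IsProj A' π := isProj_projection hcompl
  have hπ' : LinearMap.IsProj (B ⊔ C) (1 - π) := by
    have := isProj_projection hcompl.symm
    rwa [Submodule.projection_eq_id_sub_projection hcompl] at this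
  have hqA : IsQProj A' π := isQProj_of_isProj (Comm.refl A') hπ
  have hqB : IsQProj (B ⊔ C) (1 - π) := isQProj_of_isProj (Comm.refl _) hπ'
  apply ext_smul_D
  intro f g
  rw [LinearMap.add_apply, LinearMap.zero_apply, res_smul_D_eq hA hcommA hqA,
    res_smul_D_eq hB hcommB hqB]
  have hX : InE0 A' (π * mu f * mu g - mu g * (π * mu f)) :=
    comm_inE0 hqA ((hA f).congr hcommA) ((hA g).congr hcommA) (mu_comm f g)
  have h0 : (mu f : End K V) * mu g - mu g * mu f = 0 := sub_eq_zero.mpr (mu_comm f g)
  have e : (1 - π) * mu f * mu g - mu g * ((1 - π) * mu f)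
      = -(π * mu f * mu g - mu g * (π * mu f)) := by
    calc (1 - π) * mu f * mu g - mu g * ((1 - π) * mu f)
        = -(π * mu f * mu g - mu g * (π * mu f)) + (mu f * mu g - mu g * mu f) := by
          noncomm_ring
      _ = _ := by rw [h0, add_zero]
  rw [e, ftrace_neg_E0 hX, add_neg_cancel]

/-- Transport of traces along a retraction: `Tr_V (ι θ₁ p) = Tr_{V₁} θ₁` if `p ∘ ι = id`. -/
theorem ftrace_conj_retract {V₁ : Type*} [AddCommGroup V₁] [Module K V₁] (ι : V₁ →ₗ[K] V)
    (p : V →ₗ[K] V₁) (hpι : ∀ x, p (ι x) = x) (θ₁ : End K V₁) (h : IsFinitePotent θ₁) :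
    IsFinitePotent (ι ∘ₗ θ₁ ∘ₗ p) ∧ ftrace (ι ∘ₗ θ₁ ∘ₗ p) = ftrace θ₁ := by
  have e : (θ₁ ∘ₗ p) ∘ₗ ι = θ₁ := by
    ext x
    simp [hpι]
  have h' : IsFinitePotent ((θ₁ ∘ₗ p) ∘ₗ ι) := by rw [e]; exact h
  have := ftrace_comp_comm (φ := θ₁ ∘ₗ p) (ψ := ι) h'
  rw [e] at this
  exact this

end Residue

end Fermat.Agent.S20.TateResidue
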