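import Fermat.Agent.S20.ResidueThm
import Fermat.Agent.S20.KaehlerWeil
import Fermat.Agent.S20.RR.RROneOfWeak

/-!
# `KaehlerWeil.ResidueData` from Tate's residues

The interface `Fermat.Agent.S20.KaehlerWeil.ResidueData K F` (local residues, `res (f dg) = 0` for
regular `f, g`, `res (dπ/π) = 1`, residue theorem) is realised by Tate's residues of
`Fermat.Agent.S20.ResidueThm`.
-/

set_option autoImplicit false

namespace Fermat.Agent.S20.TateResidueData

open AlgebraicCurve KaehlerDifferential
open Fermat.Agent.S20.RRWeak Fermat.Agent.S20.ResidueThm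

variable {K F : Type*} [Field K] [Field F] [Algebra K F]

/-- Tate's residues form a `ResidueData`, given `O_v = K + m_v`, finiteness of zeros and poles,
and finite-dimensionality of `H¹(0)` and `L(0)`. -/
noncomputable def residueData (hres : ResidueIsBase K F)
    (hfin : ∀ f : F, f ≠ 0 → {v : Place K F | v.ord f ≠ 0}.Finite)
    [Module.Finite K (H1 (0 : Divisor K F))]
    [Module.Finite K ↥(riemannRochSpace (0 : Divisor K F))] :
    Fermat.Agent.S20.KaehlerWeil.ResidueData K F where
  res := res hres hfin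
  res_eq_zero_of_mem := fun v _ _ hf hg => res_eq_zero_of_mem hres hfin v hf hg
  res_dlog := fun v _ hπ => res_dlog hres hfin v hπ
  finsum_res := fun ω => (finsum_res hres hfin ω).2

/-- The same from the bundled hypotheses `RR.Hyp K F` and Riemann's theorem in the shape of
`RR.RROneOfWeak`. -/
noncomputable def residueDataOfHyp [IsAlgClosed K] (h : Fermat.Agent.S20.RR.Hyp K F) {g : ℕ}
    {D₀ : Divisor K F}
    (hle : ∀ D : Divisor K F, D₀ ≤ D →
      (Fermat.Agent.S20.RR.ell D : ℤ) = Divisor.degree D + 1 - g) :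
    Fermat.Agent.S20.KaehlerWeil.ResidueData K F :=
  haveI : Module.Finite K (H1 (0 : Divisor K F)) :=
    Fermat.Agent.S20.RR.RROneOfWeak.finite_H1 h hle 0
  haveI : Module.Finite K ↥(riemannRochSpace (0 : Divisor K F)) :=
    Fermat.Agent.S20.RR.RROneOfWeak.finite_L h 0
  residueData h.res h.fin

theorem nonempty_residueData [IsAlgClosed K] (h : Fermat.Agent.S20.RR.Hyp K F) {g : ℕ}
    {D₀ : Divisor K F}
    (hle : ∀ D : Divisor K F, D₀ ≤ D →
      (Fermat.Agent.S20.RR.ell D : ℤ) = Divisor.degree D + 1 - g) :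
    Nonempty (Fermat.Agent.S20.KaehlerWeil.ResidueData K F) :=
  ⟨residueDataOfHyp h hle⟩

end Fermat.Agent.S20.TateResidueData
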