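import Mathlib

/-!
# Tate's trace for finite-potent endomorphisms

`θ : End K V` is *finite-potent* if `θ ^ m` has finite-dimensional range for some `m`.
We define `ftrace θ : K` (Tate, *Residues of differentials on curves*, 1968, §1) and prove:

* `IsWitness.ftrace_eq` : `ftrace θ` is the ordinary trace of `θ` on ANY finite-dimensional
  `θ`-stable subspace `W` containing `range (θ ^ m)` for some `m`;
* `ftrace_eq_zero_of_pow_eq_zero` (T3), `ftrace_add_of_witness` / `ftrace_add` (T4),
  `ftrace_smul`, `ftrace_comp_comm` (T5).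
-/

set_option autoImplicit false

namespace Fermat.Agent.S20.TateTrace

open Module LinearMap

variable {K V : Type*} [Field K] [AddCommGroup V] [Module K V]

/-- trace of `θ` on a `θ`-stable submodule `W` (junk value `0` if `W` is not stable). -/
noncomputable def trOn (θ : End K V) (W : Submodule K V) : K :=
  open Classical in
  if h : ∀ w ∈ W, θ w ∈ W then LinearMap.trace K W (θ.restrict h) else 0

theorem trOn_eq (θ : End K V) (W : Submodule K V) (h : ∀ w ∈ W, θ w ∈ W) :
    trOn θ W = LinearMap.trace K W (θ.restrict h) := by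
  unfold trOn; rw [dif_pos h]

theorem pow_mem_of_stable {θ : End K V} {U : Submodule K V} (hU : ∀ w ∈ U, θ w ∈ U) :
    ∀ (m : ℕ) (w : V), w ∈ U → (θ ^ m) w ∈ U
  | 0, w, hw => by simpa using hw
  | m + 1, w, hw => by
      rw [pow_succ, Module.End.mul_apply]
      exact pow_mem_of_stable hU m _ (hU w hw)

/-- If `θ` maps the finite-dimensional `W` into `U ≤ W`, the traces of `θ` on `U` and `W` agree. -/
theorem trOn_eq_of_forall_mem {θ : End K V} {U W : Submodule K V} [FiniteDimensional K W]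
    (hUW : U ≤ W) (h : ∀ w ∈ W, θ w ∈ U) : trOn θ U = trOn θ W := by
  have hW : ∀ w ∈ W, θ w ∈ W := fun w hw => hUW (h w hw)
  have hU : ∀ w ∈ U, θ w ∈ U := fun w hw => h w (hUW hw)
  rw [trOn_eq θ U hU, trOn_eq θ W hW]
  set f : W →ₗ[K] W := θ.restrict hW with hf_def
  set p : Submodule K W := U.comap W.subtype with hp_def
  have hf : ∀ x, f x ∈ p := fun x => by
    show W.subtype (f x) ∈ U
    exact h x x.2
  have key := LinearMap.trace_restrict_eq_of_forall_mem p f hf
  rw [← key]
  let e : p ≃ₗ[K] U := Submodule.comapSubtypeEquivOfLe hUW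
  rw [← LinearMap.trace_conj' (f.restrict (fun x _ => hf x)) e]
  have hconj : e.conj (f.restrict (fun x _ => hf x)) = θ.restrict hU := by
    ext x
    simp [e, LinearEquiv.conj_apply, f, Submodule.comapSubtypeEquivOfLe]
  rw [hconj]

theorem trOn_eq_of_pow_mem {θ : End K V} {U : Submodule K V} (hU : ∀ w ∈ U, θ w ∈ U) :
    ∀ (m : ℕ) (W : Submodule K V) [FiniteDimensional K W], U ≤ W → (∀ w ∈ W, θ w ∈ W) →
      (∀ w ∈ W, (θ ^ m) w ∈ U) → trOn θ W = trOn θ U
  | 0, W, _, hUW, _, h => by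
      have : W = U := le_antisymm (fun w hw => by simpa using h w hw) hUW
      subst this; rfl
  | m + 1, W, _, hUW, hW, h => by
      have hW'W : U ⊔ W.map θ ≤ W :=
        sup_le hUW (by rintro _ ⟨w, hw, rfl⟩; exact hW w hw)
      have : FiniteDimensional K ↥(U ⊔ W.map θ) := Submodule.finiteDimensional_of_le hW'W
      have h1 : trOn θ (U ⊔ W.map θ) = trOn θ W :=
        trOn_eq_of_forall_mem hW'W (fun w hw => Submodule.mem_sup_right (Submodule.mem_map_of_mem hw))
      have hW' : ∀ w ∈ U ⊔ W.map θ, θ w ∈ U ⊔ W.map θ :=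
        fun w hw => Submodule.mem_sup_right (Submodule.mem_map_of_mem (hW'W hw))
      have h3 : ∀ w ∈ U ⊔ W.map θ, (θ ^ m) w ∈ U := by
        intro w hw
        obtain ⟨u, hu, y, hy, rfl⟩ := Submodule.mem_sup.mp hw
        obtain ⟨w0, hw0, rfl⟩ := hy
        rw [map_add]
        refine U.add_mem (pow_mem_of_stable hU m u hu) ?_
        have := h w0 hw0
        rwa [pow_succ, Module.End.mul_apply] at this
      have h2 := trOn_eq_of_pow_mem hU m (U ⊔ W.map θ) le_sup_left hW' h3
      rw [← h1, h2]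

/-- `W` is a trace-witness for `θ`: finite-dimensional, `θ`-stable, containing `range (θ ^ m)`. -/
structure IsWitness (θ : End K V) (W : Submodule K V) : Prop where
  fin : FiniteDimensional K W
  stable : ∀ w ∈ W, θ w ∈ W
  absorbs : ∃ m : ℕ, ∀ x, (θ ^ m) x ∈ W

/-- `θ` is finite-potent. -/
def IsFinitePotent (θ : End K V) : Prop := ∃ W, IsWitness θ W

/-- Tate's trace of a finite-potent endomorphism (`0` if `θ` is not finite-potent). -/
noncomputable def ftrace (θ : End K V) : K :=
  open Classical in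
  if h : IsFinitePotent θ then trOn θ h.choose else 0

theorem IsWitness.inf {θ : End K V} {W W' : Submodule K V} (h : IsWitness θ W)
    (h' : IsWitness θ W') : IsWitness θ (W ⊓ W') where
  fin := by
    have := h.fin
    exact Submodule.finiteDimensional_of_le inf_le_left
  stable := fun w hw => ⟨h.stable w hw.1, h'.stable w hw.2⟩
  absorbs := by
    obtain ⟨m, hm⟩ := h.absorbs
    obtain ⟨m', hm'⟩ := h'.absorbs
    refine ⟨m + m', fun x => ⟨?_, ?_⟩⟩
    · rw [pow_add, Module.End.mul_apply]; exact hm _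
    · rw [add_comm, pow_add, Module.End.mul_apply]; exact hm' _

theorem IsWitness.trOn_eq_of_le {θ : End K V} {U W : Submodule K V} (hU : IsWitness θ U)
    (hW : IsWitness θ W) (hUW : U ≤ W) : trOn θ W = trOn θ U := by
  have := hW.fin
  obtain ⟨m, hm⟩ := hU.absorbs
  exact trOn_eq_of_pow_mem hU.stable m W hUW hW.stable (fun w _ => hm w)

theorem IsWitness.trOn_congr {θ : End K V} {W W' : Submodule K V} (h : IsWitness θ W)
    (h' : IsWitness θ W') : trOn θ W = trOn θ W' := by
  rw [(h.inf h').trOn_eq_of_le h inf_le_left, (h.inf h').trOn_eq_of_le h' inf_le_right]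

/-- **Key characterisation**: `ftrace θ` is the trace of `θ` on any witness. -/
theorem IsWitness.ftrace_eq {θ : End K V} {W : Submodule K V} (h : IsWitness θ W) :
    ftrace θ = trOn θ W := by
  have hfp : IsFinitePotent θ := ⟨W, h⟩
  unfold ftrace
  rw [dif_pos hfp]
  exact hfp.choose_spec.trOn_congr h

theorem IsWitness.ftrace_eq_trace {θ : End K V} {W : Submodule K V} (h : IsWitness θ W) :
    ftrace θ = LinearMap.trace K W (θ.restrict h.stable) := by
  rw [h.ftrace_eq, trOn_eq θ W h.stable]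

theorem isWitness_bot_of_pow_eq_zero {θ : End K V} {m : ℕ} (h : θ ^ m = 0) :
    IsWitness θ ⊥ where
  fin := inferInstance
  stable := fun w hw => by
    rw [Submodule.mem_bot] at hw ⊢
    rw [hw, map_zero]
  absorbs := ⟨m, fun x => by rw [h]; simp⟩

/-- (T3) a nilpotent endomorphism has trace `0`. -/
theorem ftrace_eq_zero_of_pow_eq_zero {θ : End K V} {m : ℕ} (h : θ ^ m = 0) : ftrace θ = 0 := by
  rw [(isWitness_bot_of_pow_eq_zero h).ftrace_eq_trace]
  have : (θ.restrict (isWitness_bot_of_pow_eq_zero h).stable) = 0 :=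
    Subsingleton.elim _ _
  rw [this, map_zero]

@[simp]
theorem ftrace_zero : ftrace (0 : End K V) = 0 :=
  ftrace_eq_zero_of_pow_eq_zero (m := 1) (by simp)

theorem isFinitePotent_zero : IsFinitePotent (0 : End K V) :=
  ⟨⊥, isWitness_bot_of_pow_eq_zero (m := 1) (by simp)⟩

/-- (T4) additivity, given a common witness. -/
theorem ftrace_add_of_witness {θ θ' : End K V} {W : Submodule K V} (h : IsWitness θ W)
    (h' : IsWitness θ' W) (h'' : IsWitness (θ + θ') W) :
    ftrace (θ + θ') = ftrace θ + ftrace θ' := by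
  rw [h.ftrace_eq_trace, h'.ftrace_eq_trace, h''.ftrace_eq_trace, ← map_add]
  congr 1

theorem IsWitness.smul {θ : End K V} {W : Submodule K V} (h : IsWitness θ W) (c : K) :
    IsWitness (c • θ) W where
  fin := h.fin
  stable := fun w hw => by
    rw [LinearMap.smul_apply]; exact W.smul_mem c (h.stable w hw)
  absorbs := by
    obtain ⟨m, hm⟩ := h.absorbs
    refine ⟨m, fun x => ?_⟩
    rw [smul_pow, LinearMap.smul_apply]
    exact W.smul_mem _ (hm x)

theorem IsFinitePotent.smul {θ : End K V} (h : IsFinitePotent θ) (c : K) :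
    IsFinitePotent (c • θ) := by
  obtain ⟨W, hW⟩ := h
  exact ⟨W, hW.smul c⟩

theorem ftrace_smul_of_isFinitePotent {θ : End K V} (h : IsFinitePotent θ) (c : K) :
    ftrace (c • θ) = c * ftrace θ := by
  obtain ⟨W, hW⟩ := h
  rw [hW.ftrace_eq_trace, (hW.smul c).ftrace_eq_trace, ← smul_eq_mul, ← map_smul]
  congr 1

theorem IsWitness.neg {θ : End K V} {W : Submodule K V} (h : IsWitness θ W) :
    IsWitness (-θ) W := by
  have := h.smul (-1 : K)
  rwa [neg_one_smul] at this

theorem ftrace_neg_of_isFinitePotent {θ : End K V} (h : IsFinitePotent θ) :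
    ftrace (-θ) = - ftrace θ := by
  have := ftrace_smul_of_isFinitePotent h (-1 : K)
  rwa [neg_one_smul, neg_one_mul] at this

/-- An endomorphism whose square has finite-dimensional range is finite-potent, with witness
any finite-dimensional stable subspace containing `range (θ * θ)`. -/
theorem isWitness_of_sq {θ : End K V} {W : Submodule K V} [FiniteDimensional K W]
    (hst : ∀ w ∈ W, θ w ∈ W) (h : ∀ x, θ (θ x) ∈ W) : IsWitness θ W where
  fin := inferInstance
  stable := hst
  absorbs := ⟨2, fun x => by rw [pow_two, Module.End.mul_apply]; exact h x⟩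

theorem isFinitePotent_of_finiteDimensional_range_sq {θ : End K V}
    (h : FiniteDimensional K (LinearMap.range (θ * θ))) : IsFinitePotent θ := by
  refine ⟨LinearMap.range (θ * θ), ?_⟩
  have := h
  refine isWitness_of_sq ?_ (fun x => ⟨x, rfl⟩)
  rintro _ ⟨x, rfl⟩
  exact ⟨θ x, by simp [Module.End.mul_apply]⟩

/-- (T4) additivity for two endomorphisms all of whose pairwise products have finite rank. -/
theorem ftrace_add {θ θ' : End K V}
    (h11 : FiniteDimensional K (LinearMap.range (θ * θ)))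
    (h12 : FiniteDimensional K (LinearMap.range (θ * θ')))
    (h21 : FiniteDimensional K (LinearMap.range (θ' * θ)))
    (h22 : FiniteDimensional K (LinearMap.range (θ' * θ'))) :
    ftrace (θ + θ') = ftrace θ + ftrace θ' := by
  set W : Submodule K V := LinearMap.range (θ * θ) ⊔ LinearMap.range (θ * θ') ⊔
    LinearMap.range (θ' * θ) ⊔ LinearMap.range (θ' * θ') with hW
  have : FiniteDimensional K W := by
    rw [hW]
    infer_instance
  have m11 : ∀ x, θ (θ x) ∈ W := fun x =>
    Submodule.mem_sup_left (Submodule.mem_sup_left (Submodule.mem_sup_left ⟨x, rfl⟩))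
  have m12 : ∀ x, θ (θ' x) ∈ W := fun x =>
    Submodule.mem_sup_left (Submodule.mem_sup_left (Submodule.mem_sup_right ⟨x, rfl⟩))
  have m21 : ∀ x, θ' (θ x) ∈ W := fun x =>
    Submodule.mem_sup_left (Submodule.mem_sup_right ⟨x, rfl⟩)
  have m22 : ∀ x, θ' (θ' x) ∈ W := fun x => Submodule.mem_sup_right ⟨x, rfl⟩
  -- every element of `W` is a sum of four elements in the ranges
  have hsub : ∀ w ∈ W, ∃ a b c d, w = θ (θ a) + θ (θ' b) + θ' (θ c) + θ' (θ' d) := by
    intro w hw
    rw [hW] at hw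
    obtain ⟨x, hx, _, ⟨d, rfl⟩, rfl⟩ := Submodule.mem_sup.mp hw
    obtain ⟨y, hy, _, ⟨c, rfl⟩, rfl⟩ := Submodule.mem_sup.mp hx
    obtain ⟨_, ⟨a, rfl⟩, _, ⟨b, rfl⟩, rfl⟩ := Submodule.mem_sup.mp hy
    exact ⟨a, b, c, d, rfl⟩
  have st : ∀ w ∈ W, θ w ∈ W := by
    intro w hw
    obtain ⟨a, b, c, d, rfl⟩ := hsub w hw
    simp only [map_add]
    exact W.add_mem (W.add_mem (W.add_mem (m11 _) (m11 _)) (m12 _)) (m12 _)
  have st' : ∀ w ∈ W, θ' w ∈ W := by
    intro w hw
    obtain ⟨a, b, c, d, rfl⟩ := hsub w hw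
    simp only [map_add]
    exact W.add_mem (W.add_mem (W.add_mem (m21 _) (m21 _)) (m22 _)) (m22 _)
  have w1 : IsWitness θ W := isWitness_of_sq st m11
  have w2 : IsWitness θ' W := isWitness_of_sq st' m22
  have w3 : IsWitness (θ + θ') W := by
    refine isWitness_of_sq (fun w hw => ?_) (fun x => ?_)
    · rw [LinearMap.add_apply]; exact W.add_mem (st w hw) (st' w hw)
    · have e : (θ + θ') ((θ + θ') x) = θ (θ x) + θ (θ' x) + (θ' (θ x) + θ' (θ' x)) := by
        simp only [LinearMap.add_apply, map_add]; abel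
      rw [e]
      exact W.add_mem (W.add_mem (m11 _) (m12 _)) (W.add_mem (m21 _) (m22 _))
  exact ftrace_add_of_witness w1 w2 w3

/-- (T5) `Tr (φ ψ) = Tr (ψ φ)`. -/
theorem ftrace_comp_comm {V' : Type*} [AddCommGroup V'] [Module K V']
    (φ : V' →ₗ[K] V) (ψ : V →ₗ[K] V') (h : IsFinitePotent (φ ∘ₗ ψ)) :
    IsFinitePotent (ψ ∘ₗ φ) ∧ ftrace (ψ ∘ₗ φ) = ftrace (φ ∘ₗ ψ) := by
  obtain ⟨W, hW⟩ := h
  have := hW.fin
  have hpow : ∀ (m : ℕ) (x : V'), ((ψ ∘ₗ φ) ^ (m + 1)) x = ψ (((φ ∘ₗ ψ) ^ m) (φ x)) := by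
    intro m
    induction m with
    | zero => intro x; simp
    | succ m ih =>
      intro x
      rw [pow_succ, Module.End.mul_apply, ih, pow_succ (φ ∘ₗ ψ), Module.End.mul_apply]
      simp
  have hW' : IsWitness (ψ ∘ₗ φ) (W.map ψ) := by
    refine ⟨inferInstance, ?_, ?_⟩
    · rintro _ ⟨w, hw, rfl⟩
      exact ⟨φ (ψ w), hW.stable w hw, rfl⟩
    · obtain ⟨m, hm⟩ := hW.absorbs
      refine ⟨m + 1, fun x => ?_⟩
      rw [hpow]
      exact ⟨_, hm _, rfl⟩
  refine ⟨⟨_, hW'⟩, ?_⟩
  rw [hW.ftrace_eq_trace, hW'.ftrace_eq_trace]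
  have := hW'.fin
  let ψ' : W →ₗ[K] W.map ψ := ψ.restrict (fun w hw => Submodule.mem_map_of_mem hw)
  let φ' : W.map ψ →ₗ[K] W := φ.restrict (by
    rintro _ ⟨w, hw, rfl⟩
    exact hW.stable w hw)
  have e1 : (φ ∘ₗ ψ).restrict hW.stable = φ' ∘ₗ ψ' := by
    ext x; rfl
  have e2 : (ψ ∘ₗ φ).restrict hW'.stable = ψ' ∘ₗ φ' := by
    ext x; rfl
  rw [e1, e2]
  exact LinearMap.trace_comp_comm' φ' ψ'

end Fermat.Agent.S20.TateTrace
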