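/-
S20, piece L.transc: a point of the upper half plane whose `j`-value is transcendental over the
constant field induces NO place of the function field: the expansion embedding has order `0` on
every nonzero element.  Generic statement for `σ : F →ₐ[K] ℂ((u))`.
-/
import Mathlib
import Fermat.Agent.S24.PlaceOfEmb

set_option autoImplicit false

noncomputable section

namespace Fermat.Agent.S20.TrivialOrder

open Polynomial IntermediateField Fermat.Agent.S24

variable {K F : Type*} [Field K] [Field F] [Algebra K F] [Algebra K ℂ]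

/-- If the valuation ring of `σ` contains a subfield `E` over which `F` is algebraic, it is all of
`F` (valuation rings are integrally closed). -/
theorem order_nonneg_of_isAlgebraic (σ : F →ₐ[K] LaurentSeries ℂ)
    (E : IntermediateField K F) [Algebra.IsAlgebraic E F]
    (hE : ∀ y : E, 0 ≤ (σ (y : F)).order) (f : F) : 0 ≤ (σ f).order := by
  have hint : IsIntegral E f := (Algebra.IsAlgebraic.isAlgebraic (R := E) f).isIntegral
  let O := embValuationSubring σ
  let φ : E →+* O := (algebraMap E F).codRestrict O.toSubring (fun y => hE y)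
  have hcomp : (O.subtype).comp φ = algebraMap E F := by
    ext y; rfl
  have h1 : ((O.subtype).comp φ).IsIntegralElem f := by
    rw [hcomp]; exact hint
  have h2 : (O.subtype).IsIntegralElem f := RingHom.IsIntegralElem.of_comp h1
  have h3 : IsIntegral O f := h2
  obtain ⟨y, hy⟩ := IsIntegrallyClosed.isIntegral_iff.mp h3
  rw [← hy]
  exact y.2

/-- Same conclusion, in the form "every nonzero element has order exactly `0`". -/
theorem order_eq_zero_of_isAlgebraic (σ : F →ₐ[K] LaurentSeries ℂ)
    (E : IntermediateField K F) [Algebra.IsAlgebraic E F]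
    (hE : ∀ y : E, 0 ≤ (σ (y : F)).order) (f : F) : (σ f).order = 0 := by
  have h1 := order_nonneg_of_isAlgebraic σ E hE f
  have h2 := order_nonneg_of_isAlgebraic σ E hE f⁻¹
  rw [order_emb_inv] at h2
  omega

/-- **Main lemma (polynomial form).** If `F` is algebraic over `K(x)` and `σ` has order `0` on
every nonzero polynomial in `x`, then `σ` has order `0` on all of `F`: the valuation induced by
`σ` is trivial, so `σ` induces no place. -/
theorem order_eq_zero_of_forall_aeval (σ : F →ₐ[K] LaurentSeries ℂ) (x : F)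
    [Algebra.IsAlgebraic K⟮x⟯ F]
    (h : ∀ p : K[X], (σ (aeval x p)).order = 0) (f : F) : (σ f).order = 0 := by
  refine order_eq_zero_of_isAlgebraic σ K⟮x⟯ ?_ f
  rintro ⟨y, hy⟩
  obtain ⟨r, s, rfl⟩ := (mem_adjoin_simple_iff K y).mp hy
  show 0 ≤ (σ (aeval x r / aeval x s)).order
  rw [div_eq_mul_inv]
  rcases eq_or_ne (aeval x r) 0 with h0 | h0
  · rw [h0, zero_mul, map_zero, HahnSeries.order_zero]
  rcases eq_or_ne (aeval x s) 0 with h1 | h1
  · rw [h1, inv_zero, mul_zero, map_zero, HahnSeries.order_zero]
  rw [order_emb_mul σ h0 (inv_ne_zero h1), order_emb_inv, h r, h s]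
  simp

/-- No element of `F` has nonzero order: the hypothesis of `placeOfEmb` fails. -/
theorem not_exists_order_ne_zero (σ : F →ₐ[K] LaurentSeries ℂ) (x : F)
    [Algebra.IsAlgebraic K⟮x⟯ F]
    (h : ∀ p : K[X], (σ (aeval x p)).order = 0) :
    ¬ ∃ y : F, y ≠ 0 ∧ (σ y).order ≠ 0 := by
  rintro ⟨y, -, hy⟩
  exact hy (order_eq_zero_of_forall_aeval σ x h y)

/-! ### The constant coefficient on series of nonnegative order -/

/-- The power series with the same nonnegative coefficients. -/
def toPS (s : LaurentSeries ℂ) : PowerSeries ℂ := PowerSeries.mk fun n => s.coeff n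

theorem coe_toPS {s : LaurentSeries ℂ} (hs : 0 ≤ s.order) :
    ((toPS s : PowerSeries ℂ) : LaurentSeries ℂ) = s := by
  ext n
  rw [PowerSeries.coeff_coe]
  split_ifs with hn
  · exact (HahnSeries.coeff_eq_zero_of_lt_order (lt_of_lt_of_le hn hs)).symm
  · rw [toPS, PowerSeries.coeff_mk]
    congr 1
    omega

theorem coeff_zero_coe (a : PowerSeries ℂ) :
    ((a : PowerSeries ℂ) : LaurentSeries ℂ).coeff 0 = PowerSeries.constantCoeff a := by
  rw [PowerSeries.coeff_coe]
  simp

theorem order_coe_nonneg (a : PowerSeries ℂ) :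
    0 ≤ ((a : PowerSeries ℂ) : LaurentSeries ℂ).order := by
  by_contra hlt
  rw [not_le] at hlt
  rcases eq_or_ne ((a : PowerSeries ℂ) : LaurentSeries ℂ) 0 with h0 | h0
  · rw [h0, HahnSeries.order_zero] at hlt; exact lt_irrefl _ hlt
  have := (not_congr HahnSeries.coeff_order_eq_zero).mpr h0
  rw [PowerSeries.coeff_coe, if_pos hlt] at this
  exact this rfl

/-- On series of nonnegative order the constant coefficient is multiplicative. -/
theorem coeff_zero_mul {s t : LaurentSeries ℂ} (hs : 0 ≤ s.order) (ht : 0 ≤ t.order) :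
    (s * t).coeff 0 = s.coeff 0 * t.coeff 0 := by
  conv_lhs => rw [← coe_toPS hs, ← coe_toPS ht, ← PowerSeries.coe_mul, coeff_zero_coe, map_mul]
  conv_rhs => rw [← coe_toPS hs, ← coe_toPS ht, coeff_zero_coe, coeff_zero_coe]

theorem order_mul_nonneg {s t : LaurentSeries ℂ} (hs : 0 ≤ s.order) (ht : 0 ≤ t.order) :
    0 ≤ (s * t).order := by
  rw [← coe_toPS hs, ← coe_toPS ht, ← PowerSeries.coe_mul]
  exact order_coe_nonneg _

theorem order_add_nonneg {s t : LaurentSeries ℂ} (hs : 0 ≤ s.order) (ht : 0 ≤ t.order) :
    0 ≤ (s + t).order := by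
  rw [← coe_toPS hs, ← coe_toPS ht, ← PowerSeries.coe_add]
  exact order_coe_nonneg _

/-- If `σ x` is a power series with constant coefficient `t`, then `σ (p(x))` is a power series
with constant coefficient `p(t)`. -/
theorem order_nonneg_and_coeff_zero_aeval (σ : F →ₐ[K] LaurentSeries ℂ) (x : F)
    (hx : 0 ≤ (σ x).order) (p : K[X]) :
    0 ≤ (σ (aeval x p)).order ∧ (σ (aeval x p)).coeff 0 = aeval ((σ x).coeff 0) p := by
  induction p using Polynomial.induction_on with
  | C a =>
    rw [aeval_C, aeval_C, AlgHom.commutes, algebraMap_laurentSeries_eq_C]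
    refine ⟨by rw [HahnSeries.order_C], ?_⟩
    simp [HahnSeries.C_apply]
  | add p q hp hq =>
    rw [map_add, map_add, map_add, HahnSeries.coeff_add, hp.2, hq.2]
    exact ⟨order_add_nonneg hp.1 hq.1, rfl⟩
  | monomial n a ih =>
    have e : (C a * X ^ (n + 1) : K[X]) = C a * X ^ n * X := by rw [pow_succ, mul_assoc]
    rw [e, map_mul, map_mul, map_mul (aeval ((σ x).coeff 0)), aeval_X, aeval_X,
      coeff_zero_mul ih.1 hx, ih.2]
    exact ⟨order_mul_nonneg ih.1 hx, rfl⟩

/-- **Main lemma (transcendental constant term).** If `F` is algebraic over `K(x)`, `σ x` is a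
power series and its constant coefficient is transcendental over `K`, then `σ` has order `0` on
all of `F`. -/
theorem order_eq_zero_of_transcendental (σ : F →ₐ[K] LaurentSeries ℂ) (x : F)
    [Algebra.IsAlgebraic K⟮x⟯ F] (hx : 0 ≤ (σ x).order)
    (ht : Transcendental K ((σ x).coeff 0)) (f : F) : (σ f).order = 0 := by
  refine order_eq_zero_of_forall_aeval σ x (fun p => ?_) f
  rcases eq_or_ne p 0 with rfl | hp
  · simp
  obtain ⟨h1, h2⟩ := order_nonneg_and_coeff_zero_aeval σ x hx p
  have h3 : (σ (aeval x p)).coeff 0 ≠ 0 := by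
    rw [h2]
    exact fun h0 => hp (transcendental_iff.mp ht p h0)
  have h4 : (σ (aeval x p)).order ≤ 0 := HahnSeries.order_le_of_coeff_ne_zero h3
  omega

/-- Under the same hypotheses every nonzero `f` is a power series with nonzero constant term:
`σ f` has neither a zero nor a pole. -/
theorem coeff_zero_ne_zero_of_transcendental (σ : F →ₐ[K] LaurentSeries ℂ) (x : F)
    [Algebra.IsAlgebraic K⟮x⟯ F] (hx : 0 ≤ (σ x).order)
    (ht : Transcendental K ((σ x).coeff 0)) {f : F} (hf : f ≠ 0) : (σ f).coeff 0 ≠ 0 := by
  have h0 := order_eq_zero_of_transcendental σ x hx ht f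
  have := (not_congr HahnSeries.coeff_order_eq_zero).mpr (emb_ne_zero σ hf)
  rwa [h0] at this

/-- Over an algebraically closed constant field: a complex number that is not (the image of) a
constant is transcendental over the constants. -/
theorem transcendental_of_not_mem_range [IsAlgClosed K] {t : ℂ}
    (ht : ∀ a : K, algebraMap K ℂ a ≠ t) : Transcendental K t := by
  intro halg
  have hint : IsIntegral K t := halg.isIntegral
  have hirr := minpoly.irreducible hint
  have hdeg := IsAlgClosed.degree_eq_one_of_irreducible K hirr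
  obtain ⟨a, ha⟩ := minpoly.mem_range_of_degree_eq_one K t hdeg
  exact ht a ha

end Fermat.Agent.S20.TrivialOrder
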